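import Mathlib
import Fermat.Agent.GR.Deform.PowerSeriesComplete

/-!
# Restriction to an annulus

A power series in pairs `(x, a)` which vanishes under `x ↦ p₁ (1+u)`, `a ↦ p₂ B / (1+u)` has all
its `x`-free coefficients divisible by the uniformiser.
-/

set_option autoImplicit false

noncomputable section

namespace Fermat.GR.Patch

variable {D : Type} [CommRing D] [IsDomain D] {Q : Type} [Fintype Q]

omit [IsDomain D] in
omit [Fintype Q] in
/-- A polynomial whose translate has all power series coefficients divisible is divisible. -/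
theorem dvd_coeff_of_translate (t : D) (R : MvPolynomial Q D)
    (h : MvPowerSeries.C t ∣ (MvPolynomial.aeval
      (fun q => (1 : MvPowerSeries Q D) + MvPowerSeries.X q) R)) (e : Q →₀ ℕ) :
    t ∣ R.coeff e := by
  let T : MvPolynomial Q D →ₐ[D] MvPolynomial Q D := MvPolynomial.aeval fun q =>
    1 + MvPolynomial.X q
  let T' : MvPolynomial Q D →ₐ[D] MvPolynomial Q D := MvPolynomial.aeval fun q =>
    MvPolynomial.X q - 1
  have hTT : T'.comp T = AlgHom.id D _ := MvPolynomial.algHom_ext fun q => by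
    change T' (T (MvPolynomial.X q)) = MvPolynomial.X q
    simp [T, T']
  have hcoe : ((T R : MvPolynomial Q D) : MvPowerSeries Q D) =
      MvPolynomial.aeval (fun q => (1 : MvPowerSeries Q D) + MvPowerSeries.X q) R := by
    have : (MvPolynomial.coeToMvPowerSeries.algHom D).comp T =
        MvPolynomial.aeval (fun q => (1 : MvPowerSeries Q D) + MvPowerSeries.X q) :=
      MvPolynomial.algHom_ext fun q => by
        simp [T, MvPolynomial.coeToMvPowerSeries.algHom_apply]
    have h' := DFunLike.congr_fun this R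
    simpa [MvPolynomial.coeToMvPowerSeries.algHom_apply] using h'
  have h1 : MvPolynomial.C t ∣ T R := by
    rw [MvPolynomial.C_dvd_iff_dvd_coeff]
    intro d
    obtain ⟨G, hG⟩ := h
    rw [← MvPolynomial.coeff_coe, hcoe, hG, MvPowerSeries.coeff_C_mul]
    exact dvd_mul_right _ _
  have h2 := map_dvd T' h1
  rw [show T' (T R) = R from DFunLike.congr_fun hTT R,
    show T' (MvPolynomial.C t) = MvPolynomial.C t from MvPolynomial.aeval_C ..,
    MvPolynomial.C_dvd_iff_dvd_coeff] at h2
  exact h2 e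

variable [IsLocalRing D]

omit [IsDomain D] [IsLocalRing D] in
/-- A map with images of the variables divisible by `ϖ` takes truncations of a series in its kernel
to multiples of a power of `ϖ`. -/
private theorem C_pow_dvd_apply_truncTotal {ϖ : D}
    (η : MvPowerSeries (Q × Bool) D →ₐ[D] MvPowerSeries Q D)
    (hsmall : ∀ i, MvPowerSeries.C ϖ ∣ η (MvPowerSeries.X i)) {F : MvPowerSeries (Q × Bool) D}
    (hF : η F = 0) (n : ℕ) :
    MvPowerSeries.C (ϖ ^ n) ∣
      η ((MvPowerSeries.truncTotal n F : MvPolynomial (Q × Bool) D) : MvPowerSeries _ D) := by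
  have hle : (Ideal.span (Set.range (MvPowerSeries.X : Q × Bool → MvPowerSeries (Q × Bool) D))).map
      η.toRingHom ≤ Ideal.span {MvPowerSeries.C ϖ} := by
    rw [Ideal.map_span, Ideal.span_le]
    rintro _ ⟨_, ⟨i, rfl⟩, rfl⟩
    exact Ideal.mem_span_singleton.mpr (hsmall i)
  have h1 := Ideal.pow_right_mono hle n
    (Ideal.map_pow η.toRingHom _ n ▸ Ideal.mem_map_of_mem η.toRingHom (sub_truncTotal_mem n F))
  rw [Ideal.span_singleton_pow, Ideal.mem_span_singleton] at h1
  have h2 : η.toRingHom (F - (MvPowerSeries.truncTotal n F : MvPolynomial (Q × Bool) D)) =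
      -η ((MvPowerSeries.truncTotal n F : MvPolynomial (Q × Bool) D) : MvPowerSeries _ D) := by
    change η (F - _) = _
    rw [map_sub, hF, zero_sub]
  rw [h2, dvd_neg, ← map_pow] at h1
  exact h1

/-- The exponent of a monomial after clearing the denominators `(1 + u) ^ n`. -/
private def clearExp (n : ℕ) (e' : Q × Bool →₀ ℕ) : Q →₀ ℕ :=
  Finsupp.equivFunOnFinite.symm fun q => e' (q, false) + n - e' (q, true)

/-- The scalar of a monomial on the annulus. -/
private def clearWeight (p₁ p₂ B : Q → D) (e' : Q × Bool →₀ ℕ) : D :=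
  ∏ q, (p₁ q ^ e' (q, false) * (p₂ q * B q) ^ e' (q, true))

omit [IsDomain D] [IsLocalRing D] in
/-- The image of a polynomial with cleared denominators. -/
private theorem aeval_clear_eq (p₁ p₂ B : Q → D)
    (η : MvPowerSeries (Q × Bool) D →ₐ[D] MvPowerSeries Q D)
    (hx : ∀ q, η (MvPowerSeries.X (q, false)) = MvPowerSeries.C (p₁ q) * (1 + MvPowerSeries.X q))
    (ha : ∀ q, η (MvPowerSeries.X (q, true)) * (1 + MvPowerSeries.X q) =
      MvPowerSeries.C (p₂ q * B q))
    (P : MvPolynomial (Q × Bool) D) {n : ℕ} (hle : ∀ e' ∈ P.support, ∀ q, e' (q, true) ≤ n) :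
    MvPolynomial.aeval (fun q => (1 : MvPowerSeries Q D) + MvPowerSeries.X q)
        (∑ e' ∈ P.support,
          MvPolynomial.monomial (clearExp n e') (P.coeff e' * clearWeight p₁ p₂ B e')) =
      η (P : MvPowerSeries (Q × Bool) D) * ∏ q, (1 + MvPowerSeries.X q) ^ n := by
  -- on polynomials `η` is an evaluation
  have hP : η (P : MvPowerSeries (Q × Bool) D) =
      MvPolynomial.aeval (fun i => η (MvPowerSeries.X i)) P := by
    have : η.comp (MvPolynomial.coeToMvPowerSeries.algHom D) =
        MvPolynomial.aeval (fun i => η (MvPowerSeries.X i)) :=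
      MvPolynomial.algHom_ext fun i => by simp [MvPolynomial.coeToMvPowerSeries.algHom_apply]
    have h' := DFunLike.congr_fun this P
    simpa [MvPolynomial.coeToMvPowerSeries.algHom_apply] using h'
  rw [hP, map_sum]
  conv_rhs => rw [P.as_sum, map_sum, Finset.sum_mul]
  -- compare monomial by monomial, variable by variable
  refine Finset.sum_congr rfl fun e' he' => ?_
  rw [MvPolynomial.aeval_monomial, MvPolynomial.aeval_monomial, map_mul, mul_assoc, mul_assoc]
  congr 1
  rw [Finsupp.prod_fintype _ _ (fun _ => pow_zero _),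
    Finsupp.prod_fintype _ _ (fun _ => pow_zero _), Fintype.prod_prod_type, clearWeight, map_prod,
    ← Finset.prod_mul_distrib,
    ← Finset.prod_mul_distrib]
  refine Finset.prod_congr rfl fun q _ => ?_
  simp only [Fintype.prod_bool, clearExp, Finsupp.equivFunOnFinite_symm_apply_apply]
  set U : MvPowerSeries Q D := 1 + MvPowerSeries.X q
  set Y := η (MvPowerSeries.X (q, true))
  rw [hx q, MvPowerSeries.algebraMap_apply, Algebra.algebraMap_self, RingHom.id_apply]
  rw [map_mul, map_pow, map_pow, ← ha q]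
  change _ = Y ^ e' (q, true) * (MvPowerSeries.C (p₁ q) * U) ^ e' (q, false) * U ^ n
  -- the factor `U ^ n` clears the negative exponent
  obtain ⟨k, hk⟩ := Nat.exists_eq_add_of_le (hle e' he' q)
  rw [show e' (q, false) + n - e' (q, true) = e' (q, false) + k by omega, hk, mul_pow, mul_pow,
    pow_add, pow_add]
  ring

omit [IsDomain D] [IsLocalRing D] in
/-- Monomials cleared to the exponent of an `x`-free one have more divisible scalars. -/
private theorem dvd_clearWeight {ϖ : D} {p₁ : Q → D} (hp₁ : ∀ q, ϖ ∣ p₁ q) (p₂ B : Q → D) {n : ℕ}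
    {e e' : Q × Bool →₀ ℕ} (he : ∀ q, e (q, false) = 0) (hen : ∀ q, e (q, true) ≤ n)
    (he'n : ∀ q, e' (q, true) ≤ n) (hφ : clearExp n e' = clearExp n e) (hne : e' ≠ e) :
    ϖ * ∏ q, (p₂ q * B q) ^ e (q, true) ∣ clearWeight p₁ p₂ B e' := by
  have hq : ∀ q, e' (q, true) = e' (q, false) + e (q, true) := by
    intro q
    have h1 : e' (q, false) + n - e' (q, true) = e (q, false) + n - e (q, true) := by
      simpa [clearExp] using congrFun (congrArg DFunLike.coe hφ) q
    rw [he q, zero_add] at h1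
    have h2 := he'n q
    have h3 := hen q
    omega
  obtain ⟨q0, hq0⟩ : ∃ q, e' (q, false) ≠ 0 := by
    by_contra h
    push Not at h
    refine hne (Finsupp.ext ?_)
    rintro ⟨q, _ | _⟩
    · rw [h q, he q]
    · rw [hq q, h q, zero_add]
  have hW : clearWeight p₁ p₂ B e' = (∏ q, (p₁ q * (p₂ q * B q)) ^ e' (q, false)) *
      ∏ q, (p₂ q * B q) ^ e (q, true) := by
    simp only [clearWeight, ← Finset.prod_mul_distrib]
    exact Finset.prod_congr rfl fun q _ => by rw [hq q, pow_add, mul_pow]; ring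
  rw [hW]
  refine mul_dvd_mul ?_ dvd_rfl
  exact (dvd_pow (dvd_mul_of_dvd_left (hp₁ q0) _) hq0).trans
    (Finset.dvd_prod_of_mem _ (Finset.mem_univ q0))

omit [IsDomain D] [IsLocalRing D] in
/-- The cleared coefficient at an `x`-free exponent is the coefficient up to a multiple of `ϖ`. -/
private theorem exists_coeff_clear_eq {ϖ : D} {p₁ : Q → D} (hp₁ : ∀ q, ϖ ∣ p₁ q) (p₂ B : Q → D)
    {n : ℕ} (P : MvPolynomial (Q × Bool) D) (hle : ∀ e' ∈ P.support, ∀ q, e' (q, true) ≤ n)
    {e : Q × Bool →₀ ℕ} (he : ∀ q, e (q, false) = 0) (hen : ∀ q, e (q, true) ≤ n) :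
    ∃ r, (∑ e' ∈ P.support, MvPolynomial.monomial (clearExp n e')
        (P.coeff e' * clearWeight p₁ p₂ B e')).coeff (clearExp n e) =
      (∏ q, (p₂ q * B q) ^ e (q, true)) * (P.coeff e + ϖ * r) := by
  classical
  have hW0 : clearWeight p₁ p₂ B e = ∏ q, (p₂ q * B q) ^ e (q, true) := by
    simp [clearWeight, he]
  simp only [MvPolynomial.coeff_sum, MvPolynomial.coeff_monomial]
  rw [← Finset.sum_filter]
  set s := P.support.filter fun e' => clearExp n e' = clearExp n e
  obtain ⟨r, hr⟩ : ϖ * ∏ q, (p₂ q * B q) ^ e (q, true) ∣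
      ∑ e' ∈ s.erase e, P.coeff e' * clearWeight p₁ p₂ B e' := Finset.dvd_sum fun e' he' => by
    obtain ⟨hne, he''⟩ := Finset.mem_erase.mp he'
    obtain ⟨hs, hφ⟩ := Finset.mem_filter.mp he''
    exact dvd_mul_of_dvd_right (dvd_clearWeight hp₁ p₂ B he hen (hle e' hs) hφ hne) _
  refine ⟨r, ?_⟩
  by_cases hmem : e ∈ P.support
  · rw [← Finset.add_sum_erase s _ (Finset.mem_filter.mpr ⟨hmem, rfl⟩), hr, hW0]
    ring
  · rw [← Finset.erase_eq_of_notMem (s := s) (a := e) (fun h => hmem (Finset.mem_filter.mp h).1),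
      hr, MvPolynomial.notMem_support_iff.mp hmem]
    ring

omit [IsLocalRing D] in
/-- A series killed by the substitution onto the annulus has its coefficients at monomials free of
the first coordinates divisible by `ϖ`. -/
theorem dvd_coeff_of_annulus_eq_zero {ϖ : D} (hprime : Prime ϖ) (p₁ p₂ B : Q → D)
    (hp₁ : ∀ q, ϖ ∣ p₁ q) (hp₂ : ∀ q, ∃ (v : ℕ) (w : D), 0 < v ∧ p₂ q = ϖ ^ v * w ∧ ¬ ϖ ∣ w)
    (hB : ∀ q, ¬ ϖ ∣ B q) (η : MvPowerSeries (Q × Bool) D →ₐ[D] MvPowerSeries Q D)
    (hx : ∀ q, η (MvPowerSeries.X (q, false)) = MvPowerSeries.C (p₁ q) * (1 + MvPowerSeries.X q))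
    (ha : ∀ q, η (MvPowerSeries.X (q, true)) * (1 + MvPowerSeries.X q) =
      MvPowerSeries.C (p₂ q * B q))
    {F : MvPowerSeries (Q × Bool) D} (hF : η F = 0) (e : Q × Bool →₀ ℕ)
    (he : ∀ q, e (q, false) = 0) : ϖ ∣ MvPowerSeries.coeff e F := by
  classical
  choose v w hv hp₂eq hw using hp₂
  set n : ℕ := (∑ q, (v q + 1) * e (q, true)) + 1 with hn
  -- images of the variables are divisible by `ϖ`
  have hsmall : ∀ i, MvPowerSeries.C ϖ ∣ η (MvPowerSeries.X i) := by
    rintro ⟨q, _ | _⟩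
    · rw [hx]
      exact dvd_mul_of_dvd_left (map_dvd _ (hp₁ q)) _
    · refine ((MvPowerSeries.isUnit_iff_constantCoeff.mpr (by simp) :
        IsUnit ((1 : MvPowerSeries Q D) + MvPowerSeries.X q)).dvd_mul_right).mp ?_
      rw [ha, hp₂eq q]
      exact map_dvd _ (dvd_mul_of_dvd_left (dvd_mul_of_dvd_left (dvd_pow_self _ (hv q).ne') _) _)
  set P : MvPolynomial (Q × Bool) D := MvPowerSeries.truncTotal n F
  have hdeg : ∀ e' ∈ P.support, e'.degree < n := fun e' he' => by
    by_contra h
    exact (MvPolynomial.mem_support_iff.mp he')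
      (MvPowerSeries.coeff_truncTotal_eq_zero _ (not_lt.mp h))
  have hle' : ∀ e' ∈ P.support, ∀ q, e' (q, true) ≤ n := fun e' he' q =>
    (Finsupp.le_degree (q, true) e').trans (hdeg e' he').le
  have hej : e.degree < n := by
    rw [Finsupp.degree_eq_sum, Fintype.sum_prod_type, hn]
    refine Nat.lt_succ_of_le (Finset.sum_le_sum fun q _ => ?_)
    simpa [he q] using Nat.le_mul_of_pos_left (e (q, true)) (Nat.succ_pos (v q))
  obtain ⟨r, hr⟩ := exists_coeff_clear_eq hp₁ p₂ B P hle' he fun q =>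
    (Finsupp.le_degree (q, true) e).trans hej.le
  have hcoef := dvd_coeff_of_translate (ϖ ^ n) _
    ((aeval_clear_eq p₁ p₂ B η hx ha P hle').symm ▸
      dvd_mul_of_dvd_left (C_pow_dvd_apply_truncTotal η hsmall hF n) _) (clearExp n e)
  -- evaluate that coefficient
  have hP₀ : ∏ q, (p₂ q * B q) ^ e (q, true) =
      ϖ ^ (∑ q, v q * e (q, true)) * ∏ q, (w q * B q) ^ e (q, true) := by
    rw [← Finset.prod_pow_eq_pow_sum, ← Finset.prod_mul_distrib]
    exact Finset.prod_congr rfl fun q _ => by rw [hp₂eq q, pow_mul, ← mul_pow]; ring_nf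
  rw [hr, hP₀, mul_assoc, MvPowerSeries.coeff_truncTotal _ hej] at hcoef
  have hlt : (∑ q, v q * e (q, true)) + 1 ≤ n := by
    rw [hn]
    exact Nat.add_le_add_right (Finset.sum_le_sum fun q _ =>
      Nat.mul_le_mul_right _ (Nat.le_succ _)) 1
  have h1 := (pow_dvd_pow ϖ hlt).trans hcoef
  rw [pow_succ] at h1
  have h2 : ϖ ∣ (∏ q, (w q * B q) ^ e (q, true)) * (MvPowerSeries.coeff e F + ϖ * r) :=
    (mul_dvd_mul_iff_left (pow_ne_zero _ hprime.ne_zero)).mp h1
  rcases hprime.dvd_or_dvd h2 with h3 | h3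
  · obtain ⟨q, -, hq⟩ := (Prime.dvd_finsetProd_iff hprime _).mp h3
    rcases hprime.dvd_or_dvd (hprime.dvd_of_dvd_pow hq) with h4 | h4
    · exact absurd h4 (hw q)
    · exact absurd h4 (hB q)
  · exact (dvd_add_left (dvd_mul_right _ _)).mp h3

end Fermat.GR.Patch
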