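import Mathlib
import Fermat.Agent.GR.Deform.PowerSeriesComplete

/-!
# Power series in finitely many variables of arbitrary index type

`evalHom` evaluates the variables at elements of the maximal ideal of a complete algebra, and
`algHom_ext` says that maps are determined by the variables.
-/

set_option autoImplicit false

noncomputable section

namespace Fermat.GR.Patch

open IsLocalRing

variable {σ 𝒪 A : Type} [Finite σ] [CommRing 𝒪] [CommRing A] [Algebra 𝒪 A] [IsLocalRing A]

/-- Evaluation at elements of the maximal ideal. -/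
theorem exists_eval [IsAdicComplete (maximalIdeal A) A] (a : σ → A)
    (ha : ∀ j, a j ∈ maximalIdeal A) :
    ∃ φ : MvPowerSeries σ 𝒪 →ₐ[𝒪] A, ∀ j, φ (MvPowerSeries.X j) = a j := by
  obtain ⟨n, ⟨e⟩⟩ := Finite.exists_equiv_fin σ
  obtain ⟨φ, hφ⟩ := Fermat.GR.exists_evalHom (𝒪 := 𝒪) (fun i => a (e.symm i)) fun i => ha _
  refine ⟨φ.comp (MvPowerSeries.renameEquiv 𝒪 e).toAlgHom, fun j => ?_⟩
  change φ (MvPowerSeries.rename e (MvPowerSeries.X j)) = a j
  rw [MvPowerSeries.rename_X, hφ, Equiv.symm_apply_apply]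

/-- The evaluation homomorphism. -/
def evalHom [IsAdicComplete (maximalIdeal A) A] (a : σ → A) (ha : ∀ j, a j ∈ maximalIdeal A) :
    MvPowerSeries σ 𝒪 →ₐ[𝒪] A := (exists_eval a ha).choose

/-- The variables evaluate to the given elements. -/
@[simp] theorem evalHom_X [IsAdicComplete (maximalIdeal A) A] (a : σ → A)
    (ha : ∀ j, a j ∈ maximalIdeal A) (j : σ) :
    evalHom (𝒪 := 𝒪) a ha (MvPowerSeries.X j) = a j := (exists_eval a ha).choose_spec j

/-- Maps out of a power series ring are determined by the variables. -/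
theorem algHom_ext [IsHausdorff (maximalIdeal A) A] {φ ψ : MvPowerSeries σ 𝒪 →ₐ[𝒪] A}
    (h : ∀ j, φ (MvPowerSeries.X j) = ψ (MvPowerSeries.X j))
    (hm : ∀ j, φ (MvPowerSeries.X j) ∈ maximalIdeal A) : φ = ψ := by
  obtain ⟨n, ⟨e⟩⟩ := Finite.exists_equiv_fin σ
  let r : MvPowerSeries (Fin n) 𝒪 ≃ₐ[𝒪] MvPowerSeries σ 𝒪 := MvPowerSeries.renameEquiv 𝒪 e.symm
  have hX : ∀ i, r (MvPowerSeries.X i) = MvPowerSeries.X (e.symm i) := fun i =>
    MvPowerSeries.rename_X ..
  have := Fermat.GR.algHom_ext_X (φ := φ.comp r.toAlgHom) (ψ := ψ.comp r.toAlgHom)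
    (fun i => show φ (r _) = ψ (r _) by rw [hX, h])
      (fun i => show φ (r _) ∈ _ by rw [hX]; exact hm _)
  refine AlgHom.ext fun f => ?_
  simpa using DFunLike.congr_fun this (r.symm f)

end Fermat.GR.Patch
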