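import Mathlib
import Fermat.Agent.GR.Patch.Base

/-!
# The two local rings of Ihara avoidance

At each prime `q ≡ 1 (mod p)` being lowered we have matrices `Φ` (Frobenius) and `Σ` (a tame
generator).  `IsChi` is the condition with an order `p` character, `IsOne` the unipotent one.
-/

set_option autoImplicit false

noncomputable section

namespace Fermat.GR.Patch

open IsLocalRing Matrix

local notation "M2" R => Matrix (Fin 2) (Fin 2) R

/-- Parameters of the local problem at the primes in `A`: the residual Frobenius is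
`!![e, e*b; 0, e]`, `κ` and `s` are half sum and half difference of the two inertia eigenvalues,
and `N` is the prime itself. -/
structure LocalData (𝒪 : Type) [CommRing 𝒪] [IsLocalRing 𝒪] (A : Type) : Type where
  /-- The residual eigenvalue of Frobenius, a sign. -/
  e : A → 𝒪
  /-- The off diagonal parameter of the residual Frobenius. -/
  b : A → 𝒪
  /-- The half sum of the two inertia eigenvalues. -/
  κ : A → 𝒪
  /-- The half difference of the two inertia eigenvalues. -/
  s : A → 𝒪
  /-- The prime. -/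
  N : A → ℕ
  /-- `e` is a sign. -/
  e_sq : ∀ q, e q ^ 2 = 1
  /-- `b` is zero or a unit. -/
  b_cases : ∀ q, b q = 0 ∨ IsUnit (b q)
  /-- The prime is `1` residually. -/
  N_sub : ∀ q, (N q : 𝒪) - 1 ∈ maximalIdeal 𝒪
  /-- `κ` is `1` residually. -/
  κ_sub : ∀ q, κ q - 1 ∈ maximalIdeal 𝒪
  /-- `s` is residually zero. -/
  s_mem : ∀ q, s q ∈ maximalIdeal 𝒪
  /-- The two eigenvalues differ. -/
  s_ne : ∀ q, s q ≠ 0
  /-- The product of the two eigenvalues is `1`. -/
  sq_sub : ∀ q, κ q ^ 2 - s q ^ 2 = 1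

/-- The variables: for each `q` the entries of the perturbations of `Φ` (`false`) and `Σ` (`true`),
and extra global variables `G`. -/
abbrev Var (A G : Type) : Type := (A × Bool × Fin 2 × Fin 2) ⊕ G

variable {𝒪 : Type} [CommRing 𝒪] [IsLocalRing 𝒪] {A G : Type} (D : LocalData 𝒪 A)

/-- The common source ring. -/
abbrev Src (𝒪 A G : Type) : Type := MvPowerSeries (Var A G) 𝒪

variable {B : Type} [CommRing B]

/-- The residual Frobenius matrix. -/
def phi0 (q : A) : M2 𝒪 := !![D.e q, D.e q * D.b q; 0, D.e q]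

/-- Frobenius at `q` evaluated through `f`. -/
def phiAt (f : Src 𝒪 A G →+* B) (q : A) : M2 B :=
  (phi0 D q).map (fun c => f (algebraMap 𝒪 (Src 𝒪 A G) c)) +
    Matrix.of fun i j => f (MvPowerSeries.X (Sum.inl (q, false, i, j)))

/-- The inertia generator at `q` evaluated through `f`. -/
def sigAt (f : Src 𝒪 A G →+* B) (q : A) : M2 B :=
  1 + Matrix.of fun i j => f (MvPowerSeries.X (Sum.inl (q, true, i, j)))

/-- `phiAt` of a composite. -/
theorem phiAt_comp {C : Type} [CommRing C] (f : Src 𝒪 A G →+* B) (g : B →+* C) (q : A) :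
    phiAt D (g.comp f) q = (phiAt D f q).map g := by
  ext i j; simp [phiAt]

omit [IsLocalRing 𝒪] in
/-- `sigAt` of a composite. -/
theorem sigAt_comp {C : Type} [CommRing C] (f : Src 𝒪 A G →+* B) (g : B →+* C) (q : A) :
    sigAt (g.comp f) q = (sigAt f q).map g := by
  ext i j
  rw [sigAt, sigAt, Matrix.map_add _ (map_add g), Matrix.map_one g (map_zero g) (map_one g)]
  simp

/-- The condition with characters of order `p`: at each `q`, `phiAt` and `sigAt` commute, with
determinants `N q` and one, and `sigAt` has trace `2 κ q`. -/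
def IsChi (f : Src 𝒪 A G →+* B) : Prop :=
  ∀ q, (phiAt D f q).det = (D.N q : B) ∧
    (sigAt f q).trace = f (algebraMap 𝒪 (Src 𝒪 A G) (2 * D.κ q)) ∧
    (sigAt f q).det = 1 ∧ phiAt D f q * sigAt f q = sigAt f q * phiAt D f q

/-- The unipotent condition. -/
def IsOne (f : Src 𝒪 A G →+* B) : Prop :=
  ∀ q, (phiAt D f q).det = (D.N q : B) ∧ (sigAt f q).trace = 2 ∧
    (sigAt f q).det = 1 ∧ phiAt D f q * sigAt f q = sigAt f q ^ D.N q * phiAt D f q

/-- The `χ`-relations are preserved by ring maps. -/
theorem IsChi.comp {C : Type} [CommRing C] {f : Src 𝒪 A G →+* B} (h : IsChi D f) (g : B →+* C) :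
    IsChi D (g.comp f) := by
  intro q
  obtain ⟨h1, h2, h3, h4⟩ := h q
  rw [phiAt_comp, sigAt_comp]
  refine ⟨?_, ?_, ?_, ?_⟩
  · rw [show (phiAt D f q).map g = g.mapMatrix (phiAt D f q) from rfl, ← RingHom.map_det, h1,
      map_natCast]
  · rw [Matrix.trace_fin_two, Matrix.map_apply, Matrix.map_apply, ← map_add,
      ← Matrix.trace_fin_two, h2]
    rfl
  · rw [show (sigAt f q).map g = g.mapMatrix (sigAt f q) from rfl, ← RingHom.map_det, h3, map_one]
  · rw [← Matrix.map_mul, ← Matrix.map_mul, h4]

/-- Elements `tr² - (1+N)²`. -/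
def discAt (f : Src 𝒪 A G →+* B) (q : A) : B :=
  (phiAt D f q).trace ^ 2 - (1 + (D.N q : B)) ^ 2

/-- A unipotent `X` twisted-commuting with `Φ` vanishes unless `tr Φ = ±(1+N)`. -/
theorem sub_one_eq_zero_of_disc {K : Type} [CommRing K] [IsDomain K] {P S : M2 K} {N : ℕ}
    (hN : (N : K) ≠ 0) (hdet : P.det = (N : K)) (htr : S.trace = 2) (hdetS : S.det = 1)
    (hcomm : P * S = S ^ N * P) (hdisc : P.trace ^ 2 - (1 + (N : K)) ^ 2 ≠ 0) : S - 1 = 0 := by
  -- `X = S - 1` squares to zero, so `P X = N X P`
  obtain ⟨X, rfl⟩ : ∃ X, S = 1 + X := ⟨S - 1, by abel⟩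
  rw [add_sub_cancel_left]
  have hX0 : X 0 0 + X 1 1 = 0 := by
    rw [Matrix.trace_fin_two] at htr
    simp at htr
    linear_combination htr
  have hX1 : X 0 0 * X 0 0 + X 0 1 * X 1 0 = 0 := by
    rw [Matrix.det_fin_two] at hdetS
    simp at hdetS
    linear_combination (-1 : K) * hdetS + (1 + X 0 0) * hX0
  have hX2 : X * X = 0 := by
    ext i j
    fin_cases i <;> fin_cases j <;> simp [Matrix.mul_apply, Fin.sum_univ_two]
    · linear_combination hX1
    · linear_combination X 0 1 * hX0
    · linear_combination X 1 0 * hX0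
    · linear_combination hX1 + (X 1 1 - X 0 0) * hX0
  have hpow : ∀ n : ℕ, (1 + X) ^ n = 1 + (n : K) • X := by
    intro n
    induction n with
    | zero => simp
    | succ n ih =>
      rw [pow_succ, ih, Matrix.mul_add, Matrix.mul_one, Matrix.add_mul, Matrix.smul_mul, hX2,
        smul_zero, add_zero, Matrix.one_mul, Nat.cast_succ, add_smul, one_smul, add_assoc]
  rw [hpow, Matrix.mul_add, Matrix.mul_one, Matrix.add_mul, Matrix.one_mul, add_left_cancel_iff,
    Matrix.smul_mul] at hcomm
  set τ := (P * X).trace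
  have hpol : P * X + X * P = P.trace • X + τ • (1 : M2 K) := by
    have h11 : X 1 1 = -X 0 0 := by linear_combination hX0
    ext i j
    fin_cases i <;> fin_cases j <;>
      simp [τ, Matrix.mul_apply, Fin.sum_univ_two, Matrix.trace_fin_two, h11] <;> ring
  have h1 : ((N : K) + 1) • (X * P) = P.trace • X + τ • (1 : M2 K) := by
    rw [← hpol, hcomm, add_smul, one_smul]
  have hτ : τ • X = 0 := by
    have := congrArg (X * ·) h1
    simpa [Matrix.mul_add, ← Matrix.mul_assoc, hX2] using this.symm
  -- otherwise the trace of `P` would be `±(N + 1)`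
  by_contra hne
  obtain ⟨i, j, hij⟩ : ∃ i j, X i j ≠ 0 := by
    by_contra h
    push Not at h
    exact hne (Matrix.ext h)
  have hτ0 : τ = 0 := (mul_eq_zero.mp (by simpa using congrFun (congrFun hτ i) j)).resolve_right hij
  rw [hτ0, zero_smul, add_zero] at h1
  have h2 := congrArg (· * P.adjugate) h1
  simp only [Matrix.smul_mul, Matrix.mul_assoc, Matrix.mul_adjugate, hdet, Matrix.mul_smul,
    Matrix.mul_one, smul_smul] at h2
  have hadj : P.adjugate = P.trace • (1 : M2 K) - P := by
    ext i j
    fin_cases i <;> fin_cases j <;> simp [Matrix.adjugate_fin_two, Matrix.trace_fin_two]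
  rw [hadj, Matrix.mul_sub, Matrix.mul_smul, Matrix.mul_one, smul_sub, smul_smul] at h2
  have h3 := congrArg (((N : K) + 1) • ·) h2
  simp only [smul_sub, smul_smul] at h3
  rw [show ((N : K) + 1) * P.trace = P.trace * ((N : K) + 1) from mul_comm _ _,
    ← smul_smul P.trace ((N : K) + 1) (X * P), h1, smul_smul] at h3
  have h4 := congrFun (congrFun h3 i) j
  simp only [Matrix.smul_apply, Matrix.sub_apply, smul_eq_mul] at h4
  have : (N : K) * ((P.trace ^ 2 - (1 + (N : K)) ^ 2) * X i j) = 0 := by linear_combination -h4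
  rcases mul_eq_zero.mp this with h | h
  · exact hN h
  · exact (mul_eq_zero.mp h).elim hdisc hij

end Fermat.GR.Patch
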