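import Mathlib

/-!
# Commuting `2 × 2` matrices with distinct integral eigenvalues over a DVR

`exists_normal_basis` puts a commuting pair in normal form.
-/

set_option autoImplicit false

noncomputable section

namespace Fermat.GR.Patch

local notation "M2" R => Matrix (Fin 2) (Fin 2) R

variable {R : Type} [CommRing R] [IsDomain R] [IsDiscreteValuationRing R]

/-- An eigenvector completes to a basis in which `X` is triangular. -/
theorem exists_triangular {X : M2 R} {s : R} (hs : s ≠ 0) (h2 : IsUnit (2 : R)) (htr : X.trace = 0)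
    (hdet : X.det = -s ^ 2) :
    ∃ (g g' : M2 R) (x : R), g * g' = 1 ∧ g' * g = 1 ∧ X = g * !![s, x; 0, -s] * g' := by
  have h11 : X 1 1 = -X 0 0 := by
    rw [Matrix.trace_fin_two] at htr; linear_combination htr
  have hsq : X 0 0 * X 0 0 + X 0 1 * X 1 0 = s ^ 2 := by
    rw [Matrix.det_fin_two, h11] at hdet; linear_combination -hdet
  -- an eigenvector with one coordinate `1`
  obtain ⟨v0, v1, hv, hp⟩ : ∃ v0 v1 : R,
      (X 0 0 * v0 + X 0 1 * v1 = s * v0 ∧ X 1 0 * v0 + X 1 1 * v1 = s * v1) ∧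
        (v0 = 1 ∨ v1 = 1) := by
    obtain ⟨u0, u1, ⟨h0, h1⟩, hne⟩ : ∃ u0 u1 : R,
        (X 0 0 * u0 + X 0 1 * u1 = s * u0 ∧ X 1 0 * u0 + X 1 1 * u1 = s * u1) ∧
          (u0 ≠ 0 ∨ u1 ≠ 0) := by
      by_cases hc : X 0 1 = 0 ∧ s - X 0 0 = 0
      · refine ⟨X 0 0 + s, X 1 0, ⟨?_, ?_⟩, ?_⟩
        · linear_combination hsq
        · rw [h11]; ring
        · by_contra h
          push Not at h
          have h3 : (2 : R) * s = 0 := by linear_combination h.1 + hc.2
          exact hs (h2.mul_right_eq_zero.mp h3)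
      · refine ⟨X 0 1, s - X 0 0, ⟨by ring, ?_⟩, ?_⟩
        · rw [h11]; linear_combination hsq
        · by_contra h
          push Not at h
          exact hc h
    rcases ValuationRing.dvd_total u0 u1 with ⟨c, hc⟩ | ⟨c, hc⟩
    · have hu : u0 ≠ 0 := fun h => hne.elim (fun h' => h' h) fun h' => h' (by rw [hc, h, zero_mul])
      refine ⟨1, c, ⟨mul_left_cancel₀ hu ?_, mul_left_cancel₀ hu ?_⟩, Or.inl rfl⟩
      · rw [hc] at h0; linear_combination h0
      · rw [hc] at h1; linear_combination h1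
    · have hu : u1 ≠ 0 := fun h => hne.elim (fun h' => h' (by rw [hc, h, zero_mul])) fun h' => h' h
      refine ⟨c, 1, ⟨mul_left_cancel₀ hu ?_, mul_left_cancel₀ hu ?_⟩, Or.inr rfl⟩
      · rw [hc] at h0; linear_combination h0
      · rw [hc] at h1; linear_combination h1
  rcases hp with rfl | rfl
  · refine ⟨!![1, 0; v1, 1], !![1, 0; -v1, 1], X 0 1, ?_, ?_, ?_⟩
    · ext i j; fin_cases i <;> fin_cases j <;> simp [Matrix.mul_apply, Fin.sum_univ_two]
    · ext i j; fin_cases i <;> fin_cases j <;> simp [Matrix.mul_apply, Fin.sum_univ_two]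
    · ext i j; fin_cases i <;> fin_cases j <;> simp [Matrix.mul_apply, Fin.sum_univ_two]
      · linear_combination hv.1
      · linear_combination hv.2 - v1 * h11 + v1 * hv.1
      · linear_combination h11 - hv.1
  · refine ⟨!![v0, 1; 1, 0], !![0, 1; 1, -v0], X 1 0, ?_, ?_, ?_⟩
    · ext i j; fin_cases i <;> fin_cases j <;> simp [Matrix.mul_apply, Fin.sum_univ_two]
    · ext i j; fin_cases i <;> fin_cases j <;> simp [Matrix.mul_apply, Fin.sum_univ_two]
    · ext i j; fin_cases i <;> fin_cases j <;> simp [Matrix.mul_apply, Fin.sum_univ_two]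
      · linear_combination h11 - hv.2
      · linear_combination hv.1 - v0 * (h11 - hv.2)
      · linear_combination hv.2

/-- Normal form of a commuting pair. -/
theorem exists_normal_basis {P X : M2 R} {s : R} (hs : s ≠ 0) (h2 : IsUnit (2 : R))
    (htr : X.trace = 0) (hdet : X.det = -s ^ 2) (hcomm : P * X = X * P) :
    ∃ (g g' : M2 R) (x α β δ : R), g * g' = 1 ∧ g' * g = 1 ∧ X = g * !![s, x; 0, -s] * g' ∧
      P = g * !![α, β; 0, δ] * g' ∧ x * (α - δ) = 2 * s * β ∧
      (x = 0 ∨ x ≠ 0 ∧ ∃ c : R, ¬ IsUnit c ∧ x * c = 2 * s) := by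
  obtain ⟨g0, g0', x0, hg, hg', hX⟩ := exists_triangular hs h2 htr hdet
  obtain ⟨g, g', x, hgg, hgg', hXg, hx⟩ : ∃ (g g' : M2 R) (x : R), g * g' = 1 ∧ g' * g = 1 ∧
      X = g * !![s, x; 0, -s] * g' ∧
      (x = 0 ∨ x ≠ 0 ∧ ∃ c : R, ¬ IsUnit c ∧ x * c = 2 * s) := by
    by_cases hdiv : 2 * s ∣ x0
    · obtain ⟨e, rfl⟩ := hdiv
      refine ⟨g0 * !![1, -e; 0, 1], !![1, e; 0, 1] * g0', 0, ?_, ?_, ?_, Or.inl rfl⟩
      · rw [Matrix.mul_assoc, ← Matrix.mul_assoc !![1, -e; 0, 1],
          show !![1, -e; 0, 1] * !![1, e; 0, 1] = (1 : M2 R) by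
            ext i j; fin_cases i <;> fin_cases j <;> simp [Matrix.mul_apply, Fin.sum_univ_two],
          Matrix.one_mul, hg]
      · rw [Matrix.mul_assoc, ← Matrix.mul_assoc g0', hg', Matrix.one_mul]
        ext i j; fin_cases i <;> fin_cases j <;> simp [Matrix.mul_apply, Fin.sum_univ_two]
      · rw [hX, show !![s, 2 * s * e; 0, -s] =
            !![1, -e; 0, 1] * !![s, 0; 0, -s] * !![1, e; 0, 1] by
          ext i j; fin_cases i <;> fin_cases j <;> simp [Matrix.mul_apply, Fin.sum_univ_two]; ring]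
        simp only [Matrix.mul_assoc]
    · refine ⟨g0, g0', x0, hg, hg', hX, Or.inr ⟨fun h => hdiv (h ▸ dvd_zero _), ?_⟩⟩
      obtain ⟨c, hc⟩ := (ValuationRing.dvd_total x0 (2 * s)).resolve_right hdiv
      exact ⟨c, fun hu => hdiv (hc ▸ (hu.mul_right_dvd).mpr dvd_rfl), hc.symm⟩
  -- a commuting matrix is triangular in that basis
  set P' := g' * P * g with hP'
  have hP : P = g * P' * g' := by
    rw [hP', ← Matrix.mul_assoc, ← Matrix.mul_assoc, hgg, Matrix.one_mul, Matrix.mul_assoc, hgg,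
      Matrix.mul_one]
  have hcomm' : P' * !![s, x; 0, -s] = !![s, x; 0, -s] * P' := by
    have hXd : g' * X * g = !![s, x; 0, -s] := by
      rw [hXg, ← Matrix.mul_assoc, ← Matrix.mul_assoc, hgg', Matrix.one_mul, Matrix.mul_assoc, hgg',
        Matrix.mul_one]
    rw [← hXd, hP']
    calc g' * P * g * (g' * X * g) = g' * P * (g * g') * X * g := by simp only [Matrix.mul_assoc]
      _ = g' * (P * X) * g := by rw [hgg, Matrix.mul_one]; simp only [Matrix.mul_assoc]
      _ = g' * (X * P) * g := by rw [hcomm]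
      _ = g' * X * (g * g') * P * g := by rw [hgg, Matrix.mul_one]; simp only [Matrix.mul_assoc]
      _ = _ := by simp only [Matrix.mul_assoc]
  have e10 := congrFun (congrFun hcomm' 1) 0
  have e01 := congrFun (congrFun hcomm' 0) 1
  simp [Matrix.mul_apply, Fin.sum_univ_two] at e10 e01
  have h10 : P' 1 0 = 0 := by
    have : (2 : R) * s * P' 1 0 = 0 := by linear_combination e10
    rcases mul_eq_zero.mp this with h | h
    · exact absurd ((mul_eq_zero.mp h).resolve_left h2.ne_zero) hs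
    · exact h
  refine ⟨g, g', x, P' 0 0, P' 0 1, P' 1 1, hgg, hgg', hXg, ?_, ?_, hx⟩
  · rw [show !![P' 0 0, P' 0 1; 0, P' 1 1] = P' by
      ext i j; fin_cases i <;> fin_cases j <;> simp [h10]]
    exact hP
  · linear_combination e01

end Fermat.GR.Patch
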