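import Mathlib
import Fermat.Agent.GR.Patch.Local
import Fermat.Agent.GR.Patch.Laurent
import Fermat.Agent.GR.Patch.NormalBasis

/-!
# A chart through a point of the `χ`-ring

Every point of the `χ`-ring lies on an irreducible closed set whose special fibre contains a prime
at which all the discriminants `tr² - (1+N)²` are units.

At the point the two matrices at each `q` are brought to upper triangular normal form
(`ChartPoint`).  Deforming the triangular entries gives a map to a power series ring
(`chartMap`); restricting to the annulus `x a = 2 s β` (`annulus`) gives a `χ` point through the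
given one (`point_chartMap`), and the special fibre of the annulus (`specMap`) sees every
discriminant as a nonzero square.
-/

set_option autoImplicit false
set_option linter.unusedSectionVars false

noncomputable section

namespace Fermat.GR.Patch

open IsLocalRing Matrix

local notation "M2" R => Matrix (Fin 2) (Fin 2) R

/-- Frobenius through `f` is `M` when the variables are sent to `M - Φ₀`. -/
theorem phiAt_eq_conj {𝒪 : Type} [CommRing 𝒪] [IsLocalRing 𝒪] {A G : Type} (D : LocalData 𝒪 A)
    {B : Type} [CommRing B] (f : Src 𝒪 A G →+* B) (q : A) (M : M2 B)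
    (h : ∀ i j, f (MvPowerSeries.X (Sum.inl (q, false, i, j))) =
      M i j - f (algebraMap 𝒪 (Src 𝒪 A G) (phi0 D q i j))) : phiAt D f q = M := by
  ext i j
  simp [phiAt, h]

/-- Inertia through `f` is `M` when the variables are sent to `M - 1`. -/
theorem sigAt_eq_conj {𝒪 : Type} [CommRing 𝒪] {A G : Type} {B : Type} [CommRing B]
    (f : Src 𝒪 A G →+* B) (q : A) (M : M2 B)
    (h : ∀ i j, f (MvPowerSeries.X (Sum.inl (q, true, i, j))) = M i j - (1 : M2 B) i j) :
    sigAt f q = M := by
  ext i j
  simp [sigAt, h]

/-- The `χ` condition descends to the quotient by the kernel. -/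
theorem IsChi.quotient_ker {𝒪 : Type} [CommRing 𝒪] [IsLocalRing 𝒪] {A G : Type}
    {D : LocalData 𝒪 A} {B : Type} [CommRing B] {f : Src 𝒪 A G →+* B} (h : IsChi D f) :
    IsChi D (Ideal.Quotient.mk (RingHom.ker f)) := by
  intro q
  have hinjk : Function.Injective (RingHom.kerLift f) := RingHom.kerLift_injective f
  obtain ⟨h1, h2, h3, h4⟩ := h q
  have hf : f = (RingHom.kerLift f).comp (Ideal.Quotient.mk (RingHom.ker f)) :=
    RingHom.ext fun _ => rfl
  rw [hf, phiAt_comp] at h1 h4
  rw [hf, sigAt_comp] at h2 h3 h4
  refine ⟨hinjk ?_, hinjk ?_, hinjk ?_, ?_⟩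
  · rw [RingHom.map_det, map_natCast]; exact h1
  · rw [Matrix.trace_fin_two, map_add]; rw [Matrix.trace_fin_two] at h2; exact h2
  · rw [RingHom.map_det, map_one]; exact h3
  · rw [← Matrix.map_mul, ← Matrix.map_mul] at h4
    ext i j
    exact hinjk (congrFun (congrFun h4 i) j)

/-- In a complete local ring with `2` invertible, `T² - aT - N` has a root near `e`. -/
theorem exists_root_near {E : Type} [CommRing E] [IsLocalRing E] [IsAdicComplete (maximalIdeal E) E]
    (h2 : IsUnit (2 : E)) {a e N : E} (ha : a ∈ maximalIdeal E) (he : e ^ 2 = 1)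
    (hN : N - 1 ∈ maximalIdeal E) : ∃ α, α * (α - a) = N ∧ α - e ∈ maximalIdeal E := by
  let f : Polynomial E := Polynomial.X ^ 2 - Polynomial.C a * Polynomial.X - Polynomial.C N
  have hf : f.Monic := by
    simp only [f]
    monicity!
  have h1 : f.eval e ∈ maximalIdeal E := by
    simp only [f, Polynomial.eval_sub, Polynomial.eval_pow, Polynomial.eval_X, Polynomial.eval_mul,
      Polynomial.eval_C, he]
    rw [show 1 - a * e - N = -(a * e) - (N - 1) by ring]
    exact sub_mem (neg_mem (Ideal.mul_mem_right _ _ ha)) hN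
  have h3 : IsUnit (Ideal.Quotient.mk (maximalIdeal E) (f.derivative.eval e)) := by
    refine IsUnit.map _ ?_
    by_contra hu
    have hm : (2 * e) ∈ maximalIdeal E := by
      have := add_mem (show f.derivative.eval e ∈ maximalIdeal E from hu) ha
      have h' : f.derivative.eval e + a = 2 * e := by simp [f, one_add_one_eq_two]
      rwa [h'] at this
    exact hm (h2.mul (IsUnit.of_mul_eq_one e (by rw [← pow_two, he])))
  obtain ⟨α, hα, hαe⟩ := HenselianRing.is_henselian f hf e h1 h3
  refine ⟨α, ?_, hαe⟩
  have : f.eval α = 0 := hα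
  simp only [f, Polynomial.eval_sub, Polynomial.eval_pow, Polynomial.eval_X, Polynomial.eval_mul,
    Polynomial.eval_C] at this
  linear_combination this

/-- A power series over a discrete valuation ring is divisible by a uniformiser exactly when it
vanishes over the residue field. -/
theorem C_dvd_iff_map_residue_eq_zero {σ O' : Type} [CommRing O'] [IsDomain O']
    [IsDiscreteValuationRing O'] {π : O'} (hπ : Irreducible π) (d : MvPowerSeries σ O') :
    MvPowerSeries.C π ∣ d ↔ MvPowerSeries.map (residue O') d = 0 := by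
  constructor
  · rintro ⟨d', rfl⟩
    rw [map_mul, MvPowerSeries.map_C,
      show residue O' π = 0 from (residue_eq_zero_iff π).mpr hπ.not_isUnit, map_zero, zero_mul]
  · intro h
    have : ∀ e, π ∣ MvPowerSeries.coeff e d := fun e => by
      have h1 := congrArg (MvPowerSeries.coeff e) h
      rw [MvPowerSeries.coeff_map, map_zero, residue_eq_zero_iff, hπ.maximalIdeal_eq,
        Ideal.mem_span_singleton] at h1
      exact h1
    choose w hw using this
    refine ⟨fun e => w e, MvPowerSeries.ext fun e => ?_⟩
    rw [MvPowerSeries.coeff_C_mul]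
    exact hw e

/-- A uniformiser stays prime in a power series ring. -/
theorem prime_C_of_irreducible {σ O' : Type} [CommRing O'] [IsDomain O']
    [IsDiscreteValuationRing O'] {π : O'} (hπ : Irreducible π) :
    Prime (MvPowerSeries.C π : MvPowerSeries σ O') := by
  have : IsDomain (MvPowerSeries σ (ResidueField O')) := NoZeroDivisors.to_isDomain _
  refine ⟨fun h => hπ.ne_zero (by simpa using congrArg MvPowerSeries.constantCoeff h),
    fun h => hπ.not_isUnit (by simpa using MvPowerSeries.isUnit_iff_constantCoeff.mp h),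
    fun a b h => ?_⟩
  rw [C_dvd_iff_map_residue_eq_zero hπ, map_mul] at h
  exact (mul_eq_zero.mp h).imp (C_dvd_iff_map_residue_eq_zero hπ a).mpr
    (C_dvd_iff_map_residue_eq_zero hπ b).mpr

variable {𝒪 : Type} [CommRing 𝒪] [IsDomain 𝒪] [IsDiscreteValuationRing 𝒪]
  [IsAdicComplete (maximalIdeal 𝒪) 𝒪] {A G : Type} [Fintype A] [Fintype G] [DecidableEq A]
  (D : LocalData 𝒪 A)
  {O' : Type} [CommRing O'] [IsDomain O'] [IsDiscreteValuationRing O']
  [IsAdicComplete (maximalIdeal O') O'] [Algebra 𝒪 O'] [IsLocalHom (algebraMap 𝒪 O')]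

local notation "co" => algebraMap 𝒪 O'

/-- A small `χ` point of the source ring, with the normal forms of its two matrices at each prime:
`Σ - κ` and `Φ` are conjugate to `!![s, x0; 0, -s]` and `!![α, β; 0, δ]` by the same matrix, and
`c = 2 s / x0` is not a unit where `x0 ≠ 0`. -/
structure ChartPoint (x : Src 𝒪 A G →ₐ[𝒪] O') : Type where
  /-- The triangularising matrix at each prime. -/
  g : A → M2 O'
  /-- The inverse of `g`. -/
  g' : A → M2 O'
  /-- The upper right entry of the triangular form of `Σ - κ`. -/
  x0 : A → O'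
  /-- The first diagonal entry of the triangular form of `Φ`. -/
  α : A → O'
  /-- The upper right entry of the triangular form of `Φ`. -/
  β : A → O'
  /-- The second diagonal entry of the triangular form of `Φ`. -/
  δ : A → O'
  /-- The ratio `2 s / x0`, where `x0 ≠ 0`. -/
  c : {q : A // x0 q ≠ 0} → O'
  /-- `2` is invertible. -/
  two_unit : IsUnit (2 : O')
  /-- The half difference of the inertia eigenvalues stays nonzero. -/
  s_ne : ∀ q, co (D.s q) ≠ 0
  /-- The point is small: variables go to the maximal ideal. -/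
  small : ∀ v, x (MvPowerSeries.X v) ∈ maximalIdeal O'
  /-- The point satisfies the `χ` relations. -/
  chi : IsChi D (x : Src 𝒪 A G →+* O')
  /-- `g'` is a right inverse of `g`. -/
  g_mul : ∀ q, g q * g' q = 1
  /-- `g'` is a left inverse of `g`. -/
  g'_mul : ∀ q, g' q * g q = 1
  /-- The normal form of `Σ - κ`. -/
  sig_eq : ∀ q, sigAt (x : Src 𝒪 A G →+* O') q - co (D.κ q) • (1 : M2 O') =
    g q * !![co (D.s q), x0 q; 0, -co (D.s q)] * g' q
  /-- The normal form of `Φ`. -/
  phi_eq : ∀ q, phiAt D (x : Src 𝒪 A G →+* O') q = g q * !![α q, β q; 0, δ q] * g' q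
  /-- The two triangular matrices commute. -/
  rel : ∀ q, x0 q * (α q - δ q) = 2 * co (D.s q) * β q
  /-- The ratio is not a unit. -/
  c_nonunit : ∀ q, ¬ IsUnit (c q)
  /-- The defining equation of `c`. -/
  c_rel : ∀ q, x0 q.1 * c q = 2 * co (D.s q.1)

/-- Every small `χ` point has normal forms. -/
theorem exists_chartPoint (h2 : IsUnit (2 : 𝒪)) (hinj : Function.Injective co)
    (x : Src 𝒪 A G →ₐ[𝒪] O') (hX : ∀ v, x (MvPowerSeries.X v) ∈ maximalIdeal O')
    (hchi : IsChi D (x : Src 𝒪 A G →+* O')) : Nonempty (ChartPoint D x) := by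
  have h2' : IsUnit (2 : O') := by
    rw [← map_ofNat co]
    exact h2.map co
  have hs' : ∀ q, co (D.s q) ≠ 0 := fun q h => D.s_ne q (hinj (h.trans (map_zero co).symm))
  have hnf : ∀ q, ∃ (g g' : M2 O') (x0 α β δ : O'), g * g' = 1 ∧ g' * g = 1 ∧
      sigAt (x : Src 𝒪 A G →+* O') q - co (D.κ q) • (1 : M2 O') =
        g * !![co (D.s q), x0; 0, -co (D.s q)] * g' ∧
      phiAt D (x : Src 𝒪 A G →+* O') q = g * !![α, β; 0, δ] * g' ∧
      x0 * (α - δ) = 2 * co (D.s q) * β ∧
      (x0 = 0 ∨ x0 ≠ 0 ∧ ∃ c : O', ¬ IsUnit c ∧ x0 * c = 2 * co (D.s q)) := by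
    intro q
    obtain ⟨-, htr, hdet, hcomm⟩ := hchi q
    rw [show (x : Src 𝒪 A G →+* O') (algebraMap 𝒪 _ (2 * D.κ q)) = co (2 * D.κ q) from x.commutes _,
      map_mul, map_ofNat, Matrix.trace_fin_two] at htr
    rw [Matrix.det_fin_two] at hdet
    have hsq : co (D.κ q) ^ 2 - co (D.s q) ^ 2 = 1 := by
      rw [← map_pow, ← map_pow, ← map_sub, D.sq_sub, map_one]
    refine exists_normal_basis (hs' q) h2' ?_ ?_ ?_
    · simp [Matrix.trace_fin_two, -algebraMap_smul]; linear_combination htr
    · simp [Matrix.det_fin_two, -algebraMap_smul]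
      linear_combination hdet - co (D.κ q) * htr - hsq
    · rw [Matrix.mul_sub, Matrix.sub_mul, hcomm, Matrix.mul_smul, Matrix.mul_one, Matrix.smul_mul,
        Matrix.one_mul]
  choose g g' x0 α β δ hgg hgg' hXn hPn hrel hkind using hnf
  have hc : ∀ qa : {q : A // x0 q ≠ 0},
      ∃ c : O', ¬ IsUnit c ∧ x0 qa.1 * c = 2 * co (D.s qa.1) := fun qa =>
    ((hkind qa.1).resolve_left qa.2).2
  choose c hcu hcx using hc
  exact ⟨⟨g, g', x0, α, β, δ, c, h2', hs', hX, hchi, hgg, hgg', hXn, hPn, hrel, hcu, hcx⟩⟩

namespace ChartPoint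

variable {D} {x : Src 𝒪 A G →ₐ[𝒪] O'} (P : ChartPoint D x)

/-- Constants go to constants. -/
theorem apply_const (o : 𝒪) : (x : Src 𝒪 A G →+* O') (algebraMap 𝒪 _ o) = co o := x.commutes o

/-- The primes are `1` modulo the maximal ideal. -/
theorem natCast_sub_one_mem (q : A) : (D.N q : O') - 1 ∈ maximalIdeal O' := by
  rw [← map_natCast co, ← map_one co, ← map_sub]; exact map_nonunit co _ (D.N_sub q)

/-- The residual eigenvalue squares to `1`. -/
theorem co_e_sq (q : A) : co (D.e q) ^ 2 = 1 := by rw [← map_pow, D.e_sq, map_one]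

include P

/-- The off-diagonal entry of the inertia normal form is small. -/
theorem x0_mem (q : A) : P.x0 q ∈ maximalIdeal O' := by
  have h1 : !![co (D.s q), P.x0 q; 0, -co (D.s q)] =
      P.g' q * (sigAt (x : Src 𝒪 A G →+* O') q - co (D.κ q) • (1 : M2 O')) * P.g q := by
    rw [P.sig_eq q, ← Matrix.mul_assoc, ← Matrix.mul_assoc, P.g'_mul q, Matrix.one_mul,
      Matrix.mul_assoc, P.g'_mul q, Matrix.mul_one]
  have h3 := congrFun (congrFun h1 0) 1
  simp [-algebraMap_smul] at h3
  rw [h3]
  have hent : ∀ i j, (sigAt (x : Src 𝒪 A G →+* O') q - co (D.κ q) • (1 : M2 O')) i j ∈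
      maximalIdeal O' := by
    intro i j
    have hk : co (D.κ q) - 1 ∈ maximalIdeal O' := by
      rw [← map_one co, ← map_sub]; exact map_nonunit co _ (D.κ_sub q)
    fin_cases i <;> fin_cases j <;> simp [sigAt, -algebraMap_smul]
    · rw [show (1 : O') + x (MvPowerSeries.X (Sum.inl (q, true, 0, 0))) - co (D.κ q) =
        x (MvPowerSeries.X (Sum.inl (q, true, 0, 0))) - (co (D.κ q) - 1) by ring]
      exact sub_mem (P.small _) hk
    · exact P.small _
    · exact P.small _
    · rw [show (1 : O') + x (MvPowerSeries.X (Sum.inl (q, true, 1, 1))) - co (D.κ q) =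
        x (MvPowerSeries.X (Sum.inl (q, true, 1, 1))) - (co (D.κ q) - 1) by ring]
      exact sub_mem (P.small _) hk
  simp only [Matrix.mul_apply, Fin.sum_univ_two]
  exact add_mem (Ideal.mul_mem_right _ _ (add_mem (Ideal.mul_mem_left _ _ (hent _ _))
    (Ideal.mul_mem_left _ _ (hent _ _)))) (Ideal.mul_mem_right _ _ (add_mem
    (Ideal.mul_mem_left _ _ (hent _ _)) (Ideal.mul_mem_left _ _ (hent _ _))))

/-- The diagonal of the Frobenius normal form has product `N`. -/
theorem α_mul_δ (q : A) : P.α q * P.δ q = (D.N q : O') := by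
  have h := (P.chi q).1
  rw [P.phi_eq q, Matrix.det_mul, Matrix.det_mul] at h
  have h3 : (P.g q).det * (P.g' q).det = 1 := by rw [← Matrix.det_mul, P.g_mul q, Matrix.det_one]
  simp [Matrix.det_fin_two_of] at h
  linear_combination h - P.α q * P.δ q * h3

/-- The trace of Frobenius is residually `2e`. -/
theorem trace_sub_mem (q : A) : P.α q + P.δ q - 2 * co (D.e q) ∈ maximalIdeal O' := by
  have h : (phiAt D (x : Src 𝒪 A G →+* O') q).trace = P.α q + P.δ q := by
    rw [P.phi_eq q, Matrix.trace_mul_cycle, P.g'_mul q, Matrix.one_mul, Matrix.trace_fin_two]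
    simp
  rw [← h, Matrix.trace_fin_two]
  simp [phiAt, phi0, apply_const]
  rw [show co (D.e q) + x (MvPowerSeries.X (Sum.inl (q, false, 0, 0))) +
      (co (D.e q) + x (MvPowerSeries.X (Sum.inl (q, false, 1, 1)))) - 2 * co (D.e q) =
      x (MvPowerSeries.X (Sum.inl (q, false, 0, 0))) +
        x (MvPowerSeries.X (Sum.inl (q, false, 1, 1))) by ring]
  exact add_mem (P.small _) (P.small _)

/-- The first eigenvalue of Frobenius is residually `e`. -/
theorem α_sub_mem (q : A) : P.α q - co (D.e q) ∈ maximalIdeal O' := by
  have h1 : (P.α q - co (D.e q)) * (P.α q - co (D.e q)) ∈ maximalIdeal O' := by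
    rw [show (P.α q - co (D.e q)) * (P.α q - co (D.e q)) =
      P.α q * (P.α q + P.δ q - 2 * co (D.e q)) - ((D.N q : O') - 1) by
        linear_combination co_e_sq (D := D) (O' := O') q - P.α_mul_δ q]
    exact sub_mem (Ideal.mul_mem_left _ _ (P.trace_sub_mem q)) (natCast_sub_one_mem q)
  exact ((maximalIdeal.isMaximal O').isPrime.mem_or_mem h1).elim id id

/-- The eigenvalues of Frobenius are residually equal. -/
theorem diag_sub_mem (q : A) : P.α q - P.δ q ∈ maximalIdeal O' := by
  rw [show P.α q - P.δ q = (P.α q - co (D.e q)) + (P.α q - co (D.e q)) -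
    (P.α q + P.δ q - 2 * co (D.e q)) by ring]
  exact sub_mem (add_mem (P.α_sub_mem q) (P.α_sub_mem q)) (P.trace_sub_mem q)

/-- Where inertia is diagonal, so is Frobenius. -/
theorem β_eq_zero (q : A) (hq : P.x0 q = 0) : P.β q = 0 := by
  have h := P.rel q
  rw [hq, zero_mul, eq_comm] at h
  exact (mul_eq_zero.mp h).resolve_left (mul_ne_zero P.two_unit.ne_zero (P.s_ne q))

/-! ### The deformed normal forms -/

/-- The primes at which inertia is not diagonalised. -/
abbrev Ix : Type := {q : A // P.x0 q ≠ 0}

/-- The parameter ring of the deformed normal forms. -/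
abbrev ParamRing : Type := MvPowerSeries (P.Ix × Bool) (MvPowerSeries A O')

/-- The coordinate ring of the annulus. -/
abbrev AnnRing : Type := MvPowerSeries P.Ix (MvPowerSeries A O')

/-- Constants of the parameter ring. -/
def constE : O' →+* P.ParamRing :=
  (MvPowerSeries.C (σ := P.Ix × Bool)).comp (MvPowerSeries.C (σ := A))

/-- Constants of the annulus. -/
def constA : O' →+* P.AnnRing := (MvPowerSeries.C (σ := P.Ix)).comp (MvPowerSeries.C (σ := A))

open Classical in
/-- The deformed off-diagonal entry of inertia. -/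
def xE (q : A) : P.ParamRing := if h : P.x0 q ≠ 0 then MvPowerSeries.X (⟨q, h⟩, false) else 0

open Classical in
/-- The deformed difference of the Frobenius eigenvalues. -/
def aE (q : A) : P.ParamRing := if h : P.x0 q ≠ 0 then MvPowerSeries.X (⟨q, h⟩, true)
  else P.constE (P.α q - P.δ q) + MvPowerSeries.C (MvPowerSeries.X q)

open Classical in
/-- The deformed off-diagonal entry of Frobenius. -/
def βE (q : A) : P.ParamRing :=
  if P.x0 q ≠ 0 then P.constE (P.β q) + MvPowerSeries.C (MvPowerSeries.X q) else 0

/-- Constants of the maximal ideal stay small. -/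
theorem constE_mem {o : O'} (ho : o ∈ maximalIdeal O') : P.constE o ∈ maximalIdeal P.ParamRing :=
  C_mem_maximalIdeal (C_mem_maximalIdeal ho)

/-- The deformed difference of the eigenvalues is small. -/
theorem aE_mem (q : A) : P.aE q ∈ maximalIdeal P.ParamRing := by
  simp only [aE]
  split_ifs
  · exact X_mem_maximalIdeal _
  · exact add_mem (P.constE_mem (P.diag_sub_mem q)) (C_mem_maximalIdeal (X_mem_maximalIdeal q))

/-- The deformed off-diagonal entry of inertia is small. -/
theorem xE_mem (q : A) : P.xE q ∈ maximalIdeal P.ParamRing := by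
  simp only [xE]
  split_ifs
  · exact X_mem_maximalIdeal _
  · exact zero_mem _

/-- The deformed off-diagonal entry of Frobenius is residually the given one. -/
theorem βE_sub_mem (q : A) : P.βE q - P.constE (P.β q) ∈ maximalIdeal P.ParamRing := by
  simp only [βE]
  split_ifs with hq
  · rw [add_sub_cancel_left]; exact C_mem_maximalIdeal (X_mem_maximalIdeal q)
  · rw [P.β_eq_zero q (not_not.mp hq), map_zero, sub_zero]; exact zero_mem _

/-- A deformed first eigenvalue of Frobenius exists. -/
theorem exists_αE (q : A) : ∃ α : P.ParamRing, α * (α - P.aE q) = (D.N q : P.ParamRing) ∧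
    α - P.constE (co (D.e q)) ∈ maximalIdeal P.ParamRing := by
  refine exists_root_near (by rw [← map_ofNat P.constE]; exact P.two_unit.map P.constE) (P.aE_mem q)
    (by rw [← map_pow, co_e_sq, map_one]) ?_
  rw [← map_natCast P.constE, ← map_one P.constE, ← map_sub]
  exact P.constE_mem (natCast_sub_one_mem q)

/-- The deformed first eigenvalue of Frobenius. -/
def αE (q : A) : P.ParamRing := (P.exists_αE q).choose

/-- The deformed eigenvalues of Frobenius have product `N`. -/
theorem αE_eq (q : A) : P.αE q * (P.αE q - P.aE q) = (D.N q : P.ParamRing) :=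
  (P.exists_αE q).choose_spec.1

/-- The deformed first eigenvalue of Frobenius is residually `e`. -/
theorem αE_sub_mem (q : A) :
    P.αE q - P.constE (co (D.e q)) ∈ maximalIdeal P.ParamRing :=
  (P.exists_αE q).choose_spec.2

/-- The normalising bases stay inverse after a base change. -/
theorem map_g_mul {B : Type} [CommRing B] (f : O' →+* B) (q : A) :
    (P.g q).map f * (P.g' q).map f = 1 := by
  rw [← Matrix.map_mul, P.g_mul q, Matrix.map_one _ (map_zero f) (map_one f)]

/-- The normalising bases stay inverse after a base change, in the other order. -/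
theorem map_g'_mul {B : Type} [CommRing B] (f : O' →+* B) (q : A) :
    (P.g' q).map f * (P.g q).map f = 1 := by
  rw [← Matrix.map_mul, P.g'_mul q, Matrix.map_one _ (map_zero f) (map_one f)]

/-- Conjugation by the normalising basis, over the parameter ring. -/
def conjE (q : A) (M : M2 P.ParamRing) : M2 P.ParamRing :=
  (P.g q).map P.constE * M * (P.g' q).map P.constE

/-- Conjugation by the normalising basis is multiplicative. -/
theorem conjE_mul (q : A) (M M' : M2 P.ParamRing) :
    P.conjE q M * P.conjE q M' = P.conjE q (M * M') := by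
  simp only [conjE]
  calc (P.g q).map P.constE * M * (P.g' q).map P.constE *
        ((P.g q).map P.constE * M' * (P.g' q).map P.constE) =
      (P.g q).map P.constE * M * ((P.g' q).map P.constE * (P.g q).map P.constE) * M' *
        (P.g' q).map P.constE := by simp only [Matrix.mul_assoc]
    _ = _ := by rw [P.map_g'_mul P.constE q, Matrix.mul_one]; simp only [Matrix.mul_assoc]

/-- Conjugation by the normalising basis preserves the determinant. -/
theorem conjE_det (q : A) (M : M2 P.ParamRing) : (P.conjE q M).det = M.det := by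
  rw [conjE, Matrix.det_mul, Matrix.det_mul, mul_right_comm, ← Matrix.det_mul,
    P.map_g_mul P.constE q, Matrix.det_one, one_mul]

/-- Conjugation by the normalising basis preserves the trace. -/
theorem conjE_trace (q : A) (M : M2 P.ParamRing) : (P.conjE q M).trace = M.trace := by
  rw [conjE, Matrix.trace_mul_cycle, P.map_g'_mul P.constE q, Matrix.one_mul]

/-- Conjugation by the normalising basis after a base change. -/
theorem conjE_map {B : Type} [CommRing B] (f : P.ParamRing →+* B) (q : A) (M : M2 P.ParamRing) :
    (P.conjE q M).map f =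
      (P.g q).map (f.comp P.constE) * M.map f * (P.g' q).map (f.comp P.constE) := by
  simp only [conjE, Matrix.map_mul, Matrix.map_map]
  rfl

/-- The triangular form of the deformed Frobenius. -/
def phiTri (q : A) : M2 P.ParamRing := !![P.αE q, P.βE q; 0, P.αE q - P.aE q]

/-- The triangular form of the deformed inertia generator, shifted by `κ`. -/
def sigTri (q : A) : M2 P.ParamRing := !![P.constE (co (D.s q)), P.xE q; 0, -P.constE (co (D.s q))]

/-- The deformed Frobenius. -/
def ΦE (q : A) : M2 P.ParamRing := P.conjE q (P.phiTri q)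

/-- The deformed inertia generator. -/
def SigE (q : A) : M2 P.ParamRing :=
  P.constE (co (D.κ q)) • (1 : M2 P.ParamRing) + P.conjE q (P.sigTri q)

/-- The deformed Frobenius has determinant `N`. -/
theorem ΦE_det (q : A) : (P.ΦE q).det = (D.N q : P.ParamRing) := by
  rw [ΦE, conjE_det, phiTri, Matrix.det_fin_two_of, mul_zero, sub_zero, P.αE_eq]

/-- The trace of the deformed Frobenius. -/
theorem ΦE_trace (q : A) : (P.ΦE q).trace = 2 * P.αE q - P.aE q := by
  rw [ΦE, conjE_trace, phiTri, Matrix.trace_fin_two]
  simp; ring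

/-- The deformed inertia generator has trace `2κ`. -/
theorem SigE_trace (q : A) : (P.SigE q).trace = P.constE (co (2 * D.κ q)) := by
  simp only [SigE, Matrix.trace_add, Matrix.trace_smul, Matrix.trace_one, conjE_trace]
  rw [sigTri, Matrix.trace_fin_two]
  simp [map_ofNat]; ring

/-- The deformed inertia generator has determinant `1`. -/
theorem SigE_det (q : A) : (P.SigE q).det = 1 := by
  have hconj : P.SigE q =
      P.conjE q (P.constE (co (D.κ q)) • (1 : M2 P.ParamRing) + P.sigTri q) := by
    simp only [SigE, conjE, Matrix.mul_add, Matrix.add_mul, Matrix.mul_smul, Matrix.smul_mul,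
      Matrix.mul_one, P.map_g_mul P.constE q]
  rw [hconj, conjE_det, sigTri, Matrix.det_fin_two]
  simp
  have h := congrArg (P.constE.comp co) (D.sq_sub q)
  simp at h
  linear_combination h

/-- Congruent constants have the same residue. -/
theorem residue_constE_congr {o o' : O'} (h : o - o' ∈ maximalIdeal O') :
    residue P.ParamRing (P.constE o) = residue P.ParamRing (P.constE o') := by
  rw [← sub_eq_zero, ← map_sub, ← map_sub, residue_eq_zero_iff]
  exact P.constE_mem h

/-- The deformed Frobenius is residually the given one. -/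
theorem ΦE_residue (q : A) : (P.ΦE q).map (residue P.ParamRing) =
    ((phi0 D q).map co).map ((residue P.ParamRing).comp P.constE) := by
  have h1 : (P.ΦE q).map (residue P.ParamRing) =
      ((P.g q * !![P.α q, P.β q; 0, P.δ q] * P.g' q : M2 O')).map
        ((residue P.ParamRing).comp P.constE) := by
    rw [ΦE, conjE_map, Matrix.map_mul, Matrix.map_mul]
    congr 2
    ext i j
    fin_cases i <;> fin_cases j <;> simp [phiTri]
    · rw [← sub_eq_zero, ← map_sub, residue_eq_zero_iff]
      have := sub_mem (P.αE_sub_mem q) (P.constE_mem (P.α_sub_mem q))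
      rwa [map_sub, sub_sub_sub_cancel_right] at this
    · rw [← sub_eq_zero, ← map_sub, residue_eq_zero_iff]; exact P.βE_sub_mem q
    · rw [← map_sub, ← sub_eq_zero, ← map_sub, residue_eq_zero_iff]
      have := sub_mem (sub_mem (sub_mem (P.αE_sub_mem q) (P.constE_mem (P.α_sub_mem q)))
        (P.aE_mem q)) (neg_mem (P.constE_mem (P.diag_sub_mem q)))
      rwa [show P.αE q - P.constE (co (D.e q)) - P.constE (P.α q - co (D.e q)) - P.aE q -
          -P.constE (P.α q - P.δ q) = P.αE q - P.aE q - P.constE (P.δ q) by
        simp only [map_sub]; ring] at this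
  rw [h1, ← P.phi_eq q]
  ext i j
  change residue P.ParamRing (P.constE _) = residue P.ParamRing (P.constE _)
  refine P.residue_constE_congr ?_
  simp [phiAt, apply_const, P.small]

/-- The deformed inertia generator is residually trivial. -/
theorem SigE_residue (q : A) : (P.SigE q).map (residue P.ParamRing) = 1 := by
  have hz : (P.sigTri q).map (residue P.ParamRing) = 0 := by
    ext i j
    fin_cases i <;> fin_cases j <;> simp [sigTri]
    · exact P.constE_mem (map_nonunit co _ (D.s_mem q))
    · exact P.xE_mem q
    · exact P.constE_mem (map_nonunit co _ (D.s_mem q))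
  have hk : residue P.ParamRing (P.constE (co (D.κ q))) = 1 := by
    rw [P.residue_constE_congr (o' := 1)
      (by rw [← map_one co, ← map_sub]; exact map_nonunit co _ (D.κ_sub q)), map_one, map_one]
  have hgz : (P.conjE q (P.sigTri q)).map (residue P.ParamRing) = 0 := by
    rw [conjE_map, hz, Matrix.mul_zero, Matrix.zero_mul]
  ext i j
  simp only [SigE, Matrix.map_apply, Matrix.add_apply, map_add, Matrix.smul_apply, smul_eq_mul,
    map_mul, hk, one_mul]
  rw [show residue P.ParamRing (P.conjE q (P.sigTri q) i j) = 0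
    from congrFun (congrFun hgz i) j, add_zero]
  rw [Matrix.one_apply, Matrix.one_apply]
  split_ifs <;> simp

/-- The images of the variables. -/
def chartIm : Var A G → P.ParamRing := Sum.elim
  (fun v => if v.2.1 then P.SigE v.1 v.2.2.1 v.2.2.2 - (1 : M2 P.ParamRing) v.2.2.1 v.2.2.2
    else P.ΦE v.1 v.2.2.1 v.2.2.2 - P.constE (co (phi0 D v.1 v.2.2.1 v.2.2.2)))
  (fun i => P.constE (x (MvPowerSeries.X (Sum.inr i))))

/-- The images of the variables are small. -/
theorem chartIm_mem : ∀ v, P.chartIm v ∈ maximalIdeal P.ParamRing := by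
  rintro (⟨q, t, i, j⟩ | i)
  · rw [← residue_eq_zero_iff]
    cases t
    · change residue P.ParamRing (P.ΦE q i j - P.constE (co (phi0 D q i j))) = 0
      rw [map_sub, sub_eq_zero]
      exact congrFun (congrFun (P.ΦE_residue q) i) j
    · change residue P.ParamRing (P.SigE q i j - (1 : M2 P.ParamRing) i j) = 0
      rw [map_sub, sub_eq_zero, show residue P.ParamRing (P.SigE q i j) = (1 : M2 _) i j from
        congrFun (congrFun (P.SigE_residue q) i) j, Matrix.one_apply, Matrix.one_apply]
      split_ifs <;> simp
  · exact P.constE_mem (P.small _)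

/-- The `𝒪`-algebra structure of the parameter ring is through the constants. -/
theorem algebraMap_paramRing (o : 𝒪) : algebraMap 𝒪 P.ParamRing o = P.constE (co o) := by
  rw [MvPowerSeries.algebraMap_apply, MvPowerSeries.algebraMap_apply]
  rfl

/-- The source ring maps onto the deformed normal forms. -/
def chartMap : Src 𝒪 A G →ₐ[𝒪] P.ParamRing := evalHom P.chartIm P.chartIm_mem

/-- The chart map on the variables. -/
theorem chartMap_X (v : Var A G) : P.chartMap (MvPowerSeries.X v) = P.chartIm v :=
  evalHom_X P.chartIm P.chartIm_mem v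

/-- The chart map sends Frobenius to the deformed Frobenius. -/
theorem chartMap_phi (q : A) :
    phiAt D (P.chartMap : Src 𝒪 A G →+* P.ParamRing) q = P.ΦE q :=
  phiAt_eq_conj D _ q _ fun i j => by
    change P.chartMap (MvPowerSeries.X _) = _ - P.chartMap (algebraMap 𝒪 _ _)
    rw [chartMap_X, AlgHom.commutes, algebraMap_paramRing]; rfl

/-- The chart map sends inertia to the deformed inertia generator. -/
theorem chartMap_sig (q : A) : sigAt (P.chartMap : Src 𝒪 A G →+* P.ParamRing) q = P.SigE q :=
  sigAt_eq_conj _ q _ fun i j => by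
    change P.chartMap (MvPowerSeries.X _) = _
    rw [chartMap_X]; rfl

/-! ### The annulus -/

/-- The first radius `x0`. -/
def annP₁ (q : P.Ix) : MvPowerSeries A O' := MvPowerSeries.C (P.x0 q.1)

/-- The second radius `2 s / x0`. -/
def annP₂ (q : P.Ix) : MvPowerSeries A O' := MvPowerSeries.C (P.c q)

/-- The deformed off-diagonal entry of Frobenius on the annulus. -/
def annB (q : P.Ix) : MvPowerSeries A O' := MvPowerSeries.C (P.β q.1) + MvPowerSeries.X q.1

/-- The unit `1 + X`. -/
def oneAddX (q : P.Ix) : P.AnnRingˣ :=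
  (MvPowerSeries.isUnit_iff_constantCoeff.mpr
    (show IsUnit (MvPowerSeries.constantCoeff ((1 : P.AnnRing) + MvPowerSeries.X q)) by simp)).unit

/-- The underlying element of the unit `1 + X`. -/
theorem oneAddX_coe (q : P.Ix) : (P.oneAddX q : P.AnnRing) = 1 + MvPowerSeries.X q :=
  IsUnit.unit_spec _

/-- The images of the parameters on the annulus `x a = 2 s β`. -/
def annIm (v : P.Ix × Bool) : P.AnnRing :=
  if v.2 then (MvPowerSeries.C (σ := P.Ix) (P.annP₂ v.1 * P.annB v.1) : P.AnnRing) *
      (((P.oneAddX v.1)⁻¹ : P.AnnRingˣ) : P.AnnRing)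
  else MvPowerSeries.C (P.annP₁ v.1) * (1 + MvPowerSeries.X v.1)

/-- The images of the parameters on the annulus are small. -/
theorem annIm_mem : ∀ v, P.annIm v ∈ maximalIdeal P.AnnRing := by
  rintro ⟨q, _ | _⟩
  · exact Ideal.mul_mem_right _ _ (C_mem_maximalIdeal (C_mem_maximalIdeal (P.x0_mem q.1)))
  · refine Ideal.mul_mem_right _ _ ?_
    rw [map_mul]
    exact Ideal.mul_mem_right _ _ (C_mem_maximalIdeal (C_mem_maximalIdeal (P.c_nonunit q)))

/-- Restriction to the annulus. -/
def annulus : P.ParamRing →ₐ[MvPowerSeries A O'] P.AnnRing := evalHom P.annIm P.annIm_mem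

/-- Restriction to the annulus fixes the inner coefficients. -/
theorem annulus_C (d : MvPowerSeries A O') :
    P.annulus (MvPowerSeries.C d) = MvPowerSeries.C d := P.annulus.commutes d

/-- Restriction to the annulus fixes the constants. -/
theorem annulus_constE (o : O') : P.annulus (P.constE o) = P.constA o := P.annulus_C _

/-- The coordinate `x` on the annulus. -/
theorem annulus_X_false (q : P.Ix) : P.annulus (MvPowerSeries.X (q, false)) =
    MvPowerSeries.C (P.annP₁ q) * (1 + MvPowerSeries.X q) := by
  change P.annulus _ = P.annIm (q, false)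
  exact evalHom_X P.annIm P.annIm_mem _

/-- The coordinate `a` on the annulus. -/
theorem annulus_X_true (q : P.Ix) : P.annulus (MvPowerSeries.X (q, true)) *
    (1 + MvPowerSeries.X q) = MvPowerSeries.C (P.annP₂ q * P.annB q) := by
  rw [show P.annulus (MvPowerSeries.X (q, true)) = P.annIm (q, true) from
    evalHom_X P.annIm P.annIm_mem _]
  simp only [annIm, if_true, ← oneAddX_coe, Units.inv_mul_cancel_right]

/-- The defining equation of the annulus. -/
theorem annulus_relation (q : A) :
    P.annulus (P.xE q * P.aE q) = P.annulus (2 * P.constE (co (D.s q)) * P.βE q) := by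
  by_cases hq : P.x0 q ≠ 0
  · simp only [xE, aE, βE, dif_pos hq, if_pos hq]
    refine (P.oneAddX ⟨q, hq⟩).isUnit.mul_left_inj.mp ?_
    rw [oneAddX_coe, map_mul, mul_assoc (P.annulus _), P.annulus_X_true ⟨q, hq⟩,
      P.annulus_X_false ⟨q, hq⟩]
    have hcq : MvPowerSeries.C (P.annP₁ ⟨q, hq⟩) * MvPowerSeries.C (P.annP₂ ⟨q, hq⟩) =
        (2 : P.AnnRing) * P.constA (co (D.s q)) := by
      simp only [annP₁, annP₂]
      rw [← map_mul, ← map_mul, P.c_rel ⟨q, hq⟩, map_mul, map_mul, map_ofNat, map_ofNat]
      rfl
    simp only [map_mul, map_add, map_ofNat, annulus_constE, annulus_C]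
    simp only [annB, map_add]
    simp only [constA, RingHom.comp_apply] at hcq ⊢
    linear_combination (1 + MvPowerSeries.X (⟨q, hq⟩ : P.Ix)) *
      (MvPowerSeries.C (MvPowerSeries.C (P.β q)) + MvPowerSeries.C (MvPowerSeries.X q)) * hcq
  · simp only [xE, βE, dif_neg hq, if_neg hq, zero_mul, mul_zero]

/-- The chart: the source ring on the annulus. -/
def chart : Src 𝒪 A G →+* P.AnnRing :=
  (P.annulus : P.ParamRing →+* P.AnnRing).comp (P.chartMap : Src 𝒪 A G →+* P.ParamRing)

/-- The chart satisfies the `χ` relations. -/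
theorem isChi_chart : IsChi D P.chart := by
  intro q
  rw [chart, phiAt_comp, sigAt_comp, chartMap_phi, chartMap_sig]
  refine ⟨?_, ?_, ?_, ?_⟩
  -- the determinant and trace conditions hold already over the parameter ring
  · rw [show ((P.ΦE q).map (P.annulus : P.ParamRing →+* P.AnnRing)) =
        (P.annulus : P.ParamRing →+* P.AnnRing).mapMatrix (P.ΦE q) from rfl,
      ← RingHom.map_det, ΦE_det, map_natCast]
  · rw [Matrix.trace_fin_two, Matrix.map_apply, Matrix.map_apply, ← map_add,
      ← Matrix.trace_fin_two, SigE_trace]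
    exact congrArg P.annulus
      ((P.chartMap.commutes (2 * D.κ q)).trans (P.algebraMap_paramRing _)).symm
  · rw [show ((P.SigE q).map (P.annulus : P.ParamRing →+* P.AnnRing)) =
        (P.annulus : P.ParamRing →+* P.AnnRing).mapMatrix (P.SigE q) from rfl,
      ← RingHom.map_det, SigE_det, map_one]
  -- commutation reduces to the triangular forms and the annulus relation
  · rw [← Matrix.map_mul, ← Matrix.map_mul]
    have hlin : P.ΦE q * P.SigE q - P.SigE q * P.ΦE q =
        P.conjE q (P.phiTri q * P.sigTri q - P.sigTri q * P.phiTri q) := by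
      simp only [ΦE, SigE, Matrix.mul_add, Matrix.add_mul, Matrix.mul_smul, Matrix.smul_mul,
        Matrix.mul_one, Matrix.one_mul, conjE_mul]
      simp only [conjE, Matrix.mul_sub, Matrix.sub_mul]
      abel
    rw [← sub_eq_zero, show (P.ΦE q * P.SigE q).map (P.annulus : P.ParamRing →+* P.AnnRing) -
        (P.SigE q * P.ΦE q).map (P.annulus : P.ParamRing →+* P.AnnRing) =
        (P.ΦE q * P.SigE q - P.SigE q * P.ΦE q).map (P.annulus : P.ParamRing →+* P.AnnRing) from
      (Matrix.map_sub _ (map_sub _) _ _).symm, hlin, conjE_map]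
    have : (P.phiTri q * P.sigTri q - P.sigTri q * P.phiTri q).map
        (P.annulus : P.ParamRing →+* P.AnnRing) = 0 := by
      refine Matrix.ext fun i j => ?_
      fin_cases i <;> fin_cases j <;> simp [phiTri, sigTri]
      · ring
      · have hkey := P.annulus_relation q
        simp only [map_mul, map_ofNat] at hkey
        linear_combination hkey
      · ring
    rw [this, Matrix.mul_zero, Matrix.zero_mul]

/-! ### The point on the chart -/

/-- Evaluation at the given point: the centre of the annulus. -/
def point : P.ParamRing →+* O' :=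
  (MvPowerSeries.constantCoeff.comp MvPowerSeries.constantCoeff).comp
    (P.annulus : P.ParamRing →+* P.AnnRing)

/-- The point fixes the constants. -/
theorem point_constE (o : O') : P.point (P.constE o) = o := by
  change MvPowerSeries.constantCoeff (MvPowerSeries.constantCoeff (P.annulus (P.constE o))) = o
  simp [annulus_constE, constA]

/-- The inner coordinates vanish at the point. -/
theorem point_C_X (q : A) :
    P.point (MvPowerSeries.C (MvPowerSeries.X q)) = 0 := by
  change MvPowerSeries.constantCoeff (MvPowerSeries.constantCoeff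
    (P.annulus (MvPowerSeries.C (MvPowerSeries.X q)))) = 0
  simp [annulus_C]

/-- Evaluation at the point is local. -/
theorem point_mem {z : P.ParamRing} (hz : z ∈ maximalIdeal P.ParamRing) :
    P.point z ∈ maximalIdeal O' := by
  have : IsLocalHom P.point :=
    IsLocalHom.of_surjective _ fun o => ⟨P.constE o, P.point_constE o⟩
  exact map_nonunit P.point _ hz

/-- The value of `xE` at the point. -/
theorem point_xE (q : A) : P.point (P.xE q) = P.x0 q := by
  simp only [xE]
  split_ifs with hq
  · change MvPowerSeries.constantCoeff (MvPowerSeries.constantCoeff (P.annulus _)) = _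
    simp [annulus_X_false P ⟨q, hq⟩, annP₁]
  · rw [map_zero]; exact (not_not.mp hq).symm

/-- The value of `βE` at the point. -/
theorem point_βE (q : A) : P.point (P.βE q) = P.β q := by
  simp only [βE]
  split_ifs with hq
  · rw [map_add, point_constE, point_C_X, add_zero]
  · rw [map_zero]; exact (P.β_eq_zero q (not_not.mp hq)).symm

/-- The value of `aE` at the point. -/
theorem point_aE (q : A) : P.point (P.aE q) = P.α q - P.δ q := by
  simp only [aE]
  split_ifs with hq
  · refine mul_left_cancel₀ hq ?_
    have h := congrArg (fun z => MvPowerSeries.constantCoeff (MvPowerSeries.constantCoeff z))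
      (P.annulus_X_true ⟨q, hq⟩)
    simp [annP₂, annB] at h
    change P.x0 q * MvPowerSeries.constantCoeff (MvPowerSeries.constantCoeff (P.annulus _)) = _
    rw [h, ← mul_assoc, P.c_rel ⟨q, hq⟩, P.rel q]
  · rw [map_add, point_constE, point_C_X, add_zero]

/-- The value of `αE` at the point. -/
theorem point_αE (q : A) : P.point (P.αE q) = P.α q := by
  have h := congrArg P.point (P.αE_eq q)
  rw [map_mul, map_sub, point_aE, map_natCast, ← P.α_mul_δ q] at h
  have h' : (P.point (P.αE q) - P.α q) * (P.point (P.αE q) + P.δ q) = 0 := by linear_combination h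
  refine sub_eq_zero.mp ((mul_eq_zero.mp h').resolve_right fun hz => ?_)
  have h1 : P.point (P.αE q) - co (D.e q) ∈ maximalIdeal O' := by
    have := P.point_mem (P.αE_sub_mem q)
    rwa [map_sub, point_constE] at this
  have h3 : 2 * co (D.e q) ∈ maximalIdeal O' := by
    have := sub_mem (neg_mem h1) (sub_mem (P.trace_sub_mem q) (P.α_sub_mem q))
    rwa [show -(P.point (P.αE q) - co (D.e q)) -
        (P.α q + P.δ q - 2 * co (D.e q) - (P.α q - co (D.e q))) =
      2 * co (D.e q) by linear_combination -hz] at this
  exact h3 (P.two_unit.mul (IsUnit.of_mul_eq_one _ (by rw [← pow_two]; exact co_e_sq q)))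

/-- Conjugation by the normalising basis at the point. -/
theorem conjE_map_point (q : A) (M : M2 P.ParamRing) :
    (P.conjE q M).map P.point = P.g q * M.map P.point * P.g' q := by
  rw [conjE_map]
  congr 2 <;> ext a b <;> exact P.point_constE _

/-- The images of the variables take the given values at the point. -/
theorem point_chartIm : ∀ v, P.point (P.chartIm v) = x (MvPowerSeries.X v) := by
  rintro (⟨q, t, i, j⟩ | i)
  · cases t
    · change P.point (P.ΦE q i j - P.constE (co (phi0 D q i j))) = _
      rw [map_sub, point_constE]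
      have h1 : (P.ΦE q).map P.point = P.g q * !![P.α q, P.β q; 0, P.δ q] * P.g' q := by
        rw [ΦE, conjE_map_point]
        congr 2
        ext a b
        fin_cases a <;> fin_cases b <;> simp [phiTri, point_αE, point_βE, point_aE]
      rw [show P.point (P.ΦE q i j) = (P.g q * !![P.α q, P.β q; 0, P.δ q] * P.g' q) i j from
        congrFun (congrFun h1 i) j, ← P.phi_eq q]
      simp [phiAt, apply_const]
    · change P.point (P.SigE q i j - (1 : M2 P.ParamRing) i j) = _
      have hM : (P.sigTri q).map P.point = !![co (D.s q), P.x0 q; 0, -co (D.s q)] := by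
        ext a b
        fin_cases a <;> fin_cases b <;> simp [sigTri, point_xE, point_constE]
      have h2 := congrFun (congrFun (P.conjE_map_point q (P.sigTri q)) i) j
      rw [Matrix.map_apply, hM, ← P.sig_eq q] at h2
      simp only [SigE, Matrix.add_apply, Matrix.smul_apply, smul_eq_mul, map_sub, map_add, map_mul,
        point_constE, h2, Matrix.sub_apply, Matrix.one_apply]
      by_cases hij : i = j
      · subst hij; simp [sigAt, -algebraMap_smul]
      · simp [sigAt, hij, -algebraMap_smul]
  · exact P.point_constE _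

/-- The given point lies on the chart. -/
theorem point_chartMap (f : Src 𝒪 A G) : P.point (P.chartMap f) = x f := by
  let ψ : Src 𝒪 A G →ₐ[𝒪] O' :=
    { P.point.comp (P.chartMap : Src 𝒪 A G →+* P.ParamRing) with
      commutes' := fun o => by
        change P.point (P.chartMap (algebraMap 𝒪 _ o)) = _
        rw [AlgHom.commutes, algebraMap_paramRing]; exact P.point_constE _ }
  have hψX : ∀ v, ψ (MvPowerSeries.X v) = x (MvPowerSeries.X v) := fun v => by
    change P.point (P.chartMap _) = _
    rw [chartMap_X, point_chartIm]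
  exact DFunLike.congr_fun (algHom_ext hψX fun v => (hψX v).symm ▸ P.small v) f

/-! ### The special fibre -/

/-- The parameters surviving on the special fibre. -/
def trueEmb : P.Ix ↪ P.Ix × Bool := ⟨fun q => (q, true), fun _ _ h => (Prod.ext_iff.mp h).1⟩

/-- The special fibre of the annulus, as a quotient of the parameter ring. -/
def specMap : P.ParamRing →+* MvPowerSeries P.Ix (MvPowerSeries A (ResidueField O')) :=
  (MvPowerSeries.killCompl (R := MvPowerSeries A (ResidueField O')) P.trueEmb : _ →+* _).comp
    (MvPowerSeries.map (MvPowerSeries.map (residue O')))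

/-- The special fibre on the inner coefficients. -/
theorem specMap_C (d : MvPowerSeries A O') :
    P.specMap (MvPowerSeries.C d) = MvPowerSeries.C ((MvPowerSeries.map (residue O')) d) := by
  change MvPowerSeries.killCompl P.trueEmb (MvPowerSeries.map (MvPowerSeries.map (residue O'))
    (MvPowerSeries.C d)) = _
  rw [MvPowerSeries.map_C, MvPowerSeries.killCompl_C]

/-- The special fibre on the constants. -/
theorem specMap_constE (o : O') :
    P.specMap (P.constE o) = MvPowerSeries.C (MvPowerSeries.C (residue O' o)) := by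
  change P.specMap (MvPowerSeries.C (MvPowerSeries.C o)) = _
  rw [specMap_C, MvPowerSeries.map_C]

/-- Each prime is `1` on the special fibre. -/
theorem specMap_natCast (q : A) : P.specMap (D.N q : P.ParamRing) = 1 := by
  rw [← map_natCast P.constE, specMap_constE,
    show residue O' (D.N q : O') = 1 by
      rw [← map_one (residue O'), ← sub_eq_zero, ← map_sub]
      exact (residue_eq_zero_iff _).mpr (natCast_sub_one_mem q),
    map_one, map_one]

/-- The special fibre lies on the annulus. -/
theorem specMap_eq_zero {F : P.ParamRing} (hF : P.annulus F = 0) : P.specMap F = 0 := by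
  classical
  have : IsDomain (MvPowerSeries A O') := NoZeroDivisors.to_isDomain _
  let : Fintype P.Ix := Fintype.ofFinite _
  obtain ⟨π, hπ⟩ := IsDiscreteValuationRing.exists_irreducible O'
  have hprimeπ : Prime (MvPowerSeries.C π : MvPowerSeries A O') := prime_C_of_irreducible hπ
  refine MvPowerSeries.ext fun e => ?_
  change MvPowerSeries.coeff e
    (MvPowerSeries.killCompl P.trueEmb (MvPowerSeries.map (MvPowerSeries.map (residue O')) F)) = _
  rw [MvPowerSeries.coeff_killCompl, MvPowerSeries.coeff_map, map_zero,
    ← C_dvd_iff_map_residue_eq_zero hπ]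
  refine dvd_coeff_of_annulus_eq_zero hprimeπ P.annP₁ P.annP₂ P.annB (fun q => map_dvd _ ?_)
    (fun q => ?_) (fun q h => ?_) P.annulus P.annulus_X_false P.annulus_X_true hF _ fun q => ?_
  · have := P.x0_mem q.1
    rwa [hπ.maximalIdeal_eq, Ideal.mem_span_singleton] at this
  · have hc0 : P.c q ≠ 0 := fun h => by
      have := P.c_rel q
      rw [h, mul_zero] at this
      exact mul_ne_zero P.two_unit.ne_zero (P.s_ne q.1) this.symm
    obtain ⟨v, w, hv⟩ := IsDiscreteValuationRing.eq_unit_mul_pow_irreducible hc0 hπ
    refine ⟨v, MvPowerSeries.C (w : O'), Nat.pos_of_ne_zero fun h0 => P.c_nonunit q ?_, ?_, ?_⟩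
    · rw [hv, h0, pow_zero, mul_one]; exact w.isUnit
    · change MvPowerSeries.C (P.c q) = _
      rw [hv, map_mul, map_pow, mul_comm]
    · exact fun hd => hprimeπ.not_isUnit (isUnit_of_dvd_unit hd (w.isUnit.map _))
  · rw [C_dvd_iff_map_residue_eq_zero hπ] at h
    have h1 := congrArg (MvPowerSeries.coeff (Finsupp.single q.1 1)) h
    rw [MvPowerSeries.coeff_map] at h1
    simp [annB, MvPowerSeries.coeff_C, MvPowerSeries.coeff_X] at h1
  · rw [Finsupp.embDomain_of_notMem_range]
    rintro ⟨q', hq'⟩
    simp [trueEmb] at hq'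

/-- On the special fibre the difference of the eigenvalues is not zero. -/
theorem specMap_aE_ne_zero (q : A) : P.specMap (P.aE q) ≠ 0 := by
  intro h0
  simp only [aE] at h0
  by_cases hq : P.x0 q ≠ 0
  · rw [dif_pos hq] at h0
    have h1 : P.specMap (MvPowerSeries.X (⟨q, hq⟩, true)) = MvPowerSeries.X ⟨q, hq⟩ := by
      change MvPowerSeries.killCompl P.trueEmb
        (MvPowerSeries.map (MvPowerSeries.map (residue O')) _) = _
      rw [MvPowerSeries.map_X]
      exact MvPowerSeries.killCompl_X (e := P.trueEmb) (⟨q, hq⟩ : P.Ix)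
    rw [h1] at h0
    have := congrArg (MvPowerSeries.coeff (Finsupp.single (⟨q, hq⟩ : P.Ix) 1)) h0
    simp at this
  · rw [dif_neg hq, map_add, specMap_constE, (residue_eq_zero_iff _).mpr (P.diag_sub_mem q),
      map_zero, map_zero, zero_add, specMap_C, MvPowerSeries.map_X] at h0
    have := congrArg MvPowerSeries.constantCoeff h0
    rw [MvPowerSeries.constantCoeff_C, map_zero] at this
    have h2 := congrArg (MvPowerSeries.coeff (Finsupp.single q 1)) this
    simp at h2

/-- On the special fibre the discriminant is the square of the difference of the eigenvalues. -/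
theorem specMap_disc (q : A) :
    P.specMap (P.chartMap (discAt D (RingHom.id _) q)) = P.specMap (P.aE q) ^ 2 := by
  have h1 : P.chartMap (discAt D (RingHom.id _) q) =
      (P.ΦE q).trace ^ 2 - (1 + (D.N q : P.ParamRing)) ^ 2 := by
    rw [← chartMap_phi]
    simp [discAt, phiAt, Matrix.trace_fin_two]
  have h3 := congrArg P.specMap (P.αE_eq q)
  rw [map_mul, map_sub, specMap_natCast] at h3
  rw [h1, ΦE_trace, map_sub, map_pow, map_pow, map_sub, map_add, map_one, specMap_natCast, map_mul,
    map_ofNat]
  linear_combination 4 * h3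

end ChartPoint

/-- **The chart.** Below an `IsChi` point there are a prime of the same type and above it a prime
containing `ϖ` which contains no `discAt`. -/
theorem exists_chart (h2 : IsUnit (2 : 𝒪)) {ϖ : 𝒪} (hϖ : ϖ ∈ maximalIdeal 𝒪) {O' : Type}
    [CommRing O'] [IsDomain O'] [IsDiscreteValuationRing O']
    [IsAdicComplete (maximalIdeal O') O'] [Algebra 𝒪 O'] [IsLocalHom (algebraMap 𝒪 O')]
    (hinj : Function.Injective (algebraMap 𝒪 O')) (x : Src 𝒪 A G →ₐ[𝒪] O')
    (hX : ∀ v, x (MvPowerSeries.X v) ∈ maximalIdeal O') (hchi : IsChi D (x : Src 𝒪 A G →+* O')) :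
    ∃ P' 𝔮 : Ideal (Src 𝒪 A G), P'.IsPrime ∧ P' ≤ RingHom.ker x ∧
      IsChi D (Ideal.Quotient.mk P') ∧ 𝔮.IsPrime ∧ P' ≤ 𝔮 ∧ algebraMap 𝒪 _ ϖ ∈ 𝔮 ∧
      ∀ q, discAt D (RingHom.id (Src 𝒪 A G)) q ∉ 𝔮 := by
  obtain ⟨P⟩ := exists_chartPoint D h2 hinj x hX hchi
  have : IsDomain (MvPowerSeries A O') := NoZeroDivisors.to_isDomain _
  have : IsDomain P.AnnRing := NoZeroDivisors.to_isDomain _
  have : IsDomain (MvPowerSeries A (ResidueField O')) := NoZeroDivisors.to_isDomain _
  have : IsDomain (MvPowerSeries P.Ix (MvPowerSeries A (ResidueField O'))) :=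
    NoZeroDivisors.to_isDomain _
  refine ⟨RingHom.ker P.chart, RingHom.ker
    (P.specMap.comp (P.chartMap : Src 𝒪 A G →+* P.ParamRing)),
    RingHom.ker_isPrime _, fun f hf => ?_, P.isChi_chart.quotient_ker, RingHom.ker_isPrime _,
    fun f hf => P.specMap_eq_zero hf, ?_, fun q hq => ?_⟩
  · change x f = 0
    rw [← P.point_chartMap]
    change MvPowerSeries.constantCoeff (MvPowerSeries.constantCoeff (P.annulus (P.chartMap f))) = 0
    rw [show P.annulus (P.chartMap f) = 0 from hf, map_zero, map_zero]
  · change P.specMap (P.chartMap (algebraMap 𝒪 _ ϖ)) = 0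
    rw [AlgHom.commutes, P.algebraMap_paramRing]
    rw [P.specMap_constE, (residue_eq_zero_iff _).mpr (map_nonunit (algebraMap 𝒪 O') _ hϖ),
      map_zero, map_zero]
  · have h0 : P.specMap (P.chartMap (discAt D (RingHom.id _) q)) = 0 := hq
    rw [P.specMap_disc q, sq_eq_zero_iff] at h0
    exact P.specMap_aE_ne_zero q h0

end Fermat.GR.Patch
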