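import Mathlib
import Fermat.Agent.GR.Patch.Local
import Fermat.Agent.GR.CommAlg.PowerSeriesRegular

/-!
# Dimension bounds

A power series ring in `d` variables has dimension at least `d + 1`, and a quotient of the source
ring with the `χ` relations at most `3|A| + |G| + 1` (`ringKrullDim_le_of_isChi`).
-/

set_option autoImplicit false
set_option linter.unusedSectionVars false

noncomputable section

namespace Fermat.GR.Patch

open IsLocalRing RingTheory.Sequence Matrix

/-- Chains of primes lift along injective integral ring maps. -/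
theorem ringKrullDim_le_of_injective_integral {R T : Type} [CommRing R] [CommRing T] (f : R →+* T)
    (hinj : Function.Injective f) (hint : f.IsIntegral) : ringKrullDim R ≤ ringKrullDim T := by
  let := f.toAlgebra
  have : Algebra.IsIntegral R T := ⟨hint⟩
  have key : ∀ c : LTSeries (PrimeSpectrum R), ∃ c' : LTSeries (PrimeSpectrum T),
      c'.length = c.length ∧ c'.last.asIdeal.comap (algebraMap R T) = c.last.asIdeal := by
    intro c
    induction c using RelSeries.inductionOn' with
    | singleton p =>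
      obtain ⟨Q, -, hQ, hQp⟩ := Ideal.exists_ideal_over_prime_of_isIntegral p.asIdeal (⊥ : Ideal T)
        (by rw [← RingHom.ker_eq_comap_bot,
              (RingHom.injective_iff_ker_eq_bot (algebraMap R T)).mp hinj]
            exact bot_le)
      exact ⟨RelSeries.singleton _ ⟨Q, hQ⟩, rfl, hQp⟩
    | snoc c p hp ih =>
      obtain ⟨c', hlen, hlast⟩ := ih
      have hlt : c.last.asIdeal < p.asIdeal := hp
      obtain ⟨Q, hle, hQ, hQp⟩ := Ideal.exists_ideal_over_prime_of_isIntegral p.asIdeal
        c'.last.asIdeal (hlast ▸ hlt.le)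
      refine ⟨c'.snoc ⟨Q, hQ⟩ (show c'.last < ⟨Q, hQ⟩ from lt_of_le_of_ne hle fun h => hlt.ne ?_),
        by simp [hlen], by simpa using hQp⟩
      rw [← hlast, ← hQp, show Q = c'.last.asIdeal from (congrArg PrimeSpectrum.asIdeal h).symm]
  refine iSup_le fun c => ?_
  obtain ⟨c', hlen, -⟩ := key c
  rw [← hlen]
  exact Order.LTSeries.length_le_krullDim c'

variable {𝒪 : Type} [CommRing 𝒪] [IsDomain 𝒪] [IsDiscreteValuationRing 𝒪]

/-- `dim 𝒪⟦X₁,…,X_d⟧ ≥ d + 1`. -/
theorem le_ringKrullDim_mvPowerSeries (d : ℕ) :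
    ((d + 1 : ℕ) : WithBot ℕ∞) ≤ ringKrullDim (MvPowerSeries (Fin d) 𝒪) := by
  obtain ⟨ϖ, hϖ⟩ := IsDiscreteValuationRing.exists_irreducible 𝒪
  have hmem := regularParams_mem_maximalIdeal (r := d) (show ϖ ∈ maximalIdeal 𝒪 from hϖ.not_isUnit)
  have hle : Ideal.ofList (regularParams d ϖ) ≤ maximalIdeal (MvPowerSeries (Fin d) 𝒪) :=
    Ideal.span_le.mpr hmem
  have hne : Ideal.ofList (regularParams d ϖ) ≠ ⊤ := fun h =>
    (maximalIdeal.isMaximal _).ne_top (top_le_iff.mp (h ▸ hle))
  have hreg : IsRegular (MvPowerSeries (Fin d) 𝒪) (regularParams d ϖ) :=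
    ⟨isWeaklyRegular_regularParams hϖ.ne_zero, by
      rw [smul_eq_mul, Ideal.mul_top]; exact fun h => hne h.symm⟩
  have : Nontrivial (MvPowerSeries (Fin d) 𝒪 ⧸ Ideal.ofList (regularParams d ϖ)) :=
    Ideal.Quotient.nontrivial_iff.mpr hne
  rw [← ringKrullDim_add_length_eq_ringKrullDim_of_isRegular _ hreg]
  have hlen : (regularParams d ϖ).length = d + 1 := by simp [regularParams]
  rw [hlen]
  exact le_add_of_nonneg_left ringKrullDim_nonneg_of_nontrivial

/-- In the special fibre of the `χ`-ring the residual parameters cut out a nilpotent scheme. -/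
theorem nilpotent_of_special {R : Type} [CommRing R] [IsLocalRing R] (h2 : IsUnit (2 : R))
    {e B h a b c : R} (he : e ^ 2 = 1) (hh : h - e ∈ maximalIdeal R) (hc : c ∈ maximalIdeal R)
    (hB : B = 0 ∨ IsUnit B) (r1 : a * a + b * c = 0) (r2 : (B - c) * c + b * b = 0)
    (r3 : 2 * a * (B - c) = 0) (r4 : 2 * a * b = 0) (r5 : h * h + b * (B - c) = 1) :
    IsNilpotent a ∧ IsNilpotent b ∧ IsNilpotent c ∧ IsNilpotent (h - e) := by
  have hab : a * b = 0 := h2.mul_right_eq_zero.mp (by rw [← mul_assoc]; exact r4)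
  have hac : a * (B - c) = 0 := h2.mul_right_eq_zero.mp (by rw [← mul_assoc]; exact r3)
  have habc : IsNilpotent a ∧ IsNilpotent b ∧ IsNilpotent c := by
    -- `B = 0`: the cubes vanish
    rcases hB with rfl | hB
    · have hac' : a * c = 0 := by linear_combination (-1 : R) * hac
      refine ⟨⟨3, ?_⟩, ⟨3, ?_⟩, ⟨3, ?_⟩⟩
      · linear_combination a * r1 - c * hab
      · linear_combination b * r2 + c * r1 - a * hac'
      · linear_combination -c * r2 + b * r1 - a * hab
    -- `B` a unit: `a = 0` and `c ^ 2 = 0`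
    · have hu : IsUnit (B - c) := by
        by_contra hu
        exact (show B ∈ maximalIdeal R by
            simpa using add_mem (show B - c ∈ maximalIdeal R from hu) hc) hB
      have ha : a = 0 := hu.mul_left_eq_zero.mp hac
      subst ha
      have hbc : b * c = 0 := by simpa using r1
      have hc2 : c * c = 0 := hu.mul_right_eq_zero.mp (show (B - c) * (c * c) = 0 by
        linear_combination c * r2 - b * hbc)
      refine ⟨IsNilpotent.zero, ⟨4, ?_⟩, ⟨2, by rw [pow_two]; exact hc2⟩⟩
      linear_combination (b * b - (B - c) * c) * r2 + (B - c) ^ 2 * hc2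
  refine ⟨habc.1, habc.2.1, habc.2.2, ?_⟩
  -- `h + e` is a unit and `(h - e) * (h + e)` is nilpotent
  have hu : IsUnit (h + e) := by
    by_contra hu
    have h3 : 2 * e ∈ maximalIdeal R := by
      have := sub_mem (show h + e ∈ maximalIdeal R from hu) hh
      rwa [show h + e - (h - e) = 2 * e by ring] at this
    exact h3 (h2.mul (IsUnit.of_mul_eq_one e (by rw [← pow_two, he])))
  have : IsNilpotent ((h - e) * (h + e)) := by
    rw [show (h - e) * (h + e) = -(b * (B - c)) by linear_combination r5 - he]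
    exact ((Commute.all b (B - c)).isNilpotent_mul_right habc.2.1).neg
  obtain ⟨n, hn⟩ := this
  exact ⟨n, (hu.pow n).mul_left_eq_zero.mp (by rw [← mul_pow]; exact hn)⟩

variable [IsAdicComplete (maximalIdeal 𝒪) 𝒪] {A G : Type} [Fintype A] [Fintype G]
  (D : LocalData 𝒪 A)

/-- The residual parameters of the `χ`-ring. -/
private def chiParam {R : Type} [CommRing R] (π : Src 𝒪 A G →+* R) (ϖ : 𝒪) :
    (A × Fin 3) ⊕ G ⊕ Unit → R :=
  Sum.elim
    (fun qi => ![π (MvPowerSeries.X (Sum.inl (qi.1, false, 0, 0))) -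
        π (MvPowerSeries.X (Sum.inl (qi.1, false, 1, 1))),
      π (MvPowerSeries.X (Sum.inl (qi.1, false, 0, 1))) +
        π (MvPowerSeries.X (Sum.inl (qi.1, true, 1, 0))),
      π (MvPowerSeries.X (Sum.inl (qi.1, false, 1, 0))) +
        π (MvPowerSeries.X (Sum.inl (qi.1, true, 0, 1)))] qi.2)
    (Sum.elim (fun g => π (MvPowerSeries.X (Sum.inr g)))
      (fun _ => π (algebraMap 𝒪 (Src 𝒪 A G) ϖ)))

/-- The residual parameters are non-units. -/
private theorem chiParam_mem {R : Type} [CommRing R] [IsLocalRing R] (π : Src 𝒪 A G →+* R)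
    [IsLocalHom π] {ϖ : 𝒪} (hϖ : ϖ ∈ maximalIdeal 𝒪) (i : (A × Fin 3) ⊕ G ⊕ Unit) :
    chiParam π ϖ i ∈ maximalIdeal R := by
  have hmax : ∀ v, π (MvPowerSeries.X v) ∈ maximalIdeal R := fun v =>
    map_nonunit π _ (X_mem_maximalIdeal v)
  rcases i with ⟨q, i⟩ | g | ⟨⟩
  · fin_cases i <;> simp only [chiParam, Sum.elim_inl] <;>
      simp [sub_mem (hmax _) (hmax _), add_mem (hmax _) (hmax _)]
  · exact hmax _
  · exact map_nonunit π _ (C_mem_maximalIdeal hϖ)

/-- Over a ring killing the maximal ideal and the residual parameters, the matrices at `q` have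
their special shape. -/
private theorem phiAt_sigAt_special {B : Type} [CommRing B] (f : Src 𝒪 A G →+* B) {ϖ : 𝒪}
    (hz : ∀ i, chiParam f ϖ i = 0) (q : A) :
    (phiAt D f q = !![f (algebraMap 𝒪 _ (D.e q)) + f (MvPowerSeries.X (Sum.inl (q, false, 1, 1))),
        f (algebraMap 𝒪 _ (D.e q)) * f (algebraMap 𝒪 _ (D.b q)) -
          f (MvPowerSeries.X (Sum.inl (q, true, 1, 0)));
        -f (MvPowerSeries.X (Sum.inl (q, true, 0, 1))),
        f (algebraMap 𝒪 _ (D.e q)) + f (MvPowerSeries.X (Sum.inl (q, false, 1, 1)))]) ∧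
      sigAt f q = !![1 + f (MvPowerSeries.X (Sum.inl (q, true, 0, 0))),
        f (MvPowerSeries.X (Sum.inl (q, true, 0, 1)));
        f (MvPowerSeries.X (Sum.inl (q, true, 1, 0))),
        1 + f (MvPowerSeries.X (Sum.inl (q, true, 1, 1)))] := by
  set X' : Bool → Fin 2 → Fin 2 → B := fun t i j => f (MvPowerSeries.X (Sum.inl (q, t, i, j)))
  set co : 𝒪 →+* B := f.comp (algebraMap 𝒪 (Src 𝒪 A G))
  -- vanishing parameters tie the entries of `φ` to each other and to those of `σ`
  have hz1 : X' false 0 0 = X' false 1 1 := by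
    have := hz (Sum.inl (q, 0))
    simp only [chiParam, Sum.elim_inl, Matrix.cons_val_zero] at this
    exact sub_eq_zero.mp this
  have hz2 : X' false 0 1 = -X' true 1 0 := by
    have := hz (Sum.inl (q, 1))
    simp only [chiParam, Sum.elim_inl, Matrix.cons_val_one] at this
    exact eq_neg_of_add_eq_zero_left this
  have hz3 : X' false 1 0 = -X' true 0 1 := by
    have := hz (Sum.inl (q, 2))
    simp only [chiParam, Sum.elim_inl, Matrix.cons_val_two, Matrix.tail_cons,
      Matrix.head_cons] at this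
    exact eq_neg_of_add_eq_zero_left this
  refine ⟨?_, ?_⟩
  -- compare entrywise
  · ext i j
    fin_cases i <;> fin_cases j
    · simp [phiAt, phi0, ← hz1, X']
    · change co (D.e q * D.b q) + X' false 0 1 = _
      rw [map_mul, hz2]; simp [co, X', sub_eq_add_neg]
    · change co 0 + X' false 1 0 = _
      rw [map_zero, zero_add, hz3]; simp [X']
    · simp [phiAt, phi0]
  · ext i j
    fin_cases i <;> fin_cases j <;> simp [sigAt]

/-- Over a ring killing the maximal ideal and the residual parameters the `χ` relations make the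
variables at each place nilpotent. -/
private theorem isNilpotent_of_isChi {B : Type} [CommRing B] [IsLocalRing B]
    (h2 : IsUnit (2 : 𝒪)) (f : Src 𝒪 A G →+* B) (h : IsChi D f)
    (hco : ∀ o ∈ maximalIdeal 𝒪, f (algebraMap 𝒪 _ o) = 0) {ϖ : 𝒪}
    (hz : ∀ i, chiParam f ϖ i = 0) (hmax : ∀ v, f (MvPowerSeries.X v) ∈ maximalIdeal B)
    (v : Var A G) : IsNilpotent (f (MvPowerSeries.X v)) := by
  rcases v with ⟨q, t, i, j⟩ | g
  swap
  · rw [show f (MvPowerSeries.X (Sum.inr g)) = 0 from hz (Sum.inr (Sum.inl g))]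
    exact IsNilpotent.zero
  obtain ⟨h1, h2', h3, h4⟩ := h q
  obtain ⟨hphi, hsig⟩ := phiAt_sigAt_special D f hz q
  set co : 𝒪 →+* B := f.comp (algebraMap 𝒪 (Src 𝒪 A G))
  set X' : Bool → Fin 2 → Fin 2 → B := fun t i j => f (MvPowerSeries.X (Sum.inl (q, t, i, j)))
  -- the constants `N_q` and `κ_q` map to `1`
  have hN : ((D.N q : ℕ) : B) = 1 := by
    rw [← sub_eq_zero, ← map_natCast co, ← map_one co, ← map_sub]; exact hco _ (D.N_sub q)
  have htr : X' true 0 0 + X' true 1 1 = 0 := by
    rw [hsig, Matrix.trace_fin_two] at h2'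
    have : f (algebraMap 𝒪 _ (2 * D.κ q)) = 2 := by
      change co (2 * D.κ q) = 2
      have hκ : co (D.κ q) = 1 := by
        rw [← sub_eq_zero, ← map_one co, ← map_sub]; exact hco _ (D.κ_sub q)
      rw [map_mul, hκ, mul_one, map_ofNat]
    rw [this] at h2'
    simp at h2'
    linear_combination h2'
  rw [hphi, hN, Matrix.det_fin_two] at h1
  rw [hsig, Matrix.det_fin_two] at h3
  rw [hphi, hsig] at h4
  have e00 := congrFun (congrFun h4 0) 0
  have e01 := congrFun (congrFun h4 0) 1
  have e10 := congrFun (congrFun h4 1) 0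
  simp [Matrix.mul_apply, Fin.sum_univ_two] at h1 h3 e00 e01 e10
  -- the relations make four entries nilpotent, the vanishing parameters give the rest
  obtain ⟨na, nb, nc, nh⟩ := nilpotent_of_special (by rw [← map_ofNat co]; exact h2.map co)
    (e := co (D.e q)) (B := co (D.e q) * co (D.b q)) (h := co (D.e q) + X' false 1 1)
    (a := X' true 0 0) (b := X' true 0 1) (c := X' true 1 0)
    (by rw [← map_pow, D.e_sq, map_one]) (by simpa [X'] using hmax (Sum.inl (q, false, 1, 1)))
    (hmax _)
    ((D.b_cases q).imp (fun hb => by rw [hb, map_zero, mul_zero]) fun hb =>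
      ((IsUnit.of_mul_eq_one (D.e q) (by rw [← pow_two, D.e_sq])).map co).mul (hb.map co))
    (by linear_combination -h3 + (1 + X' true 0 0) * htr)
    (by linear_combination e00)
    (by linear_combination -e01 + (co (D.e q) * co (D.b q) - X' true 1 0) * htr)
    (by linear_combination -e10 + X' true 0 1 * htr)
    (by linear_combination h1)
  rw [show co (D.e q) + X' false 1 1 - co (D.e q) = X' false 1 1 by ring] at nh
  have hz1 : X' false 0 0 = X' false 1 1 := sub_eq_zero.mp (hz (Sum.inl (q, 0)))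
  have hz2 : X' false 0 1 = -X' true 1 0 := eq_neg_of_add_eq_zero_left (hz (Sum.inl (q, 1)))
  have hz3 : X' false 1 0 = -X' true 0 1 := eq_neg_of_add_eq_zero_left (hz (Sum.inl (q, 2)))
  change IsNilpotent (X' t i j)
  cases t <;> fin_cases i <;> fin_cases j
  · exact hz1 ▸ nh
  · exact hz2 ▸ nc.neg
  · exact hz3 ▸ nb.neg
  · exact nh
  · exact na
  · exact nb
  · exact nc
  · change IsNilpotent (X' true 1 1)
    rw [eq_neg_of_add_eq_zero_right htr]; exact na.neg

/-- If the scalars of the maximal ideal die and all variables become nilpotent then every element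
of the maximal ideal becomes nilpotent. -/
private theorem isNilpotent_map_of_mem {B : Type} [CommRing B] (f : Src 𝒪 A G →+* B)
    (hco : ∀ o ∈ maximalIdeal 𝒪, f (algebraMap 𝒪 _ o) = 0)
    (hnil : ∀ v, IsNilpotent (f (MvPowerSeries.X v))) {g : Src 𝒪 A G}
    (hg : g ∈ maximalIdeal (Src 𝒪 A G)) : IsNilpotent (f g) := by
  have hg1 : g - algebraMap 𝒪 _ (MvPowerSeries.constantCoeff g) ∈
      Ideal.span (Set.range (MvPowerSeries.X : Var A G → Src 𝒪 A G)) :=
    mem_spanX_of_constantCoeff_eq_zero (by simp [MvPowerSeries.algebraMap_apply])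
  have hc : MvPowerSeries.constantCoeff g ∈ maximalIdeal 𝒪 := fun hu =>
    hg (MvPowerSeries.isUnit_iff_constantCoeff.mpr hu)
  have h2 : IsNilpotent (f (g - algebraMap 𝒪 _ (MvPowerSeries.constantCoeff g))) :=
    (Ideal.span_le (I := (nilradical B).comap f)).mpr (by rintro _ ⟨v, rfl⟩; exact hnil v) hg1
  rwa [map_sub, hco _ hc, sub_zero] at h2

/-- A local quotient of the source ring in which the `χ` relations hold has dimension at most
`3|A| + |G| + 1`. -/
theorem ringKrullDim_le_of_isChi (h2 : IsUnit (2 : 𝒪)) {R : Type} [CommRing R] [IsLocalRing R]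
    [IsNoetherianRing R] (π : Src 𝒪 A G →+* R) (hπ : Function.Surjective π) (h : IsChi D π) :
    ringKrullDim R ≤ ((3 * Fintype.card A + Fintype.card G + 1 : ℕ) : WithBot ℕ∞) := by
  classical
  obtain ⟨ϖ, hϖ⟩ := IsDiscreteValuationRing.exists_irreducible 𝒪
  have hπl : IsLocalHom π := IsLocalHom.of_surjective _ hπ
  set z := chiParam π ϖ
  set J : Ideal R := Ideal.span (Finset.univ.image z : Finset R)
  have hJle : J ≤ maximalIdeal R := by
    refine Ideal.span_le.mpr ?_
    rintro _ hy
    obtain ⟨i, -, rfl⟩ := Finset.mem_image.mp hy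
    exact chiParam_mem π hϖ.not_isUnit i
  have : Nontrivial (R ⧸ J) := Ideal.Quotient.nontrivial_iff.mpr fun h =>
    (maximalIdeal.isMaximal R).ne_top (top_le_iff.mp (h ▸ hJle))
  have : IsLocalRing (R ⧸ J) :=
    IsLocalRing.of_surjective' (Ideal.Quotient.mk J) Ideal.Quotient.mk_surjective
  have : IsLocalHom (Ideal.Quotient.mk J) := IsLocalHom.of_surjective _ Ideal.Quotient.mk_surjective
  set f : Src 𝒪 A G →+* R ⧸ J := (Ideal.Quotient.mk J).comp π
  have hz : ∀ i, chiParam f ϖ i = 0 := fun i => by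
    have h0 : Ideal.Quotient.mk J (z i) = 0 := Ideal.Quotient.eq_zero_iff_mem.mpr
      (Ideal.subset_span (Finset.mem_image_of_mem z (Finset.mem_univ i)))
    rw [← h0]
    rcases i with ⟨q, i⟩ | g | ⟨⟩
    · fin_cases i <;> simp [z, chiParam, f]
    · rfl
    · rfl
  have hfo : ∀ o ∈ maximalIdeal 𝒪, f (algebraMap 𝒪 _ o) = 0 := by
    intro o ho
    rw [hϖ.maximalIdeal_eq, Ideal.mem_span_singleton'] at ho
    obtain ⟨c, rfl⟩ := ho
    rw [map_mul, map_mul]
    exact mul_eq_zero_of_right _ (hz (Sum.inr (Sum.inr ())))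
  have hnil := isNilpotent_of_isChi D h2 f (h.comp D (Ideal.Quotient.mk J)) hfo hz fun v =>
    map_nonunit (Ideal.Quotient.mk J) _ (map_nonunit π _ (X_mem_maximalIdeal v))
  -- hence `maximalIdeal R` is minimal over `J`
  have hrad : maximalIdeal R ≤ J.radical := by
    intro r hr
    obtain ⟨g, rfl⟩ := hπ r
    obtain ⟨n, hn⟩ := isNilpotent_map_of_mem f hfo hnil (g := g) (fun hu => hr (hu.map _))
    refine ⟨n, ?_⟩
    rw [← Ideal.Quotient.eq_zero_iff_mem, map_pow]
    exact hn
  have hcard : (Finset.univ.image z).card ≤ 3 * Fintype.card A + Fintype.card G + 1 := by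
    refine Finset.card_image_le.trans ?_
    simp [mul_comm]
    omega
  have hmin : maximalIdeal R ∈ J.minimalPrimes := by
    refine ⟨⟨inferInstance, hJle⟩, fun p hp _ => ?_⟩
    exact hrad.trans ((hp.1.radical_le_iff).mpr hp.2)
  rw [← IsLocalRing.maximalIdeal_height_eq_ringKrullDim]
  exact WithBot.coe_le_coe.mpr
    ((Ideal.height_le_card_of_mem_minimalPrimes_span_finset hmin).trans (Nat.cast_le.mpr hcard))

end Fermat.GR.Patch
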