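import Mathlib
import Fermat.Agent.GR.ES.DVRExt
import Fermat.Agent.GR.Deform.PowerSeriesComplete

/-!
# Points of complete local algebras in characteristic zero

`exists_point`: a prime avoiding `ϖ` lies under a point with values in a finite extension.
-/

set_option autoImplicit false

noncomputable section

namespace Fermat.GR.Patch

open IsLocalRing

/-- A noetherian local domain in which every nonzero prime contains a fixed nonzero element has
dimension at most one. -/
theorem eq_maximalIdeal_of_forall_mem {R : Type} [CommRing R] [IsDomain R] [IsLocalRing R]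
    [IsNoetherianRing R] {t : R} (ht0 : t ≠ 0) (ht : ∀ Q : Ideal R, Q.IsPrime → Q ≠ ⊥ → t ∈ Q)
    (Q : Ideal R) [hQ : Q.IsPrime] (hQ0 : Q ≠ ⊥) : Q = maximalIdeal R := by
  by_contra hne
  -- primes of height one are minimal over `t`, so there are finitely many
  have hmin : ∀ p : Ideal R, p.IsPrime → p ≠ ⊥ → p.height ≤ 1 →
      p ∈ (Ideal.span {t}).minimalPrimes := by
    intro p hp hp0 hp1
    obtain ⟨p', hp', hle⟩ := Ideal.exists_minimalPrimes_le
      (show Ideal.span {t} ≤ p from (Ideal.span_singleton_le_iff_mem _).mpr (ht p hp hp0))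
    have := hp'.1.1
    rcases lt_or_eq_of_le hle with h | rfl
    · exfalso
      have h0 : p' ≠ ⊥ := fun h' => ht0 (Ideal.mem_bot.mp
        (h' ▸ hp'.1.2 (Ideal.mem_span_singleton_self t)))
      have : (⊥ : Ideal R).IsPrime := Ideal.isPrime_bot
      have := hp
      have h1 := Ideal.height_strict_mono_of_isPrime (I := p') (J := p) h
      have h2 := Ideal.height_strict_mono_of_isPrime (I := (⊥ : Ideal R)) (J := p')
        (bot_lt_iff_ne_bot.mpr h0)
      have h3 : p'.height < 1 := h1.trans_le hp1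
      rw [Order.lt_one_iff] at h3
      rw [h3] at h2
      exact not_lt_zero h2
    · exact hp'
  have hfin : (Ideal.span {t}).minimalPrimes.Finite :=
    Ideal.finite_minimalPrimes_of_isNoetherianRing R _
  by_cases hsub : (maximalIdeal R : Set R) ⊆ ⋃ p ∈ (hfin.toFinset : Set (Ideal R)), (p : Set R)
  -- if they cover the maximal ideal it is one of them, hence inside `Q`
  · obtain ⟨p, hp, hle⟩ := (Ideal.subset_union_prime (R := R) (I := maximalIdeal R)
      (f := fun p => p) ⊥ ⊥ (fun p hp _ _ => (hfin.mem_toFinset.mp hp).1.1)).mp hsub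
    have hpmin := hfin.mem_toFinset.mp hp
    have := hpmin.1.1
    have hp' : p = maximalIdeal R := le_antisymm (le_maximalIdeal hpmin.1.1.ne_top) hle
    have : maximalIdeal R ≤ Q := hp' ▸ hpmin.2 ⟨hQ, (Ideal.span_singleton_le_iff_mem _).mpr
      (ht Q hQ hQ0)⟩ (hp' ▸ le_maximalIdeal hQ.ne_top)
    exact hne (le_antisymm (le_maximalIdeal hQ.ne_top) this)
  -- otherwise a prime minimal over an uncovered `x` is among them
  · obtain ⟨x, hxm, hx⟩ := Set.not_subset.mp hsub
    have hxtop : Ideal.span {x} ≠ ⊤ := fun h =>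
      hxm ((Ideal.span_singleton_eq_top).mp h)
    obtain ⟨p, hp⟩ := Ideal.nonempty_minimalPrimes hxtop
    have := hp.1.1
    have hx0 : x ≠ 0 := by
      rintro rfl
      refine hx ?_
      obtain ⟨p', hp'⟩ := Ideal.nonempty_minimalPrimes (show Ideal.span {t} ≠ ⊤ from fun h =>
        hQ.ne_top (top_le_iff.mp (h ▸ (Ideal.span_singleton_le_iff_mem Q).mpr (ht Q hQ hQ0))))
      exact Set.mem_biUnion (hfin.mem_toFinset.mpr hp') (zero_mem p')
    have hp0 : p ≠ ⊥ := fun h =>
      hx0 (Ideal.mem_bot.mp (h ▸ hp.1.2 (Ideal.mem_span_singleton_self x)))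
    have h1 : p.height ≤ 1 := Ideal.height_le_one_of_isPrincipal_of_mem_minimalPrimes _ _ hp
    exact hx (Set.mem_biUnion (hfin.mem_toFinset.mpr (hmin p inferInstance hp0 h1))
      (hp.1.2 (Ideal.mem_span_singleton_self x)))

/-- A prime over `P` maximal among those avoiding `u`: every nonzero prime of the quotient
contains the image of `u`. -/
private theorem exists_prime_avoiding {Λ : Type} [CommRing Λ] [IsNoetherianRing Λ] (P : Ideal Λ)
    [P.IsPrime] {u : Λ} (hu : u ∉ P) :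
    ∃ Q : Ideal Λ, Q.IsPrime ∧ P ≤ Q ∧ u ∉ Q ∧
      ∀ R' : Ideal (Λ ⧸ Q), R'.IsPrime → R' ≠ ⊥ → Ideal.Quotient.mk Q u ∈ R' := by
  obtain ⟨Q, ⟨hPQ, hQp, huQ⟩, hmax⟩ := WellFounded.has_min (wellFounded_gt (α := Ideal Λ))
    {Q | P ≤ Q ∧ Q.IsPrime ∧ u ∉ Q} ⟨P, le_rfl, inferInstance, hu⟩
  refine ⟨Q, hQp, hPQ, huQ, fun R' hR' hne => ?_⟩
  by_contra h
  have := hR'
  refine hmax (R'.comap (Ideal.Quotient.mk Q)) ⟨hPQ.trans ?_, inferInstance, h⟩ ?_
  · intro a ha
    simp [Ideal.Quotient.eq_zero_iff_mem.mpr ha]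
  · refine lt_of_le_of_ne (fun a ha => by simp [Ideal.Quotient.eq_zero_iff_mem.mpr ha])
      fun heq => hne ?_
    rw [← Ideal.map_comap_of_surjective _ Ideal.Quotient.mk_surjective R', ← heq,
      Ideal.map_quotient_self]

/-- A principal ideal of a local domain of dimension one has finite quotient when the residue field
is finite. -/
private theorem finite_quotient_span {D : Type} [CommRing D] [IsDomain D] [IsLocalRing D]
    [IsNoetherianRing D] [Finite (ResidueField D)] {t : D} (ht0 : t ≠ 0)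
    (hQm : ∀ R' : Ideal D, R'.IsPrime → R' ≠ ⊥ → R' = maximalIdeal D) :
    Finite (D ⧸ Ideal.span {t}) := by
  have hrad : maximalIdeal D ≤ (Ideal.span {t}).radical := by
    rw [Ideal.radical_eq_sInf]
    refine le_sInf fun R' hR' => ?_
    exact (hQm R' hR'.2 fun h => ht0 (Ideal.mem_bot.mp
      (h ▸ hR'.1 (Ideal.mem_span_singleton_self _)))).ge
  obtain ⟨k, hk⟩ := Ideal.exists_pow_le_of_le_radical_of_fg hrad
    (IsNoetherian.noetherian (maximalIdeal D))
  have : Finite (D ⧸ maximalIdeal D ^ k) := Fermat.GR.finite_quotient_maximalIdeal_pow D k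
  exact Finite.of_surjective (Ideal.Quotient.factor hk) (Ideal.Quotient.factor_surjective hk)

/-- A quotient of a ring with residue field that of `𝒪` has finite residue field. -/
private theorem finite_residueField_quotient {𝒪 : Type} [CommRing 𝒪] [IsLocalRing 𝒪]
    [Finite (ResidueField 𝒪)] {Λ : Type}
    [CommRing Λ] [IsLocalRing Λ] [Algebra 𝒪 Λ]
    (hres : Function.Surjective (residue Λ ∘ algebraMap 𝒪 Λ)) (Q : Ideal Λ) [IsLocalRing (Λ ⧸ Q)]
    [IsLocalHom (Ideal.Quotient.mk Q)] [IsLocalHom (algebraMap 𝒪 (Λ ⧸ Q))] :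
    Finite (ResidueField (Λ ⧸ Q)) := by
  refine Finite.of_surjective (ResidueField.map (algebraMap 𝒪 (Λ ⧸ Q))) fun z => ?_
  obtain ⟨d, rfl⟩ := residue_surjective z
  obtain ⟨a, rfl⟩ := Ideal.Quotient.mk_surjective d
  obtain ⟨o, ho⟩ := hres (residue Λ a)
  refine ⟨residue 𝒪 o, ?_⟩
  rw [ResidueField.map_residue]
  change residue (Λ ⧸ Q) (Ideal.Quotient.mk Q (algebraMap 𝒪 Λ o)) = _
  rw [← ResidueField.map_residue (Ideal.Quotient.mk Q),
    ← ResidueField.map_residue (Ideal.Quotient.mk Q)]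
  exact congrArg _ ho

/-- Elements of `𝔪 ^ n • N` lie in the power of the maximal ideal upstairs. -/
private theorem coe_mem_pow {𝒪 : Type} [CommRing 𝒪] [IsLocalRing 𝒪] {D : Type} [CommRing D]
    [IsLocalRing D] [Algebra 𝒪 D] [IsLocalHom (algebraMap 𝒪 D)] (N : Submodule 𝒪 D) (n : ℕ) {z : N}
    (hz : z ∈ (maximalIdeal 𝒪 ^ n • ⊤ : Submodule 𝒪 N)) : (z : D) ∈ maximalIdeal D ^ n := by
  have hmap : (maximalIdeal 𝒪).map (algebraMap 𝒪 D) ≤ maximalIdeal D :=
    Ideal.map_le_iff_le_comap.mpr fun o ho => map_nonunit (algebraMap 𝒪 D) o ho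
  refine Submodule.smul_induction_on hz (fun o ho w _ => ?_) fun u v hu hv => ?_
  · rw [Submodule.coe_smul, Algebra.smul_def]
    exact Ideal.mul_mem_right _ _ (Ideal.pow_right_mono hmap n
      (Ideal.map_pow (algebraMap 𝒪 D) _ n ▸ Ideal.mem_map_of_mem _ ho))
  · rw [Submodule.coe_add]; exact add_mem hu hv

variable {𝒪 : Type} [CommRing 𝒪] [IsDomain 𝒪] [IsDiscreteValuationRing 𝒪]
  [IsAdicComplete (maximalIdeal 𝒪) 𝒪] [Finite (ResidueField 𝒪)] [CharZero 𝒪]

omit [Finite (ResidueField 𝒪)] [CharZero 𝒪] in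
/-- A complete local algebra with finite quotient by a non-unit scalar is a finite module. -/
private theorem module_finite_of_finite_quotient {D : Type} [CommRing D] [IsLocalRing D]
    [Algebra 𝒪 D] [IsLocalHom (algebraMap 𝒪 D)] [IsAdicComplete (maximalIdeal D) D] {ϖ : 𝒪}
    (hϖ : ϖ ∈ maximalIdeal 𝒪) [Finite (D ⧸ Ideal.span {algebraMap 𝒪 D ϖ})] :
    Module.Finite 𝒪 D := by
  classical
  set I : Ideal D := Ideal.span {algebraMap 𝒪 D ϖ}
  let g : Finset D := Set.Finite.toFinset (Set.finite_range fun z : D ⧸ I => Quotient.out z)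
  refine ⟨⟨g, eq_top_iff.mpr fun d _ => ?_⟩⟩
  let N : Submodule 𝒪 D := Submodule.span 𝒪 (g : Set D)
  have : Module.Finite 𝒪 N := Module.Finite.span_of_finite 𝒪 g.finite_toSet
  have hstep : ∀ d : D, ∃ a ∈ N, ∃ c, d = a + algebraMap 𝒪 D ϖ * c := by
    intro d
    refine ⟨Quotient.out (Ideal.Quotient.mk I d), Submodule.subset_span
      ((Set.Finite.mem_toFinset _).mpr ⟨_, rfl⟩), ?_⟩
    have : d - Quotient.out (Ideal.Quotient.mk I d) ∈ I := by
      rw [← Ideal.Quotient.eq, Ideal.Quotient.mk_out]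
    obtain ⟨c, hc⟩ := Ideal.mem_span_singleton'.mp this
    exact ⟨c, by linear_combination -hc⟩
  -- successive approximation by the representatives converges in their span
  choose a haN c hc using hstep
  let r : ℕ → D := fun n => Nat.rec d (fun _ x => c x) n
  let s : ℕ → N := fun n => ∑ i ∈ Finset.range n, ϖ ^ i • (⟨a (r i), haN _⟩ : N)
  have hsum : ∀ n, d = (s n : D) + algebraMap 𝒪 D ϖ ^ n * r n := by
    intro n
    induction n with
    | zero => simp [s, r]
    | succ n ih =>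
      rw [ih]
      simp only [s, Finset.sum_range_succ, Submodule.coe_add, Submodule.coe_smul, Algebra.smul_def,
        map_pow]
      change _ + algebraMap 𝒪 D ϖ ^ n * r n = _ + _ + algebraMap 𝒪 D ϖ ^ (n + 1) * c (r n)
      conv_lhs => rw [hc (r n)]
      ring
  have : IsAdicComplete (maximalIdeal 𝒪) N := IsAdicComplete.of_module_finite (maximalIdeal 𝒪) N
  obtain ⟨L, hL⟩ := IsPrecomplete.prec' (I := maximalIdeal 𝒪) (M := N) s (by
    intro m n hmn
    rw [SModEq.sub_mem]
    have : s m - s n = -∑ i ∈ Finset.Ico m n, ϖ ^ i • (⟨a (r i), haN _⟩ : N) := by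
      simp only [s, Finset.sum_Ico_eq_sub _ hmn, neg_sub]
    rw [this]
    refine neg_mem (Submodule.sum_mem _ fun i hi => ?_)
    exact Submodule.smul_mem_smul (Ideal.pow_le_pow_right (Finset.mem_Ico.mp hi).1
      (Ideal.pow_mem_pow hϖ i)) Submodule.mem_top)
  have hd : d = L := by
    refine IsHausdorff.eq_iff_smodEq (I := maximalIdeal D).mpr fun n => ?_
    rw [SModEq.sub_mem, smul_eq_mul, Ideal.mul_top]
    have h1 : ((s n - L : N) : D) ∈ maximalIdeal D ^ n := coe_mem_pow N n (SModEq.sub_mem.mp (hL n))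
    have h3 : algebraMap 𝒪 D ϖ ^ n * r n ∈ maximalIdeal D ^ n :=
      Ideal.mul_mem_right _ _ (Ideal.pow_mem_pow (map_nonunit (algebraMap 𝒪 D) ϖ hϖ) n)
    have := add_mem h1 h3
    rwa [show ((s n - L : N) : D) + algebraMap 𝒪 D ϖ ^ n * r n = d - L by
      push_cast; linear_combination -(hsum n)] at this
  rw [hd]
  exact L.2

omit [IsAdicComplete (maximalIdeal 𝒪) 𝒪] [Finite (ResidueField 𝒪)] [CharZero 𝒪] in
/-- An algebra which is a domain where a non-unit scalar is nonzero is faithful. -/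
private theorem injective_algebraMap_of_ne_zero {D : Type} [CommRing D] [IsDomain D] [Algebra 𝒪 D]
    {ϖ : 𝒪} (hϖ : ϖ ∈ maximalIdeal 𝒪) (hϖD : algebraMap 𝒪 D ϖ ≠ 0) :
    Function.Injective (algebraMap 𝒪 D) := by
  rw [injective_iff_map_eq_zero]
  intro o ho
  by_contra h0
  obtain ⟨ϖ0, hirr⟩ := IsDiscreteValuationRing.exists_irreducible 𝒪
  obtain ⟨m, w, rfl⟩ := IsDiscreteValuationRing.eq_unit_mul_pow_irreducible h0 hirr
  rw [map_mul, (w.isUnit.map _).mul_right_eq_zero, map_pow] at ho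
  have h1 : algebraMap 𝒪 D ϖ0 = 0 := eq_zero_of_pow_eq_zero ho
  rw [hirr.maximalIdeal_eq, Ideal.mem_span_singleton'] at hϖ
  obtain ⟨c', rfl⟩ := hϖ
  exact hϖD (by rw [map_mul, h1, mul_zero])

/-- Primes avoiding `ϖ` lie under points with values in finite extensions, avoiding any given
element outside the prime. -/
theorem exists_point {Λ : Type} [CommRing Λ] [IsLocalRing Λ] [IsNoetherianRing Λ] [Algebra 𝒪 Λ]
    [IsLocalHom (algebraMap 𝒪 Λ)]
    (hres : Function.Surjective (residue Λ ∘ algebraMap 𝒪 Λ))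
    [IsAdicComplete (maximalIdeal Λ) Λ] {ϖ : 𝒪} (hϖ : ϖ ∈ maximalIdeal 𝒪)
    (P : Ideal Λ) [P.IsPrime] (hP : algebraMap 𝒪 Λ ϖ ∉ P) {f : Λ} (hf : f ∉ P) :
    ∃ (E : Fermat.GR.DVRExt 𝒪) (x : Λ →ₐ[𝒪] E.carrier), P ≤ RingHom.ker x ∧ x f ≠ 0 := by
  have huP : algebraMap 𝒪 Λ ϖ * f ∉ P :=
    fun h => (Ideal.IsPrime.mem_or_mem inferInstance h).elim hP hf
  obtain ⟨Q, _, hPQ, huQ, hall⟩ := exists_prime_avoiding P huP
  set D := Λ ⧸ Q
  have : IsLocalRing D :=
    IsLocalRing.of_surjective' (Ideal.Quotient.mk Q) Ideal.Quotient.mk_surjective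
  have hQm : ∀ R' : Ideal D, R'.IsPrime → R' ≠ ⊥ → R' = maximalIdeal D := fun R' hR' hne =>
    haveI := hR'
    eq_maximalIdeal_of_forall_mem
      (fun h => huQ (Ideal.Quotient.eq_zero_iff_mem.mp h)) hall R' hne
  have hϖD : algebraMap 𝒪 D ϖ ≠ 0 := by
    intro h
    refine huQ (Q.mul_mem_right f (Ideal.Quotient.eq_zero_iff_mem.mp ?_))
    rwa [← Ideal.Quotient.algebraMap_eq, ← IsScalarTower.algebraMap_apply]
  have hmkl : IsLocalHom (Ideal.Quotient.mk Q) :=
    IsLocalHom.of_surjective _ Ideal.Quotient.mk_surjective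
  have : IsLocalHom (algebraMap 𝒪 D) := ⟨fun o ho =>
    (inferInstance : IsLocalHom (algebraMap 𝒪 Λ)).map_nonunit o (hmkl.map_nonunit _ ho)⟩
  have : IsLocalHom (algebraMap Λ D) := hmkl
  have : IsAdicComplete (maximalIdeal D) D :=
    IsLocalRing.isAdicComplete_of_module_finite (𝒪 := Λ)
  have : Finite (ResidueField D) := finite_residueField_quotient hres Q
  have : Finite (D ⧸ Ideal.span {algebraMap 𝒪 D ϖ}) := finite_quotient_span hϖD hQm
  have : Module.Finite 𝒪 D := module_finite_of_finite_quotient hϖ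
  have : Algebra.IsIntegral 𝒪 D := Algebra.IsIntegral.of_finite 𝒪 D
  -- embed into the ring of integers of a finite extension
  obtain ⟨g, hg⟩ := exists_extend_algClosed (algebraMap 𝒪 D)
    (injective_algebraMap_of_ne_zero hϖ hϖD) (fun x => Algebra.IsIntegral.isIntegral x)
    (algebraMap 𝒪 (AlgebraicClosure (FractionRing 𝒪)))
  let gA : D →ₐ[𝒪] AlgebraicClosure (FractionRing 𝒪) :=
    { g with commutes' := fun c => DFunLike.congr_fun hg c }
  obtain ⟨E, f', j, hj, hjf⟩ := exists_dvr_of_algHom D gA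
  have hker : RingHom.ker f' = ⊥ := by
    by_contra hne
    have h1 : algebraMap 𝒪 D ϖ ∈ RingHom.ker f' :=
      hQm _ (RingHom.ker_isPrime f') hne ▸ map_nonunit (algebraMap 𝒪 D) ϖ hϖ
    rw [RingHom.mem_ker, AlgHom.commutes] at h1
    exact hϖD (by rw [E.injective (h1.trans (map_zero _).symm), map_zero])
  refine ⟨E, f'.comp (Ideal.Quotient.mkₐ 𝒪 Q), ?_, ?_⟩
  · intro a ha
    change f' (Ideal.Quotient.mk Q a) = 0
    rw [Ideal.Quotient.eq_zero_iff_mem.mpr (hPQ ha), map_zero]
  · intro h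
    have h1 : Ideal.Quotient.mk Q f = 0 := Ideal.mem_bot.mp
      (hker ▸ (show Ideal.Quotient.mk Q f ∈ RingHom.ker f' from h))
    exact huQ (Q.mul_mem_left _ (Ideal.Quotient.eq_zero_iff_mem.mp h1))

end Fermat.GR.Patch
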