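import Mathlib
import Fermat.Agent.GR.Patch.Local

/-!
# The relations of the two local conditions as elements of the source ring

The conditions `IsChi` and `IsOne` are the vanishing of `relChi` and `relOne` (`isChi_iff`,
`isOne_iff`).
-/

set_option autoImplicit false

noncomputable section

namespace Fermat.GR.Patch

variable {𝒪 : Type} [CommRing 𝒪] [IsLocalRing 𝒪] {A G : Type} (D : LocalData 𝒪 A)

local notation "Λ" => Src 𝒪 A G

/-- The relations of the `χ` condition. -/
def relChi : Set (Src 𝒪 A G) :=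
  ⋃ q : A, {(phiAt D (RingHom.id Λ) q).det - (D.N q : Λ),
      (sigAt (RingHom.id Λ) q).trace - algebraMap 𝒪 Λ (2 * D.κ q),
      (sigAt (RingHom.id Λ) q).det - 1} ∪
      Set.range fun ij : Fin 2 × Fin 2 => (phiAt D (RingHom.id Λ) q * sigAt (RingHom.id Λ) q -
        sigAt (RingHom.id Λ) q * phiAt D (RingHom.id Λ) q) ij.1 ij.2

/-- The relations of the unipotent condition. -/
def relOne : Set (Src 𝒪 A G) :=
  ⋃ q : A, {(phiAt D (RingHom.id Λ) q).det - (D.N q : Λ),
      (sigAt (RingHom.id Λ) q).trace - 2, (sigAt (RingHom.id Λ) q).det - 1} ∪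
      Set.range fun ij : Fin 2 × Fin 2 => (phiAt D (RingHom.id Λ) q * sigAt (RingHom.id Λ) q -
        sigAt (RingHom.id Λ) q ^ D.N q * phiAt D (RingHom.id Λ) q) ij.1 ij.2

variable {B : Type} [CommRing B] (f : Src 𝒪 A G →+* B)

/-- `phiAt` is the image of the generic matrix. -/
theorem phiAt_eq_mapMatrix (q : A) : phiAt D f q = f.mapMatrix (phiAt D (RingHom.id Λ) q) :=
  (phiAt_comp D (RingHom.id Λ) f q).trans rfl

omit [IsLocalRing 𝒪] in
/-- `sigAt` is the image of the generic matrix. -/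
theorem sigAt_eq_mapMatrix (q : A) : sigAt f q = f.mapMatrix (sigAt (RingHom.id Λ) q) :=
  (sigAt_comp (RingHom.id Λ) f q).trans rfl

omit [IsLocalRing 𝒪] in
/-- The trace of an image. -/
theorem trace_mapMatrix (M : Matrix (Fin 2) (Fin 2) (Src 𝒪 A G)) :
    (f.mapMatrix M).trace = f M.trace := by
  simp [Matrix.trace_fin_two]

/-- The condition `IsChi` is the vanishing of its relations. -/
theorem isChi_iff : IsChi D f ↔ ∀ z ∈ relChi D, f z = 0 := by
  constructor
  · intro h z hz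
    obtain ⟨q, hz⟩ := Set.mem_iUnion.mp hz
    obtain ⟨e1, e2, e3, e4⟩ := h q
    rw [phiAt_eq_mapMatrix, sigAt_eq_mapMatrix, ← map_mul, ← map_mul] at e4
    rw [phiAt_eq_mapMatrix, ← RingHom.map_det] at e1
    rw [sigAt_eq_mapMatrix, ← RingHom.map_det] at e3
    rw [sigAt_eq_mapMatrix, trace_mapMatrix] at e2
    rcases hz with (rfl | rfl | rfl) | ⟨⟨i, j⟩, rfl⟩
    · rw [map_sub, map_natCast, e1, sub_self]
    · rw [map_sub, e2, sub_self]
    · rw [map_sub, e3, map_one, sub_self]
    · simp only [Matrix.sub_apply, map_sub, sub_eq_zero]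
      exact congrFun (congrFun e4 i) j
  · intro h q
    rw [phiAt_eq_mapMatrix, sigAt_eq_mapMatrix,
      trace_mapMatrix, ← RingHom.map_det, ← RingHom.map_det, ← map_mul, ← map_mul]
    refine ⟨?_, ?_, ?_, ?_⟩
    · have := h _ (Set.mem_iUnion.mpr ⟨q, Or.inl (Or.inl rfl)⟩)
      rwa [map_sub, map_natCast, sub_eq_zero] at this
    · have := h _ (Set.mem_iUnion.mpr ⟨q, Or.inl (Or.inr (Or.inl rfl))⟩)
      rwa [map_sub, sub_eq_zero] at this
    · have := h _ (Set.mem_iUnion.mpr ⟨q, Or.inl (Or.inr (Or.inr rfl))⟩)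
      rwa [map_sub, map_one, sub_eq_zero] at this
    · refine Matrix.ext fun i j => ?_
      have := h _ (Set.mem_iUnion.mpr ⟨q, Or.inr ⟨(i, j), rfl⟩⟩)
      simp only [Matrix.sub_apply, map_sub, sub_eq_zero] at this
      exact this

/-- The condition `IsOne` is the vanishing of its relations. -/
theorem isOne_iff : IsOne D f ↔ ∀ z ∈ relOne D, f z = 0 := by
  constructor
  · intro h z hz
    obtain ⟨q, hz⟩ := Set.mem_iUnion.mp hz
    obtain ⟨e1, e2, e3, e4⟩ := h q
    rw [phiAt_eq_mapMatrix, sigAt_eq_mapMatrix, ← map_pow, ← map_mul, ← map_mul] at e4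
    rw [phiAt_eq_mapMatrix, ← RingHom.map_det] at e1
    rw [sigAt_eq_mapMatrix, ← RingHom.map_det] at e3
    rw [sigAt_eq_mapMatrix, trace_mapMatrix] at e2
    rcases hz with (rfl | rfl | rfl) | ⟨⟨i, j⟩, rfl⟩
    · rw [map_sub, map_natCast, e1, sub_self]
    · rw [map_sub, e2, map_ofNat, sub_self]
    · rw [map_sub, e3, map_one, sub_self]
    · simp only [Matrix.sub_apply, map_sub, sub_eq_zero]
      exact congrFun (congrFun e4 i) j
  · intro h q
    rw [phiAt_eq_mapMatrix, sigAt_eq_mapMatrix,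
      trace_mapMatrix, ← RingHom.map_det, ← RingHom.map_det, ← map_pow, ← map_mul, ← map_mul]
    refine ⟨?_, ?_, ?_, ?_⟩
    · have := h _ (Set.mem_iUnion.mpr ⟨q, Or.inl (Or.inl rfl)⟩)
      rwa [map_sub, map_natCast, sub_eq_zero] at this
    · have := h _ (Set.mem_iUnion.mpr ⟨q, Or.inl (Or.inr (Or.inl rfl))⟩)
      rwa [map_sub, map_ofNat, sub_eq_zero] at this
    · have := h _ (Set.mem_iUnion.mpr ⟨q, Or.inl (Or.inr (Or.inr rfl))⟩)
      rwa [map_sub, map_one, sub_eq_zero] at this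
    · refine Matrix.ext fun i j => ?_
      have := h _ (Set.mem_iUnion.mpr ⟨q, Or.inr ⟨(i, j), rfl⟩⟩)
      simp only [Matrix.sub_apply, map_sub, sub_eq_zero] at this
      exact this

end Fermat.GR.Patch
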