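import Mathlib
import Fermat.Agent.GR.Patch.Dim
import Fermat.Agent.GR.Patch.Points
import Fermat.Agent.GR.Patch.Chart
import Fermat.Agent.GR.Patch.Relations

/-!
# Ihara avoidance, commutative algebra part

Two quotients of the same power series ring, one satisfying the `χ` relations and the other the
unipotent relations, both finite and torsion free over `𝒪⟦X₁,…,X_d⟧` with `d = 3|A| + |G|`, and
with compatible special fibres: then the unipotent one has a characteristic zero point over the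
augmentation at which all the inertia variables vanish.
-/

set_option autoImplicit false
set_option linter.unusedSectionVars false

noncomputable section

namespace Fermat.GR.Patch

open IsLocalRing

variable {𝒪 : Type} [CommRing 𝒪] [IsDomain 𝒪] [IsDiscreteValuationRing 𝒪]
  [IsAdicComplete (maximalIdeal 𝒪) 𝒪] {d : ℕ}

section Minimal

variable {Λ : Type} [CommRing Λ] [Algebra 𝒪 Λ] {K : Ideal Λ}
  (ι : MvPowerSeries (Fin d) 𝒪 →ₐ[𝒪] Λ ⧸ K)
  (htf : ∀ (s : MvPowerSeries (Fin d) 𝒪) (z : Λ ⧸ K), s ≠ 0 → ι s * z = 0 → z = 0)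

include htf in
/-- A minimal prime over `K` meets the image of the parameters only in zero. -/
theorem eq_zero_of_mem_minimalPrimes {P : Ideal Λ} (hP : P ∈ K.minimalPrimes)
    {s : MvPowerSeries (Fin d) 𝒪} {f : Λ} (hf : Ideal.Quotient.mk K f = ι s) (hfP : f ∈ P) :
    s = 0 := by
  by_contra hs
  have hPK : P.map (Ideal.Quotient.mk K) ∈ minimalPrimes (Λ ⧸ K) := by
    have := hP.1.1
    refine ⟨⟨Ideal.map_isPrime_of_surjective Ideal.Quotient.mk_surjective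
      (by rw [Ideal.mk_ker]; exact hP.1.2), bot_le⟩, fun q hq hle => ?_⟩
    have h1 : q.comap (Ideal.Quotient.mk K) ≤ P := by
      intro a ha
      have := hle ha
      rw [Ideal.mem_map_iff_of_surjective _ Ideal.Quotient.mk_surjective] at this
      obtain ⟨b, hb, hba⟩ := this
      rw [Ideal.Quotient.eq] at hba
      simpa using sub_mem hb (hP.1.2 hba)
    have := hq.1
    have h2 := hP.2 ⟨inferInstance, fun a ha => by
      simp [Ideal.mem_comap, Ideal.Quotient.eq_zero_iff_mem.mpr ha]⟩ h1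
    exact Ideal.map_le_iff_le_comap.mpr h2
  exact Set.disjoint_left.mp (Ideal.disjoint_nonZeroDivisors_of_mem_minimalPrimes hPK)
    (Ideal.mem_map_of_mem _ hfP)
    (by
      rw [hf]
      exact mem_nonZeroDivisors_iff.mpr ⟨fun z hz => htf s z hs hz,
        fun z hz => htf s z hs (by rwa [mul_comm] at hz)⟩)

include htf in
/-- The parameters inject into the quotient by a minimal prime over `K`. -/
theorem injective_quotient_of_minimalPrime {P : Ideal Λ} (hP : P ∈ K.minimalPrimes) :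
    Function.Injective ((Ideal.Quotient.factor hP.1.2).comp (ι : MvPowerSeries (Fin d) 𝒪 →+*
      Λ ⧸ K)) := by
  rw [injective_iff_map_eq_zero]
  intro s hs
  obtain ⟨f, hf⟩ := Ideal.Quotient.mk_surjective (ι s)
  refine eq_zero_of_mem_minimalPrimes ι htf hP hf ?_
  change Ideal.Quotient.factor hP.1.2 (ι s) = 0 at hs
  rwa [← hf, Ideal.Quotient.factor_mk, Ideal.Quotient.eq_zero_iff_mem] at hs

/-- The quotient by a prime over `K` is integral over the parameters. -/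
theorem isIntegral_quotient (hfin : (ι : MvPowerSeries (Fin d) 𝒪 →+* Λ ⧸ K).Finite) {P : Ideal Λ}
    (hP : K ≤ P) :
    ((Ideal.Quotient.factor hP).comp (ι : MvPowerSeries (Fin d) 𝒪 →+* Λ ⧸ K)).IsIntegral :=
  ((RingHom.Finite.of_surjective _ (Ideal.Quotient.factor_surjective hP)).comp hfin).to_isIntegral

include htf in
/-- A nonzero constant lies in no minimal prime over `K`. -/
theorem algebraMap_notMem_of_minimalPrime {P : Ideal Λ} (hP : P ∈ K.minimalPrimes) {c : 𝒪}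
    (hc : c ≠ 0) : algebraMap 𝒪 Λ c ∉ P := fun h => by
  have h0 := eq_zero_of_mem_minimalPrimes ι htf hP (s := algebraMap 𝒪 _ c)
    (f := algebraMap 𝒪 Λ c) (by rw [AlgHom.commutes]; rfl) h
  have h1 := congrArg MvPowerSeries.constantCoeff h0
  simp [MvPowerSeries.algebraMap_apply, hc] at h1

include htf in
/-- Above a minimal prime lies a prime over the augmentation of the parameters. -/
theorem exists_prime_over_augmentation
    (hfin : (ι : MvPowerSeries (Fin d) 𝒪 →+* Λ ⧸ K).Finite) {P : Ideal Λ}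
    (hP : P ∈ K.minimalPrimes) :
    ∃ Q : Ideal Λ, Q.IsPrime ∧ P ≤ Q ∧ (∀ c : 𝒪, c ≠ 0 → algebraMap 𝒪 Λ c ∉ Q) ∧
      ∀ k f, Ideal.Quotient.mk K f = ι (MvPowerSeries.X k) → f ∈ Q := by
  have := hP.1.1
  have hinj := injective_quotient_of_minimalPrime ι htf hP
  have hint := isIntegral_quotient ι hfin hP.1.2
  set j := (Ideal.Quotient.factor hP.1.2).comp (ι : MvPowerSeries (Fin d) 𝒪 →+* Λ ⧸ K)
  let aug : MvPowerSeries (Fin d) 𝒪 →+* 𝒪 := MvPowerSeries.constantCoeff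
  let := j.toAlgebra
  have : Algebra.IsIntegral (MvPowerSeries (Fin d) 𝒪) (Λ ⧸ P) := ⟨hint⟩
  have : (RingHom.ker aug).IsPrime := RingHom.ker_isPrime aug
  obtain ⟨Q', -, hQ', hQ'c⟩ := Ideal.exists_ideal_over_prime_of_isIntegral (RingHom.ker aug)
    (⊥ : Ideal (Λ ⧸ P)) (by
      rw [← RingHom.ker_eq_comap_bot]
      exact ((RingHom.injective_iff_ker_eq_bot j).mp hinj).le.trans bot_le)
  have := hQ'
  have hj : ∀ s f, Ideal.Quotient.mk K f = ι s →
      algebraMap (MvPowerSeries (Fin d) 𝒪) (Λ ⧸ P) s = Ideal.Quotient.mk P f := by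
    intro s f hfs
    change Ideal.Quotient.factor hP.1.2 (ι s) = _
    rw [← hfs, Ideal.Quotient.factor_mk]
  refine ⟨Q'.comap (Ideal.Quotient.mk P), inferInstance, fun a ha => ?_, fun c hc h => ?_,
    fun k f hk => ?_⟩
  · simp [Ideal.mem_comap, Ideal.Quotient.eq_zero_iff_mem.mpr ha]
  · have h1 : algebraMap 𝒪 (MvPowerSeries (Fin d) 𝒪) c ∈ RingHom.ker aug := by
      rw [← hQ'c, Ideal.mem_comap, hj _ (algebraMap 𝒪 Λ c) (by rw [AlgHom.commutes]; rfl)]
      exact h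
    simp [RingHom.mem_ker, aug, MvPowerSeries.algebraMap_apply, hc] at h1
  · rw [Ideal.mem_comap, ← hj _ f hk, ← Ideal.mem_comap, hQ'c, RingHom.mem_ker]
    simp [aug]

end Minimal

/-- A prime containing no other minimal prime over `J` misses a common element of the other ones. -/
theorem exists_notMem_forall_minimalPrimes {R : Type} [CommRing R] [IsNoetherianRing R]
    (J P : Ideal R) [P.IsPrime] (hP : ∀ M ∈ J.minimalPrimes, M ≤ P → M = P) :
    ∃ f, f ∉ P ∧ ∀ M ∈ J.minimalPrimes, M ≠ P → f ∈ M := by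
  classical
  have hfin : J.minimalPrimes.Finite := Ideal.finite_minimalPrimes_of_isNoetherianRing R J
  obtain ⟨f, hf, hfP⟩ := SetLike.not_le_iff_exists.mp
    (show ¬ (hfin.toFinset.filter (· ≠ P)).inf id ≤ P from fun h => by
      obtain ⟨M, hM, hle⟩ := (Ideal.IsPrime.inf_le' inferInstance).mp h
      obtain ⟨h1, h2⟩ := Finset.mem_filter.mp hM
      exact h2 (hP M (hfin.mem_toFinset.mp h1) hle))
  exact ⟨f, hfP, fun M hM hne => Finset.inf_le (f := id)
    (Finset.mem_filter.mpr ⟨hfin.mem_toFinset.mpr hM, hne⟩) hf⟩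

variable [Finite (ResidueField 𝒪)] [CharZero 𝒪] {A G : Type} [Fintype A] [Fintype G]
  (D : LocalData 𝒪 A)

/-- The unipotent relations are preserved by ring maps. -/
theorem IsOne.comp {B C : Type} [CommRing B] [CommRing C] {f : Src 𝒪 A G →+* B} (h : IsOne D f)
    (g : B →+* C) : IsOne D (g.comp f) := by
  intro q
  obtain ⟨e1, e2, e3, e4⟩ := h q
  rw [phiAt_comp, sigAt_comp]
  refine ⟨?_, ?_, ?_, ?_⟩
  · rw [← RingHom.mapMatrix_apply, ← RingHom.map_det, e1, map_natCast]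
  · rw [Matrix.trace_fin_two, Matrix.map_apply, Matrix.map_apply, ← map_add,
      ← Matrix.trace_fin_two, e2, map_ofNat]
  · rw [← RingHom.mapMatrix_apply, ← RingHom.map_det, e3, map_one]
  · rw [← RingHom.mapMatrix_apply, ← RingHom.mapMatrix_apply, ← map_pow, ← map_mul, ← map_mul, e4]

/-- A quotient satisfies the `χ`-relations exactly when it kills them. -/
theorem isChi_mk_iff (I : Ideal (Src 𝒪 A G)) :
    IsChi D (Ideal.Quotient.mk I) ↔ Ideal.span (relChi D) ≤ I := by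
  simp [isChi_iff, Ideal.span_le, Set.subset_def, Ideal.Quotient.eq_zero_iff_mem]

/-- A minimal prime over `Kχ` contains no other prime satisfying the `χ`-relations. -/
theorem eq_of_isChi_of_le_minimalPrime (h2 : IsUnit (2 : 𝒪))
    (hd : d = 3 * Fintype.card A + Fintype.card G) {K : Ideal (Src 𝒪 A G)}
    (ι : MvPowerSeries (Fin d) 𝒪 →ₐ[𝒪] Src 𝒪 A G ⧸ K)
    (hfin : (ι : MvPowerSeries (Fin d) 𝒪 →+* Src 𝒪 A G ⧸ K).Finite)
    (htf : ∀ (s : MvPowerSeries (Fin d) 𝒪) (z : Src 𝒪 A G ⧸ K), s ≠ 0 → ι s * z = 0 → z = 0)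
    {P : Ideal (Src 𝒪 A G)} (hP : P ∈ K.minimalPrimes) {P' : Ideal (Src 𝒪 A G)} [P'.IsPrime]
    (hle : P' ≤ P) (hchi : IsChi D (Ideal.Quotient.mk P')) : P' = P := by
  have := hP.1.1
  by_contra hne
  obtain ⟨r, hrP, hrP'⟩ := SetLike.exists_of_lt (lt_of_le_of_ne hle hne)
  have : IsLocalRing (Src 𝒪 A G ⧸ P') :=
    IsLocalRing.of_surjective' (Ideal.Quotient.mk P') Ideal.Quotient.mk_surjective
  have hr0 : Ideal.Quotient.mk P' r ∈ nonZeroDivisors (Src 𝒪 A G ⧸ P') :=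
    mem_nonZeroDivisors_of_ne_zero fun h => hrP' (Ideal.Quotient.eq_zero_iff_mem.mp h)
  have h3 : ringKrullDim (Src 𝒪 A G ⧸ P) + 1 ≤ ringKrullDim (Src 𝒪 A G ⧸ P') :=
    ringKrullDim_succ_le_of_surjective (Ideal.Quotient.factor hle)
      (Ideal.Quotient.factor_surjective hle) hr0
      (by rw [Ideal.Quotient.factor_mk, Ideal.Quotient.eq_zero_iff_mem]; exact hrP)
  -- a larger prime would have too large a dimension
  have h4 := ringKrullDim_le_of_isChi D h2 (Ideal.Quotient.mk P') Ideal.Quotient.mk_surjective hchi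
  have h5 := (le_ringKrullDim_mvPowerSeries (𝒪 := 𝒪) d).trans
    (ringKrullDim_le_of_injective_integral _ (injective_quotient_of_minimalPrime ι htf hP)
      (isIntegral_quotient ι hfin hP.1.2))
  have h6 : ((d + 1 : ℕ) : WithBot ℕ∞) + 1 ≤ ((d + 1 : ℕ) : WithBot ℕ∞) := by
    refine (add_le_add h5 le_rfl).trans (h3.trans (h4.trans ?_))
    rw [hd]
  have h7 : ((d + 2 : ℕ) : WithBot ℕ∞) ≤ ((d + 1 : ℕ) : WithBot ℕ∞) := by
    exact_mod_cast h6
  have h8 : d + 2 ≤ d + 1 := by exact_mod_cast h7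
  omega

/-- A point with values finite over `𝒪` sends the variables into the maximal ideal. -/
theorem apply_X_mem_maximalIdeal {O' : Type} [CommRing O'] [IsLocalRing O']
    [Algebra 𝒪 O'] [Module.Finite 𝒪 O'] (x : Src 𝒪 A G →ₐ[𝒪] O') (v : Var A G) :
    x (MvPowerSeries.X v) ∈ maximalIdeal O' := by
  intro hu
  have : Algebra.IsIntegral 𝒪 O' := Algebra.IsIntegral.of_finite 𝒪 O'
  have hint : (RingHom.kerLift (x : Src 𝒪 A G →+* O')).IsIntegral := by
    refine RingHom.IsIntegral.tower_top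
      ((Ideal.Quotient.mk _).comp (algebraMap 𝒪 (Src 𝒪 A G))) _ ?_
    have : (RingHom.kerLift (x : Src 𝒪 A G →+* O')).comp
        ((Ideal.Quotient.mk _).comp (algebraMap 𝒪 (Src 𝒪 A G))) = algebraMap 𝒪 O' :=
      RingHom.ext fun o => x.commutes o
    rw [this]
    exact fun z => Algebra.IsIntegral.isIntegral z
  have : IsLocalHom (RingHom.kerLift (x : Src 𝒪 A G →+* O')) :=
    RingHom.IsIntegral.isLocalHom hint (RingHom.kerLift_injective _)
  have : IsLocalHom (Ideal.Quotient.mk (RingHom.ker (x : Src 𝒪 A G →+* O'))) :=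
    haveI : Nontrivial (Src 𝒪 A G ⧸ RingHom.ker (x : Src 𝒪 A G →+* O')) :=
      Ideal.Quotient.nontrivial_iff.mpr (RingHom.ker_ne_top _)
    IsLocalHom.of_surjective _ Ideal.Quotient.mk_surjective
  exact X_mem_maximalIdeal v (IsLocalHom.map_nonunit (f := Ideal.Quotient.mk _) _
    (IsLocalHom.map_nonunit (f := RingHom.kerLift (x : Src 𝒪 A G →+* O')) _ hu))

/-- Some prime over `Kχ` and `ϖ` contains none of the discriminants. -/
theorem exists_prime_disc_notMem (h2 : IsUnit (2 : 𝒪)) {ϖ : 𝒪} (hϖ : Irreducible ϖ)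
    (hd : d = 3 * Fintype.card A + Fintype.card G) {K : Ideal (Src 𝒪 A G)} (hK : K ≠ ⊤)
    (hχ : IsChi D (Ideal.Quotient.mk K))
    (ι : MvPowerSeries (Fin d) 𝒪 →ₐ[𝒪] Src 𝒪 A G ⧸ K)
    (hfin : (ι : MvPowerSeries (Fin d) 𝒪 →+* Src 𝒪 A G ⧸ K).Finite)
    (htf : ∀ (s : MvPowerSeries (Fin d) 𝒪) (z : Src 𝒪 A G ⧸ K), s ≠ 0 → ι s * z = 0 → z = 0) :
    ∃ 𝔮 : Ideal (Src 𝒪 A G), 𝔮.IsPrime ∧ K ≤ 𝔮 ∧ algebraMap 𝒪 _ ϖ ∈ 𝔮 ∧
      ∀ q, discAt D (RingHom.id _) q ∉ 𝔮 := by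
  classical
  have hϖm : ϖ ∈ maximalIdeal 𝒪 := hϖ.not_isUnit
  obtain ⟨P, hP⟩ := Ideal.nonempty_minimalPrimes hK
  have := hP.1.1
  -- a point of `P` lying on no other component
  obtain ⟨f, hf, hfo⟩ := exists_notMem_forall_minimalPrimes (Ideal.span (relChi D)) P
    fun M hM hle => by
      have := hM.1.1
      exact eq_of_isChi_of_le_minimalPrime D h2 hd ι hfin htf hP hle
        ((isChi_mk_iff D M).mpr hM.1.2)
  have : IsLocalHom (algebraMap 𝒪 (Src 𝒪 A G)) := ⟨fun o ho => by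
    have h' : IsUnit (MvPowerSeries.constantCoeff (MvPowerSeries.C (σ := Var A G) o)) :=
      MvPowerSeries.isUnit_iff_constantCoeff.mp ho
    rwa [MvPowerSeries.constantCoeff_C] at h'⟩
  obtain ⟨⟨O', hinj⟩, x, hPx, hxf⟩ :=
    exists_point (Λ := Src 𝒪 A G) Fermat.GR.residue_comp_algebraMap_surjective hϖm P
      (algebraMap_notMem_of_minimalPrime ι htf hP hϖ.ne_zero) hf
  have hchix : IsChi D (x : Src 𝒪 A G →+* O') := by
    have : (x : Src 𝒪 A G →+* O') = (Ideal.Quotient.lift K (x : Src 𝒪 A G →+* O')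
        fun a ha => hPx (hP.1.2 ha)).comp (Ideal.Quotient.mk K) := RingHom.ext fun _ => rfl
    rw [this]
    exact hχ.comp D _
  -- a chart through the point, and its prime in the closed fibre
  obtain ⟨P', 𝔮, hP'p, hP'x, hP'chi, h𝔮, hP'𝔮, hϖ𝔮, hdisc⟩ :=
    exists_chart D h2 hϖm hinj x (apply_X_mem_maximalIdeal x) hchix
  obtain ⟨M, hM, hMP'⟩ := Ideal.exists_minimalPrimes_le ((isChi_mk_iff D P').mp hP'chi)
  have hMP : M = P := by
    by_contra hne
    exact hxf (hP'x (hMP' (hfo M hM hne)))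
  subst hMP
  exact ⟨𝔮, h𝔮, hP.1.2.trans (hMP'.trans hP'𝔮), hϖ𝔮, hdisc⟩

/-- Where no discriminant vanishes, the unipotent relations kill the inertia variables. -/
theorem X_mem_of_isOne_of_disc {P : Ideal (Src 𝒪 A G)} [P.IsPrime]
    (h : IsOne D (Ideal.Quotient.mk P)) (hdisc : ∀ q, discAt D (RingHom.id _) q ∉ P)
    (q : A) (i j : Fin 2) : MvPowerSeries.X (Sum.inl (q, true, i, j)) ∈ P := by
  obtain ⟨e1, e2, e3, e4⟩ := h q
  have hN : ((D.N q : ℕ) : Src 𝒪 A G ⧸ P) ≠ 0 := by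
    rw [← map_natCast ((Ideal.Quotient.mk P).comp (algebraMap 𝒪 (Src 𝒪 A G)))]
    refine IsUnit.ne_zero (IsUnit.map _ ?_)
    by_contra hu
    have h1 := sub_mem (show (D.N q : 𝒪) ∈ maximalIdeal 𝒪 from hu) (D.N_sub q)
    rw [sub_sub_cancel] at h1
    exact (maximalIdeal.isMaximal 𝒪).ne_top ((Ideal.eq_top_iff_one _).mpr h1)
  have hd' : (phiAt D (Ideal.Quotient.mk P) q).trace ^ 2 -
      (1 + ((D.N q : ℕ) : Src 𝒪 A G ⧸ P)) ^ 2 ≠ 0 := by
    have he : (phiAt D (Ideal.Quotient.mk P) q).trace ^ 2 -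
        (1 + ((D.N q : ℕ) : Src 𝒪 A G ⧸ P)) ^ 2 =
        Ideal.Quotient.mk P (discAt D (RingHom.id (Src 𝒪 A G)) q) := by
      simp [discAt, phiAt, Matrix.trace_fin_two]
    rw [he, Ne, Ideal.Quotient.eq_zero_iff_mem]
    exact hdisc q
  have h0 := congrFun (congrFun (sub_one_eq_zero_of_disc hN e1 e2 e3 e4 hd') i) j
  rw [← Ideal.Quotient.eq_zero_iff_mem]
  simpa [sigAt] using h0

/-- **Ihara avoidance.** Congruent finite torsion free quotients of both types give a prime over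
`K₁` avoiding `ϖ` which kills the inertia variables and the parameters, and no `discAt` lies in
`K₁`. -/
theorem exists_avoiding_prime (h2 : IsUnit (2 : 𝒪)) {ϖ : 𝒪} (hϖ : Irreducible ϖ)
    {Kχ K₁ : Ideal (Src 𝒪 A G)} (hKχ : Kχ ≠ ⊤) (hχ : IsChi D (Ideal.Quotient.mk Kχ))
    (h₁ : IsOne D (Ideal.Quotient.mk K₁)) (hd : d = 3 * Fintype.card A + Fintype.card G)
    (ιχ : MvPowerSeries (Fin d) 𝒪 →ₐ[𝒪] Src 𝒪 A G ⧸ Kχ)
    (hfinχ : (ιχ : MvPowerSeries (Fin d) 𝒪 →+* Src 𝒪 A G ⧸ Kχ).Finite)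
    (htfχ : ∀ (s : MvPowerSeries (Fin d) 𝒪) (z : Src 𝒪 A G ⧸ Kχ), s ≠ 0 → ιχ s * z = 0 → z = 0)
    (ι₁ : MvPowerSeries (Fin d) 𝒪 →ₐ[𝒪] Src 𝒪 A G ⧸ K₁)
    (hfin₁ : (ι₁ : MvPowerSeries (Fin d) 𝒪 →+* Src 𝒪 A G ⧸ K₁).Finite)
    (htf₁ : ∀ (s : MvPowerSeries (Fin d) 𝒪) (z : Src 𝒪 A G ⧸ K₁), s ≠ 0 → ι₁ s * z = 0 → z = 0)
    (hcongr : ∀ 𝔭 : Ideal (Src 𝒪 A G), 𝔭.IsPrime → Kχ ≤ 𝔭 → algebraMap 𝒪 _ ϖ ∈ 𝔭 → K₁ ≤ 𝔭) :
    ∃ Q : Ideal (Src 𝒪 A G), Q.IsPrime ∧ K₁ ≤ Q ∧ algebraMap 𝒪 _ ϖ ∉ Q ∧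
      (∀ q i j, MvPowerSeries.X (Sum.inl (q, true, i, j)) ∈ Q) ∧
      (∀ k f, Ideal.Quotient.mk K₁ f = ι₁ (MvPowerSeries.X k) → f ∈ Q) ∧
      ∀ q, discAt D (RingHom.id _) q ∉ K₁ := by
  obtain ⟨𝔮, h𝔮, hKχ𝔮, hϖ𝔮, hdisc⟩ :=
    exists_prime_disc_notMem D h2 hϖ hd hKχ hχ ιχ hfinχ htfχ
  -- the unipotent side
  obtain ⟨P₁, hP₁, hP₁𝔮⟩ := Ideal.exists_minimalPrimes_le (hcongr 𝔮 h𝔮 hKχ𝔮 hϖ𝔮)
  have := hP₁.1.1
  have hone : IsOne D (Ideal.Quotient.mk P₁) :=
    h₁.comp D (Ideal.Quotient.factor hP₁.1.2)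
  -- a characteristic zero prime above it over the augmentation
  obtain ⟨Q, hQ, hP₁Q, hcQ, hXQ⟩ := exists_prime_over_augmentation ι₁ htf₁ hfin₁ hP₁
  exact ⟨Q, hQ, hP₁.1.2.trans hP₁Q, hcQ ϖ hϖ.ne_zero,
    fun q i j => hP₁Q (X_mem_of_isOne_of_disc D hone (fun q h => hdisc q (hP₁𝔮 h)) q i j),
    hXQ, fun q h => hdisc q (hP₁𝔮 (hP₁.1.2 h))⟩

end Fermat.GR.Patch
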