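import Mathlib
import Fermat.Agent.GR.Deform.PowerSeriesComplete

/-!
# Convergent subsequences in complete local rings with finite residue field

`exists_subseq_limit`: finitely many sequences have a common convergent subsequence.
-/

set_option autoImplicit false

noncomputable section

namespace Fermat.GR.Patch

open IsLocalRing

/-- Nested infinite sets on which finitely many sequences are constant modulo deeper and deeper
ideals. -/
theorem exists_nested {R ι : Type} [CommRing R] [Finite ι] (I : ℕ → Ideal R)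
    (hI : ∀ k, Finite (R ⧸ I k)) (x : ℕ → ι → R) :
    ∃ T : ℕ → Set ℕ, (∀ k, (T k).Infinite) ∧ (∀ k, T (k + 1) ⊆ T k) ∧
      ∀ k, ∀ a ∈ T k, ∀ b ∈ T k, ∀ i, x a i - x b i ∈ I k := by
  classical
  have step : ∀ (k : ℕ) (U : {U : Set ℕ // U.Infinite}),
      ∃ V : {V : Set ℕ // V.Infinite}, V.1 ⊆ U.1 ∧
        ∀ a ∈ V.1, ∀ b ∈ V.1, ∀ i, x a i - x b i ∈ I k := by
    intro k U
    have := hI k
    obtain ⟨y, hy⟩ : ∃ y : ι → R ⧸ I k,
        {a ∈ U.1 | (fun i => Ideal.Quotient.mk (I k) (x a i)) = y}.Infinite := by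
      by_contra h
      push Not at h
      refine U.2 ((Set.finite_iUnion fun y : ι → R ⧸ I k => h y).subset fun a ha => ?_)
      exact Set.mem_iUnion.mpr ⟨fun i => Ideal.Quotient.mk (I k) (x a i), ha, rfl⟩
    exact ⟨⟨_, hy⟩, fun a ha => ha.1, fun a ha b hb i =>
      Ideal.Quotient.eq.mp (congrFun (ha.2.trans hb.2.symm) i)⟩
  choose next hsub hconst using step
  let T : ℕ → {U : Set ℕ // U.Infinite} := fun k =>
    Nat.rec (next 0 ⟨Set.univ, Set.infinite_univ⟩) (fun k U => next (k + 1) U) k
  refine ⟨fun k => (T k).1, fun k => (T k).2, fun k => hsub (k + 1) (T k), fun k => ?_⟩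
  cases k with
  | zero => exact hconst 0 _
  | succ k => exact hconst (k + 1) (T k)

/-- Finitely many sequences in a complete local ring with finite quotients have a common
convergent subsequence. -/
theorem exists_subseq_limit {R ι : Type} [CommRing R] [IsLocalRing R] [IsNoetherianRing R]
    [IsAdicComplete (maximalIdeal R) R] [Finite (ResidueField R)] [Finite ι] (x : ℕ → ι → R) :
    ∃ (φ : ℕ → ℕ) (L : ι → R), StrictMono φ ∧
      ∀ k n, k ≤ n → ∀ i, x (φ n) i - L i ∈ maximalIdeal R ^ k := by
  obtain ⟨T, hinf, hsub, hconst⟩ := exists_nested (fun k => maximalIdeal R ^ k)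
    (fun k => finite_quotient_maximalIdeal_pow R k) x
  have hmono : ∀ k l, k ≤ l → T l ⊆ T k := fun k l h => by
    induction l, h using Nat.le_induction with
    | base => exact subset_rfl
    | succ l _ ih => exact (hsub l).trans ih
  choose g hgT hgt using fun k m => (hinf k).exists_gt m
  let φ : ℕ → ℕ := fun n => Nat.rec (g 0 0) (fun n a => g (n + 1) a) n
  have hφT : ∀ n, φ n ∈ T n := fun n => by cases n <;> exact hgT _ _
  have hlim : ∀ i, ∃ L : R, ∀ k, x (φ k) i - L ∈ maximalIdeal R ^ k := by
    intro i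
    obtain ⟨L, hL⟩ := IsPrecomplete.prec' (I := maximalIdeal R) (M := R) (fun k => x (φ k) i) (by
      intro k l hkl
      rw [SModEq.sub_mem, smul_eq_mul, Ideal.mul_top]
      exact hconst k _ (hφT k) _ (hmono k l hkl (hφT l)) i)
    refine ⟨L, fun k => ?_⟩
    have := hL k
    rwa [SModEq.sub_mem, smul_eq_mul, Ideal.mul_top] at this
  choose L hL using hlim
  refine ⟨φ, L, strictMono_nat_of_lt_succ fun n => hgt (n + 1) _, fun k n hkn i => ?_⟩
  exact Ideal.pow_le_pow_right hkn (hL i n)

end Fermat.GR.Patch
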