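import Mathlib

/-!
# Extending matrix representations along framing variables

`exists_extend`: a representation of `R` extends to `R⟦σ⟧` with the variables acting by given
nilpotent scalars.
-/

set_option autoImplicit false

noncomputable section

namespace Fermat.GR.Patch

variable {𝒪 R B : Type} [CommRing 𝒪] [CommRing R] [Algebra 𝒪 R] [CommRing B] [Algebra 𝒪 B]
  {ι : Type} [Fintype ι] [DecidableEq ι] {σ : Type} [Finite σ]

/-- A representation of `R` extends to `R⟦σ⟧` with the variables acting by nilpotent scalars. -/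
theorem exists_extend (α : R →ₐ[𝒪] Matrix ι ι B) (t : σ → B) (ht : ∀ v, IsNilpotent (t v)) :
    ∃ β : MvPowerSeries σ R →ₐ[𝒪] Matrix ι ι B, (∀ r, β (MvPowerSeries.C r) = α r) ∧
      ∀ v, β (MvPowerSeries.X v) = algebraMap B _ (t v) := by
  classical
  -- the image generates a commutative algebra `T`
  set T := Algebra.adjoin B (Set.range α)
  let : CommRing T :=
    { (inferInstance : Ring T) with
      mul_comm := fun a b => (Algebra.isMulCommutative_adjoin B (s := Set.range α) (by
        rintro _ ⟨u, rfl⟩ _ ⟨v, rfl⟩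
        rw [← map_mul, ← map_mul, mul_comm])).is_comm.comm a b }
  let αT : R →+* T := (α : R →+* Matrix ι ι B).codRestrict T.toSubring fun r =>
    Algebra.subset_adjoin ⟨r, rfl⟩
  let ev : MvPolynomial σ R →+* T := MvPolynomial.eval₂Hom αT fun v => algebraMap B T (t v)
  -- evaluation of polynomials there kills a power of the ideal of the variables
  obtain ⟨N, hN⟩ : ∃ N, MvPolynomial.idealOfVars σ R ^ N ≤ RingHom.ker ev := by
    refine Ideal.exists_pow_le_of_le_radical_of_fg ?_ ?_
    · rw [MvPolynomial.idealOfVars, Ideal.span_le]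
      rintro _ ⟨v, rfl⟩
      obtain ⟨k, hk⟩ := ht v
      exact ⟨k, by rw [RingHom.mem_ker, map_pow, MvPolynomial.eval₂Hom_X', ← map_pow, hk, map_zero]⟩
    · rw [MvPolynomial.idealOfVars]
      exact Submodule.fg_span (Set.finite_range _)
  -- so it factors through truncation of power series
  let e : MvPowerSeries σ R →+* T :=
    (Ideal.Quotient.lift (MvPolynomial.idealOfVars σ R ^ N) ev fun p hp => hN hp).comp
      (MvPowerSeries.truncTotalAlgHom σ R N : _ →+* _)
  have he : ∀ f, e f = ev (MvPowerSeries.truncTotal N f) := fun f => rfl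
  have heC : ∀ p : MvPolynomial σ R, e (p : MvPowerSeries σ R) = ev p := by
    intro p
    rw [he, ← sub_eq_zero, ← map_sub]
    refine hN ?_
    rw [MvPolynomial.mem_pow_idealOfVars_iff']
    intro x hx
    rw [MvPolynomial.coeff_sub, MvPowerSeries.coeff_truncTotal _ hx,
      MvPolynomial.coeff_coe, sub_self]
  have hC : ∀ r, (e (MvPowerSeries.C r)).1 = α r := fun r => by
    rw [← MvPolynomial.coe_C, heC]
    exact congrArg Subtype.val (MvPolynomial.eval₂Hom_C _ _ r)
  refine ⟨{ (T.val.toRingHom.comp e) with commutes' := fun c => ?_ }, hC, fun v => ?_⟩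
  · change (e (algebraMap 𝒪 (MvPowerSeries σ R) c)).1 = _
    rw [show algebraMap 𝒪 (MvPowerSeries σ R) c = MvPowerSeries.C (algebraMap 𝒪 R c) from
      MvPowerSeries.algebraMap_apply, hC,
      AlgHom.commutes]
  · change (e (MvPowerSeries.X v)).1 = _
    rw [← MvPolynomial.coe_X, heC]
    exact congrArg Subtype.val (MvPolynomial.eval₂Hom_X' _ _ v)

end Fermat.GR.Patch
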