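import Mathlib

/-!
# Generators of complete local algebras from tangent vectors

A map seen by every nonzero tangent vector is surjective (`surjective_of_tangent`), and a small
tangent space is separated by few elements of the maximal ideal (`exists_separating`).
-/

set_option autoImplicit false
set_option linter.unusedSectionVars false

noncomputable section

namespace Fermat.GR.Patch

open IsLocalRing

variable {𝒪 W : Type} [CommRing 𝒪] [CommRing W] [IsLocalRing W] [Algebra 𝒪 W]

variable (𝒪 W) in
/-- The tangent space: `𝒪`-derivations into the residue field. -/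
def tangentSpace : Submodule (ResidueField W) (W → ResidueField W) where
  carrier := {l | (∀ a b, l (a + b) = l a + l b) ∧
    (∀ a b, l (a * b) = residue W a * l b + residue W b * l a) ∧ ∀ o : 𝒪, l (algebraMap 𝒪 W o) = 0}
  add_mem' := by
    rintro l l' ⟨h1, h2, h3⟩ ⟨h1', h2', h3'⟩
    refine ⟨fun a b => ?_, fun a b => ?_, fun o => ?_⟩
    · simp only [Pi.add_apply, h1, h1']; ring
    · simp only [Pi.add_apply, h2, h2']; ring
    · simp [h3, h3']
  zero_mem' := ⟨fun _ _ => by simp, fun _ _ => by simp, fun _ => rfl⟩
  smul_mem' := by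
    rintro c l ⟨h1, h2, h3⟩
    refine ⟨fun a b => ?_, fun a b => ?_, fun o => ?_⟩
    · simp only [Pi.smul_apply, smul_eq_mul, h1]; ring
    · simp only [Pi.smul_apply, smul_eq_mul, h2]; ring
    · simp [h3]

/-- Tangent vectors are additive on differences. -/
theorem tangent_sub {l : W → ResidueField W} (hl : l ∈ tangentSpace 𝒪 W) (a b : W) :
    l (a - b) = l a - l b := by
  have := hl.1 (a - b) b
  rw [sub_add_cancel] at this
  rw [this, add_sub_cancel_right]

variable [IsNoetherianRing W] [IsHausdorff (maximalIdeal W) W]
  {P : Type} [CommRing P] [IsLocalRing P] [Algebra 𝒪 P]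
  [IsPrecomplete (maximalIdeal P) P]

/-- The span, in the cotangent space, of the image of the maximal ideal. -/
private def cotangentImage (f : P →ₐ[𝒪] W) [IsLocalHom (f : P →+* W)] :
    Submodule (ResidueField W) (CotangentSpace W) :=
  Submodule.span (ResidueField W) (Set.range fun x : maximalIdeal P =>
    (maximalIdeal W).toCotangent ⟨f x.1,
      map_maximalIdeal_le (f : P →+* W) (Ideal.mem_map_of_mem _ x.2)⟩)

/-- If no nonzero tangent vector kills the image then the image spans the cotangent space. -/
private theorem cotangentImage_eq_top (f : P →ₐ[𝒪] W) [IsLocalHom (f : P →+* W)]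
    (hres : Function.Surjective (residue W ∘ algebraMap 𝒪 W))
    (h : ∀ l ∈ tangentSpace 𝒪 W, (∀ x, l (f x) = 0) → l = 0) : cotangentImage f = ⊤ := by
  set I := maximalIdeal P
  set U := cotangentImage f with hUdef
  by_contra hne
  -- otherwise a functional on the cotangent space kills the image
  obtain ⟨φ, hφ0, hφU⟩ := Submodule.exists_le_ker_of_lt_top U (lt_top_iff_ne_top.mpr hne)
  choose sec hsec using hres
  let dev : W → maximalIdeal W := fun w => ⟨w - algebraMap 𝒪 W (sec (residue W w)), by
    rw [← residue_eq_zero_iff, map_sub]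
    exact sub_eq_zero.mpr (hsec _).symm⟩
  let l : W → ResidueField W := fun w => φ ((maximalIdeal W).toCotangent (dev w))
  have hO : ∀ (o : 𝒪) (ho : algebraMap 𝒪 W o ∈ maximalIdeal W),
      φ ((maximalIdeal W).toCotangent ⟨algebraMap 𝒪 W o, ho⟩) = 0 := by
    intro o ho
    have h1 : algebraMap 𝒪 P o ∈ I := by
      intro hu
      exact ho (by rw [← f.commutes]; exact hu.map f)
    refine hφU (Submodule.subset_span ⟨⟨_, h1⟩, ?_⟩)
    exact congrArg _ (Subtype.ext (f.commutes o))
  have hsmul : ∀ (a : W) (b : maximalIdeal W),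
      φ ((maximalIdeal W).toCotangent (a • b)) =
        residue W a * φ ((maximalIdeal W).toCotangent b) := by
    intro a b
    rw [LinearMap.map_smul_of_tower, ← algebraMap_smul (ResidueField W) a, φ.map_smul]
    rfl
  -- composed with the deviation from a constant lift it is a tangent vector
  have hl : l ∈ tangentSpace 𝒪 W := by
    refine ⟨fun a b => ?_, fun a b => ?_, fun o => ?_⟩
    · have e : dev (a + b) - (dev a + dev b) = ⟨algebraMap 𝒪 W
          (sec (residue W a) + sec (residue W b) - sec (residue W (a + b))), by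
          rw [← residue_eq_zero_iff, map_sub, map_sub, map_add, map_add]
          have := fun z => hsec z
          simp only [Function.comp_apply] at this
          rw [this, this, this, map_add, sub_self]⟩ := Subtype.ext (by
        simp only [dev, AddSubgroupClass.coe_sub, Submodule.coe_add, map_sub, map_add]; ring)
      have h2 : φ ((maximalIdeal W).toCotangent (dev (a + b) - (dev a + dev b))) = 0 := by
        rw [e, hO]
      simp only [map_sub, map_add] at h2
      exact sub_eq_zero.mp h2
    · have hc : algebraMap 𝒪 W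
          (sec (residue W a) * sec (residue W b) - sec (residue W (a * b))) ∈ maximalIdeal W := by
        rw [← residue_eq_zero_iff, map_sub, map_mul, map_sub, map_mul]
        have := fun z => hsec z
        simp only [Function.comp_apply] at this
        rw [this, this, this, map_mul, sub_self]
      have e : dev (a * b) = a • dev b + algebraMap 𝒪 W (sec (residue W b)) • dev a +
          ⟨_, hc⟩ := Subtype.ext (by
        simp only [dev, Submodule.coe_add, Submodule.coe_smul, smul_eq_mul, map_sub, map_mul]; ring)
      change φ ((maximalIdeal W).toCotangent (dev (a * b))) = _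
      rw [e, map_add, map_add, map_add, map_add, hO, hsmul, hsmul, add_zero]
      have h3 : residue W (algebraMap 𝒪 W (sec (residue W b))) = residue W b := hsec _
      rw [h3]
    · change φ _ = 0
      have hc : algebraMap 𝒪 W (o - sec (residue W (algebraMap 𝒪 W o))) ∈ maximalIdeal W := by
        rw [map_sub]; exact (dev (algebraMap 𝒪 W o)).2
      rw [show dev (algebraMap 𝒪 W o) = ⟨_, hc⟩ from Subtype.ext (by simp [dev, map_sub]), hO]
  have hlf : ∀ x, l (f x) = 0 := by
    intro x
    have h1 : x - algebraMap 𝒪 P (sec (residue W (f x))) ∈ I := by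
      intro hu
      have := hu.map (f : P →+* W)
      rw [show (f : P →+* W) (x - algebraMap 𝒪 P (sec (residue W (f x)))) =
        (dev (f x)).1 by simp [dev]] at this
      exact (dev (f x)).2 this
    refine hφU (Submodule.subset_span ⟨⟨_, h1⟩, ?_⟩)
    refine congrArg _ (Subtype.ext ?_)
    simp [dev]
  -- so it vanishes, and with it the functional
  have hl0 := h l hl hlf
  refine hφ0 (LinearMap.ext fun c => ?_)
  obtain ⟨⟨w, hw⟩, rfl⟩ := (maximalIdeal W).toCotangent_surjective c
  have h2 := congrFun hl0 w
  simp only [Pi.zero_apply, l] at h2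
  have hc : algebraMap 𝒪 W (sec (residue W w)) ∈ maximalIdeal W := by
    have := sub_mem hw (dev w).2
    simpa [dev] using this
  rw [show dev w = ⟨w, hw⟩ - ⟨_, hc⟩ from Subtype.ext (by simp [dev]), map_sub, map_sub, hO,
    sub_zero] at h2
  exact h2

/-- If the image spans the cotangent space then it generates the maximal ideal. -/
private theorem maximalIdeal_le_map_of_cotangentImage (f : P →ₐ[𝒪] W) [IsLocalHom (f : P →+* W)]
    (hU : cotangentImage f = ⊤) : maximalIdeal W ≤ (maximalIdeal P).map (f : P →+* W) := by
  set I := maximalIdeal P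
  set U := cotangentImage f with hUdef
  refine Submodule.le_of_le_smul_of_le_jacobson_bot (IsNoetherian.noetherian _)
    (IsLocalRing.maximalIdeal_le_jacobson ⊥) fun w hw => ?_
  have hmem : (maximalIdeal W).toCotangent ⟨w, hw⟩ ∈ U := hU ▸ Submodule.mem_top
  have hL : ∀ u ∈ I.map (f : P →+* W),
      u ∈ I.map (f : P →+* W) ⊔ maximalIdeal W • maximalIdeal W := fun u hu =>
    Submodule.mem_sup_left hu
  have hR : ∀ u ∈ maximalIdeal W • maximalIdeal W,
      u ∈ I.map (f : P →+* W) ⊔ maximalIdeal W • maximalIdeal W := fun u hu =>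
    Submodule.mem_sup_right hu
  -- Nakayama: every element lifting a class in the span lies in the image plus the square
  have key : ∀ c ∈ U, ∀ (v : W) (hv : v ∈ maximalIdeal W),
      (maximalIdeal W).toCotangent ⟨v, hv⟩ = c →
      v ∈ I.map (f : P →+* W) ⊔ maximalIdeal W • maximalIdeal W := by
    intro c hc
    induction hc using Submodule.span_induction with
    | mem c hc =>
      intro v hv hvc
      obtain ⟨x, rfl⟩ := hc
      have h1 := (maximalIdeal W).toCotangent_eq.mp hvc
      rw [pow_two, ← smul_eq_mul] at h1
      simpa using add_mem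
        (hL _ (Ideal.mem_map_of_mem (f : P →+* W) x.2)) (hR _ h1)
    | zero =>
      intro v hv hvc
      have h1 := (maximalIdeal W).toCotangent_eq.mp (hvc.trans (map_zero _).symm)
      rw [pow_two, ← smul_eq_mul] at h1
      exact Submodule.mem_sup_right (by simpa using h1)
    | add a b _ _ ha hb =>
      intro v hv hvc
      obtain ⟨⟨va, hva⟩, rfl⟩ := (maximalIdeal W).toCotangent_surjective a
      obtain ⟨⟨vb, hvb⟩, rfl⟩ := (maximalIdeal W).toCotangent_surjective b
      rw [← map_add] at hvc
      have h1 := (maximalIdeal W).toCotangent_eq.mp hvc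
      rw [pow_two, ← smul_eq_mul] at h1
      have := add_mem (add_mem (ha va hva rfl) (hb vb hvb rfl))
        (hR _ h1)
      simpa using this
    | smul r a _ ha =>
      intro v hv hvc
      obtain ⟨r, rfl⟩ := residue_surjective r
      obtain ⟨⟨va, hva⟩, rfl⟩ := (maximalIdeal W).toCotangent_surjective a
      have hvc' : (maximalIdeal W).toCotangent ⟨v, hv⟩ =
          (maximalIdeal W).toCotangent (r • ⟨va, hva⟩) := by
        rw [LinearMap.map_smul_of_tower]; exact hvc
      have h1 := (maximalIdeal W).toCotangent_eq.mp hvc'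
      rw [pow_two, ← smul_eq_mul] at h1
      have := add_mem (Submodule.smul_mem _ r (ha va hva rfl))
        (hR _ h1)
      simpa using this
  exact key _ hmem w hw rfl

/-- An algebra map whose image is killed by no nonzero tangent vector is surjective. -/
theorem surjective_of_tangent (f : P →ₐ[𝒪] W) [IsLocalHom (f : P →+* W)]
    (hres : Function.Surjective (residue W ∘ algebraMap 𝒪 W))
    (h : ∀ l ∈ tangentSpace 𝒪 W, (∀ x, l (f x) = 0) → l = 0) : Function.Surjective f := by
  set I := maximalIdeal P
  have hmap : I.map (f : P →+* W) = maximalIdeal W :=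
    le_antisymm (map_maximalIdeal_le (f : P →+* W))
      (maximalIdeal_le_map_of_cotangentImage f (cotangentImage_eq_top f hres h))
  have : IsHausdorff (I.map (f : P →+* W)) W := hmap ▸ inferInstance
  refine surjective_of_mk_map_comp_surjective (I := I) (f : P →+* W) fun z => ?_
  obtain ⟨w, rfl⟩ := Ideal.Quotient.mk_surjective z
  obtain ⟨o, ho⟩ := hres (residue W w)
  refine ⟨algebraMap 𝒪 P o, ?_⟩
  rw [RingHom.comp_apply, Ideal.Quotient.eq, hmap, ← residue_eq_zero_iff, map_sub, sub_eq_zero]
  rw [show (f : P →+* W) (algebraMap 𝒪 P o) = algebraMap 𝒪 W o from f.commutes o]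
  exact ho

/-- A space of tangent vectors with at most `|k|^g` elements is separated by `g` elements of the
maximal ideal. -/
theorem exists_separating [Finite (ResidueField W)]
    (hres : Function.Surjective (residue W ∘ algebraMap 𝒪 W)) :
    ∀ (g : ℕ) (K : Submodule (ResidueField W) (W → ResidueField W)), K ≤ tangentSpace 𝒪 W →
      Finite K → Nat.card K ≤ Nat.card (ResidueField W) ^ g →
      ∃ z : Fin g → W, (∀ i, z i ∈ maximalIdeal W) ∧ ∀ l ∈ K, (∀ i, l (z i) = 0) → l = 0 := by
  intro g
  induction g with
  | zero =>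
    intro K _ hK hcard
    refine ⟨Fin.elim0, fun i => i.elim0, fun l hl _ => ?_⟩
    have := hK
    have : Subsingleton K := Finite.card_le_one_iff_subsingleton.mp (by simpa using hcard)
    exact congrArg Subtype.val (Subsingleton.elim (⟨l, hl⟩ : K) 0)
  | succ g ih =>
    intro K hKt hK hcard
    have := hK
    by_cases h0 : K = ⊥
    · exact ⟨fun _ => 0, fun _ => zero_mem _, fun l hl _ => by rw [h0] at hl; exact hl⟩
    -- a point separating one tangent vector, then induction on its kernel
    obtain ⟨l₀, hl₀, hne⟩ := Submodule.exists_mem_ne_zero_of_ne_bot h0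
    obtain ⟨w, hw⟩ : ∃ w, l₀ w ≠ 0 := by
      by_contra h
      push Not at h
      exact hne (funext h)
    obtain ⟨o, ho⟩ := hres (residue W w)
    set w' := w - algebraMap 𝒪 W o with hw'
    have hw'm : w' ∈ maximalIdeal W := by
      rw [← residue_eq_zero_iff, hw', map_sub, sub_eq_zero]; exact ho.symm
    have hw'0 : l₀ w' ≠ 0 := by
      rw [hw', tangent_sub (hKt hl₀), (hKt hl₀).2.2, sub_zero]; exact hw
    let ev : (W → ResidueField W) →ₗ[ResidueField W] ResidueField W := LinearMap.proj w'
    set K' := K ⊓ LinearMap.ker ev with hK'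
    have hfinK' : Finite K' := Finite.of_injective (fun x : K' => (⟨x.1, x.2.1⟩ : K))
      (fun a b h => Subtype.ext (congrArg (fun y : K => y.1) h))
    have := hfinK'
    have hcard' : Nat.card K' * Nat.card (ResidueField W) ≤ Nat.card K := by
      rw [← Nat.card_prod]
      refine Nat.card_le_card_of_injective
        (fun x => (⟨x.1.1 + x.2 • l₀, add_mem x.1.2.1 (K.smul_mem _ hl₀)⟩ : K)) ?_
      rintro ⟨⟨a, ha⟩, c⟩ ⟨⟨b, hb⟩, c'⟩ h
      have h1 : a + c • l₀ = b + c' • l₀ := congrArg Subtype.val h
      have ha0 : a w' = 0 := ha.2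
      have hb0 : b w' = 0 := hb.2
      have h2 := congrFun h1 w'
      simp only [Pi.add_apply, Pi.smul_apply, smul_eq_mul, ha0, hb0, zero_add] at h2
      have hc := mul_right_cancel₀ hw'0 h2
      subst hc
      simpa using h1
    obtain ⟨z, hz, hsep⟩ := ih K' (inf_le_left.trans hKt) hfinK'
      (Nat.le_of_mul_le_mul_right (hcard'.trans (hcard.trans (le_of_eq (pow_succ _ _))))
        Nat.card_pos)
    refine ⟨Fin.cons w' z, fun i => ?_, fun l hl hli => ?_⟩
    · refine Fin.cases ?_ (fun j => ?_) i
      · simpa using hw'm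
      · simpa using hz j
    · refine hsep l ⟨hl, ?_⟩ fun i => ?_
      · have := hli 0; simpa [ev] using this
      · have := hli i.succ; simpa using this

/-- If the tangent vectors killing a set form spaces of at most `|k|^g` elements, then `g`
elements of the maximal ideal separate them. -/
theorem exists_separating_killing [Finite (ResidueField W)]
    (hres : Function.Surjective (residue W ∘ algebraMap 𝒪 W)) (g : ℕ) (E : Set W)
    (htan : ∀ K : Submodule (ResidueField W) (W → ResidueField W),
      (∀ l ∈ K, l ∈ tangentSpace 𝒪 W ∧ ∀ w ∈ E, l w = 0) →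
        Finite K ∧ Nat.card K ≤ Nat.card (ResidueField W) ^ g) :
    ∃ z : Fin g → W, (∀ i, z i ∈ maximalIdeal W) ∧
      ∀ l ∈ tangentSpace 𝒪 W, (∀ w ∈ E, l w = 0) → (∀ i, l (z i) = 0) → l = 0 := by
  let K : Submodule (ResidueField W) (W → ResidueField W) := tangentSpace 𝒪 W ⊓
    ⨅ w : E, LinearMap.ker (LinearMap.proj (R := ResidueField W)
      (φ := fun _ : W => ResidueField W) w.1)
  have hK : ∀ l, l ∈ K ↔ l ∈ tangentSpace 𝒪 W ∧ ∀ w ∈ E, l w = 0 := fun l => by
    simp [K, Submodule.mem_iInf]
  obtain ⟨hfin, hcard⟩ := htan K fun l hl => (hK l).mp hl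
  obtain ⟨z, hz, hsep⟩ := exists_separating hres g K inf_le_left hfin hcard
  exact ⟨z, hz, fun l hl hE => hsep l ((hK l).mpr ⟨hl, hE⟩)⟩

end Fermat.GR.Patch
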