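import Mathlib
import Fermat.Agent.GR.Patch.Base

/-!
# Homomorphisms from power series rings to matrix rings

Maps with nilpotent images of the variables are determined by constants and variables
(`ringHom_eq_of_nilpotent`).
-/

set_option autoImplicit false
set_option linter.unusedSectionVars false

noncomputable section

namespace Fermat.GR.Patch

open IsLocalRing

variable {σ 𝒪 : Type} [Finite σ] [CommRing 𝒪] [IsLocalRing 𝒪]

/-- A ring map out of a power series ring killing powers of all variables kills a power of the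
augmentation ideal. -/
theorem exists_spanX_pow_le_ker {B : Type} [Ring B] (f : MvPowerSeries σ 𝒪 →+* B)
    (hX : ∀ v, IsNilpotent (f (MvPowerSeries.X v))) :
    ∃ M, Ideal.span (Set.range (MvPowerSeries.X : σ → MvPowerSeries σ 𝒪)) ^ M ≤ RingHom.ker f := by
  refine Ideal.exists_pow_le_of_le_radical_of_fg ?_ ?_
  · refine Ideal.span_le.mpr ?_
    rintro _ ⟨v, rfl⟩
    obtain ⟨n, hn⟩ := hX v
    exact ⟨n, by rw [RingHom.mem_ker, map_pow, hn]⟩
  · exact Submodule.fg_span (Set.finite_range _)

/-- Two ring maps which agree on constants and variables, with nilpotent images of the variables,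
are equal. -/
theorem ringHom_eq_of_nilpotent {B : Type} [Ring B] {f g : MvPowerSeries σ 𝒪 →+* B}
    (hC : ∀ c, f (MvPowerSeries.C c) = g (MvPowerSeries.C c))
    (hv : ∀ v, f (MvPowerSeries.X v) = g (MvPowerSeries.X v))
    (hX : ∀ v, IsNilpotent (f (MvPowerSeries.X v))) : f = g := by
  obtain ⟨M, hM⟩ := exists_spanX_pow_le_ker f hX
  obtain ⟨M', hM'⟩ := exists_spanX_pow_le_ker g fun v => hv v ▸ hX v
  refine RingHom.ext fun z => ?_
  set p := MvPowerSeries.truncTotal (max M M') z
  have h1 := sub_truncTotal_mem (max M M') z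
  have e1 : f (z - (p : MvPowerSeries σ 𝒪)) = 0 := hM (Ideal.pow_le_pow_right (le_max_left _ _) h1)
  have e2 : g (z - (p : MvPowerSeries σ 𝒪)) = 0 :=
    hM' (Ideal.pow_le_pow_right (le_max_right _ _) h1)
  have e3 : f.comp (MvPolynomial.coeToMvPowerSeries.ringHom) =
      g.comp (MvPolynomial.coeToMvPowerSeries.ringHom) := by
    refine MvPolynomial.ringHom_ext (fun c => ?_) (fun v => ?_)
    · simpa [MvPolynomial.coeToMvPowerSeries.ringHom_apply] using hC c
    · simpa [MvPolynomial.coeToMvPowerSeries.ringHom_apply] using hv v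
  have e4 : f (p : MvPowerSeries σ 𝒪) = g (p : MvPowerSeries σ 𝒪) := DFunLike.congr_fun e3 p
  rw [map_sub, sub_eq_zero] at e1 e2
  rw [e1, e2, e4]

variable [IsNoetherianRing 𝒪] [Finite (ResidueField 𝒪)]

/-- A ring map from a local ring to a finite ring sends the variables to nilpotent elements. -/
theorem isNilpotent_map_X {B : Type} [Ring B] [Nontrivial B] [Finite B]
    (f : MvPowerSeries σ 𝒪 →+* B) (v : σ) : IsNilpotent (f (MvPowerSeries.X v)) := by
  set R := MvPowerSeries σ 𝒪 ⧸ RingHom.ker f
  have : Finite R := Finite.of_injective _ (RingHom.kerLift_injective f)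
  have : Nontrivial R := Ideal.Quotient.nontrivial_iff.mpr (RingHom.ker_ne_top f)
  have : IsLocalRing R :=
    IsLocalRing.of_surjective' (Ideal.Quotient.mk _) Ideal.Quotient.mk_surjective
  have : IsLocalHom (Ideal.Quotient.mk (RingHom.ker f)) :=
    IsLocalHom.of_surjective _ Ideal.Quotient.mk_surjective
  obtain ⟨n, hn⟩ := (isArtinianRing_iff_isNilpotent_maximalIdeal R).mp inferInstance
  refine ⟨n, ?_⟩
  have h1 : Ideal.Quotient.mk (RingHom.ker f) (MvPowerSeries.X v) ∈ maximalIdeal R :=
    map_nonunit (Ideal.Quotient.mk (RingHom.ker f)) _ (X_mem_maximalIdeal v)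
  have h2 := Ideal.pow_mem_pow h1 n
  rw [hn, ← map_pow] at h2
  rw [← map_pow]
  exact RingHom.mem_ker.mp (Ideal.Quotient.eq_zero_iff_mem.mp h2)

end Fermat.GR.Patch
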