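import Mathlib
import Fermat.Agent.GR.Patch.Compactness
import Fermat.Agent.GR.Patch.MatrixHom

/-!
# Limits of homomorphisms into matrix rings

`exists_limitHom`: homomorphisms modulo growing powers of the maximal ideal with converging values
at the variables have a limit.
-/

set_option autoImplicit false
set_option linter.unusedSectionVars false

noncomputable section

namespace Fermat.GR.Patch

open IsLocalRing

variable {σ 𝒪 : Type} [Finite σ] [CommRing 𝒪] [IsLocalRing 𝒪] [IsNoetherianRing 𝒪]
  [Finite (ResidueField 𝒪)] {ι : Type} [Fintype ι] [DecidableEq ι]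

/-- The variables act nilpotently modulo powers of the maximal ideal. -/
theorem isNilpotent_matrix_X {R : Type} [CommRing R] [IsLocalRing R] [IsNoetherianRing R]
    [Finite (ResidueField R)] (k : ℕ)
    (f : MvPowerSeries σ 𝒪 →+* Matrix ι ι (R ⧸ maximalIdeal R ^ k)) (v : σ) :
    IsNilpotent (f (MvPowerSeries.X v)) := by
  have := finite_quotient_maximalIdeal_pow R k
  rcases subsingleton_or_nontrivial (Matrix ι ι (R ⧸ maximalIdeal R ^ k)) with h | h
  · exact ⟨1, Subsingleton.elim _ _⟩
  · exact isNilpotent_map_X f v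

/-- Ring maps into matrices over a noetherian local ring are determined by constants and
variables. -/
theorem matrixHom_ext {R : Type} [CommRing R] [IsLocalRing R] [IsNoetherianRing R]
    [Finite (ResidueField R)] [IsHausdorff (maximalIdeal R) R]
    {f g : MvPowerSeries σ 𝒪 →+* Matrix ι ι R}
    (hC : ∀ c, f (MvPowerSeries.C c) = g (MvPowerSeries.C c))
    (hv : ∀ v, f (MvPowerSeries.X v) = g (MvPowerSeries.X v)) : f = g := by
  refine RingHom.ext fun z => Matrix.ext fun i j => ?_
  refine IsHausdorff.eq_iff_smodEq (I := maximalIdeal R).mpr fun k => ?_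
  rw [SModEq.sub_mem, smul_eq_mul, Ideal.mul_top, ← Ideal.Quotient.eq]
  have h := ringHom_eq_of_nilpotent
    (f := ((Ideal.Quotient.mk (maximalIdeal R ^ k)).mapMatrix).comp f)
    (g := ((Ideal.Quotient.mk (maximalIdeal R ^ k)).mapMatrix).comp g)
    (fun c => by simp only [RingHom.comp_apply, hC])
      (fun v => by simp only [RingHom.comp_apply, hv])
    (fun v => isNilpotent_matrix_X k _ v)
  exact congrFun (congrFun (DFunLike.congr_fun h z) i) j

variable {S : Type} [CommRing S] [IsLocalRing S] [IsNoetherianRing S] [Finite (ResidueField S)]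
  [IsAdicComplete (maximalIdeal S) S] [Algebra 𝒪 S]

/-- The reduction of a level `N` map to level `k ≤ N`. -/
def reduceHom {k N : ℕ} (h : k ≤ N)
    (f : MvPowerSeries σ 𝒪 →ₐ[𝒪] Matrix ι ι (S ⧸ maximalIdeal S ^ N)) :
    MvPowerSeries σ 𝒪 →+* Matrix ι ι (S ⧸ maximalIdeal S ^ k) :=
  (Ideal.Quotient.factor (Ideal.pow_le_pow_right h)).mapMatrix.comp f

/-- A reduction maps constants to scalars. -/
theorem reduceHom_C {k N : ℕ} (h : k ≤ N)
    (f : MvPowerSeries σ 𝒪 →ₐ[𝒪] Matrix ι ι (S ⧸ maximalIdeal S ^ N)) (c : 𝒪) :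
    reduceHom h f (MvPowerSeries.C c) =
      algebraMap 𝒪 (Matrix ι ι (S ⧸ maximalIdeal S ^ k)) c := by
  have : f (MvPowerSeries.C c) = algebraMap 𝒪 _ c := by
    rw [← f.commutes]; rfl
  ext i j
  change Ideal.Quotient.factor (Ideal.pow_le_pow_right h) (f (MvPowerSeries.C c) i j) = _
  rw [this, Matrix.algebraMap_matrix_apply, Matrix.algebraMap_matrix_apply]
  split_ifs with h'
  · rfl
  · exact map_zero _

/-- Homomorphisms to matrices modulo higher and higher powers, whose values at the variables
converge along `φ`, have a limit. -/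
theorem exists_limitHom (f : ∀ n, MvPowerSeries σ 𝒪 →ₐ[𝒪] Matrix ι ι (S ⧸ maximalIdeal S ^ n))
    (φ : ℕ → ℕ) (hφ : ∀ n, n ≤ φ n) (L : σ → Matrix ι ι S)
    (hL : ∀ k n, ∀ h : k ≤ n, ∀ v, reduceHom (h.trans (hφ n)) (f (φ n)) (MvPowerSeries.X v) =
      (L v).map (Ideal.Quotient.mk _)) :
    ∃ F : MvPowerSeries σ 𝒪 →ₐ[𝒪] Matrix ι ι S, (∀ v, F (MvPowerSeries.X v) = L v) ∧
      ∀ k n, ∀ h : k ≤ n, ∀ z, (F z).map (Ideal.Quotient.mk (maximalIdeal S ^ k)) =
        reduceHom (h.trans (hφ n)) (f (φ n)) z := by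
  have hcompat : ∀ k n, ∀ h : k ≤ n,
      reduceHom (h.trans (hφ n)) (f (φ n)) = reduceHom (hφ k) (f (φ k)) := fun k n h =>
    ringHom_eq_of_nilpotent (fun c => by rw [reduceHom_C, reduceHom_C])
      (fun v => by rw [hL k n h v, hL k k le_rfl v]) (fun v => isNilpotent_matrix_X k _ v)
  -- the compatible matrix entries have limits
  have hex : ∀ z i j, ∃ s : S, ∀ k, Ideal.Quotient.mk (maximalIdeal S ^ k) s =
      reduceHom (hφ k) (f (φ k)) z i j := by
    intro z i j
    choose r hr using fun k => Ideal.Quotient.mk_surjective (reduceHom (hφ k) (f (φ k)) z i j)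
    obtain ⟨s, hs⟩ := IsPrecomplete.prec' (I := maximalIdeal S) (M := S) r (by
      intro k l hkl
      rw [SModEq.sub_mem, smul_eq_mul, Ideal.mul_top, ← Ideal.Quotient.eq, hr,
        ← hcompat k l hkl, ← Ideal.Quotient.factor_mk (Ideal.pow_le_pow_right hkl) (r l), hr]
      change Ideal.Quotient.factor (Ideal.pow_le_pow_right (hkl.trans (hφ l))) (f (φ l) z i j) =
        Ideal.Quotient.factor (Ideal.pow_le_pow_right hkl)
          (Ideal.Quotient.factor (Ideal.pow_le_pow_right (hφ l)) (f (φ l) z i j))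
      obtain ⟨w, hw⟩ := Ideal.Quotient.mk_surjective (f (φ l) z i j)
      rw [← hw, Ideal.Quotient.factor_mk, Ideal.Quotient.factor_mk, Ideal.Quotient.factor_mk])
    refine ⟨s, fun k => ?_⟩
    have := hs k
    rw [SModEq.sub_mem, smul_eq_mul, Ideal.mul_top, ← Ideal.Quotient.eq] at this
    rw [← hr, this]
  choose F hF using hex
  let F' : MvPowerSeries σ 𝒪 → Matrix ι ι S := fun z => Matrix.of (F z)
  have hF' : ∀ z k, (F' z).map (Ideal.Quotient.mk (maximalIdeal S ^ k)) =
      reduceHom (hφ k) (f (φ k)) z := fun z k => Matrix.ext fun i j => hF z i j k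
  -- equalities hold as they hold modulo every power
  have hext : ∀ M M' : Matrix ι ι S, (∀ k, M.map (Ideal.Quotient.mk (maximalIdeal S ^ k)) =
      M'.map (Ideal.Quotient.mk (maximalIdeal S ^ k))) → M = M' := by
    intro M M' h
    refine Matrix.ext fun i j => IsHausdorff.eq_iff_smodEq (I := maximalIdeal S).mpr fun k => ?_
    rw [SModEq.sub_mem, smul_eq_mul, Ideal.mul_top, ← Ideal.Quotient.eq]
    exact congrFun (congrFun (h k) i) j
  let FA : MvPowerSeries σ 𝒪 →ₐ[𝒪] Matrix ι ι S :=
    { toFun := F'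
      map_one' := hext _ _ fun k => by
        rw [hF', map_one, Matrix.map_one _ (map_zero _) (map_one _)]
      map_mul' := fun a b => hext _ _ fun k => by
        rw [hF', map_mul, Matrix.map_mul, hF', hF']
      map_zero' := hext _ _ fun k => by rw [hF', map_zero, Matrix.map_zero _ (map_zero _)]
      map_add' := fun a b => hext _ _ fun k => by
        rw [hF', map_add, Matrix.map_add _ (map_add _), hF', hF']
      commutes' := fun c => hext _ _ fun k => by
        rw [hF', show algebraMap 𝒪 (MvPowerSeries σ 𝒪) c = MvPowerSeries.C c from rfl, reduceHom_C]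
        refine Matrix.ext fun i j => ?_
        rw [Matrix.map_apply, Matrix.algebraMap_matrix_apply, Matrix.algebraMap_matrix_apply]
        split_ifs with h
        · rfl
        · exact (map_zero _).symm }
  refine ⟨FA, fun v => hext _ _ fun k => ?_, fun k n h z => ?_⟩
  · change (F' _).map _ = _
    rw [hF', hL k k le_rfl v]
  · change (F' z).map _ = _
    rw [hF', hcompat k n h]

end Fermat.GR.Patch
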