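import Mathlib
import Fermat.Prelude.Thm_IsLocalRing_isAdicComplete_of_module_finite
import Fermat.Agent.GR.Patch.LimitHom
import Fermat.Agent.GR.Patch.Relations
import Fermat.Agent.GR.Patch.Avoidance

/-!
# Patching with Ihara avoidance

From compatible pairs of matrix representations of the source ring over larger and larger
quotients of `S = 𝒪⟦X₁,…,X_d⟧`, one satisfying the `χ` relations and the other the unipotent ones,
with a fixed base ring `T₀`: the base ring has a characteristic zero prime containing all the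
inertia coordinates (`exists_prime_of_patchCore`).

The limit is taken by compactness (`LimitHom`); the commutative algebra is
`exists_avoiding_prime` (`Avoidance`, with the chart of `Chart`). `Frames` turns levels into this
input and the conclusion into `false_of_framedCores_new`, used for lowering the level
(`GR/RT/LowerEngine`).
-/

set_option autoImplicit false
set_option linter.unusedSectionVars false

noncomputable section

namespace Fermat.GR.Patch

open IsLocalRing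

variable {𝒪 : Type} [CommRing 𝒪] [IsDomain 𝒪] [IsDiscreteValuationRing 𝒪]
  [IsAdicComplete (maximalIdeal 𝒪) 𝒪] [Finite (ResidueField 𝒪)] [CharZero 𝒪]
  {A G : Type} [Fintype A] [Fintype G] {d m : ℕ}

local notation "S" => MvPowerSeries (Fin d) 𝒪
local notation "MatS" => Matrix (Fin m) (Fin m) (MvPowerSeries (Fin d) 𝒪)
local notation "Mat" n:max => Matrix (Fin m) (Fin m)
  (MvPowerSeries (Fin d) 𝒪 ⧸ maximalIdeal (MvPowerSeries (Fin d) 𝒪) ^ n)

/-- The two compatible systems of representations to be patched. -/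
structure PatchCore (D : LocalData 𝒪 A) (ϖ : 𝒪) (ψ : S →ₐ[𝒪] S) : Type where
  /-- The representations with the unipotent relations. -/
  f₁ : ∀ n, Src 𝒪 A G →ₐ[𝒪] Mat n
  /-- The representations with the `χ` relations. -/
  fχ : ∀ n, Src 𝒪 A G →ₐ[𝒪] Mat n
  /-- The unipotent relations hold. -/
  rel₁ : ∀ n, ∀ z ∈ relOne D, f₁ n z = 0
  /-- The `χ` relations hold. -/
  relχ : ∀ n, ∀ z ∈ relChi D, fχ n z = 0
  /-- The two systems agree modulo `ϖ` at the variables. -/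
  congr : ∀ n v i j, f₁ n (MvPowerSeries.X v) i j - fχ n (MvPowerSeries.X v) i j ∈
    Ideal.span {algebraMap 𝒪 _ ϖ}
  /-- The variables of `S` come from the source in the unipotent system. -/
  par₁ : ∀ n k, ∃ z, f₁ n z = algebraMap _ (Mat n)
    (Ideal.Quotient.mk (maximalIdeal (MvPowerSeries (Fin d) 𝒪) ^ n) (ψ (MvPowerSeries.X k)))
  /-- The variables of `S` come from the source in the `χ` system. -/
  parχ : ∀ n k, ∃ z, fχ n z = algebraMap _ (Mat n)
    (Ideal.Quotient.mk (maximalIdeal (MvPowerSeries (Fin d) 𝒪) ^ n) (ψ (MvPowerSeries.X k)))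

/-- The residue field of a power series ring over `𝒪` is finite. -/
theorem finite_residueField_mvPowerSeries (σ : Type) [Finite σ] :
    Finite (ResidueField (MvPowerSeries σ 𝒪)) := by
  have : IsLocalHom (algebraMap 𝒪 (MvPowerSeries σ 𝒪)) := ⟨fun o ho => by
    have h' : IsUnit (MvPowerSeries.constantCoeff (MvPowerSeries.C (σ := σ) o)) :=
      MvPowerSeries.isUnit_iff_constantCoeff.mp ho
    rwa [MvPowerSeries.constantCoeff_C] at h'⟩
  exact Finite.of_surjective (ResidueField.map (algebraMap 𝒪 (MvPowerSeries σ 𝒪))) fun z => by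
    obtain ⟨o, ho⟩ := Fermat.GR.residue_comp_algebraMap_surjective (σ := σ) (𝒪 := 𝒪) z
    exact ⟨residue 𝒪 o, by rw [ResidueField.map_residue]; exact ho⟩

/-- An element of the `n`-th power of the maximal ideal has constant term divisible by `ϖ ^ n`. -/
theorem constantCoeff_mem_span_of_mem {ϖ : 𝒪} (hϖ : Irreducible ϖ) {n : ℕ} {s : S}
    (hs : s ∈ maximalIdeal S ^ n) : MvPowerSeries.constantCoeff s ∈ Ideal.span {ϖ ^ n} := by
  have h : (maximalIdeal S).map (MvPowerSeries.constantCoeff (σ := Fin d) (R := 𝒪)) ≤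
      maximalIdeal 𝒪 := Ideal.map_le_iff_le_comap.mpr fun f hf hu =>
        hf (MvPowerSeries.isUnit_iff_constantCoeff.mpr hu)
  have h1 := Ideal.pow_right_mono h n (Ideal.map_pow (MvPowerSeries.constantCoeff (σ := Fin d)
    (R := 𝒪)) _ n ▸ Ideal.mem_map_of_mem _ hs)
  rwa [hϖ.maximalIdeal_eq, Ideal.span_singleton_pow] at h1

/-- A representation modulo `m^k` kills a power of the maximal ideal of the source. -/
theorem exists_pow_le_ker_reduce (F : Src 𝒪 A G →ₐ[𝒪] MatS) (k : ℕ) :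
    ∃ M, maximalIdeal (Src 𝒪 A G) ^ M ≤
      RingHom.ker (((Ideal.Quotient.mk (maximalIdeal S ^ k)).mapMatrix).comp
        (F : Src 𝒪 A G →+* MatS)) := by
  have := finite_residueField_mvPowerSeries (𝒪 := 𝒪) (Fin d)
  refine Ideal.exists_pow_le_of_le_radical_of_fg (fun z hz => ?_) (IsNoetherian.noetherian _)
  set g := ((Ideal.Quotient.mk (maximalIdeal S ^ k)).mapMatrix).comp (F : Src 𝒪 A G →+* MatS)
  have hz1 : z - algebraMap 𝒪 (Src 𝒪 A G) (MvPowerSeries.constantCoeff z) ∈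
      Ideal.span (Set.range (MvPowerSeries.X : Var A G → Src 𝒪 A G)) :=
    mem_spanX_of_constantCoeff_eq_zero (by simp [MvPowerSeries.algebraMap_apply])
  have h1 : Ideal.span (Set.range (MvPowerSeries.X : Var A G → Src 𝒪 A G)) ≤
      (RingHom.ker g).radical := by
    refine Ideal.span_le.mpr ?_
    rintro _ ⟨v, rfl⟩
    obtain ⟨n, hn⟩ := isNilpotent_matrix_X k g v
    exact ⟨n, by rw [RingHom.mem_ker, map_pow, hn]⟩
  have hc : MvPowerSeries.constantCoeff z ∈ maximalIdeal 𝒪 := fun hu =>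
    hz (MvPowerSeries.isUnit_iff_constantCoeff.mpr hu)
  have h2 : algebraMap 𝒪 (Src 𝒪 A G) (MvPowerSeries.constantCoeff z) ∈ (RingHom.ker g).radical := by
    refine ⟨k, ?_⟩
    rw [RingHom.mem_ker, ← map_pow (algebraMap 𝒪 (Src 𝒪 A G))]
    change (Ideal.Quotient.mk (maximalIdeal S ^ k)).mapMatrix (F (algebraMap 𝒪 (Src 𝒪 A G) _)) = 0
    rw [F.commutes, RingHom.mapMatrix_apply]
    have hz0 : Ideal.Quotient.mk (maximalIdeal S ^ k)
        (algebraMap 𝒪 S (MvPowerSeries.constantCoeff z ^ k)) = 0 := by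
      rw [Ideal.Quotient.eq_zero_iff_mem, map_pow]
      exact Ideal.pow_mem_pow (C_mem_maximalIdeal hc) k
    refine Matrix.ext fun i j => ?_
    change Ideal.Quotient.mk (maximalIdeal S ^ k) (algebraMap 𝒪 MatS _ i j) = 0
    rw [Matrix.algebraMap_matrix_apply]
    split_ifs
    · exact hz0
    · exact map_zero _
  simpa using add_mem (h1 hz1) h2

/-- An element of a finitely generated module congruent to a submodule modulo every power of the
maximal ideal lies in it. -/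
theorem mem_of_forall_add_pow {R M : Type} [CommRing R] [IsNoetherianRing R] [IsLocalRing R]
    [AddCommGroup M] [Module R M] [Module.Finite R M] (N : Submodule R M) {x : M}
    (h : ∀ k : ℕ, ∃ y ∈ N, x - y ∈ maximalIdeal R ^ k • (⊤ : Submodule R M)) : x ∈ N := by
  have h1 : N.mkQ x ∈ (⊥ : Submodule R (M ⧸ N)) := by
    rw [← Ideal.iInf_pow_smul_eq_bot_of_isLocalRing (maximalIdeal R)
      (maximalIdeal.isMaximal R).ne_top, Submodule.mem_iInf]
    intro k
    obtain ⟨y, hy, hxy⟩ := h k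
    have h2 := Submodule.mem_map_of_mem (f := N.mkQ) hxy
    rw [Submodule.map_smul'', map_sub,
      show N.mkQ y = 0 from (Submodule.Quotient.mk_eq_zero N).mpr hy, sub_zero] at h2
    exact Submodule.smul_mono le_rfl le_top h2
  exact (Submodule.Quotient.mk_eq_zero N).mp h1

section Limit

variable {f : ∀ n, Src 𝒪 A G →ₐ[𝒪]
    Matrix (Fin m) (Fin m) (MvPowerSeries (Fin d) 𝒪 ⧸ maximalIdeal (MvPowerSeries (Fin d) 𝒪) ^ n)}
  {φ : ℕ → ℕ} (hφ : ∀ n, n ≤ φ n) {F : Src 𝒪 A G →ₐ[𝒪] Matrix (Fin m) (Fin m)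
    (MvPowerSeries (Fin d) 𝒪)}
  (hFn : ∀ k n, ∀ h : k ≤ n, ∀ z, (F z).map
    (Ideal.Quotient.mk (maximalIdeal (MvPowerSeries (Fin d) 𝒪) ^ k)) =
    reduceHom (h.trans (hφ n)) (f (φ n)) z)

include hφ hFn

/-- An element killed at all finite stages is killed in the limit. -/
theorem limit_eq_zero {z : Src 𝒪 A G} (hz : ∀ k, reduceHom (hφ k) (f (φ k)) z = 0) : F z = 0 := by
  refine Matrix.ext fun a c => IsHausdorff.eq_iff_smodEq (I := maximalIdeal S).mpr fun k => ?_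
  rw [SModEq.sub_mem, smul_eq_mul, Ideal.mul_top, ← Ideal.Quotient.eq]
  have h1 := hFn k k le_rfl z
  rw [hz k] at h1
  simpa using congrFun (congrFun h1 a) c

/-- The limit at a convergent sequence of elements. -/
theorem limit_close {zn : ℕ → Src 𝒪 A G} {zl : Src 𝒪 A G}
    (hz : ∀ k n, k ≤ n → zn n - zl ∈ maximalIdeal (Src 𝒪 A G) ^ k) (k : ℕ) :
    ∃ M, ∀ n, k ≤ n → M ≤ n → ∀ h : k ≤ φ n,
      (F zl).map (Ideal.Quotient.mk (maximalIdeal S ^ k)) = reduceHom h (f (φ n)) (zn n) := by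
  obtain ⟨M, hM⟩ := exists_pow_le_ker_reduce F k
  refine ⟨M, fun n hkn hMn h => ?_⟩
  have h1 : (F (zn n)).map (Ideal.Quotient.mk (maximalIdeal S ^ k)) =
      (F zl).map (Ideal.Quotient.mk (maximalIdeal S ^ k)) := by
    have := hM (hz M n hMn)
    rw [RingHom.mem_ker, map_sub, sub_eq_zero] at this
    exact this
  rw [← h1]
  exact hFn k n hkn (zn n)

/-- Scalars pass to the limit. -/
theorem limit_eq_scalar {zn : ℕ → Src 𝒪 A G} {zl : Src 𝒪 A G}
    (hz : ∀ k n, k ≤ n → zn n - zl ∈ maximalIdeal (Src 𝒪 A G) ^ k) (c : S)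
    (h : ∀ n, f (φ n) (zn n) = algebraMap _ _ (Ideal.Quotient.mk (maximalIdeal S ^ φ n) c)) :
    F zl = algebraMap S MatS c := by
  refine Matrix.ext fun i j => IsHausdorff.eq_iff_smodEq (I := maximalIdeal S).mpr fun e => ?_
  rw [SModEq.sub_mem, smul_eq_mul, Ideal.mul_top, ← Ideal.Quotient.eq]
  obtain ⟨M, hM⟩ := limit_close hφ hFn hz e
  have h' := congrFun (congrFun (hM (max e M) (le_max_left _ _) (le_max_right _ _)
    ((le_max_left _ _).trans (hφ _))) i) j
  rw [Matrix.map_apply] at h'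
  rw [h']
  change Ideal.Quotient.factor (Ideal.pow_le_pow_right ((le_max_left e M).trans (hφ _)))
    (f _ (zn _) i j) = _
  rw [h, Matrix.algebraMap_matrix_apply, Matrix.algebraMap_matrix_apply]
  split_ifs
  · exact Ideal.Quotient.factor_mk _ _
  · rw [map_zero, map_zero]

end Limit

/-- A map is finite if it becomes finite after an injection. -/
theorem finite_of_injective_comp {R S' U T : Type} [CommRing R] [IsNoetherianRing R] [CommRing S']
    [CommRing U] [Ring T] [Algebra S' T] [Module.Finite S' T] (ψ : R →+* S') (hψ : ψ.Finite)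
    (ι : R →+* U) (g : U →+* T) (hg : Function.Injective g)
    (h : ∀ r, g (ι r) = algebraMap S' T (ψ r)) : ι.Finite := by
  let := ψ.toAlgebra
  let := ι.toAlgebra
  let : Algebra R T :=
    ((algebraMap S' T).comp ψ).toAlgebra' fun c x => Algebra.commutes (ψ c) x
  have : IsScalarTower R S' T := IsScalarTower.of_algebraMap_eq fun _ => rfl
  have : Module.Finite R S' := hψ
  have : Module.Finite R T := Module.Finite.trans S' T
  let gl : U →ₐ[R] T := { g with commutes' := h }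
  exact Module.Finite.of_injective gl.toLinearMap hg

/-- A patched side: a limit of the levels along a subsequence, whose image is finite and torsion
free over the parameters. -/
theorem exists_side (ψ : S →ₐ[𝒪] S) (hψfin : (ψ : S →+* S).Finite) (hψinj : Function.Injective ψ)
    (f : ∀ n, Src 𝒪 A G →ₐ[𝒪] Mat n) (φ : ℕ → ℕ) (hφ : ∀ n, n ≤ φ n)
    (L : Var A G → MatS)
    (hL : ∀ k n, ∀ h : k ≤ n, ∀ v, reduceHom (h.trans (hφ n)) (f (φ n)) (MvPowerSeries.X v) =
      (L v).map (Ideal.Quotient.mk _))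
    (Z : Fin d → Src 𝒪 A G) (Zn : ℕ → Fin d → Src 𝒪 A G)
    (hZn : ∀ n k, f (φ n) (Zn n k) =
      algebraMap _ (Mat (φ n))
        (Ideal.Quotient.mk (maximalIdeal (MvPowerSeries (Fin d) 𝒪) ^ φ n) (ψ (MvPowerSeries.X k))))
    (hZ : ∀ k n, k ≤ n → ∀ i, Zn n i - Z i ∈ maximalIdeal (Src 𝒪 A G) ^ k) (hm : 0 < m) :
    ∃ F : Src 𝒪 A G →ₐ[𝒪] MatS, (∀ v, F (MvPowerSeries.X v) = L v) ∧
      (∀ k n, ∀ h : k ≤ n, ∀ z, (F z).map (Ideal.Quotient.mk (maximalIdeal S ^ k)) =
        reduceHom (h.trans (hφ n)) (f (φ n)) z) ∧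
      ∃ ι : S →ₐ[𝒪] Src 𝒪 A G ⧸ RingHom.ker F, (ι : S →+* Src 𝒪 A G ⧸ RingHom.ker F).Finite ∧
        (∀ (s : S) (z : Src 𝒪 A G ⧸ RingHom.ker F), s ≠ 0 → ι s * z = 0 → z = 0) ∧
        (∀ s, RingHom.kerLift (F : Src 𝒪 A G →+* MatS) (ι s) = algebraMap S MatS (ψ s)) := by
  classical
  have := finite_residueField_mvPowerSeries (𝒪 := 𝒪) (Fin d)
  have := finite_residueField_mvPowerSeries (𝒪 := 𝒪) (Var A G)
  have : Nonempty (Fin m) := ⟨⟨0, hm⟩⟩
  obtain ⟨F, hFX, hFn⟩ := exists_limitHom f φ hφ L hL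
  have : Nontrivial MatS := inferInstance
  -- the parameters
  have hFZ : ∀ k, F (Z k) = algebraMap S MatS (ψ (MvPowerSeries.X k)) := fun c =>
    limit_eq_scalar hφ hFn (fun k n h => hZ k n h c) _ fun n => hZn n c
  set g : ((Src 𝒪 A G) ⧸ RingHom.ker F) →+* MatS :=
    RingHom.kerLift (F : (Src 𝒪 A G) →+* MatS) with hgdef
  have hginj : Function.Injective g := RingHom.kerLift_injective _
  have : Nontrivial ((Src 𝒪 A G) ⧸ RingHom.ker F) :=
    Ideal.Quotient.nontrivial_iff.mpr (RingHom.ker_ne_top _)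
  have : IsLocalRing ((Src 𝒪 A G) ⧸ RingHom.ker F) :=
    IsLocalRing.of_surjective' (Ideal.Quotient.mk _) Ideal.Quotient.mk_surjective
  have hmkl : IsLocalHom (Ideal.Quotient.mk (RingHom.ker F)) :=
    IsLocalHom.of_surjective _ Ideal.Quotient.mk_surjective
  have : IsLocalHom (algebraMap (Src 𝒪 A G) ((Src 𝒪 A G) ⧸ RingHom.ker F)) := hmkl
  have : IsAdicComplete (maximalIdeal ((Src 𝒪 A G) ⧸ RingHom.ker F))
      ((Src 𝒪 A G) ⧸ RingHom.ker F) :=
    IsLocalRing.isAdicComplete_of_module_finite (𝒪 := (Src 𝒪 A G))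
  have hψloc : IsLocalHom (ψ : S →+* S) :=
    RingHom.IsIntegral.isLocalHom hψfin.to_isIntegral hψinj
  have hZm : ∀ k, Ideal.Quotient.mk (RingHom.ker F) (Z k) ∈
      maximalIdeal ((Src 𝒪 A G) ⧸ RingHom.ker F) := by
    intro k hu
    have h1 : IsUnit (algebraMap S MatS (ψ (MvPowerSeries.X k))) := by
      rw [← hFZ k]; exact hu.map g
    have h2 := h1.map (Matrix.detMonoidHom)
    rw [Matrix.coe_detMonoidHom, Matrix.algebraMap_eq_diagonal, Matrix.det_diagonal] at h2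
    simp only [Pi.algebraMap_apply, Algebra.algebraMap_self, RingHom.id_apply, Finset.prod_const,
      Finset.card_univ, Fintype.card_fin] at h2
    exact X_mem_maximalIdeal k (IsLocalHom.map_nonunit (f := (ψ : S →+* S)) _
      ((isUnit_pow_iff hm.ne').mp h2))
  obtain ⟨ι, hι⟩ := exists_eval (𝒪 := 𝒪) (fun k => Ideal.Quotient.mk (RingHom.ker F) (Z k)) hZm
  have hcomm : g.comp (ι : S →+* (Src 𝒪 A G) ⧸ RingHom.ker F) =
      (algebraMap S MatS).comp (ψ : S →+* S) := by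
    refine matrixHom_ext (fun c => ?_) (fun v => ?_)
    · change g (ι (algebraMap 𝒪 S c)) = algebraMap S MatS (ψ (algebraMap 𝒪 S c))
      rw [ι.commutes, ψ.commutes]
      change F (algebraMap 𝒪 (Src 𝒪 A G) c) = _
      rw [F.commutes]
      rfl
    · change g (ι (MvPowerSeries.X v)) = algebraMap S MatS (ψ (MvPowerSeries.X v))
      rw [hι]
      exact hFZ v
  refine ⟨F, hFX, hFn, ι, ?_, ?_, fun s => DFunLike.congr_fun hcomm s⟩
  · exact finite_of_injective_comp (ψ : S →+* S) hψfin _ g hginj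
      (fun r => DFunLike.congr_fun hcomm r)
  · intro s z hs hz
    refine hginj ?_
    have h := congrArg g hz
    rw [map_mul, map_zero, show g (ι s) = algebraMap S MatS (ψ s) from DFunLike.congr_fun hcomm s,
      ← Algebra.smul_def] at h
    rw [map_zero]
    refine Matrix.ext fun i j => ?_
    have h' := congrFun (congrFun h i) j
    rw [Matrix.smul_apply, smul_eq_mul, Matrix.zero_apply] at h'
    exact (mul_eq_zero.mp h').resolve_left fun h0 => hs (hψinj (h0.trans (map_zero ψ).symm))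

/-- The algebra generated by the image. -/
def imageAlg (F : Src 𝒪 A G →ₐ[𝒪] MatS) : Subalgebra S MatS := Algebra.adjoin S (Set.range F)

/-- The algebra generated by the image is commutative. -/
theorem imageAlg_mul_comm (F : Src 𝒪 A G →ₐ[𝒪] MatS) (a b : imageAlg F) : a * b = b * a :=
  (Algebra.isMulCommutative_adjoin S (s := Set.range F) (by
    rintro _ ⟨u, rfl⟩ _ ⟨v, rfl⟩
    rw [← map_mul, ← map_mul, mul_comm])).is_comm.comm a b

/-- The algebra generated by the image is a commutative ring. -/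
instance imageAlgCommRing (F : Src 𝒪 A G →ₐ[𝒪] MatS) : CommRing (imageAlg F) :=
  { (inferInstance : Ring (imageAlg F)) with mul_comm := imageAlg_mul_comm F }

/-- The map into the algebra generated by the image. -/
def toImage (F : Src 𝒪 A G →ₐ[𝒪] MatS) : Src 𝒪 A G →+* imageAlg F :=
  (F : Src 𝒪 A G →+* MatS).codRestrict (imageAlg F).toSubring fun u =>
    Algebra.subset_adjoin ⟨u, rfl⟩

/-- The underlying matrix of an image. -/
theorem coe_toImage (F : Src 𝒪 A G →ₐ[𝒪] MatS) (u : Src 𝒪 A G) :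
    ((toImage F u : imageAlg F) : MatS) = F u := rfl

/-- Primes containing the kernel lift. -/
theorem exists_prime_toImage {ψ : S →ₐ[𝒪] S} (hψfin : (ψ : S →+* S).Finite)
    (F : Src 𝒪 A G →ₐ[𝒪] MatS) (ι : S →ₐ[𝒪] Src 𝒪 A G ⧸ RingHom.ker F)
    (hι : ∀ s, RingHom.kerLift (F : Src 𝒪 A G →+* MatS) (ι s) = algebraMap S MatS (ψ s))
    (P : Ideal (Src 𝒪 A G)) [P.IsPrime] (hP : RingHom.ker F ≤ P) :
    ∃ Q : Ideal (imageAlg F), Q.IsPrime ∧ Q.comap (toImage F) = P := by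
  have := finite_residueField_mvPowerSeries (𝒪 := 𝒪) (Fin d)
  -- the quotient by `ker F` embeds in the image algebra
  let g : (Src 𝒪 A G ⧸ RingHom.ker F) →+* imageAlg F :=
    Ideal.Quotient.lift _ (toImage F) fun a ha => Subtype.ext ha
  have hgc : ∀ x, ((g x : imageAlg F) : MatS) = RingHom.kerLift (F : Src 𝒪 A G →+* MatS) x := by
    intro x
    obtain ⟨u, rfl⟩ := Ideal.Quotient.mk_surjective x
    rfl
  have hg : Function.Injective g := fun a b h =>
    RingHom.kerLift_injective (F : Src 𝒪 A G →+* MatS) (by rw [← hgc, ← hgc, h])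
  -- integrally, the image being finite over `S` through `ψ`
  have hgi : g.IsIntegral := by
    refine RingHom.IsIntegral.tower_top (ι : S →+* Src 𝒪 A G ⧸ RingHom.ker F) g ?_
    rw [show g.comp (ι : S →+* Src 𝒪 A G ⧸ RingHom.ker F) =
        (algebraMap S (imageAlg F)).comp (ψ : S →+* S) from
      RingHom.ext fun s => Subtype.ext ((hgc _).trans (hι s))]
    have : Module.Finite S (imageAlg F) :=
      Module.Finite.of_injective (imageAlg F).val.toLinearMap Subtype.val_injective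
    exact (RingHom.Finite.comp (RingHom.finite_algebraMap.mpr inferInstance) hψfin).to_isIntegral
  let := g.toAlgebra
  have : Algebra.IsIntegral (Src 𝒪 A G ⧸ RingHom.ker F) (imageAlg F) := ⟨hgi⟩
  have hmap : (P.map (Ideal.Quotient.mk (RingHom.ker F))).IsPrime :=
    Ideal.map_isPrime_of_surjective Ideal.Quotient.mk_surjective (by rw [Ideal.mk_ker]; exact hP)
  have := hmap
  -- so some prime lies over the image of `P`
  obtain ⟨Q, -, hQ, hQc⟩ := Ideal.exists_ideal_over_prime_of_isIntegral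
    (P.map (Ideal.Quotient.mk (RingHom.ker F))) (⊥ : Ideal (imageAlg F)) (by
      rw [← RingHom.ker_eq_comap_bot]
      exact ((RingHom.injective_iff_ker_eq_bot g).mp hg).le.trans bot_le)
  refine ⟨Q, hQ, ?_⟩
  rw [show toImage F = g.comp (Ideal.Quotient.mk _) from RingHom.ext fun u => rfl,
    ← Ideal.comap_comap]
  rw [show Q.comap g = P.map (Ideal.Quotient.mk (RingHom.ker F)) from hQc,
    Ideal.comap_map_of_surjective _ Ideal.Quotient.mk_surjective, ← RingHom.ker_eq_comap_bot,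
    Ideal.mk_ker, sup_eq_left.mpr hP]

/-- An element of a commutative algebra of matrices whose entries lie in a prime lies in it. -/
theorem mem_of_matrix_entries_mem {R W : Type} [CommRing R] [CommRing W] [Algebra R W]
    (v : W →ₐ[R] Matrix (Fin m) (Fin m) R) (hv : Function.Injective v) (Q : Ideal W) [Q.IsPrime]
    {w : W} (h : ∀ i j, algebraMap R W (v w i j) ∈ Q) : w ∈ Q := by
  let f : R →+* W ⧸ Q := (Ideal.Quotient.mk Q).comp (algebraMap R W)
  have hp : (v w).charpoly.map f = Polynomial.X ^ m := by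
    rw [← Matrix.charpoly_map, show (v w).map f = 0 from
      Matrix.ext fun i j => Ideal.Quotient.eq_zero_iff_mem.mpr (h i j),
      Matrix.charpoly_zero, Fintype.card_fin]
  have haev : Polynomial.aeval w (v w).charpoly = 0 :=
    hv (by rw [← Polynomial.aeval_algHom_apply, Matrix.aeval_self_charpoly, map_zero])
  have h0 := congrArg (Ideal.Quotient.mk Q) haev
  rw [map_zero, Polynomial.aeval_def, Polynomial.hom_eval₂, ← Polynomial.eval_map, hp,
    Polynomial.eval_pow, Polynomial.eval_X] at h0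
  exact Ideal.Quotient.eq_zero_iff_mem.mp (eq_zero_of_pow_eq_zero h0)

/-- Systems congruent modulo `ϖ` at the variables have limits congruent there. -/
theorem limit_X_sub_mem_span {ϖ : 𝒪} {f f' : ∀ n, Src 𝒪 A G →ₐ[𝒪] Mat n} {φ : ℕ → ℕ}
    (hφ : ∀ n, n ≤ φ n) {F F' : Src 𝒪 A G →ₐ[𝒪] MatS}
    (hFn : ∀ k n, ∀ h : k ≤ n, ∀ z, (F z).map (Ideal.Quotient.mk (maximalIdeal S ^ k)) =
      reduceHom (h.trans (hφ n)) (f (φ n)) z)
    (hFn' : ∀ k n, ∀ h : k ≤ n, ∀ z, (F' z).map (Ideal.Quotient.mk (maximalIdeal S ^ k)) =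
      reduceHom (h.trans (hφ n)) (f' (φ n)) z)
    (hcongr : ∀ n v i j, f n (MvPowerSeries.X v) i j - f' n (MvPowerSeries.X v) i j ∈
      Ideal.span {algebraMap 𝒪 _ ϖ}) (v : Var A G) (i j : Fin m) :
    F (MvPowerSeries.X v) i j - F' (MvPowerSeries.X v) i j ∈ Ideal.span {algebraMap 𝒪 S ϖ} := by
  have := finite_residueField_mvPowerSeries (𝒪 := 𝒪) (Fin d)
  refine mem_of_forall_add_pow _ fun k => ?_
  obtain ⟨c, hc⟩ := Ideal.mem_span_singleton'.mp (hcongr (φ k) v i j)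
  obtain ⟨s, rfl⟩ := Ideal.Quotient.mk_surjective c
  refine ⟨s * algebraMap 𝒪 S ϖ, Ideal.mem_span_singleton'.mpr ⟨s, rfl⟩, ?_⟩
  rw [smul_eq_mul, Ideal.mul_top, ← Ideal.Quotient.eq, map_sub]
  have h1 := congrFun (congrFun (hFn k k le_rfl (MvPowerSeries.X v)) i) j
  have h2 := congrFun (congrFun (hFn' k k le_rfl (MvPowerSeries.X v)) i) j
  rw [Matrix.map_apply] at h1 h2
  rw [h1, h2]
  change Ideal.Quotient.factor (Ideal.pow_le_pow_right (hφ k)) (f (φ k) _ i j) -
    Ideal.Quotient.factor (Ideal.pow_le_pow_right (hφ k)) (f' (φ k) _ i j) = _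
  rw [← map_sub, ← hc, map_mul, map_mul, Ideal.Quotient.factor_mk]
  rfl

/-- Representations congruent modulo `ϖ` at the variables are congruent. -/
theorem sub_mem_span_of_X {ϖ : 𝒪} (hϖ : Irreducible ϖ) {F F' : Src 𝒪 A G →ₐ[𝒪] MatS}
    (h : ∀ v i j, F (MvPowerSeries.X v) i j - F' (MvPowerSeries.X v) i j ∈
      Ideal.span {algebraMap 𝒪 S ϖ}) (z : Src 𝒪 A G) (i j : Fin m) :
    F z i j - F' z i j ∈ Ideal.span {algebraMap 𝒪 S ϖ} := by
  have := finite_residueField_mvPowerSeries (𝒪 := 𝒪) (Fin d)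
  set J : Ideal S := Ideal.span {algebraMap 𝒪 S ϖ}
  have hJm : J ≤ maximalIdeal S :=
    (Ideal.span_singleton_le_iff_mem _).mpr (C_mem_maximalIdeal hϖ.not_isUnit)
  have : Nontrivial (S ⧸ J) := Ideal.Quotient.nontrivial_iff.mpr
    fun h => (maximalIdeal.isMaximal S).ne_top (top_le_iff.mp (h ▸ hJm))
  have : IsLocalRing (S ⧸ J) :=
    IsLocalRing.of_surjective' (Ideal.Quotient.mk _) Ideal.Quotient.mk_surjective
  have : IsLocalHom (Ideal.Quotient.mk J) := IsLocalHom.of_surjective _ Ideal.Quotient.mk_surjective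
  have : Finite (ResidueField (S ⧸ J)) := Finite.of_surjective
    (ResidueField.map (Ideal.Quotient.mk J)) fun x => by
      obtain ⟨y, rfl⟩ := residue_surjective x
      obtain ⟨w, rfl⟩ := Ideal.Quotient.mk_surjective y
      exact ⟨residue S w, ResidueField.map_residue _ _⟩
  have : IsHausdorff (maximalIdeal (S ⧸ J)) (S ⧸ J) :=
    ⟨fun x hx => by
      have h := Ideal.iInf_pow_eq_bot_of_isLocalRing (maximalIdeal (S ⧸ J))
        (maximalIdeal.isMaximal _).ne_top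
      rw [← Ideal.mem_bot, ← h, Ideal.mem_iInf]
      intro k
      have := hx k
      rwa [SModEq.zero, smul_eq_mul, Ideal.mul_top] at this⟩
  have h1 : ((Ideal.Quotient.mk J).mapMatrix).comp (F : Src 𝒪 A G →+* MatS) =
      ((Ideal.Quotient.mk J).mapMatrix).comp (F' : Src 𝒪 A G →+* MatS) := by
    refine matrixHom_ext (fun c => ?_) (fun v => Matrix.ext fun i j =>
      Ideal.Quotient.eq.mpr (h v i j))
    change (Ideal.Quotient.mk J).mapMatrix (F (algebraMap 𝒪 (Src 𝒪 A G) c)) =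
      (Ideal.Quotient.mk J).mapMatrix (F' (algebraMap 𝒪 (Src 𝒪 A G) c))
    rw [F.commutes, F'.commutes]
  exact Ideal.Quotient.eq.mp (congrFun (congrFun (DFunLike.congr_fun h1 z) i) j)

/-- If two patched sides are congruent modulo `ϖ`, a prime containing `ϖ` and the kernel of the
second contains the kernel of the first. -/
theorem ker_le_of_congr {ψ : S →ₐ[𝒪] S} (hψfin : (ψ : S →+* S).Finite)
    {F F' : Src 𝒪 A G →ₐ[𝒪] MatS} (ι : S →ₐ[𝒪] Src 𝒪 A G ⧸ RingHom.ker F')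
    (hι : ∀ s, RingHom.kerLift (F' : Src 𝒪 A G →+* MatS) (ι s) = algebraMap S MatS (ψ s))
    {ϖ : 𝒪} (hcong : ∀ z i j, F z i j - F' z i j ∈ Ideal.span {algebraMap 𝒪 S ϖ})
    (𝔭 : Ideal (Src 𝒪 A G)) [𝔭.IsPrime] (hle : RingHom.ker F' ≤ 𝔭)
    (hϖ𝔭 : algebraMap 𝒪 (Src 𝒪 A G) ϖ ∈ 𝔭) : RingHom.ker F ≤ 𝔭 := by
  intro z hz
  obtain ⟨Q, hQ, hQc⟩ := exists_prime_toImage hψfin F' ι hι 𝔭 hle
  have hϖQ : algebraMap S (imageAlg F') (algebraMap 𝒪 S ϖ) ∈ Q := by
    rw [← hQc, Ideal.mem_comap] at hϖ𝔭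
    convert hϖ𝔭 using 1
    refine Subtype.ext ?_
    rw [coe_toImage, F'.commutes, Subalgebra.coe_algebraMap, ← IsScalarTower.algebraMap_apply]
  rw [← hQc, Ideal.mem_comap]
  refine mem_of_matrix_entries_mem (imageAlg F').val Subtype.val_injective Q fun i j => ?_
  change algebraMap S (imageAlg F') (F' z i j) ∈ Q
  have h := hcong z i j
  rw [show F z = 0 from hz, Matrix.zero_apply, zero_sub, neg_mem_iff,
    Ideal.mem_span_singleton'] at h
  obtain ⟨c, hc⟩ := h
  rw [← hc, map_mul]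
  exact Q.mul_mem_left _ hϖQ

/-- Where the parameters vanish, the augmented representation is seen. -/
theorem mem_of_constantCoeff_eq_zero {ψ : S →ₐ[𝒪] S} (hψfin : (ψ : S →+* S).Finite)
    (haug : ∀ P : Ideal S, P.IsPrime → (∀ k, ψ (MvPowerSeries.X k) ∈ P) →
      ∀ k, MvPowerSeries.X k ∈ P)
    {F : Src 𝒪 A G →ₐ[𝒪] MatS} (ι : S →ₐ[𝒪] Src 𝒪 A G ⧸ RingHom.ker F)
    (hι : ∀ s, RingHom.kerLift (F : Src 𝒪 A G →+* MatS) (ι s) = algebraMap S MatS (ψ s))
    (P : Ideal (Src 𝒪 A G)) [P.IsPrime] (hP : RingHom.ker F ≤ P)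
    (haugP : ∀ k f, Ideal.Quotient.mk (RingHom.ker F) f = ι (MvPowerSeries.X k) → f ∈ P)
    {z : Src 𝒪 A G} (hz : ∀ i j, MvPowerSeries.constantCoeff (F z i j) = 0) : z ∈ P := by
  obtain ⟨Q, hQ, hQc⟩ := exists_prime_toImage hψfin F ι hι P hP
  have hX : ∀ k, MvPowerSeries.X k ∈ Q.comap (algebraMap S (imageAlg F)) := by
    refine haug _ inferInstance fun k => ?_
    obtain ⟨f, hf⟩ := Ideal.Quotient.mk_surjective (ι (MvPowerSeries.X k))
    have h1 := haugP k f hf
    rw [← hQc, Ideal.mem_comap] at h1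
    have h2 : toImage F f = algebraMap S (imageAlg F) (ψ (MvPowerSeries.X k)) := by
      refine Subtype.ext ?_
      rw [coe_toImage, Subalgebra.coe_algebraMap, ← hι, ← hf]
      rfl
    rwa [h2] at h1
  have hspan : Ideal.span (Set.range (MvPowerSeries.X : Fin d → S)) ≤
      Q.comap (algebraMap S (imageAlg F)) :=
    Ideal.span_le.mpr (by rintro _ ⟨k, rfl⟩; exact hX k)
  rw [← hQc, Ideal.mem_comap]
  refine mem_of_matrix_entries_mem (imageAlg F).val Subtype.val_injective Q fun i j => hspan ?_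
  change F z i j ∈ _
  exact mem_spanX_of_constantCoeff_eq_zero (hz i j)

/-- A prime containing the kernel of a map to a finite `𝒪`-algebra is the preimage of a prime. -/
theorem exists_prime_comap_eq {R T₀ : Type} [CommRing R] [Algebra 𝒪 R] [CommRing T₀] [Algebra 𝒪 T₀]
    [Module.Finite 𝒪 T₀] (π : R →ₐ[𝒪] T₀) (Q : Ideal R) [Q.IsPrime] (hker : RingHom.ker π ≤ Q) :
    ∃ Q₀ : Ideal T₀, Q₀.IsPrime ∧ Q₀.comap π = Q := by
  let := (RingHom.kerLift (π : R →+* T₀)).toAlgebra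
  have : (Q.map (Ideal.Quotient.mk (RingHom.ker (π : R →+* T₀)))).IsPrime :=
    Ideal.map_isPrime_of_surjective Ideal.Quotient.mk_surjective (by rw [Ideal.mk_ker]; exact hker)
  have : Algebra.IsIntegral (R ⧸ RingHom.ker (π : R →+* T₀)) T₀ := ⟨by
    refine RingHom.IsIntegral.tower_top ((Ideal.Quotient.mk _).comp (algebraMap 𝒪 R))
      (RingHom.kerLift (π : R →+* T₀)) ?_
    rw [show (RingHom.kerLift (π : R →+* T₀)).comp
        ((Ideal.Quotient.mk _).comp (algebraMap 𝒪 R)) = algebraMap 𝒪 T₀ from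
      RingHom.ext fun c => π.commutes c]
    exact RingHom.Finite.to_isIntegral (RingHom.finite_algebraMap.mpr inferInstance)⟩
  obtain ⟨Q₀, -, hQ₀, hQ₀c⟩ := Ideal.exists_ideal_over_prime_of_isIntegral
    (Q.map (Ideal.Quotient.mk (RingHom.ker (π : R →+* T₀)))) (⊥ : Ideal T₀) (by
      rw [← RingHom.ker_eq_comap_bot]
      exact ((RingHom.injective_iff_ker_eq_bot _).mp (RingHom.kerLift_injective _)).le.trans bot_le)
  refine ⟨Q₀, hQ₀, ?_⟩
  have h : (Q₀.comap (RingHom.kerLift (π : R →+* T₀))).comap (Ideal.Quotient.mk _) = Q := by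
    rw [show Q₀.comap (RingHom.kerLift (π : R →+* T₀)) =
        Q.map (Ideal.Quotient.mk (RingHom.ker (π : R →+* T₀))) from hQ₀c,
      Ideal.comap_map_of_surjective _ Ideal.Quotient.mk_surjective, ← RingHom.ker_eq_comap_bot,
      Ideal.mk_ker]
    exact sup_eq_left.mpr hker
  exact h

/-- A finitely generated `𝒪`-submodule of matrices contains what it approximates to all orders. -/
theorem exists_eq_of_approx {ϖ : 𝒪} (hϖ : Irreducible ϖ) {T₀ : Type} [CommRing T₀] [Algebra 𝒪 T₀]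
    (e : T₀ →ₐ[𝒪] Matrix (Fin m) (Fin m) 𝒪) (x : Matrix (Fin m) (Fin m) 𝒪)
    (hx : ∀ n, ∃ t : T₀, ∀ i j, x i j - e t i j ∈ Ideal.span {ϖ ^ n}) : ∃ t, e t = x := by
  refine LinearMap.mem_range.mp (mem_of_forall_add_pow (LinearMap.range e.toLinearMap) fun n => ?_)
  obtain ⟨t, ht⟩ := hx n
  choose c hc using fun i j => Ideal.mem_span_singleton'.mp (ht i j)
  refine ⟨e t, ⟨t, rfl⟩, ?_⟩
  have he : x - e t = ϖ ^ n • Matrix.of c := Matrix.ext fun i j => by
    rw [Matrix.sub_apply, Matrix.smul_apply, Matrix.of_apply, smul_eq_mul]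
    linear_combination -(hc i j)
  rw [he]
  exact Submodule.smul_mem_smul (Ideal.pow_mem_pow hϖ.not_isUnit n) Submodule.mem_top

/-- The constant terms of a limit congruent to a base algebra at every stage factor through it. -/
theorem exists_factor_constantCoeff {ϖ : 𝒪} (hϖ : Irreducible ϖ)
    {f : ∀ n, Src 𝒪 A G →ₐ[𝒪] Mat n} {φ : ℕ → ℕ} (hφ : ∀ n, n ≤ φ n)
    {F : Src 𝒪 A G →ₐ[𝒪] MatS}
    (hFn : ∀ k n, ∀ h : k ≤ n, ∀ z, (F z).map (Ideal.Quotient.mk (maximalIdeal S ^ k)) =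
      reduceHom (h.trans (hφ n)) (f (φ n)) z)
    {T₀ : Type} [CommRing T₀] [Algebra 𝒪 T₀] {e : T₀ →ₐ[𝒪] Matrix (Fin m) (Fin m) 𝒪}
    (he : Function.Injective e)
    (base : ∀ n z, ∃ t : T₀, ∀ i j, ∀ s : S, Ideal.Quotient.mk _ s = f n z i j →
      MvPowerSeries.constantCoeff s - e t i j ∈ Ideal.span {ϖ ^ n}) :
    ∃ π : Src 𝒪 A G →ₐ[𝒪] T₀,
      (∀ z i j, e (π z) i j = MvPowerSeries.constantCoeff (F z i j)) ∧
      ∀ z t, (∀ n i j, ∀ s : S, Ideal.Quotient.mk _ s = f n z i j →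
        MvPowerSeries.constantCoeff s - e t i j ∈ Ideal.span {ϖ ^ n}) → π z = t := by
  let cc : S →ₐ[𝒪] 𝒪 :=
    { (MvPowerSeries.constantCoeff : S →+* 𝒪) with
      commutes' := fun c => by simp [MvPowerSeries.algebraMap_apply] }
  let F₀ : Src 𝒪 A G →ₐ[𝒪] Matrix (Fin m) (Fin m) 𝒪 := cc.mapMatrix.comp F
  -- at every stage the constant term of the limit is congruent to a value of the base
  have hstage : ∀ n z t, (∀ i j, ∀ s : S, Ideal.Quotient.mk _ s = f (φ n) z i j →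
      MvPowerSeries.constantCoeff s - e t i j ∈ Ideal.span {ϖ ^ φ n}) →
      ∀ i j, F₀ z i j - e t i j ∈ Ideal.span {ϖ ^ n} := by
    intro n z t ht i j
    obtain ⟨s, hs⟩ := Ideal.Quotient.mk_surjective (f (φ n) z i j)
    have h := congrFun (congrFun (hFn n n le_rfl z) i) j
    change Ideal.Quotient.mk _ (F z i j) =
      Ideal.Quotient.factor (Ideal.pow_le_pow_right (hφ n)) (f (φ n) z i j) at h
    rw [← hs, Ideal.Quotient.factor_mk, Ideal.Quotient.eq] at h
    have h0 := constantCoeff_mem_span_of_mem hϖ h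
    rw [map_sub] at h0
    have h1 : MvPowerSeries.constantCoeff s - e t i j ∈ Ideal.span {ϖ ^ n} :=
      (Ideal.span_singleton_le_span_singleton.mpr (pow_dvd_pow ϖ (hφ n))) (ht i j s hs)
    have := add_mem h0 h1
    rwa [sub_add_sub_cancel] at this
  -- so it is such a value
  choose π₀ hπ₀ using fun z => exists_eq_of_approx hϖ e (F₀ z) fun n =>
    (base (φ n) z).imp fun t ht => hstage n z t ht
  -- the preimages form a homomorphism, as `e` is injective
  let π : Src 𝒪 A G →ₐ[𝒪] T₀ :=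
    { toFun := π₀
      map_one' := he (by rw [hπ₀, map_one, map_one])
      map_mul' := fun a b => he (by rw [hπ₀, map_mul, map_mul, hπ₀, hπ₀])
      map_zero' := he (by rw [hπ₀, map_zero, map_zero])
      map_add' := fun a b => he (by rw [hπ₀, map_add, map_add, hπ₀, hπ₀])
      commutes' := fun c => he (by rw [hπ₀, AlgHom.commutes, AlgHom.commutes]) }
  refine ⟨π, fun z i j => congrFun (congrFun (hπ₀ z) i) j, fun z t ht => he ((hπ₀ z).trans ?_)⟩
  -- uniqueness: congruent at every stage, hence equal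
  refine Matrix.ext fun i j => IsHausdorff.eq_iff_smodEq (I := maximalIdeal 𝒪).mpr fun n => ?_
  rw [SModEq.sub_mem, smul_eq_mul, Ideal.mul_top, hϖ.maximalIdeal_eq, Ideal.span_singleton_pow]
  exact hstage n z t (ht (φ n)) i j

/-- The two sides patched along one subsequence. -/
theorem exists_sides {D : LocalData 𝒪 A} {ϖ : 𝒪} {ψ : S →ₐ[𝒪] S}
    (hψfin : (ψ : S →+* S).Finite) (hψinj : Function.Injective ψ) (hm : 0 < m)
    (I : PatchCore (G := G) (d := d) (m := m) D ϖ ψ) :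
    ∃ (φ : ℕ → ℕ) (hφ : ∀ n, n ≤ φ n) (F₁ Fχ : Src 𝒪 A G →ₐ[𝒪] MatS),
      (∀ k n, ∀ h : k ≤ n, ∀ z, (F₁ z).map (Ideal.Quotient.mk (maximalIdeal S ^ k)) =
        reduceHom (h.trans (hφ n)) (I.f₁ (φ n)) z) ∧
      (∀ k n, ∀ h : k ≤ n, ∀ z, (Fχ z).map (Ideal.Quotient.mk (maximalIdeal S ^ k)) =
        reduceHom (h.trans (hφ n)) (I.fχ (φ n)) z) ∧
      (∃ ι : S →ₐ[𝒪] Src 𝒪 A G ⧸ RingHom.ker F₁,
        (ι : S →+* Src 𝒪 A G ⧸ RingHom.ker F₁).Finite ∧
        (∀ (s : S) (z : Src 𝒪 A G ⧸ RingHom.ker F₁), s ≠ 0 → ι s * z = 0 → z = 0) ∧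
        ∀ s, RingHom.kerLift (F₁ : Src 𝒪 A G →+* MatS) (ι s) = algebraMap S MatS (ψ s)) ∧
      ∃ ι : S →ₐ[𝒪] Src 𝒪 A G ⧸ RingHom.ker Fχ,
        (ι : S →+* Src 𝒪 A G ⧸ RingHom.ker Fχ).Finite ∧
        (∀ (s : S) (z : Src 𝒪 A G ⧸ RingHom.ker Fχ), s ≠ 0 → ι s * z = 0 → z = 0) ∧
        ∀ s, RingHom.kerLift (Fχ : Src 𝒪 A G →+* MatS) (ι s) = algebraMap S MatS (ψ s) := by
  classical
  have := finite_residueField_mvPowerSeries (𝒪 := 𝒪) (Fin d)
  have := finite_residueField_mvPowerSeries (𝒪 := 𝒪) (Var A G)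
  have : Nonempty (Fin m) := ⟨⟨0, hm⟩⟩
  -- first subsequence: the matrices of the variables
  choose l₁ hl₁ using fun n v i j => Ideal.Quotient.mk_surjective (I.f₁ n (MvPowerSeries.X v) i j)
  choose lχ hlχ using fun n v i j => Ideal.Quotient.mk_surjective (I.fχ n (MvPowerSeries.X v) i j)
  obtain ⟨φ₁, L, hφ₁, hL⟩ := exists_subseq_limit (R := S)
    (ι := Bool × Var A G × Fin m × Fin m)
    fun n x => if x.1 then lχ n x.2.1 x.2.2.1 x.2.2.2 else l₁ n x.2.1 x.2.2.1 x.2.2.2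
  -- second subsequence: the parameters
  choose z₁ hz₁ using I.par₁
  choose zχ hzχ using I.parχ
  obtain ⟨φ₂, Z, hφ₂, hZ⟩ := exists_subseq_limit (R := (Src 𝒪 A G)) (ι := Bool × Fin d)
    fun n x => if x.1 then zχ (φ₁ n) x.2 else z₁ (φ₁ n) x.2
  let φ : ℕ → ℕ := fun n => φ₁ (φ₂ n)
  have hφ : ∀ n, n ≤ φ n := fun n => (hφ₂.id_le n).trans (hφ₁.id_le _)
  let L₁ : Var A G → MatS := fun v => Matrix.of fun i j => L (false, v, i, j)
  let Lχ : Var A G → MatS := fun v => Matrix.of fun i j => L (true, v, i, j)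
  have hL₁ : ∀ k n, ∀ h : k ≤ n, ∀ v, reduceHom (h.trans (hφ n)) (I.f₁ (φ n)) (MvPowerSeries.X v) =
      (L₁ v).map (Ideal.Quotient.mk _) := fun k n h v => Matrix.ext fun i j => by
    change Ideal.Quotient.factor (Ideal.pow_le_pow_right (h.trans (hφ n))) (I.f₁ (φ n) _ i j) = _
    rw [← hl₁, Ideal.Quotient.factor_mk]
    exact Ideal.Quotient.eq.mpr (hL k (φ₂ n) (h.trans (hφ₂.id_le n)) (false, v, i, j))
  have hLχ : ∀ k n, ∀ h : k ≤ n, ∀ v, reduceHom (h.trans (hφ n)) (I.fχ (φ n)) (MvPowerSeries.X v) =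
      (Lχ v).map (Ideal.Quotient.mk _) := fun k n h v => Matrix.ext fun i j => by
    change Ideal.Quotient.factor (Ideal.pow_le_pow_right (h.trans (hφ n))) (I.fχ (φ n) _ i j) = _
    rw [← hlχ, Ideal.Quotient.factor_mk]
    exact Ideal.Quotient.eq.mpr (hL k (φ₂ n) (h.trans (hφ₂.id_le n)) (true, v, i, j))
  obtain ⟨F₁, -, hF₁n, ι₁, hfin₁, htf₁, hι₁⟩ := exists_side ψ hψfin hψinj I.f₁ φ hφ L₁ hL₁
    (fun k => Z (false, k)) (fun n k => z₁ (φ n) k) (fun n k => hz₁ (φ n) k)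
    (fun k n h i => hZ k n h (false, i)) hm
  obtain ⟨Fχ, -, hFχn, ιχ, hfinχ, htfχ, hιχ⟩ := exists_side ψ hψfin hψinj I.fχ φ hφ Lχ hLχ
    (fun k => Z (true, k)) (fun n k => zχ (φ n) k) (fun n k => hzχ (φ n) k)
    (fun k n h i => hZ k n h (true, i)) hm
  exact ⟨φ, hφ, F₁, Fχ, hF₁n, hFχn, ⟨ι₁, hfin₁, htf₁, hι₁⟩, ιχ, hfinχ, htfχ, hιχ⟩

/-- **Patching with avoidance.** At each prime some lowered systems are not new; over a fixed
base there is a point at which all inertia variables vanish. -/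
theorem exists_prime_of_patchCore (D : LocalData 𝒪 A) (h2 : IsUnit (2 : 𝒪)) {ϖ : 𝒪}
    (hϖ : Irreducible ϖ) (hd : d = 3 * Fintype.card A + Fintype.card G) (hm : 0 < m)
    (ψ : S →ₐ[𝒪] S) (hψfin : (ψ : S →+* S).Finite) (hψinj : Function.Injective ψ)
    (haug : ∀ P : Ideal S, P.IsPrime → (∀ k, ψ (MvPowerSeries.X k) ∈ P) →
      ∀ k, MvPowerSeries.X k ∈ P)
    (I : PatchCore (G := G) (d := d) (m := m) D ϖ ψ) :
    (∀ q, ∃ n, I.f₁ n (discAt D (RingHom.id _) q) ≠ 0) ∧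
      ∀ {T₀ : Type} [CommRing T₀] [Algebra 𝒪 T₀] [Module.Finite 𝒪 T₀]
        {e : T₀ →ₐ[𝒪] Matrix (Fin m) (Fin m) 𝒪} (_ : Function.Injective e)
        {a₀ : A → Fin 2 → Fin 2 → T₀}
        (_ : ∀ n z, ∃ t : T₀, ∀ i j, ∀ s : S, Ideal.Quotient.mk _ s = I.f₁ n z i j →
          MvPowerSeries.constantCoeff s - e t i j ∈ Ideal.span {ϖ ^ n})
        (_ : ∀ n q a b, ∀ i j, ∀ s : S,
          Ideal.Quotient.mk _ s = I.f₁ n (MvPowerSeries.X (Sum.inl (q, true, a, b))) i j →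
            MvPowerSeries.constantCoeff s - e (a₀ q a b) i j ∈ Ideal.span {ϖ ^ n}),
        ∃ Q : Ideal T₀, Q.IsPrime ∧ algebraMap 𝒪 T₀ ϖ ∉ Q ∧ ∀ q i j, a₀ q i j ∈ Q := by
  obtain ⟨φ, hφ, F₁, Fχ, hF₁n, hFχn, ⟨ι₁, hfin₁, htf₁, hι₁⟩, ιχ, hfinχ, htfχ, hιχ⟩ :=
    exists_sides hψfin hψinj hm I
  have : Nonempty (Fin m) := ⟨⟨0, hm⟩⟩
  -- relations
  have h₁ : IsOne D (Ideal.Quotient.mk (RingHom.ker F₁)) := (isOne_iff D _).mpr fun z hz =>
    Ideal.Quotient.eq_zero_iff_mem.mpr (limit_eq_zero hφ hF₁n fun k => by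
      change (Ideal.Quotient.factor _).mapMatrix (I.f₁ (φ k) z) = 0
      rw [I.rel₁ _ z hz, map_zero])
  have hχ : IsChi D (Ideal.Quotient.mk (RingHom.ker Fχ)) := (isChi_iff D _).mpr fun z hz =>
    Ideal.Quotient.eq_zero_iff_mem.mpr (limit_eq_zero hφ hFχn fun k => by
      change (Ideal.Quotient.factor _).mapMatrix (I.fχ (φ k) z) = 0
      rw [I.relχ _ z hz, map_zero])
  -- congruence modulo `ϖ`
  have hcong := sub_mem_span_of_X hϖ (limit_X_sub_mem_span hφ hF₁n hFχn I.congr)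
  have hKχ : RingHom.ker Fχ ≠ ⊤ := RingHom.ker_ne_top _
  have hcongr : ∀ 𝔭 : Ideal (Src 𝒪 A G), 𝔭.IsPrime → RingHom.ker Fχ ≤ 𝔭 →
      algebraMap 𝒪 (Src 𝒪 A G) ϖ ∈ 𝔭 → RingHom.ker F₁ ≤ 𝔭 := fun 𝔭 h𝔭 hle hϖ𝔭 =>
    have := h𝔭
    ker_le_of_congr hψfin ιχ hιχ hcong 𝔭 hle hϖ𝔭
  obtain ⟨Q, hQp, hKQ, hϖQ, hXQ, haugQ, hdiscQ⟩ := exists_avoiding_prime D h2 hϖ hKχ hχ h₁ hd ιχ
    hfinχ htfχ ι₁ hfin₁ htf₁ hcongr
  refine ⟨fun q => by
    by_contra h
    push Not at h
    exact hdiscQ q ((RingHom.mem_ker).mpr (limit_eq_zero hφ hF₁n fun k => by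
      change (Ideal.Quotient.factor _).mapMatrix (I.f₁ (φ k) _) = 0
      rw [h (φ k), map_zero])), ?_⟩
  intro T₀ _ _ _ e he a₀ base base_inertia
  -- down to the base ring
  obtain ⟨π, hπ, hπeq⟩ := exists_factor_constantCoeff hϖ hφ hF₁n he base
  have := hQp
  have hker : RingHom.ker π ≤ Q := fun z hz =>
    mem_of_constantCoeff_eq_zero hψfin haug ι₁ hι₁ Q hKQ haugQ fun i j => by
      rw [← hπ, RingHom.mem_ker.mp hz, map_zero, Matrix.zero_apply]
  obtain ⟨Q₀, hQ₀, hQ₀c⟩ := exists_prime_comap_eq π Q hker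
  rw [← hQ₀c] at hϖQ hXQ
  refine ⟨Q₀, hQ₀, fun h => hϖQ (by rwa [Ideal.mem_comap, AlgHom.commutes]), fun q i j => ?_⟩
  rw [← hπeq _ (a₀ q i j) fun n => base_inertia n q i j]
  exact hXQ q i j

end Fermat.GR.Patch
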