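import Mathlib
import Fermat.Agent.GR.Patch.Generators
import Fermat.Agent.GR.Patch.Extend
import Fermat.Agent.GR.Patch.Patching

/-!
# Frames at the primes being lowered

For a ring `R` with matrices `Φ`, `Σ` at the framed primes, `frameSubst` is the substitution from
the common source into `R⟦T⟧`, surjective once a tangent bound holds.

At each level we have a ring `R` (a universal deformation ring) with matrices `Φ`, `Σ` at the primes
in `A`.  Adjoining frames gives `W = R⟦T⟧`; the tangent bound makes `Src → W` surjective; composing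
with the action on the modules gives the input of patching (`FramedCore`).  The result,
`false_of_framedCores_new`, is what `GR/RT/LowerEngine` uses of `Patching`.
-/

set_option autoImplicit false

noncomputable section

namespace Fermat.GR.Patch

open IsLocalRing Matrix

local notation "M2" R => Matrix (Fin 2) (Fin 2) R

/-- The framing variables: all entries at all primes of `A` but one. -/
abbrev FrameVar (A : Type) (q₀ : A) : Type := {x : A × Fin 2 × Fin 2 // x ≠ (q₀, 0, 0)}

section Frame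

variable {A : Type} [DecidableEq A] (q₀ : A) (R : Type) [CommRing R]

/-- The frame `1 + T`. -/
def frameMat (q : A) : M2 (MvPowerSeries (FrameVar A q₀) R) :=
  1 + Matrix.of fun i j => if h : (q, i, j) ≠ (q₀, 0, 0) then MvPowerSeries.X ⟨(q, i, j), h⟩ else 0

variable {R}

/-- The frame is `1` at the origin of the framing variables. -/
theorem constantCoeff_frameMat (q : A) :
    (MvPowerSeries.constantCoeff (σ := FrameVar A q₀) (R := R)).mapMatrix
      (frameMat q₀ R q) = 1 := by
  ext i j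
  simp only [frameMat, RingHom.mapMatrix_apply, Matrix.map_apply, Matrix.add_apply, map_add,
    Matrix.of_apply]
  rw [Matrix.one_apply, Matrix.one_apply]
  split_ifs <;> simp

/-- The frame is invertible. -/
theorem isUnit_det_frameMat (q : A) : IsUnit (frameMat q₀ R q).det := by
  rw [MvPowerSeries.isUnit_iff_constantCoeff, RingHom.map_det, constantCoeff_frameMat,
    Matrix.det_one]
  exact isUnit_one

/-- A matrix over `R`, conjugated by the frame. -/
def framed (q : A) (M : M2 R) : M2 (MvPowerSeries (FrameVar A q₀) R) :=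
  frameMat q₀ R q * M.map MvPowerSeries.C * (frameMat q₀ R q)⁻¹

/-- The entries of two families of framed matrices. -/
def framedSet (Phi Sig : A → M2 R) : Set (MvPowerSeries (FrameVar A q₀) R) :=
  {w | ∃ q i j, w = framed q₀ q (Phi q) i j ∨ w = framed q₀ q (Sig q) i j}

/-- To kill the entries is to kill both families. -/
theorem forall_mem_framedSet {Phi Sig : A → M2 R} {T : Type} [Zero T]
    {l : MvPowerSeries (FrameVar A q₀) R → T} :
    (∀ w ∈ framedSet q₀ Phi Sig, l w = 0) ↔
      (∀ q i j, l (framed q₀ q (Phi q) i j) = 0) ∧ ∀ q i j, l (framed q₀ q (Sig q) i j) = 0 :=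
  ⟨fun h => ⟨fun q i j => h _ ⟨q, i, j, Or.inl rfl⟩, fun q i j => h _ ⟨q, i, j, Or.inr rfl⟩⟩,
    by rintro ⟨h1, h2⟩ _ ⟨q, i, j, rfl | rfl⟩; exacts [h1 q i j, h2 q i j]⟩

/-- The frame times its inverse. -/
theorem frameMat_mul_inv (q : A) : frameMat q₀ R q * (frameMat q₀ R q)⁻¹ = 1 :=
  Matrix.mul_nonsing_inv _ (isUnit_det_frameMat q₀ q)

/-- The inverse times the frame. -/
theorem inv_mul_frameMat (q : A) : (frameMat q₀ R q)⁻¹ * frameMat q₀ R q = 1 :=
  Matrix.nonsing_inv_mul _ (isUnit_det_frameMat q₀ q)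

/-- Framing is multiplicative. -/
theorem framed_mul (q : A) (M M' : M2 R) :
    framed q₀ q M * framed q₀ q M' = framed q₀ q (M * M') := by
  calc framed q₀ q M * framed q₀ q M' = frameMat q₀ R q * M.map MvPowerSeries.C *
        ((frameMat q₀ R q)⁻¹ * frameMat q₀ R q) * M'.map MvPowerSeries.C * (frameMat q₀ R q)⁻¹ := by
        simp only [framed, Matrix.mul_assoc]
    _ = _ := by
      rw [inv_mul_frameMat, Matrix.mul_one]
      simp only [framed, Matrix.map_mul, Matrix.mul_assoc]

/-- Framing fixes `1`. -/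
theorem framed_one (q : A) : framed q₀ q (1 : M2 R) = 1 := by
  rw [framed, Matrix.map_one _ (map_zero _) (map_one _), Matrix.mul_one, frameMat_mul_inv]

/-- Framing commutes with powers. -/
theorem framed_pow (q : A) (M : M2 R) (n : ℕ) : framed q₀ q M ^ n = framed q₀ q (M ^ n) := by
  induction n with
  | zero => rw [pow_zero, pow_zero, framed_one]
  | succ n ih => rw [pow_succ, pow_succ, ih, framed_mul]

/-- Framing keeps determinants. -/
theorem det_framed (q : A) (M : M2 R) :
    (framed q₀ q M).det = MvPowerSeries.C M.det := by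
  rw [framed, Matrix.det_mul, Matrix.det_mul, mul_comm (frameMat q₀ R q).det, mul_assoc,
    ← Matrix.det_mul, frameMat_mul_inv, Matrix.det_one, mul_one, RingHom.map_det]
  rfl

/-- Framing keeps traces. -/
theorem trace_framed (q : A) (M : M2 R) :
    (framed q₀ q M).trace = MvPowerSeries.C M.trace := by
  rw [framed, Matrix.trace_mul_cycle, inv_mul_frameMat, Matrix.one_mul, Matrix.trace_fin_two,
    Matrix.trace_fin_two, map_add]
  rfl

/-- At the origin of the framing variables a framed matrix is the matrix itself. -/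
theorem constantCoeff_framed (q : A) (M : M2 R) :
    (MvPowerSeries.constantCoeff (σ := FrameVar A q₀) (R := R)).mapMatrix (framed q₀ q M) = M := by
  have h := congrArg (MvPowerSeries.constantCoeff (σ := FrameVar A q₀) (R := R)).mapMatrix
    (frameMat_mul_inv q₀ (R := R) q)
  rw [map_mul, constantCoeff_frameMat, one_mul, map_one] at h
  rw [framed, map_mul, map_mul, constantCoeff_frameMat, h, one_mul, mul_one]
  refine Matrix.ext fun i j => ?_
  change MvPowerSeries.constantCoeff (MvPowerSeries.C (σ := FrameVar A q₀) (M i j)) = M i j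
  exact MvPowerSeries.constantCoeff_C _

variable [IsLocalRing R]

/-- A framed matrix reduces to the residue of the matrix. -/
theorem residue_framed (q : A) (M : M2 R) (i j : Fin 2) :
    residue (MvPowerSeries (FrameVar A q₀) R) (framed q₀ q M i j) =
      residue (MvPowerSeries (FrameVar A q₀) R) (MvPowerSeries.C (M i j)) := by
  set rs := residue (MvPowerSeries (FrameVar A q₀) R)
  have h1 : rs.mapMatrix (frameMat q₀ R q) = 1 := by
    ext a b
    simp only [frameMat, RingHom.mapMatrix_apply, Matrix.map_apply, Matrix.add_apply, map_add,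
      Matrix.of_apply]
    rw [Matrix.one_apply, Matrix.one_apply]
    have hX : ∀ v, rs (MvPowerSeries.X v) = 0 := fun v =>
      (residue_eq_zero_iff _).mpr (X_mem_maximalIdeal v)
    split_ifs <;> simp [hX]
  have h2 : rs.mapMatrix ((frameMat q₀ R q)⁻¹) = 1 := by
    have := congrArg rs.mapMatrix (frameMat_mul_inv q₀ (R := R) q)
    rwa [map_mul, h1, one_mul, map_one] at this
  have h3 : rs.mapMatrix (framed q₀ q M) = rs.mapMatrix (M.map MvPowerSeries.C) := by
    rw [framed, map_mul, map_mul, h1, h2, one_mul, mul_one]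
  exact congrFun (congrFun h3 i) j

end Frame

section Ring

variable {𝒪 R : Type} [CommRing 𝒪] [CommRing R] [Algebra 𝒪 R] {σ : Type}

/-- The structure map to the framed ring is local. -/
theorem isLocalHom_algebraMap_framed [IsLocalHom (algebraMap 𝒪 R)] :
    IsLocalHom (algebraMap 𝒪 (MvPowerSeries σ R)) := ⟨fun o ho => by
  rw [MvPowerSeries.algebraMap_apply] at ho
  have h' := MvPowerSeries.isUnit_iff_constantCoeff.mp ho
  rw [MvPowerSeries.constantCoeff_C] at h'
  exact IsLocalHom.map_nonunit (f := algebraMap 𝒪 R) o h'⟩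

/-- The framed ring keeps the residue field of the coefficients. -/
theorem residue_framed_surjective [IsLocalRing R] [Finite σ]
    (hres : Function.Surjective (residue R ∘ algebraMap 𝒪 R)) :
    Function.Surjective (residue (MvPowerSeries σ R) ∘ algebraMap 𝒪 (MvPowerSeries σ R)) := by
  intro z
  obtain ⟨a, ha⟩ := Fermat.GR.residue_comp_algebraMap_surjective (σ := σ) (𝒪 := R) z
  obtain ⟨o, ho⟩ := hres (residue R a)
  refine ⟨o, ?_⟩
  rw [← ha]
  simp only [Function.comp_apply, MvPowerSeries.algebraMap_apply]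
  rw [← sub_eq_zero, ← map_sub, residue_eq_zero_iff]
  have h1 : algebraMap 𝒪 R o - a ∈ maximalIdeal R := by
    rw [← residue_eq_zero_iff, map_sub, sub_eq_zero]; exact ho
  change MvPowerSeries.C _ - MvPowerSeries.C a ∈ _
  rw [← map_sub]
  exact C_mem_maximalIdeal h1

/-- The framed ring has finite residue field. -/
theorem finite_residueField_framed [IsLocalRing 𝒪] [IsLocalRing R] [Finite (ResidueField 𝒪)]
    [Finite σ] [IsLocalHom (algebraMap 𝒪 R)]
    (hres : Function.Surjective (residue R ∘ algebraMap 𝒪 R)) :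
    Finite (ResidueField (MvPowerSeries σ R)) := by
  have := isLocalHom_algebraMap_framed (𝒪 := 𝒪) (R := R) (σ := σ)
  exact Finite.of_surjective (ResidueField.map (algebraMap 𝒪 (MvPowerSeries σ R))) fun z => by
    obtain ⟨o, ho⟩ := residue_framed_surjective (σ := σ) hres z
    exact ⟨residue 𝒪 o, by rw [ResidueField.map_residue]; exact ho⟩

end Ring

section Subst

set_option linter.unusedSectionVars false

variable {𝒪 : Type} [CommRing 𝒪] [IsDomain 𝒪] [IsDiscreteValuationRing 𝒪]
  [IsAdicComplete (maximalIdeal 𝒪) 𝒪] [Finite (ResidueField 𝒪)] [CharZero 𝒪]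
  {A G : Type} [Fintype A] [DecidableEq A] [Fintype G] (M₀ : A → M2 𝒪) (q₀ : A)
  {R : Type} [CommRing R] [IsLocalRing R] [IsNoetherianRing R] [IsAdicComplete (maximalIdeal R) R]
  [Algebra 𝒪 R] [IsLocalHom (algebraMap 𝒪 R)] (Phi Sig : A → M2 R)

/-- The images of the variables in the framed ring. -/
def frameIm (zs : G → MvPowerSeries (FrameVar A q₀) R) :
    Var A G → MvPowerSeries (FrameVar A q₀) R :=
  Sum.elim (fun v => if v.2.1 then framed q₀ v.1 (Sig v.1) v.2.2.1 v.2.2.2 -
      (1 : M2 (MvPowerSeries (FrameVar A q₀) R)) v.2.2.1 v.2.2.2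
    else framed q₀ v.1 (Phi v.1) v.2.2.1 v.2.2.2 -
      algebraMap 𝒪 (MvPowerSeries (FrameVar A q₀) R) (M₀ v.1 v.2.2.1 v.2.2.2)) zs

variable {M₀ Phi Sig} (hP : ∀ q i j, Phi q i j - algebraMap 𝒪 R (M₀ q i j) ∈ maximalIdeal R)
  (hS : ∀ q i j, Sig q i j - (1 : M2 R) i j ∈ maximalIdeal R)
  {zs : G → MvPowerSeries (FrameVar A q₀) R}
  (hz : ∀ i, zs i ∈ maximalIdeal (MvPowerSeries (FrameVar A q₀) R))

include hP hS hz in
/-- The images of the variables lie in the maximal ideal. -/
theorem frameIm_mem (v : Var A G) :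
    frameIm M₀ q₀ Phi Sig zs v ∈ maximalIdeal (MvPowerSeries (FrameVar A q₀) R) := by
  rcases v with ⟨q, t, i, j⟩ | i
  · rw [← residue_eq_zero_iff]
    cases t
    · change residue _ (framed q₀ q (Phi q) i j - algebraMap 𝒪 _ (M₀ q i j)) = 0
      rw [map_sub, residue_framed, MvPowerSeries.algebraMap_apply, ← map_sub, ← map_sub,
        residue_eq_zero_iff]
      exact C_mem_maximalIdeal (hP q i j)
    · change residue _ (framed q₀ q (Sig q) i j - (1 : M2 _) i j) = 0
      rw [map_sub, residue_framed, ← map_sub, residue_eq_zero_iff,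
        show (1 : M2 (MvPowerSeries (FrameVar A q₀) R)) i j = MvPowerSeries.C ((1 : M2 R) i j) by
          rw [Matrix.one_apply, Matrix.one_apply]; split_ifs <;> simp, ← map_sub]
      exact C_mem_maximalIdeal (hS q i j)
  · exact hz i

/-- The substitution into the framed ring. -/
def frameSubst : Src 𝒪 A G →ₐ[𝒪] MvPowerSeries (FrameVar A q₀) R :=
  haveI := isLocalHom_algebraMap_framed (𝒪 := 𝒪) (R := R) (σ := FrameVar A q₀)
  evalHom (frameIm M₀ q₀ Phi Sig zs) (frameIm_mem q₀ hP hS hz)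

/-- The values of the substitution at the variables. -/
theorem frameSubst_X (v : Var A G) :
    frameSubst q₀ hP hS hz (MvPowerSeries.X v) = frameIm M₀ q₀ Phi Sig zs v :=
  evalHom_X _ _ v

/-- The substitution sends variables to the maximal ideal. -/
theorem frameSubst_mem (v : Var A G) : frameSubst q₀ hP hS hz (MvPowerSeries.X v) ∈
    maximalIdeal (MvPowerSeries (FrameVar A q₀) R) := by
  rw [frameSubst_X]
  exact frameIm_mem q₀ hP hS hz v

/-- The substitution sends the inertia matrix to the framed one. -/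
theorem sigAt_frameSubst (q : A) :
    sigAt (frameSubst q₀ hP hS hz : Src 𝒪 A G →+* MvPowerSeries (FrameVar A q₀) R) q =
      framed q₀ q (Sig q) :=
  sigAt_eq_conj _ q _ fun i j => by
    change frameSubst q₀ hP hS hz (MvPowerSeries.X _) = _
    rw [frameSubst_X]; rfl

/-- The substitution is local. -/
theorem isLocalHom_frameSubst : IsLocalHom
    (frameSubst q₀ hP hS hz : Src 𝒪 A G →+* MvPowerSeries (FrameVar A q₀) R) := by
  have := isLocalHom_algebraMap_framed (𝒪 := 𝒪) (R := R) (σ := FrameVar A q₀)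
  refine ⟨fun f hf => ?_⟩
  by_contra hu
  exact map_mem_maximalIdeal (frameSubst q₀ hP hS hz) (frameSubst_mem q₀ hP hS hz)
    (fun h => hu (MvPowerSeries.isUnit_iff_constantCoeff.mpr h)) hf

/-- If the variables separate the tangent vectors killing the framed matrices, the substitution is
surjective. -/
theorem frameSubst_surjective (hres : Function.Surjective (residue R ∘ algebraMap 𝒪 R))
    (hsep : ∀ l ∈ tangentSpace 𝒪 (MvPowerSeries (FrameVar A q₀) R),
      (∀ q i j, l (framed q₀ q (Phi q) i j) = 0) → (∀ q i j, l (framed q₀ q (Sig q) i j) = 0) →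
      (∀ i, l (zs i) = 0) → l = 0) :
    Function.Surjective (frameSubst q₀ hP hS hz) := by
  have := finite_residueField_mvPowerSeries (𝒪 := 𝒪) (Var A G)
  have := isLocalHom_frameSubst q₀ hP hS hz
  refine surjective_of_tangent (frameSubst q₀ hP hS hz) (residue_framed_surjective hres)
    fun l hl hlf => hsep l hl (fun q i j => ?_) (fun q i j => ?_) fun i => ?_
  · have h1 := hlf (MvPowerSeries.X (Sum.inl (q, false, i, j)))
    rw [frameSubst_X] at h1
    change l (framed q₀ q (Phi q) i j - algebraMap 𝒪 _ (M₀ q i j)) = 0 at h1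
    rwa [tangent_sub hl, hl.2.2, sub_zero] at h1
  · have h1 := hlf (MvPowerSeries.X (Sum.inl (q, true, i, j)))
    rw [frameSubst_X] at h1
    change l (framed q₀ q (Sig q) i j - (1 : M2 _) i j) = 0 at h1
    have h2 : l ((1 : M2 (MvPowerSeries (FrameVar A q₀) R)) i j) = 0 := by
      rw [Matrix.one_apply]
      split_ifs
      · simpa using hl.2.2 1
      · simpa using hl.2.2 0
    rwa [tangent_sub hl, h2, sub_zero] at h1
  · have h1 := hlf (MvPowerSeries.X (Sum.inr i))
    rw [frameSubst_X] at h1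
    exact h1

/-- With the tangent bound some substitution is surjective. -/
theorem exists_frameSubst_surjective (hres : Function.Surjective (residue R ∘ algebraMap 𝒪 R))
    (g : ℕ)
    (htan : ∀ K : Submodule (ResidueField (MvPowerSeries (FrameVar A q₀) R))
        (MvPowerSeries (FrameVar A q₀) R → ResidueField (MvPowerSeries (FrameVar A q₀) R)),
      (∀ l ∈ K, l ∈ tangentSpace 𝒪 (MvPowerSeries (FrameVar A q₀) R) ∧
        (∀ q i j, l (framed q₀ q (Phi q) i j) = 0) ∧ ∀ q i j, l (framed q₀ q (Sig q) i j) = 0) →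
      Finite K ∧ Nat.card K ≤ Nat.card (ResidueField (MvPowerSeries (FrameVar A q₀) R)) ^ g) :
    ∃ (zs : Fin g → MvPowerSeries (FrameVar A q₀) R) (hz : ∀ i, zs i ∈ maximalIdeal _),
      Function.Surjective (frameSubst q₀ hP hS hz) := by
  have := finite_residueField_framed (σ := FrameVar A q₀) hres
  obtain ⟨zs, hz, hsep⟩ := exists_separating_killing (residue_framed_surjective hres) g
    (framedSet q₀ Phi Sig) fun K hK => htan K fun l hl =>
      ⟨(hK l hl).1, (forall_mem_framedSet q₀).mp (hK l hl).2⟩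
  exact ⟨zs, hz, frameSubst_surjective q₀ hP hS hz hres
    fun l hl h1 h2 => hsep l hl ((forall_mem_framedSet q₀).mpr ⟨h1, h2⟩)⟩

end Subst

variable {𝒪 : Type} [CommRing 𝒪] [IsDomain 𝒪] [IsDiscreteValuationRing 𝒪]
  [IsAdicComplete (maximalIdeal 𝒪) 𝒪] [Finite (ResidueField 𝒪)] [CharZero 𝒪]
  {A : Type} [Fintype A] [DecidableEq A] {d m g r : ℕ}

local notation "S" => MvPowerSeries (Fin d) 𝒪
local notation "Mat" n:max => Matrix (Fin m) (Fin m)
  (MvPowerSeries (Fin d) 𝒪 ⧸ maximalIdeal (MvPowerSeries (Fin d) 𝒪) ^ n)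

/-- What is needed at level `n`: a ring with matrices at the primes of `A`, the tangent bound and
two actions on free modules over the auxiliary group ring, congruent modulo `ϖ`. `Phi` and `Sig`
are the images of Frobenius and of the tame generator, `α₁` and `αχ` the two actions. -/
structure FramedCore (D : LocalData 𝒪 A) (ϖ : 𝒪) (q₀ : A) (g : ℕ) (ψ : S →ₐ[𝒪] S)
    (emb : Fin r ⊕ FrameVar A q₀ ≃ Fin d) (n : ℕ) : Type 1 where
  /-- The coefficient ring of level `n`. -/
  R : Type
  [instCommRing : CommRing R]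
  [instLocal : IsLocalRing R]
  [instNoeth : IsNoetherianRing R]
  [instComplete : IsAdicComplete (maximalIdeal R) R]
  [instAlgebra : Algebra 𝒪 R]
  [instLocalHom : IsLocalHom (algebraMap 𝒪 R)]
  /-- The residue field of `R` is that of `𝒪`. -/
  hres : Function.Surjective (residue R ∘ algebraMap 𝒪 R)
  /-- The image of Frobenius at each prime. -/
  Phi : A → M2 R
  /-- The image of the tame generator at each prime. -/
  Sig : A → M2 R
  /-- Frobenius is residually `phi0`. -/
  Phi_red : ∀ q i j, Phi q i j - algebraMap 𝒪 R (phi0 D q i j) ∈ maximalIdeal R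
  /-- The tame generator is residually `1`. -/
  Sig_red : ∀ q i j, Sig q i j - (1 : M2 R) i j ∈ maximalIdeal R
  /-- Tangent vectors killing the framed matrices form spaces of dimension at most `g`. -/
  tangent : ∀ K : Submodule (ResidueField (MvPowerSeries (FrameVar A q₀) R))
      (MvPowerSeries (FrameVar A q₀) R → ResidueField (MvPowerSeries (FrameVar A q₀) R)),
    (∀ l ∈ K, l ∈ tangentSpace 𝒪 (MvPowerSeries (FrameVar A q₀) R) ∧
      (∀ q i j, l (framed q₀ q (Phi q) i j) = 0) ∧ ∀ q i j, l (framed q₀ q (Sig q) i j) = 0) →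
    Finite K ∧ Nat.card K ≤ Nat.card (ResidueField (MvPowerSeries (FrameVar A q₀) R)) ^ g
  /-- The action with unipotent inertia. -/
  α₁ : R →ₐ[𝒪] Mat n
  /-- The action with inertia characters of order `p`. -/
  αχ : R →ₐ[𝒪] Mat n
  /-- The unipotent action sees Frobenius of determinant `N`. -/
  det₁ : ∀ q, α₁ ((Phi q).det - (D.N q : R)) = 0
  /-- The `χ` action sees Frobenius of determinant `N`. -/
  detχ : ∀ q, αχ ((Phi q).det - (D.N q : R)) = 0
  /-- The unipotent action sees inertia of trace `2`. -/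
  trace₁ : ∀ q, α₁ ((Sig q).trace - 2) = 0
  /-- The `χ` action sees inertia of trace `2 κ`. -/
  traceχ : ∀ q, αχ ((Sig q).trace - algebraMap 𝒪 R (2 * D.κ q)) = 0
  /-- The unipotent action sees inertia of determinant `1`. -/
  sdet₁ : ∀ q, α₁ ((Sig q).det - 1) = 0
  /-- The `χ` action sees inertia of determinant `1`. -/
  sdetχ : ∀ q, αχ ((Sig q).det - 1) = 0
  /-- The unipotent action sees the tame relation `Φ Σ = Σ ^ N Φ`. -/
  comm₁ : ∀ q i j, α₁ ((Phi q * Sig q - Sig q ^ D.N q * Phi q) i j) = 0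
  /-- The `χ` action sees commuting Frobenius and inertia. -/
  commχ : ∀ q i j, αχ ((Phi q * Sig q - Sig q * Phi q) i j) = 0
  /-- The two actions agree modulo `ϖ`. -/
  congr : ∀ x i j, α₁ x i j - αχ x i j ∈ Ideal.span {algebraMap 𝒪 _ ϖ}
  /-- Each auxiliary variable acts in the first action through an element of `R`. -/
  par₁ : ∀ k : Fin r, ∃ x, α₁ x =
    algebraMap _ (Mat n) (Ideal.Quotient.mk (maximalIdeal (MvPowerSeries (Fin d) 𝒪) ^ n)
      (ψ (MvPowerSeries.X (emb (Sum.inl k)))))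
  /-- Each auxiliary variable acts in the second action through an element of `R`. -/
  parχ : ∀ k : Fin r, ∃ x, αχ x =
    algebraMap _ (Mat n) (Ideal.Quotient.mk (maximalIdeal (MvPowerSeries (Fin d) 𝒪) ^ n)
      (ψ (MvPowerSeries.X (emb (Sum.inl k)))))

attribute [instance] FramedCore.instCommRing FramedCore.instLocal FramedCore.instNoeth
  FramedCore.instComplete FramedCore.instAlgebra FramedCore.instLocalHom

variable {D : LocalData 𝒪 A} {ϖ : 𝒪} {q₀ : A}
  {ψ : MvPowerSeries (Fin d) 𝒪 →ₐ[𝒪] MvPowerSeries (Fin d) 𝒪}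
  {emb : Fin r ⊕ FrameVar A q₀ ≃ Fin d}

section Level

variable {n : ℕ}

/-- The common source surjects onto the framed ring, its universal matrices going to the framed
ones. -/
theorem exists_source_surjective (L : FramedCore (m := m) D ϖ q₀ g ψ emb n) :
    ∃ θ : Src 𝒪 A (Fin g) →ₐ[𝒪] MvPowerSeries (FrameVar A q₀) L.R, Function.Surjective θ ∧
      (∀ q, phiAt D (θ : Src 𝒪 A (Fin g) →+* MvPowerSeries (FrameVar A q₀) L.R) q =
        framed q₀ q (L.Phi q)) ∧
      ∀ q, sigAt (θ : Src 𝒪 A (Fin g) →+* MvPowerSeries (FrameVar A q₀) L.R) q =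
        framed q₀ q (L.Sig q) := by
  obtain ⟨zs, hzs, hsurj⟩ :=
    exists_frameSubst_surjective q₀ L.Phi_red L.Sig_red L.hres g L.tangent
  refine ⟨frameSubst q₀ L.Phi_red L.Sig_red hzs, hsurj,
    fun q => phiAt_eq_conj D _ q _ fun i j => ?_,
    sigAt_frameSubst q₀ L.Phi_red L.Sig_red hzs⟩
  change frameSubst q₀ L.Phi_red L.Sig_red hzs (MvPowerSeries.X _) =
    _ - frameSubst q₀ L.Phi_red L.Sig_red hzs (algebraMap 𝒪 _ _)
  rw [frameSubst_X, AlgHom.commutes]
  rfl

omit [IsAdicComplete (maximalIdeal 𝒪) 𝒪] [Finite (ResidueField 𝒪)] [CharZero 𝒪] [Fintype A]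
  [DecidableEq A] in
/-- Coefficients with the same image under `α` are congruent modulo the kernel of an extension of
`α`. -/
theorem mk_C_eq {R : Type} [CommRing R] [Algebra 𝒪 R] {α : R →ₐ[𝒪] Mat n}
    {β : MvPowerSeries (FrameVar A q₀) R →ₐ[𝒪] Mat n}
    (hC : ∀ x, β (MvPowerSeries.C x) = α x) {x y : R} (h : α (x - y) = 0) :
    Ideal.Quotient.mk (RingHom.ker (β : MvPowerSeries (FrameVar A q₀) R →+* Mat n))
        (MvPowerSeries.C x) =
      Ideal.Quotient.mk _ (MvPowerSeries.C y) := by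
  rw [Ideal.Quotient.eq, RingHom.mem_ker, ← map_sub]
  exact (hC _).trans h

omit [IsAdicComplete (maximalIdeal 𝒪) 𝒪] [Finite (ResidueField 𝒪)] [CharZero 𝒪] [Fintype A] in
/-- An extension of the first action to the frames satisfies the relations of `relOne`. -/
theorem isOne_mk_comp (L : FramedCore (m := m) D ϖ q₀ g ψ emb n)
    {θ : Src 𝒪 A (Fin g) →ₐ[𝒪] MvPowerSeries (FrameVar A q₀) L.R}
    (hΦ : ∀ q, phiAt D (θ : Src 𝒪 A (Fin g) →+* MvPowerSeries (FrameVar A q₀) L.R) q =
      framed q₀ q (L.Phi q))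
    (hS : ∀ q, sigAt (θ : Src 𝒪 A (Fin g) →+* MvPowerSeries (FrameVar A q₀) L.R) q =
      framed q₀ q (L.Sig q))
    {β : MvPowerSeries (FrameVar A q₀) L.R →ₐ[𝒪] Mat n}
    (hC : ∀ x, β (MvPowerSeries.C x) = L.α₁ x) :
    IsOne D ((Ideal.Quotient.mk
      (RingHom.ker (β : MvPowerSeries (FrameVar A q₀) L.R →+* Mat n))).comp
        (θ : Src 𝒪 A (Fin g) →+* MvPowerSeries (FrameVar A q₀) L.R)) := by
  intro q
  rw [phiAt_comp, sigAt_comp, hΦ, hS]
  set mk := Ideal.Quotient.mk (RingHom.ker (β : MvPowerSeries (FrameVar A q₀) L.R →+* Mat n))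
    with hmk
  refine ⟨?_, ?_, ?_, ?_⟩
  · rw [← RingHom.mapMatrix_apply, ← RingHom.map_det, det_framed,
      ← map_natCast (mk.comp MvPowerSeries.C), RingHom.comp_apply]
    exact mk_C_eq hC (L.det₁ q)
  · rw [Matrix.trace_fin_two, Matrix.map_apply, Matrix.map_apply, ← map_add, ← Matrix.trace_fin_two,
      trace_framed, ← map_ofNat (mk.comp MvPowerSeries.C), RingHom.comp_apply]
    exact mk_C_eq hC (L.trace₁ q)
  · rw [← RingHom.mapMatrix_apply, ← RingHom.map_det, det_framed,
      ← map_one (mk.comp MvPowerSeries.C), RingHom.comp_apply]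
    exact mk_C_eq hC (L.sdet₁ q)
  · rw [← RingHom.mapMatrix_apply, ← RingHom.mapMatrix_apply, ← map_pow, ← map_mul, ← map_mul,
      framed_pow, framed_mul, framed_mul]
    simp only [framed, map_mul]
    congr 2
    exact Matrix.ext fun i j => mk_C_eq hC (L.comm₁ q i j)

omit [IsAdicComplete (maximalIdeal 𝒪) 𝒪] [Finite (ResidueField 𝒪)] [CharZero 𝒪] [Fintype A] in
/-- An extension of the second action to the frames satisfies the relations of `relChi`. -/
theorem isChi_mk_comp (L : FramedCore (m := m) D ϖ q₀ g ψ emb n)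
    {θ : Src 𝒪 A (Fin g) →ₐ[𝒪] MvPowerSeries (FrameVar A q₀) L.R}
    (hΦ : ∀ q, phiAt D (θ : Src 𝒪 A (Fin g) →+* MvPowerSeries (FrameVar A q₀) L.R) q =
      framed q₀ q (L.Phi q))
    (hS : ∀ q, sigAt (θ : Src 𝒪 A (Fin g) →+* MvPowerSeries (FrameVar A q₀) L.R) q =
      framed q₀ q (L.Sig q))
    {β : MvPowerSeries (FrameVar A q₀) L.R →ₐ[𝒪] Mat n}
    (hC : ∀ x, β (MvPowerSeries.C x) = L.αχ x) :
    IsChi D ((Ideal.Quotient.mk
      (RingHom.ker (β : MvPowerSeries (FrameVar A q₀) L.R →+* Mat n))).comp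
        (θ : Src 𝒪 A (Fin g) →+* MvPowerSeries (FrameVar A q₀) L.R)) := by
  intro q
  rw [phiAt_comp, sigAt_comp, hΦ, hS]
  set mk := Ideal.Quotient.mk (RingHom.ker (β : MvPowerSeries (FrameVar A q₀) L.R →+* Mat n))
    with hmk
  refine ⟨?_, ?_, ?_, ?_⟩
  · rw [← RingHom.mapMatrix_apply, ← RingHom.map_det, det_framed,
      ← map_natCast (mk.comp MvPowerSeries.C), RingHom.comp_apply]
    exact mk_C_eq hC (L.detχ q)
  · rw [Matrix.trace_fin_two, Matrix.map_apply, Matrix.map_apply, ← map_add, ← Matrix.trace_fin_two,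
      trace_framed, RingHom.comp_apply,
      show (θ : Src 𝒪 A (Fin g) →+* MvPowerSeries (FrameVar A q₀) L.R)
          (algebraMap 𝒪 _ (2 * D.κ q)) = MvPowerSeries.C (algebraMap 𝒪 L.R (2 * D.κ q)) from
        (θ.commutes _).trans MvPowerSeries.algebraMap_apply]
    exact mk_C_eq hC (L.traceχ q)
  · rw [← RingHom.mapMatrix_apply, ← RingHom.map_det, det_framed,
      ← map_one (mk.comp MvPowerSeries.C), RingHom.comp_apply]
    exact mk_C_eq hC (L.sdetχ q)
  · rw [← RingHom.mapMatrix_apply, ← RingHom.mapMatrix_apply, ← map_mul, ← map_mul,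
      framed_mul, framed_mul]
    simp only [framed, map_mul]
    congr 2
    exact Matrix.ext fun i j => mk_C_eq hC (L.commχ q i j)

omit [IsAdicComplete (maximalIdeal 𝒪) 𝒪] [CharZero 𝒪] in
/-- The frame variables act nilpotently on matrices over a finite ring. -/
theorem isNilpotent_frameVar (L : FramedCore (m := m) D ϖ q₀ g ψ emb n) (B : Type) [CommRing B]
    [Finite B] (f : MvPowerSeries (FrameVar A q₀) L.R →+* Matrix (Fin m) (Fin m) B)
    (v : FrameVar A q₀) : IsNilpotent (f (MvPowerSeries.X v)) := by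
  have : Finite (ResidueField L.R) := Finite.of_surjective (ResidueField.map (algebraMap 𝒪 L.R))
    fun z => by
      obtain ⟨o, ho⟩ := L.hres z
      exact ⟨residue 𝒪 o, by rw [ResidueField.map_residue]; exact ho⟩
  rcases subsingleton_or_nontrivial (Matrix (Fin m) (Fin m) B) with h | h
  · exact ⟨1, Subsingleton.elim _ _⟩
  · exact isNilpotent_map_X f v

/-- Extensions of the two actions with the same values on the frames stay congruent modulo `ϖ`. -/
theorem extend_congr (L : FramedCore (m := m) D ϖ q₀ g ψ emb n)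
    {β β' : MvPowerSeries (FrameVar A q₀) L.R →ₐ[𝒪] Mat n}
    (hC : ∀ x, β (MvPowerSeries.C x) = L.α₁ x) (hC' : ∀ x, β' (MvPowerSeries.C x) = L.αχ x)
    (hX : ∀ v, β (MvPowerSeries.X v) = β' (MvPowerSeries.X v))
    (w : MvPowerSeries (FrameVar A q₀) L.R) (i j : Fin m) :
    β w i j - β' w i j ∈ Ideal.span {algebraMap 𝒪 _ ϖ} := by
  have := finite_residueField_mvPowerSeries (𝒪 := 𝒪) (Fin d)
  set J : Ideal (S ⧸ maximalIdeal S ^ n) := Ideal.span {algebraMap 𝒪 _ ϖ}
  have := finite_quotient_maximalIdeal_pow S n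
  have : Finite ((S ⧸ maximalIdeal S ^ n) ⧸ J) :=
    Finite.of_surjective _ Ideal.Quotient.mk_surjective
  have h : ((Ideal.Quotient.mk J).mapMatrix).comp
        (β : MvPowerSeries (FrameVar A q₀) L.R →+* Mat n) =
      ((Ideal.Quotient.mk J).mapMatrix).comp
        (β' : MvPowerSeries (FrameVar A q₀) L.R →+* Mat n) := by
    refine ringHom_eq_of_nilpotent (B := Matrix (Fin m) (Fin m) ((S ⧸ maximalIdeal S ^ n) ⧸ J))
      (f := ((Ideal.Quotient.mk J).mapMatrix).comp
        (β : MvPowerSeries (FrameVar A q₀) L.R →+* Mat n))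
      (g := ((Ideal.Quotient.mk J).mapMatrix).comp
        (β' : MvPowerSeries (FrameVar A q₀) L.R →+* Mat n))
      (fun c => Matrix.ext fun i j => ?_)
      (fun v => congrArg (Ideal.Quotient.mk J).mapMatrix (hX v))
      (fun v => isNilpotent_frameVar L ((S ⧸ maximalIdeal S ^ n) ⧸ J)
        (((Ideal.Quotient.mk J).mapMatrix).comp
          (β : MvPowerSeries (FrameVar A q₀) L.R →+* Mat n)) v)
    change Ideal.Quotient.mk J (β (MvPowerSeries.C c) i j) =
      Ideal.Quotient.mk J (β' (MvPowerSeries.C c) i j)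
    rw [hC, hC', Ideal.Quotient.eq]
    exact L.congr c i j
  rw [← Ideal.Quotient.eq]
  exact congrFun (congrFun (DFunLike.congr_fun h w) i) j

omit [IsAdicComplete (maximalIdeal 𝒪) 𝒪] [Finite (ResidueField 𝒪)] [CharZero 𝒪] [Fintype A]
  [DecidableEq A] in
/-- An extension of an action reaches the images of all parameters under `ψ`. -/
theorem exists_par_preimage {R P : Type} [CommRing R] [Algebra 𝒪 R]
    (hψ : ∀ v, ψ (MvPowerSeries.X (emb (Sum.inr v))) = MvPowerSeries.X (emb (Sum.inr v)))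
    {θ : P → MvPowerSeries (FrameVar A q₀) R} (hθ : Function.Surjective θ) {α : R →ₐ[𝒪] Mat n}
    {β : MvPowerSeries (FrameVar A q₀) R →ₐ[𝒪] Mat n}
    (hC : ∀ x, β (MvPowerSeries.C x) = α x)
    (hX : ∀ v, β (MvPowerSeries.X v) = algebraMap _ (Mat n)
      (Ideal.Quotient.mk (maximalIdeal S ^ n) (MvPowerSeries.X (emb (Sum.inr v)))))
    (hp : ∀ k : Fin r, ∃ x, α x = algebraMap _ (Mat n)
      (Ideal.Quotient.mk (maximalIdeal S ^ n) (ψ (MvPowerSeries.X (emb (Sum.inl k))))))
    (k : Fin d) : ∃ z, β (θ z) = algebraMap _ (Mat n)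
      (Ideal.Quotient.mk (maximalIdeal S ^ n) (ψ (MvPowerSeries.X k))) := by
  obtain ⟨k | v, rfl⟩ := emb.surjective k
  · obtain ⟨x, hx⟩ := hp k
    obtain ⟨z, hz⟩ := hθ (MvPowerSeries.C x)
    exact ⟨z, by rw [hz, hC, hx]⟩
  · obtain ⟨z, hz⟩ := hθ (MvPowerSeries.X v)
    exact ⟨z, by rw [hz, hX, hψ]⟩

/-- At the origin of the parameters, an extension of the first action is the action on the base
through the constant term. -/
theorem extend_constantCoeff (hϖ : Irreducible ϖ) (L : FramedCore (m := m) D ϖ q₀ g ψ emb n)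
    {T₀ : Type} [CommRing T₀] [Algebra 𝒪 T₀] {e : T₀ →ₐ[𝒪] Matrix (Fin m) (Fin m) 𝒪}
    {π : L.R →ₐ[𝒪] T₀}
    (hπ : ∀ x i j, ∀ s : S, Ideal.Quotient.mk _ s = L.α₁ x i j →
      MvPowerSeries.constantCoeff s - e (π x) i j ∈ Ideal.span {ϖ ^ n})
    {β : MvPowerSeries (FrameVar A q₀) L.R →ₐ[𝒪] Mat n}
    (hC : ∀ x, β (MvPowerSeries.C x) = L.α₁ x)
    (hX : ∀ v, β (MvPowerSeries.X v) = algebraMap _ (Mat n)
      (Ideal.Quotient.mk (maximalIdeal S ^ n) (MvPowerSeries.X (emb (Sum.inr v)))))
    (w : MvPowerSeries (FrameVar A q₀) L.R) (i j : Fin m) (s : S)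
    (hs : Ideal.Quotient.mk _ s = β w i j) :
    MvPowerSeries.constantCoeff s - e (π (MvPowerSeries.constantCoeff w)) i j ∈
      Ideal.span {ϖ ^ n} := by
  have : Finite (𝒪 ⧸ Ideal.span {ϖ ^ n}) := by
    rw [← Ideal.span_singleton_pow, ← hϖ.maximalIdeal_eq]
    exact finite_quotient_maximalIdeal_pow 𝒪 n
  -- `red` takes constant terms modulo `ϖ ^ n`
  let red : (S ⧸ maximalIdeal S ^ n) →+* 𝒪 ⧸ Ideal.span {ϖ ^ n} :=
    Ideal.Quotient.lift _ ((Ideal.Quotient.mk _).comp
      (MvPowerSeries.constantCoeff (σ := Fin d) (R := 𝒪))) fun s hs =>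
        Ideal.Quotient.eq_zero_iff_mem.mpr (constantCoeff_mem_span_of_mem hϖ hs)
  let cc : MvPowerSeries (FrameVar A q₀) L.R →+* L.R := MvPowerSeries.constantCoeff
  -- both composites agree on constants and variables, and the variables are nilpotent
  have h : red.mapMatrix.comp (β : MvPowerSeries (FrameVar A q₀) L.R →+* Mat n) =
      (Ideal.Quotient.mk (Ideal.span {ϖ ^ n})).mapMatrix.comp
        ((e : T₀ →+* Matrix (Fin m) (Fin m) 𝒪).comp ((π : L.R →+* T₀).comp cc)) := by
    refine ringHom_eq_of_nilpotent (fun c => Matrix.ext fun i j => ?_) (fun v => ?_)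
      (fun v => isNilpotent_frameVar L _ _ v)
    · obtain ⟨s, hs⟩ := Ideal.Quotient.mk_surjective (L.α₁ c i j)
      change red (β (MvPowerSeries.C c) i j) =
        Ideal.Quotient.mk _ (e (π (cc (MvPowerSeries.C c))) i j)
      rw [hC, ← hs, show cc (MvPowerSeries.C c) = c from MvPowerSeries.constantCoeff_C c]
      exact Ideal.Quotient.eq.mpr (hπ c i j s hs)
    · change red.mapMatrix (β _) = _
      rw [hX]
      simp only [RingHom.comp_apply, cc, MvPowerSeries.constantCoeff_X, map_zero]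
      refine Matrix.ext fun i j => ?_
      change red (algebraMap _ (Mat n) (Ideal.Quotient.mk _ (MvPowerSeries.X _)) i j) = 0
      rw [Matrix.algebraMap_matrix_apply]
      split_ifs
      · change Ideal.Quotient.mk _ (MvPowerSeries.constantCoeff (MvPowerSeries.X _)) = 0
        rw [MvPowerSeries.constantCoeff_X, map_zero]
      · exact map_zero _
  -- evaluate at `w`
  rw [← Ideal.Quotient.eq]
  have h1 := congrFun (congrFun (DFunLike.congr_fun h w) i) j
  change red (β w i j) = Ideal.Quotient.mk _ (e (π (cc w)) i j) at h1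
  rwa [← hs] at h1

omit [IsAdicComplete (maximalIdeal 𝒪) 𝒪] [Finite (ResidueField 𝒪)] [CharZero 𝒪] [Fintype A] in
/-- An extension of an action kills the discriminant at `q` once the action kills its value on the
base. -/
theorem apply_discAt_eq_zero (L : FramedCore (m := m) D ϖ q₀ g ψ emb n)
    {θ : Src 𝒪 A (Fin g) →ₐ[𝒪] MvPowerSeries (FrameVar A q₀) L.R}
    (hΦ : ∀ q, phiAt D (θ : Src 𝒪 A (Fin g) →+* MvPowerSeries (FrameVar A q₀) L.R) q =
      framed q₀ q (L.Phi q))
    {β : MvPowerSeries (FrameVar A q₀) L.R →ₐ[𝒪] Mat n}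
    (hC : ∀ x, β (MvPowerSeries.C x) = L.α₁ x) {q : A}
    (hq : L.α₁ ((L.Phi q).trace ^ 2 - (1 + (D.N q : L.R)) ^ 2) = 0) :
    β (θ (discAt D (RingHom.id _) q)) = 0 := by
  have h : θ (discAt D (RingHom.id _) q) =
      discAt D (θ : Src 𝒪 A (Fin g) →+* MvPowerSeries (FrameVar A q₀) L.R) q := by
    simp [discAt, phiAt, Matrix.trace_fin_two]
  rw [h, discAt, hΦ, trace_framed,
    show (1 : MvPowerSeries (FrameVar A q₀) L.R) + (D.N q : MvPowerSeries (FrameVar A q₀) L.R) =
      MvPowerSeries.C (1 + (D.N q : L.R)) by simp,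
    ← map_pow, ← map_pow, ← map_sub, hC, hq]

end Level

/-- The level of a patching input obtained from a framed level. -/
theorem exists_level (hϖ : Irreducible ϖ)
    (hψ : ∀ v, ψ (MvPowerSeries.X (emb (Sum.inr v))) = MvPowerSeries.X (emb (Sum.inr v)))
    {n : ℕ} (L : FramedCore (m := m) D ϖ q₀ g ψ emb n) :
    ∃ f₁ fχ : Src 𝒪 A (Fin g) →ₐ[𝒪] Mat n,
      (∀ z ∈ relOne D, f₁ z = 0) ∧ (∀ z ∈ relChi D, fχ z = 0) ∧
      (∀ v i j, f₁ (MvPowerSeries.X v) i j - fχ (MvPowerSeries.X v) i j ∈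
        Ideal.span {algebraMap 𝒪 _ ϖ}) ∧
      (∀ k, ∃ z, f₁ z = algebraMap _ (Mat n)
        (Ideal.Quotient.mk (maximalIdeal (MvPowerSeries (Fin d) 𝒪) ^ n) (ψ (MvPowerSeries.X k)))) ∧
      (∀ k, ∃ z, fχ z = algebraMap _ (Mat n)
        (Ideal.Quotient.mk (maximalIdeal (MvPowerSeries (Fin d) 𝒪) ^ n) (ψ (MvPowerSeries.X k)))) ∧
      (∀ q, L.α₁ ((L.Phi q).trace ^ 2 - (1 + (D.N q : L.R)) ^ 2) = 0 →
        f₁ (discAt D (RingHom.id _) q) = 0) ∧
      ∀ {T₀ : Type} [CommRing T₀] [Algebra 𝒪 T₀] {e : T₀ →ₐ[𝒪] Matrix (Fin m) (Fin m) 𝒪}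
        {S₀ : A → M2 T₀} (π : L.R →ₐ[𝒪] T₀)
        (_ : ∀ x i j, ∀ s : S, Ideal.Quotient.mk _ s = L.α₁ x i j →
          MvPowerSeries.constantCoeff s - e (π x) i j ∈ Ideal.span {ϖ ^ n})
        (_ : ∀ q i j, π (L.Sig q i j) = S₀ q i j),
      (∀ z, ∃ t : T₀, ∀ i j, ∀ s : S, Ideal.Quotient.mk _ s = f₁ z i j →
        MvPowerSeries.constantCoeff s - e t i j ∈ Ideal.span {ϖ ^ n}) ∧
      (∀ q a b, ∀ i j, ∀ s : S,
        Ideal.Quotient.mk _ s = f₁ (MvPowerSeries.X (Sum.inl (q, true, a, b))) i j →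
          MvPowerSeries.constantCoeff s - e (S₀ q a b - (1 : M2 T₀) a b) i j ∈
            Ideal.span {ϖ ^ n}) := by
  classical
  obtain ⟨θ, hθsurj, hθΦ, hθS⟩ := exists_source_surjective L
  let t : FrameVar A q₀ → S ⧸ maximalIdeal S ^ n := fun v =>
    Ideal.Quotient.mk _ (MvPowerSeries.X (emb (Sum.inr v)))
  have ht : ∀ v, IsNilpotent (t v) := fun v => ⟨n, by
    rw [← map_pow, Ideal.Quotient.eq_zero_iff_mem];
      exact Ideal.pow_mem_pow (X_mem_maximalIdeal _) n⟩
  -- extend the two actions to the frame variables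
  obtain ⟨β₁, hβ₁C, hβ₁X⟩ := exists_extend L.α₁ t ht
  obtain ⟨βχ, hβχC, hβχX⟩ := exists_extend L.αχ t ht
  refine ⟨β₁.comp θ, βχ.comp θ,
    fun z hz => RingHom.mem_ker (f := (β₁ : MvPowerSeries (FrameVar A q₀) L.R →+* Mat n)).mp
      (Ideal.Quotient.eq_zero_iff_mem.mp ((isOne_iff D _).mp (isOne_mk_comp L hθΦ hθS hβ₁C) z hz)),
    fun z hz => RingHom.mem_ker (f := (βχ : MvPowerSeries (FrameVar A q₀) L.R →+* Mat n)).mp
      (Ideal.Quotient.eq_zero_iff_mem.mp ((isChi_iff D _).mp (isChi_mk_comp L hθΦ hθS hβχC) z hz)),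
    fun v i j => extend_congr L hβ₁C hβχC (fun v => (hβ₁X v).trans (hβχX v).symm) _ i j,
    exists_par_preimage hψ hθsurj hβ₁C hβ₁X L.par₁, exists_par_preimage hψ hθsurj hβχC hβχX L.parχ,
    fun q hq => apply_discAt_eq_zero L hθΦ hβ₁C hq, ?_⟩
  -- the comparison with `T₀` at the constant terms
  intro T₀ _ _ e S₀ π hπ hπS
  refine ⟨fun z => ⟨_, extend_constantCoeff hϖ L hπ hβ₁C hβ₁X (θ z)⟩, fun q a b i j s hs => ?_⟩
  have h1 := extend_constantCoeff hϖ L hπ hβ₁C hβ₁X
    (θ (MvPowerSeries.X (Sum.inl (q, true, a, b)))) i j s hs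
  have hX : θ (MvPowerSeries.X (Sum.inl (q, true, a, b))) =
      framed q₀ q (L.Sig q) a b - (1 : M2 (MvPowerSeries (FrameVar A q₀) L.R)) a b := by
    rw [← hθS q]; simp [sigAt]
  have hcc := congrFun (congrFun (constantCoeff_framed q₀ q (L.Sig q)) a) b
  rw [RingHom.mapMatrix_apply, Matrix.map_apply] at hcc
  have hone : π (MvPowerSeries.constantCoeff
      ((1 : M2 (MvPowerSeries (FrameVar A q₀) L.R)) a b)) = (1 : M2 T₀) a b := by
    rw [Matrix.one_apply, Matrix.one_apply]
    split_ifs <;> simp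
  rwa [hX, map_sub, map_sub, hcc, hπS, hone] at h1

/-- There are `4|A| - 1` framing variables. -/
theorem card_frameVar (q₀ : A) : Fintype.card (FrameVar A q₀) = 4 * Fintype.card A - 1 := by
  rw [Fintype.card_subtype_compl, Fintype.card_prod, Fintype.card_prod, Fintype.card_subtype_eq]
  simp
  omega

/-- The number of parameters, from an enumeration of them. -/
theorem card_eq_of_emb {q₀ : A} (emb : Fin r ⊕ FrameVar A q₀ ≃ Fin d)
    (hg : g + 1 = r + Fintype.card A) : d = 3 * Fintype.card A + Fintype.card (Fin g) := by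
  have h := Fintype.card_congr emb
  rw [Fintype.card_sum, Fintype.card_fin, Fintype.card_fin, card_frameVar] at h
  have hA : 0 < Fintype.card A := Fintype.card_pos_iff.mpr ⟨q₀⟩
  simp only [Fintype.card_fin]
  omega

/-- **Avoidance rules out levels that are new at a prime being lowered**: there `(tr Φ)²` cannot
equal `(1 + N)²` on all the modules. -/
theorem false_of_framedCores_new (h2 : IsUnit (2 : 𝒪)) (hϖ : Irreducible ϖ)
    (hm : 0 < m) (hg : g + 1 = r + Fintype.card A) (hψfin : (ψ : S →+* S).Finite)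
    (hψinj : Function.Injective ψ)
    (hψ : ∀ v, ψ (MvPowerSeries.X (emb (Sum.inr v))) = MvPowerSeries.X (emb (Sum.inr v)))
    (haug : ∀ P : Ideal S, P.IsPrime → (∀ k, ψ (MvPowerSeries.X k) ∈ P) →
      ∀ k, MvPowerSeries.X k ∈ P)
    (L : ∀ n, FramedCore (m := m) D ϖ q₀ g ψ emb n) (q : A)
    (hnew : ∀ n, (L n).α₁ (((L n).Phi q).trace ^ 2 - (1 + (D.N q : (L n).R)) ^ 2) = 0) :
    False := by
  choose f₁ fχ hf₁ hfχ hcong hpar₁ hparχ hdisc hrest using
    fun n => exists_level hϖ hψ (L n)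
  obtain ⟨n, hn⟩ := (exists_prime_of_patchCore (G := Fin g) D h2 hϖ
    (card_eq_of_emb emb hg) hm ψ hψfin hψinj haug
    { f₁ := f₁, fχ := fχ, rel₁ := hf₁, relχ := hfχ, congr := hcong, par₁ := hpar₁,
      parχ := hparχ }).1 q
  exact hn (hdisc n q (hnew n))

end Fermat.GR.Patch
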