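import Mathlib
import Fermat.Agent.GR.Patch.Local

/-!
# Steinberg and unramified local types

`SingleData` fixes, for each framed prime `q`, a residual Frobenius matrix and one of two local
types: Steinberg with sign `u` (an eigenline with eigenvalues `u N`, `u` of Frobenius, killed by
`Σ - 1`), or unramified.  `TypeRel` is the relation of the type at one prime on matrices over any
ring and `IsType` asks it of a map out of the source at every prime; both pass along ring maps and
may be tested on jointly injective families of them.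
-/

set_option autoImplicit false

noncomputable section

namespace Fermat.GR.Patch

open IsLocalRing Matrix

local notation "M2" R => Matrix (Fin 2) (Fin 2) R

/-- Framed primes with their residual Frobenius and their type. -/
structure SingleData (𝒪 : Type) [CommRing 𝒪] [IsLocalRing 𝒪] (A : Type) : Type where
  /-- Whether the prime is a Steinberg one. -/
  isSt : A → Bool
  /-- The prime. -/
  N : A → ℕ
  /-- The sign at a Steinberg prime. -/
  u : A → 𝒪
  /-- The upper right entry of the residual Frobenius at a Steinberg prime. -/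
  b : A → 𝒪
  /-- The residual Frobenius at the unramified primes. -/
  h : A → M2 𝒪
  /-- The prime is invertible in `𝒪`. -/
  N_unit : ∀ q, IsUnit (N q : 𝒪)
  /-- `N q` is not `1`. -/
  N_ne_one : ∀ q, N q ≠ 1
  /-- `u` is a sign. -/
  u_sq : ∀ q, u q ^ 2 = 1
  /-- The unramified residual Frobenius has determinant `N`. -/
  h_det : ∀ q, (h q).det = (N q : 𝒪)
  /-- Its upper left entry is a unit. -/
  h_unit : ∀ q, IsUnit (h q 0 0)
  /-- At a Steinberg prime `b = 0` and `N ≡ 1`, or one of `b`, `N - 1` is a unit. -/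
  st_cases : ∀ q, isSt q = true →
    (b q = 0 ∧ (N q : 𝒪) - 1 ∈ maximalIdeal 𝒪) ∨ IsUnit (b q) ∨ IsUnit ((N q : 𝒪) - 1)

namespace SingleData

variable {𝒪 : Type} [CommRing 𝒪] [IsLocalRing 𝒪] {A G : Type} (D : SingleData 𝒪 A)

/-- The residual Frobenius matrix. -/
def phi0 (q : A) : M2 𝒪 :=
  if D.isSt q then !![D.u q * (D.N q : 𝒪), D.b q; 0, D.u q] else D.h q

/-- The residual matrix at a special prime. -/
theorem phi0_of_isSt {q : A} (hq : D.isSt q = true) :
    D.phi0 q = !![D.u q * (D.N q : 𝒪), D.b q; 0, D.u q] := by rw [phi0, if_pos hq]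

/-- The residual matrix at an unramified prime. -/
theorem phi0_of_not_isSt {q : A} (hq : D.isSt q = false) : D.phi0 q = D.h q := by
  rw [phi0, if_neg (by simp [hq])]

variable {B : Type} [CommRing B]

/-- Frobenius at `q` evaluated through `f`. -/
def phi (f : Src 𝒪 A G →+* B) (q : A) : M2 B :=
  (D.phi0 q).map (fun c => f (algebraMap 𝒪 (Src 𝒪 A G) c)) +
    Matrix.of fun i j => f (MvPowerSeries.X (Sum.inl (q, false, i, j)))

/-- The Frobenius matrix of a composite. -/
theorem phi_comp {C : Type} [CommRing C] (f : Src 𝒪 A G →+* B) (g : B →+* C) (q : A) :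
    D.phi (g.comp f) q = (D.phi f q).map g := by
  ext i j; simp [phi]

/-- The Steinberg relations. -/
def StRel (q : A) (u : B) (P Sg : M2 B) : Prop :=
  P.trace = u * ((D.N q : B) + 1) ∧ Sg.trace = 2 ∧ Sg.det = 1 ∧
    (P - (u * (D.N q : B)) • (1 : M2 B)) * (Sg - 1) = 0 ∧
    (Sg - 1) * (P - u • (1 : M2 B)) = 0

/-- The relations of the type at one prime, for matrices over any ring; `u` is the sign there. -/
def TypeRel (q : A) (u : B) (P Sg : M2 B) : Prop :=
  P.det = (D.N q : B) ∧ (D.isSt q = false → Sg = 1) ∧ (D.isSt q = true → D.StRel q u P Sg)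

/-- The type: determinant `N`, unramified at the primes which are not special and Steinberg with
sign `u` at the special ones. -/
def IsType (f : Src 𝒪 A G →+* B) : Prop :=
  ∀ q, D.TypeRel q (f (algebraMap 𝒪 (Src 𝒪 A G) (D.u q))) (D.phi f q) (sigAt f q)

/-- The image of a matrix minus a scalar. -/
theorem map_sub_smul_one {C : Type} [CommRing C] (g : B →+* C) (M : M2 B) (c : B) :
    (M - c • (1 : M2 B)).map g = M.map g - g c • (1 : M2 C) := by
  ext i j
  simp only [Matrix.map_apply, Matrix.sub_apply, Matrix.smul_apply, smul_eq_mul, map_sub, map_mul,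
    Matrix.one_apply]
  split_ifs <;> simp

variable {C : Type} [CommRing C]

/-- The Steinberg relations are preserved by ring maps. -/
theorem StRel.map {q : A} {u : B} {P Sg : M2 B} (h : D.StRel q u P Sg) (g : B →+* C) :
    D.StRel q (g u) (P.map g) (Sg.map g) := by
  obtain ⟨e1, e2, e3, e4, e5⟩ := h
  have hs : Sg.map g - 1 = (Sg - 1).map g := by
    rw [Matrix.map_sub _ (map_sub g), Matrix.map_one _ (map_zero g) (map_one g)]
  refine ⟨?_, ?_, ?_, ?_, ?_⟩
  · rw [Matrix.trace_fin_two, Matrix.map_apply, Matrix.map_apply, ← map_add,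
      ← Matrix.trace_fin_two, e1]
    simp
  · rw [Matrix.trace_fin_two, Matrix.map_apply, Matrix.map_apply, ← map_add,
      ← Matrix.trace_fin_two, e2, map_ofNat]
  · rw [← RingHom.mapMatrix_apply, ← RingHom.map_det, e3, map_one]
  · rw [hs, show g u * (D.N q : C) = g (u * (D.N q : B)) by simp, ← map_sub_smul_one,
      ← Matrix.map_mul, e4, Matrix.map_zero _ (map_zero g)]
  · rw [hs, ← map_sub_smul_one, ← Matrix.map_mul, e5, Matrix.map_zero _ (map_zero g)]

/-- The Steinberg relation is stable under conjugation. -/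
theorem StRel.conj {q : A} {u : B} {P Sg : M2 B} (h : D.StRel q u P Sg) (U V : M2 B)
    (hUV : U * V = 1) : D.StRel q u (U * P * V) (U * Sg * V) := by
  have hVU : V * U = 1 := mul_eq_one_comm.mp hUV
  obtain ⟨e1, e2, e3, e4, e5⟩ := h
  have hc : ∀ (X : M2 B) (c : B), U * X * V - c • (1 : M2 B) = U * (X - c • (1 : M2 B)) * V := by
    intro X c
    rw [Matrix.mul_sub, Matrix.sub_mul, Matrix.mul_smul, Matrix.smul_mul, Matrix.mul_one, hUV]
  have hm : ∀ X Y : M2 B, (U * X * V) * (U * Y * V) = U * (X * Y) * V := fun X Y => by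
    rw [show (U * X * V) * (U * Y * V) = U * X * (V * U) * Y * V by simp only [Matrix.mul_assoc],
      hVU, Matrix.mul_one]
    simp only [Matrix.mul_assoc]
  have htr : ∀ X : M2 B, (U * X * V).trace = X.trace := fun X => by
    rw [Matrix.trace_mul_cycle, hVU, Matrix.one_mul]
  have hs : U * Sg * V - 1 = U * (Sg - 1) * V := by
    rw [Matrix.mul_sub, Matrix.sub_mul, Matrix.mul_one, hUV]
  refine ⟨(htr P).trans e1, (htr Sg).trans e2, ?_, ?_, ?_⟩
  · rw [Matrix.det_mul, Matrix.det_mul, mul_comm U.det, mul_assoc, ← Matrix.det_mul, hUV,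
      Matrix.det_one, mul_one, e3]
  · rw [hs, hc, hm, e4, Matrix.mul_zero, Matrix.zero_mul]
  · rw [hs, hc, hm, e5, Matrix.mul_zero, Matrix.zero_mul]

/-- The Steinberg relation can be tested on a jointly injective family of maps. -/
theorem StRel.of_jointly {κ : Type} {E : κ → Type} [∀ k, CommRing (E k)]
    (g : ∀ k, B →+* E k) (hg : ∀ b, (∀ k, g k b = 0) → b = 0) {q : A} {u : B} {P Sg : M2 B}
    (h : ∀ k, D.StRel q (g k u) (P.map (g k)) (Sg.map (g k))) : D.StRel q u P Sg := by
  have hext : ∀ a b : B, (∀ k, g k a = g k b) → a = b := fun a b hab =>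
    sub_eq_zero.mp (hg _ fun k => by rw [map_sub, hab, sub_self])
  have hextM : ∀ M M' : M2 B, (∀ k, M.map (g k) = M'.map (g k)) → M = M' := fun M M' hM =>
    Matrix.ext fun i j => hext _ _ fun k => congrFun (congrFun (hM k) i) j
  have hs : ∀ k, (Sg - 1).map (g k) = Sg.map (g k) - 1 := fun k => by
    rw [Matrix.map_sub _ (map_sub _), Matrix.map_one _ (map_zero _) (map_one _)]
  refine ⟨hext _ _ fun k => ?_, hext _ _ fun k => ?_, hext _ _ fun k => ?_, hextM _ _ fun k => ?_,
    hextM _ _ fun k => ?_⟩
  · have := (h k).1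
    rw [Matrix.trace_fin_two] at this
    simpa [Matrix.trace_fin_two] using this
  · have := (h k).2.1
    rw [Matrix.trace_fin_two] at this
    rw [map_ofNat, Matrix.trace_fin_two, map_add]; exact this
  · rw [RingHom.map_det, RingHom.mapMatrix_apply, map_one]
    exact (h k).2.2.1
  · rw [Matrix.map_mul, hs, map_sub_smul_one, map_mul, map_natCast, Matrix.map_zero _ (map_zero _)]
    exact (h k).2.2.2.1
  · rw [Matrix.map_mul, hs, map_sub_smul_one, Matrix.map_zero _ (map_zero _)]
    exact (h k).2.2.2.2

/-- The relation of a type is stable under ring maps. -/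
theorem TypeRel.map {q : A} {u : B} {P Sg : M2 B} (h : D.TypeRel q u P Sg) (g : B →+* C) :
    D.TypeRel q (g u) (P.map g) (Sg.map g) :=
  ⟨by rw [← RingHom.mapMatrix_apply, ← RingHom.map_det, h.1, map_natCast],
    fun hq => by rw [h.2.1 hq, Matrix.map_one _ (map_zero g) (map_one g)],
    fun hq => StRel.map D (h.2.2 hq) g⟩

/-- The relation of a type is stable under conjugation. -/
theorem TypeRel.conj {q : A} {u : B} {P Sg : M2 B} (h : D.TypeRel q u P Sg) (U V : M2 B)
    (hUV : U * V = 1) : D.TypeRel q u (U * P * V) (U * Sg * V) :=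
  ⟨by rw [Matrix.det_mul, Matrix.det_mul, mul_comm U.det, mul_assoc, ← Matrix.det_mul, hUV,
      Matrix.det_one, mul_one, h.1],
    fun hq => by rw [h.2.1 hq, Matrix.mul_one, hUV],
    fun hq => StRel.conj D (h.2.2 hq) U V hUV⟩

/-- The relation of a type can be tested on a jointly injective family of maps. -/
theorem TypeRel.of_jointly {κ : Type} {E : κ → Type} [∀ k, CommRing (E k)]
    (g : ∀ k, B →+* E k) (hg : ∀ b, (∀ k, g k b = 0) → b = 0) {q : A} {u : B} {P Sg : M2 B}
    (h : ∀ k, D.TypeRel q (g k u) (P.map (g k)) (Sg.map (g k))) : D.TypeRel q u P Sg := by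
  refine ⟨sub_eq_zero.mp (hg _ fun k => ?_),
    fun hq => Matrix.ext fun i j => sub_eq_zero.mp (hg _ fun k => ?_),
    fun hq => StRel.of_jointly D g hg fun k => (h k).2.2 hq⟩
  · rw [map_sub, RingHom.map_det, RingHom.mapMatrix_apply, (h k).1, map_natCast, sub_self]
  · have h1 : g k (Sg i j) = (1 : M2 (E k)) i j := congrFun (congrFun ((h k).2.1 hq) i) j
    rw [map_sub, h1, Matrix.one_apply, Matrix.one_apply]
    split_ifs <;> simp

/-- Being of the types is stable under composition. -/
theorem IsType.comp {f : Src 𝒪 A G →+* B} (h : D.IsType f) (g : B →+* C) :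
    D.IsType (g.comp f) := fun q => by
  rw [phi_comp, sigAt_comp]
  exact TypeRel.map D (h q) g

/-- The type may be checked after jointly injective maps. -/
theorem IsType.of_jointly {κ : Type} {E : κ → Type} [∀ k, CommRing (E k)] (f : Src 𝒪 A G →+* B)
    (g : ∀ k, B →+* E k) (hg : ∀ b, (∀ k, g k b = 0) → b = 0)
    (h : ∀ k, D.IsType ((g k).comp f)) : D.IsType f := fun q =>
  TypeRel.of_jointly D g hg fun k => by
    have := h k q
    rwa [phi_comp, sigAt_comp] at this

/-- Being of the types can be tested after an injective map. -/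
theorem IsType.of_injective (f : Src 𝒪 A G →+* B) (g : B →+* C) (hg : Function.Injective g)
    (h : D.IsType (g.comp f)) : D.IsType f :=
  IsType.of_jointly D f (κ := Unit) (fun _ => g)
    (fun b hb => (injective_iff_map_eq_zero g).mp hg b (hb ())) fun _ => h

end SingleData

end Fermat.GR.Patch
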