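import Mathlib
import Fermat.Agent.GR.Patch.SingleTypes

/-!
# Union types

At a prime where a module carries both unramified and Steinberg points, the Steinberg relations
hold modulo the annihilator of the coordinates of `Σ - 1`.  A chain type is Steinberg at one
prime, of union type on a set of primes and unramified elsewhere.
-/

set_option autoImplicit false

noncomputable section

namespace Fermat.GR.Patch

open Matrix

local notation "M2" R => Matrix (Fin 2) (Fin 2) R

namespace SingleData

variable {𝒪 : Type} [CommRing 𝒪] [IsLocalRing 𝒪] {A G : Type} (D : SingleData 𝒪 A)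

/-- The same framed primes and residual matrices, Steinberg only on `J`. -/
def withSt (J : A → Bool) : SingleData 𝒪 A where
  isSt a := J a && D.isSt a
  N := D.N
  u := D.u
  b := D.b
  h := D.phi0
  N_unit := D.N_unit
  N_ne_one := D.N_ne_one
  u_sq := D.u_sq
  h_det q := by
    cases hq : D.isSt q with
    | false => rw [D.phi0_of_not_isSt hq, D.h_det]
    | true =>
      rw [D.phi0_of_isSt hq, Matrix.det_fin_two]
      simp only [Matrix.of_apply, Matrix.cons_val', Matrix.cons_val_zero, Matrix.cons_val_one,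
        Matrix.empty_val', Matrix.cons_val_fin_one, mul_zero, sub_zero]
      linear_combination (D.N q : 𝒪) * D.u_sq q
  h_unit q := by
    cases hq : D.isSt q with
    | false => rw [D.phi0_of_not_isSt hq]; exact D.h_unit q
    | true =>
      rw [D.phi0_of_isSt hq]
      simp only [Matrix.of_apply, Matrix.cons_val', Matrix.cons_val_zero, Matrix.empty_val',
        Matrix.cons_val_fin_one]
      exact (IsUnit.of_mul_eq_one _ (by rw [← pow_two, D.u_sq])).mul (D.N_unit q)
  st_cases q hq := D.st_cases q (Bool.and_eq_true_iff.mp hq).2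

/-- Changing the special primes does not change the residual matrices. -/
theorem phi0_withSt (J : A → Bool) : (D.withSt J).phi0 = D.phi0 := by
  funext q
  cases hq : J q && D.isSt q with
  | false => rw [(D.withSt J).phi0_of_not_isSt hq]; rfl
  | true =>
    rw [(D.withSt J).phi0_of_isSt hq, D.phi0_of_isSt (Bool.and_eq_true_iff.mp hq).2]
    rfl

/-- Changing the special primes does not change the Frobenius matrices. -/
theorem phi_withSt {B : Type} [CommRing B] (J : A → Bool) (f : Src 𝒪 A G →+* B) (q : A) :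
    (D.withSt J).phi f q = D.phi f q := by rw [phi, phi, phi0_withSt]

section Rel

variable {B : Type} [CommRing B]

/-- The annihilator of the coordinates of `Σ - 1`. -/
def sigAnn (Sg : M2 B) : Ideal B where
  carrier := {a | ∀ i j, a * (Sg - 1) i j = 0}
  add_mem' h h' i j := by rw [add_mul, h i j, h' i j, add_zero]
  zero_mem' i j := zero_mul _
  smul_mem' c a h i j := by rw [smul_eq_mul, mul_assoc, h i j, mul_zero]

/-- The members of `sigAnn`. -/
theorem mem_sigAnn {Sg : M2 B} {a : B} : a ∈ sigAnn Sg ↔ ∀ i j, a * (Sg - 1) i j = 0 := Iff.rfl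

/-- Unramified or Steinberg. -/
def UnionRel (q : A) (u : B) (P Sg : M2 B) : Prop :=
  D.StRel q (Ideal.Quotient.mk (sigAnn Sg) u) (P.map (Ideal.Quotient.mk (sigAnn Sg)))
    (Sg.map (Ideal.Quotient.mk (sigAnn Sg)))

variable {C : Type} [CommRing C]

/-- `sigAnn` maps into that of the image. -/
theorem map_sigAnn_le {Sg : M2 B} (g : B →+* C) : sigAnn Sg ≤ (sigAnn (Sg.map g)).comap g := by
  intro a ha i j
  have hs : (Sg.map g - 1) i j = g ((Sg - 1) i j) := by
    rw [Matrix.sub_apply, Matrix.sub_apply, map_sub, Matrix.map_apply, Matrix.one_apply,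
      Matrix.one_apply]
    split_ifs <;> simp
  rw [hs, ← map_mul, ha i j, map_zero]

/-- The union relations are preserved by ring maps. -/
theorem UnionRel.map {q : A} {u : B} {P Sg : M2 B} (h : D.UnionRel q u P Sg) (g : B →+* C) :
    D.UnionRel q (g u) (P.map g) (Sg.map g) := by
  have h' := StRel.map D h (Ideal.quotientMap (sigAnn (Sg.map g)) g (map_sigAnn_le g))
  rw [Matrix.map_map, Matrix.map_map] at h'
  unfold UnionRel
  rw [Matrix.map_map, Matrix.map_map]
  exact h'

/-- The union relation can be tested on a jointly injective family of maps. -/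
theorem UnionRel.of_jointly {κ : Type} {E : κ → Type} [∀ k, CommRing (E k)]
    (g : ∀ k, B →+* E k) (hg : ∀ b, (∀ k, g k b = 0) → b = 0) {q : A} {u : B} {P Sg : M2 B}
    (h : ∀ k, D.UnionRel q (g k u) (P.map (g k)) (Sg.map (g k))) : D.UnionRel q u P Sg := by
  refine StRel.of_jointly D
    (fun k => Ideal.quotientMap (sigAnn (Sg.map (g k))) (g k) (map_sigAnn_le (g k)))
    (fun b hb => ?_) fun k => ?_
  · obtain ⟨b, rfl⟩ := Ideal.Quotient.mk_surjective b
    refine Ideal.Quotient.eq_zero_iff_mem.mpr fun i j => hg _ fun k => ?_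
    have := hb k
    rw [Ideal.quotientMap_mk, Ideal.Quotient.eq_zero_iff_mem] at this
    have h1 := this i j
    rw [map_mul]
    convert h1 using 2
    rw [Matrix.sub_apply, Matrix.sub_apply, map_sub, Matrix.map_apply, Matrix.one_apply,
      Matrix.one_apply]
    split_ifs <;> simp
  · have h' := h k
    unfold UnionRel at h'
    rw [Matrix.map_map, Matrix.map_map] at h' ⊢
    exact h'

/-- The union relation is stable under conjugation. -/
theorem UnionRel.conj {q : A} {u : B} {P Sg : M2 B} (h : D.UnionRel q u P Sg) (U V : M2 B)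
    (hUV : U * V = 1) : D.UnionRel q u (U * P * V) (U * Sg * V) := by
  have hle : sigAnn Sg ≤ sigAnn (U * Sg * V) := by
    intro a ha i j
    have h0 : a • (Sg - 1) = 0 := Matrix.ext fun i j => ha i j
    have hs : U * Sg * V - 1 = U * (Sg - 1) * V := by
      rw [Matrix.mul_sub, Matrix.sub_mul, Matrix.mul_one, hUV]
    rw [hs, show a * (U * (Sg - 1) * V) i j = (a • (U * (Sg - 1) * V)) i j from rfl,
      ← Matrix.smul_mul, ← Matrix.mul_smul, h0, Matrix.mul_zero, Matrix.zero_mul, Matrix.zero_apply]
  set mk := Ideal.Quotient.mk (sigAnn (U * Sg * V))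
  have h' := StRel.map D h (Ideal.Quotient.factor hle)
  rw [Matrix.map_map, Matrix.map_map] at h'
  have h'' := StRel.conj D (B := B ⧸ sigAnn (U * Sg * V)) (u := mk u) (P := P.map mk)
    (Sg := Sg.map mk) h' (U.map mk) (V.map mk)
    (by rw [← Matrix.map_mul, hUV, Matrix.map_one _ (map_zero _) (map_one _)])
  unfold UnionRel
  rw [Matrix.map_mul, Matrix.map_mul, Matrix.map_mul, Matrix.map_mul]
  exact h''

/-- In a domain a nontrivial inertia matrix with the union relations is Steinberg. -/
theorem UnionRel.stRel [IsDomain B] {q : A} {u : B} {P Sg : M2 B} (h : D.UnionRel q u P Sg)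
    (hne : Sg ≠ 1) : D.StRel q u P Sg := by
  refine StRel.of_jointly D (κ := Unit) (fun _ => Ideal.Quotient.mk (sigAnn Sg)) (fun b hb => ?_)
    fun _ => h
  by_contra hb0
  exact hne (sub_eq_zero.mp (Matrix.ext fun i j =>
    (mul_eq_zero.mp (Ideal.Quotient.eq_zero_iff_mem.mp (hb ()) i j)).resolve_left hb0))

/-- Steinberg at `q₁`, of union type on `J`, unramified elsewhere. -/
def ChainRel (q₁ : A) (J : A → Bool) (q : A) (u : B) (P Sg : M2 B) : Prop :=
  P.det = (D.N q : B) ∧ (q = q₁ → D.StRel q u P Sg) ∧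
    (q ≠ q₁ → (J q = false → Sg = 1) ∧ (J q = true → D.UnionRel q u P Sg))

variable {q₁ : A} {J : A → Bool}

/-- The chain relations are preserved by ring maps. -/
theorem ChainRel.map {q : A} {u : B} {P Sg : M2 B} (h : D.ChainRel q₁ J q u P Sg) (g : B →+* C) :
    D.ChainRel q₁ J q (g u) (P.map g) (Sg.map g) :=
  ⟨by rw [← RingHom.mapMatrix_apply, ← RingHom.map_det, h.1, map_natCast],
    fun hq => StRel.map D (h.2.1 hq) g, fun hq => ⟨fun hJ => by
      rw [(h.2.2 hq).1 hJ, Matrix.map_one _ (map_zero g) (map_one g)],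
      fun hJ => UnionRel.map D ((h.2.2 hq).2 hJ) g⟩⟩

/-- The chain relations are preserved by conjugation. -/
theorem ChainRel.conj {q : A} {u : B} {P Sg : M2 B} (h : D.ChainRel q₁ J q u P Sg) (U V : M2 B)
    (hUV : U * V = 1) : D.ChainRel q₁ J q u (U * P * V) (U * Sg * V) :=
  ⟨by rw [Matrix.det_mul, Matrix.det_mul, mul_comm U.det, mul_assoc, ← Matrix.det_mul, hUV,
      Matrix.det_one, mul_one, h.1],
    fun hq => StRel.conj D (h.2.1 hq) U V hUV, fun hq => ⟨fun hJ => by
      rw [(h.2.2 hq).1 hJ, Matrix.mul_one, hUV],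
      fun hJ => UnionRel.conj D ((h.2.2 hq).2 hJ) U V hUV⟩⟩

/-- The chain relations may be checked after jointly injective maps. -/
theorem ChainRel.of_jointly {κ : Type} {E : κ → Type} [∀ k, CommRing (E k)]
    (g : ∀ k, B →+* E k) (hg : ∀ b, (∀ k, g k b = 0) → b = 0) {q : A} {u : B} {P Sg : M2 B}
    (h : ∀ k, D.ChainRel q₁ J q (g k u) (P.map (g k)) (Sg.map (g k))) :
    D.ChainRel q₁ J q u P Sg := by
  refine ⟨sub_eq_zero.mp (hg _ fun k => ?_), fun hq => StRel.of_jointly D g hg fun k =>
    (h k).2.1 hq,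
    fun hq => ⟨fun hJ => Matrix.ext fun i j => sub_eq_zero.mp (hg _ fun k => ?_),
      fun hJ => UnionRel.of_jointly D g hg fun k => ((h k).2.2 hq).2 hJ⟩⟩
  · rw [map_sub, RingHom.map_det, RingHom.mapMatrix_apply, (h k).1, map_natCast, sub_self]
  · have h1 : g k (Sg i j) = (1 : M2 (E k)) i j := congrFun (congrFun (((h k).2.2 hq).1 hJ) i) j
    rw [map_sub, h1, Matrix.one_apply, Matrix.one_apply]
    split_ifs <;> simp

end Rel

/-- A map of chain type. -/
def IsChainType (q₁ : A) (J : A → Bool) {B : Type} [CommRing B] (f : Src 𝒪 A G →+* B) : Prop :=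
  ∀ q, D.ChainRel q₁ J q (f (algebraMap 𝒪 (Src 𝒪 A G) (D.u q))) (D.phi f q) (sigAt f q)

/-- A chain type is preserved by ring maps. -/
theorem IsChainType.comp {q₁ : A} {J : A → Bool} {B C : Type} [CommRing B] [CommRing C]
    {f : Src 𝒪 A G →+* B} (h : D.IsChainType q₁ J f) (g : B →+* C) :
    D.IsChainType q₁ J (g.comp f) := fun q => by
  rw [phi_comp, sigAt_comp]
  exact ChainRel.map D (h q) g

/-- A chain type may be checked after jointly injective maps. -/
theorem IsChainType.of_jointly {q₁ : A} {J : A → Bool} {B : Type} [CommRing B] {κ : Type}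
    {E : κ → Type} [∀ k, CommRing (E k)] (f : Src 𝒪 A G →+* B) (g : ∀ k, B →+* E k)
    (hg : ∀ b, (∀ k, g k b = 0) → b = 0) (h : ∀ k, D.IsChainType q₁ J ((g k).comp f)) :
    D.IsChainType q₁ J f := fun q => ChainRel.of_jointly D g hg fun k => by
  have := h k q
  rwa [phi_comp, sigAt_comp] at this

/-- In a domain a chain type with ramification at the primes of `J` other than `q₁` is an exact
type. -/
theorem IsChainType.isType {q₁ : A} {J J' : A → Bool} {B : Type} [CommRing B] [IsDomain B]
    {f : Src 𝒪 A G →+* B} (h : D.IsChainType q₁ J f)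
    (hne : ∀ q, q ≠ q₁ → J q = true → sigAt f q ≠ 1)
    (hJ : ∀ q, (J' q && D.isSt q) = true ↔ q = q₁ ∨ J q = true) :
    (D.withSt J').IsType f := by
  intro q
  rw [phi_withSt]
  refine ⟨(h q).1, fun hq => ?_, fun hq => ?_⟩
  · have hq' : ¬ (q = q₁ ∨ J q = true) := fun hc => by
      rw [show (D.withSt J').isSt q = (J' q && D.isSt q) from rfl, (hJ q).mpr hc] at hq
      exact Bool.noConfusion hq
    rw [not_or, Bool.not_eq_true] at hq'
    exact ((h q).2.2 hq'.1).1 hq'.2
  · by_cases hq1 : q = q₁
    · exact (h q).2.1 hq1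
    · have hJq := ((hJ q).mp hq).resolve_left hq1
      exact UnionRel.stRel D (((h q).2.2 hq1).2 hJq) (hne q hq1 hJq)

end SingleData

end Fermat.GR.Patch
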