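import Mathlib
import Fermat.Agent.GR.Patch.Base

/-!
# Polynomially parametrised charts

If the coordinates of all characteristic zero points of a quotient of a power series ring are given
by polynomials in parameters, some of which (`small`) are confined to the maximal ideal while the
others are arbitrary integers, then the kernel of the formal substitution is a prime contained in
the kernel of each such point.
-/

set_option autoImplicit false

noncomputable section

namespace Fermat.GR.Patch

open IsLocalRing

variable {𝒪 : Type} [CommRing 𝒪] {V : Type} (small : V → Prop) (ϖ : 𝒪)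

/-- The weight counting the small variables. -/
def smallWeight [DecidablePred small] (e : V →₀ ℕ) : ℕ :=
  e.sum fun v n => if small v then n else 0

/-- The weight is additive. -/
theorem smallWeight_add [DecidablePred small] (e e' : V →₀ ℕ) :
    smallWeight small (e + e') = smallWeight small e + smallWeight small e' :=
  Finsupp.sum_add_index' (fun v => by simp) fun v a b => by split_ifs <;> simp

/-- Series which are `O((ϖ, small variables)^N)` coefficientwise. -/
def smallFil [DecidablePred small] (N : ℕ) : Ideal (MvPowerSeries V 𝒪) where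
  carrier := {f | ∀ e, ϖ ^ (N - smallWeight small e) ∣ MvPowerSeries.coeff e f}
  add_mem' hf hg e := by rw [map_add]; exact dvd_add (hf e) (hg e)
  zero_mem' e := by simp
  smul_mem' g f hf e := by
    classical
    rw [smul_eq_mul, MvPowerSeries.coeff_mul]
    refine Finset.dvd_sum fun x hx => dvd_mul_of_dvd_right ?_ _
    rw [Finset.HasAntidiagonal.mem_antidiagonal] at hx
    refine (pow_dvd_pow ϖ ?_).trans (hf x.2)
    rw [← hx, smallWeight_add]
    omega

variable [DecidablePred small]

/-- The filtration is multiplicative. -/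
theorem smallFil_mul_le (M N : ℕ) :
    smallFil small ϖ M * smallFil small ϖ N ≤ smallFil small ϖ (M + N) := by
  classical
  refine Ideal.mul_le.mpr fun f hf g hg e => ?_
  rw [MvPowerSeries.coeff_mul]
  refine Finset.dvd_sum fun x hx => ?_
  rw [Finset.HasAntidiagonal.mem_antidiagonal] at hx
  refine (pow_dvd_pow ϖ ?_).trans ((pow_add ϖ _ _).symm ▸ mul_dvd_mul (hf x.1) (hg x.2))
  rw [← hx, smallWeight_add]
  omega

/-- The powers of the first step lie in the filtration. -/
theorem smallFil_pow_le (N : ℕ) : smallFil small ϖ 1 ^ N ≤ smallFil small ϖ N := by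
  induction N with
  | zero => intro f _ e; simp
  | succ N ih =>
    rw [pow_succ]
    exact (Ideal.mul_mono_left ih).trans (smallFil_mul_le small ϖ N 1)

/-- Small variables lie in the first step. -/
theorem X_mem_smallFil {v : V} (hv : small v) : (MvPowerSeries.X v : MvPowerSeries V 𝒪) ∈
    smallFil small ϖ 1 := by
  classical
  intro e
  rw [MvPowerSeries.coeff_X]
  split_ifs with h
  · subst h; simp [smallWeight, hv]
  · exact dvd_zero _

/-- Multiples of `ϖ` lie in the first step. -/
theorem C_mem_smallFil {a : 𝒪} (ha : ϖ ∣ a) : (MvPowerSeries.C a : MvPowerSeries V 𝒪) ∈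
    smallFil small ϖ 1 := by
  classical
  intro e
  rw [MvPowerSeries.coeff_C]
  split_ifs with h
  · subst h; simpa [smallWeight] using ha
  · exact dvd_zero _

variable [IsDomain 𝒪] [IsDiscreteValuationRing 𝒪] [IsAdicComplete (maximalIdeal 𝒪) 𝒪]
  [Finite V] {σ : Type} [Finite σ] {ϖ}

omit [IsAdicComplete (maximalIdeal 𝒪) 𝒪] [Finite V] in
/-- The first step lies in the maximal ideal. -/
theorem smallFil_one_le_maximalIdeal (hϖ : ϖ ∈ maximalIdeal 𝒪) :
    smallFil small ϖ 1 ≤ maximalIdeal (MvPowerSeries V 𝒪) := by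
  intro f hf hu
  have h := hf 0
  rw [MvPowerSeries.coeff_zero_eq_constantCoeff_apply] at h
  simp only [smallWeight, Finsupp.sum_zero_index, tsub_zero, pow_one] at h
  exact hϖ (isUnit_of_dvd_unit h (MvPowerSeries.isUnit_iff_constantCoeff.mp hu))

/-- The formal substitution. -/
def paramHom (im : σ → MvPolynomial V 𝒪) (hϖ : ϖ ∈ maximalIdeal 𝒪)
    (him : ∀ v, (im v : MvPowerSeries V 𝒪) ∈ smallFil small ϖ 1) :
    MvPowerSeries σ 𝒪 →ₐ[𝒪] MvPowerSeries V 𝒪 :=
  evalHom (fun v => (im v : MvPowerSeries V 𝒪)) fun v =>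
    smallFil_one_le_maximalIdeal small hϖ (him v)

variable {O' : Type} [CommRing O'] [IsLocalRing O'] [IsHausdorff (maximalIdeal O') O']
  [Algebra 𝒪 O']

/-- **Points given by parameters kill the kernel of the formal substitution.** -/
theorem ker_paramHom_le (im : σ → MvPolynomial V 𝒪) (hϖ : ϖ ∈ maximalIdeal 𝒪)
    (him : ∀ v, (im v : MvPowerSeries V 𝒪) ∈ smallFil small ϖ 1)
    (hϖ' : algebraMap 𝒪 O' ϖ ∈ maximalIdeal O') (x : MvPowerSeries σ 𝒪 →ₐ[𝒪] O')
    (hX : ∀ v, x (MvPowerSeries.X v) ∈ maximalIdeal O') (val : V → O')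
    (hval : ∀ v, small v → val v ∈ maximalIdeal O')
    (h : ∀ v, x (MvPowerSeries.X v) = MvPolynomial.aeval val (im v)) :
    RingHom.ker (paramHom small im hϖ him) ≤ RingHom.ker x := by
  intro f hf
  rw [RingHom.mem_ker] at hf ⊢
  refine IsHausdorff.haus' (I := maximalIdeal O') _ fun N => ?_
  rw [SModEq.zero, smul_eq_mul, Ideal.mul_top]
  -- replace the series by a polynomial, and its image by the value at the parameters
  set t : MvPolynomial σ 𝒪 := MvPowerSeries.truncTotal N f
  have hR : f - (t : MvPowerSeries σ 𝒪) ∈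
      Ideal.span (Set.range (MvPowerSeries.X : σ → MvPowerSeries σ 𝒪)) ^ N :=
    Fermat.GR.sub_truncTotal_mem N f
  have hxR : x (f - (t : MvPowerSeries σ 𝒪)) ∈ maximalIdeal O' ^ N := by
    have hle : (Ideal.span (Set.range (MvPowerSeries.X : σ → MvPowerSeries σ 𝒪))).map
      (x : _ →+* O') ≤
        maximalIdeal O' := by
      rw [Ideal.map_span, Ideal.span_le]
      rintro _ ⟨_, ⟨v, rfl⟩, rfl⟩
      exact hX v
    exact Ideal.pow_right_mono hle N (Ideal.map_pow (x : MvPowerSeries σ 𝒪 →+* O') _ N ▸
      Ideal.mem_map_of_mem _ hR)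
  have hcR : paramHom small im hϖ him (f - (t : MvPowerSeries σ 𝒪)) ∈ smallFil small ϖ N := by
    have hle : (Ideal.span (Set.range (MvPowerSeries.X : σ → MvPowerSeries σ 𝒪))).map
        (paramHom small im hϖ him : _ →+* MvPowerSeries V 𝒪) ≤ smallFil small ϖ 1 := by
      rw [Ideal.map_span, Ideal.span_le]
      rintro _ ⟨_, ⟨v, rfl⟩, rfl⟩
      change paramHom small im hϖ him (MvPowerSeries.X v) ∈ _
      rw [paramHom, evalHom_X]
      exact him v
    exact smallFil_pow_le small ϖ N (Ideal.pow_right_mono hle N (Ideal.map_pow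
      (paramHom small im hϖ him : MvPowerSeries σ 𝒪 →+* MvPowerSeries V 𝒪) _ N ▸
        Ideal.mem_map_of_mem _ hR))
  set P : MvPolynomial V 𝒪 := MvPolynomial.aeval im t
  have hP : (P : MvPowerSeries V 𝒪) = paramHom small im hϖ him (t : MvPowerSeries σ 𝒪) := by
    have : (MvPolynomial.coeToMvPowerSeries.algHom 𝒪).comp (MvPolynomial.aeval im) =
        (paramHom small im hϖ him).comp (MvPolynomial.coeToMvPowerSeries.algHom 𝒪) :=
      MvPolynomial.algHom_ext fun v => by
        simp [MvPolynomial.coeToMvPowerSeries.algHom_apply, paramHom]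
    simpa [MvPolynomial.coeToMvPowerSeries.algHom_apply, P] using DFunLike.congr_fun this t
  have hPfil : (P : MvPowerSeries V 𝒪) ∈ smallFil small ϖ N := by
    rw [map_sub, hf, zero_sub, neg_mem_iff, ← hP] at hcR
    exact hcR
  have hxt : x (t : MvPowerSeries σ 𝒪) = MvPolynomial.aeval val P := by
    have : x.comp (MvPolynomial.coeToMvPowerSeries.algHom 𝒪) =
        (MvPolynomial.aeval val).comp (MvPolynomial.aeval im) :=
      MvPolynomial.algHom_ext fun v => by
        simp [MvPolynomial.coeToMvPowerSeries.algHom_apply, h v]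
    simpa [MvPolynomial.coeToMvPowerSeries.algHom_apply, P] using DFunLike.congr_fun this t
  have hxP : MvPolynomial.aeval val P ∈ maximalIdeal O' ^ N := by
    rw [MvPolynomial.aeval_def, MvPolynomial.eval₂_eq]
    refine Ideal.sum_mem _ fun e _ => ?_
    obtain ⟨c, hc⟩ := hPfil e
    rw [MvPolynomial.coeff_coe] at hc
    rw [hc, map_mul, map_pow]
    have hprod : (∏ v ∈ e.support, val v ^ e v) ∈ maximalIdeal O' ^ smallWeight small e := by
      rw [smallWeight, Finsupp.sum, ← Finset.prod_pow_eq_pow_sum]
      refine Ideal.prod_mem_prod fun v _ => ?_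
      split_ifs with hv
      · exact Ideal.pow_mem_pow (hval v hv) _
      · simp
    rw [mul_assoc]
    refine Ideal.pow_le_pow_right
      (show N ≤ (N - smallWeight small e) + smallWeight small e by omega) ?_
    rw [pow_add]
    exact Ideal.mul_mem_mul (Ideal.pow_mem_pow hϖ' _) (Ideal.mul_mem_left _ _ hprod)
  have := add_mem hxR (hxt ▸ hxP)
  rwa [← map_add, sub_add_cancel] at this

end Fermat.GR.Patch
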