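import Mathlib
import Fermat.Agent.GR.Patch.SingleTypes
import Fermat.Agent.GR.Patch.Param

/-!
# One chart for all characteristic zero points of the Steinberg and unramified types

The coordinates of every integral point are polynomial in an eigenline and two triangular entries,
so the kernel of a single formal substitution lies below all of them.
-/

set_option autoImplicit false
set_option linter.unusedSectionVars false

noncomputable section

namespace Fermat.GR.Patch

open IsLocalRing Matrix

local notation "M2" R => Matrix (Fin 2) (Fin 2) R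

/-- A singular nonzero `2 × 2` matrix over a valuation domain kills a primitive vector. -/
theorem exists_primitive_kernel {E : Type} [CommRing E] [IsDomain E] [ValuationRing E] {M : M2 E}
    (hdet : M.det = 0) (hM : M ≠ 0) :
    ∃ v : Fin 2 → E, (IsUnit (v 0) ∨ IsUnit (v 1)) ∧ M *ᵥ v = 0 := by
  have hd : M 0 0 * M 1 1 - M 0 1 * M 1 0 = 0 := by rwa [← Matrix.det_fin_two]
  have key : ∀ w : Fin 2 → E, w ≠ 0 → M *ᵥ w = 0 →
      ∃ v : Fin 2 → E, (IsUnit (v 0) ∨ IsUnit (v 1)) ∧ M *ᵥ v = 0 := by
    intro w hw hMw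
    have hscal : ∀ (t : E) (v : Fin 2 → E), t ≠ 0 → M *ᵥ (t • v) = 0 → M *ᵥ v = 0 := by
      intro t v ht h
      rw [Matrix.mulVec_smul] at h
      exact (smul_eq_zero.mp h).resolve_left ht
    rcases ValuationRing.dvd_total (w 0) (w 1) with ⟨t, ht⟩ | ⟨t, ht⟩
    · have hw0 : w 0 ≠ 0 := fun h => hw (funext fun i => by fin_cases i <;> simp [h, ht])
      refine ⟨![1, t], Or.inl isUnit_one, hscal (w 0) _ hw0 ?_⟩
      rwa [show w 0 • ![1, t] = w from funext fun i => by fin_cases i <;> simp [ht]]
    · have hw1 : w 1 ≠ 0 := fun h => hw (funext fun i => by fin_cases i <;> simp [h, ht])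
      refine ⟨![t, 1], Or.inr isUnit_one, hscal (w 1) _ hw1 ?_⟩
      rwa [show w 1 • ![t, 1] = w from funext fun i => by fin_cases i <;> simp [ht]]
  by_cases h0 : M 0 0 = 0 ∧ M 0 1 = 0
  · refine key ![M 1 1, -M 1 0] ?_ ?_
    · intro h
      have e0 : M 1 1 = 0 := congrFun h 0
      have e1 : -M 1 0 = 0 := congrFun h 1
      exact hM (Matrix.ext fun i j => by
        fin_cases i <;> fin_cases j <;> simp [h0.1, h0.2, e0, neg_eq_zero.mp e1])
    · funext i
      fin_cases i <;> simp [Matrix.mulVec, dotProduct, Fin.sum_univ_two, h0.1, h0.2]; ring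
  · refine key ![M 0 1, -M 0 0] ?_ ?_
    · intro h
      exact h0 ⟨neg_eq_zero.mp (congrFun h 1), congrFun h 0⟩
    · funext i
      fin_cases i <;> simp [Matrix.mulVec, dotProduct, Fin.sum_univ_two]
      · ring
      · linear_combination -hd

/-- A singular nonzero matrix over a valuation domain kills some vector `(1 + s c, c)`, the first
column of a determinant one matrix `(1 + s c, s; c, 1)`. -/
theorem exists_kernel_sl2_column {E : Type} [CommRing E] [IsDomain E] [ValuationRing E] {M : M2 E}
    (hdet : M.det = 0) (hM : M ≠ 0) : ∃ s c : E, M *ᵥ ![1 + s * c, c] = 0 := by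
  obtain ⟨v, hv, hMv⟩ := exists_primitive_kernel hdet hM
  have hs : ∀ t : E, M *ᵥ (t • v) = 0 := fun t => by rw [Matrix.mulVec_smul, hMv, smul_zero]
  rcases hv with h0 | h1
  · obtain ⟨w, hw⟩ := h0.exists_right_inv
    refine ⟨0, v 1 * w, ?_⟩
    rw [show ![1 + 0 * (v 1 * w), v 1 * w] = w • v from
      funext fun i => by fin_cases i <;> simp [mul_comm w, hw]]
    exact hs w
  · obtain ⟨w, hw⟩ := h1.exists_right_inv
    refine ⟨v 0 * w - 1, 1, ?_⟩
    rw [show ![1 + (v 0 * w - 1) * 1, (1 : E)] = w • v from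
      funext fun i => by fin_cases i <;> simp [mul_comm w, hw]]
    exact hs w

/-- A singular matrix with first column in the maximal ideal and a unit in the second column kills
some `(1, π)` with `π` in the maximal ideal. -/
theorem exists_kernel_small_line {E : Type} [CommRing E] [IsLocalRing E] {M : M2 E}
    (hdet : M.det = 0) (h00 : M 0 0 ∈ maximalIdeal E) (h10 : M 1 0 ∈ maximalIdeal E)
    (hu : IsUnit (M 0 1) ∨ IsUnit (M 1 1)) : ∃ π ∈ maximalIdeal E, M *ᵥ ![1, π] = 0 := by
  have hMd : M 0 0 * M 1 1 - M 0 1 * M 1 0 = 0 := by rwa [← Matrix.det_fin_two]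
  rcases hu with hu | hu
  · obtain ⟨w, hw⟩ := hu.exists_right_inv
    refine ⟨-M 0 0 * w, Ideal.mul_mem_right _ _ (neg_mem h00), ?_⟩
    funext i
    fin_cases i <;> simp [Matrix.mulVec, dotProduct, Fin.sum_univ_two]
    · linear_combination -M 0 0 * hw
    · linear_combination -w * hMd - M 1 0 * hw
  · obtain ⟨w, hw⟩ := hu.exists_right_inv
    refine ⟨-M 1 0 * w, Ideal.mul_mem_right _ _ (neg_mem h10), ?_⟩
    funext i
    fin_cases i <;> simp [Matrix.mulVec, dotProduct, Fin.sum_univ_two]
    · linear_combination w * hMd - M 0 0 * hw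
    · linear_combination -M 1 0 * hw

/-- A determinant one matrix with invertible upper right entry, in three parameters. -/
theorem eq_param_of_det_eq_one {E : Type} [CommRing E] {g : M2 E} (hdet : g.det = 1) {w : E}
    (hw : g 0 1 * w = 1) :
    g = !![1 + (1 + (g 0 1 - 1)) * ((g 0 0 - 1) * w), 1 + (g 0 1 - 1);
      (g 1 1 - 1) * w * (1 + (1 + (g 0 1 - 1)) * ((g 0 0 - 1) * w)) + (g 0 0 - 1) * w,
      (1 + (g 0 1 - 1)) * ((g 1 1 - 1) * w) + 1] := by
  have hd : g 0 0 * g 1 1 - g 0 1 * g 1 0 = 1 := by rwa [← Matrix.det_fin_two]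
  ext i j
  fin_cases i <;> fin_cases j
  · simp; linear_combination -(g 0 0 - 1) * hw
  · simp
  · simp; linear_combination (-(g 1 0) - (g 1 1 - 1) * w * (g 0 0 - 1)) * hw - w * hd
  · simp; linear_combination -(g 1 1 - 1) * hw

/-- If `F - e` kills the first column of `P` and `N` is killed by `F - e` on the left and by
`F - c` on the right, then `P⁻¹` makes `F` upper triangular and `N` strictly so. -/
theorem triangular_of_eigenline {E : Type} [CommRing E] [IsDomain E] {F N P P' : M2 E} {e c : E}
    (hPP : P * P' = 1) (hPP' : P' * P = 1) (hne : e ≠ c) (htr : F.trace = e + c)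
    (hPe : ((F - e • (1 : M2 E)) * P) 0 0 = 0) (hPe1 : ((F - e • (1 : M2 E)) * P) 1 0 = 0)
    (hMN : (F - e • (1 : M2 E)) * N = 0) (hNM : N * (F - c • (1 : M2 E)) = 0) :
    (P' * F * P) 0 0 = e ∧ (P' * F * P) 1 0 = 0 ∧ (P' * F * P) 1 1 = c ∧
      (P' * N * P) 0 0 = 0 ∧ (P' * N * P) 1 0 = 0 ∧ (P' * N * P) 1 1 = 0 := by
  set M := F - e • (1 : M2 E) with hM
  set T := P' * F * P with hT
  set Y := P' * N * P with hY
  -- `M` kills the first column of `P`, so `F` becomes triangular
  have hMP : P' * M * P = T - e • (1 : M2 E) := by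
    rw [hM, Matrix.mul_sub, Matrix.sub_mul, Matrix.mul_smul, Matrix.mul_one, Matrix.smul_mul,
      hPP']
  have hT00 : T 0 0 - e = 0 := by
    have h := congrFun (congrFun hMP 0) 0
    rw [Matrix.mul_assoc, Matrix.mul_apply, Fin.sum_univ_two, hPe, hPe1] at h
    simpa using h.symm
  have hT10 : T 1 0 = 0 := by
    have h := congrFun (congrFun hMP 1) 0
    rw [Matrix.mul_assoc, Matrix.mul_apply, Fin.sum_univ_two, hPe, hPe1] at h
    simpa using h.symm
  have hT11 : T 1 1 = c := by
    have h1 : T.trace = F.trace := by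
      rw [hT, Matrix.trace_mul_cycle, hPP, Matrix.one_mul]
    rw [Matrix.trace_fin_two, htr] at h1
    linear_combination h1 - hT00
  -- the two relations in the new basis kill three entries of `N`
  have hTY : (T - e • (1 : M2 E)) * Y = 0 := by
    rw [← hMP, hY]
    calc P' * M * P * (P' * N * P) = P' * M * (P * P') * N * P := by
          simp only [Matrix.mul_assoc]
      _ = P' * (M * N) * P := by rw [hPP]; simp only [Matrix.mul_assoc, Matrix.one_mul]
      _ = 0 := by rw [hM, hMN, Matrix.mul_zero, Matrix.zero_mul]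
  have hYT : Y * (T - c • (1 : M2 E)) = 0 := by
    have : P' * (F - c • (1 : M2 E)) * P = T - c • (1 : M2 E) := by
      rw [Matrix.mul_sub, Matrix.sub_mul, Matrix.mul_smul, Matrix.mul_one, Matrix.smul_mul, hPP']
    rw [← this, hY]
    calc P' * N * P * (P' * (F - c • (1 : M2 E)) * P) =
          P' * N * (P * P') * (F - c • (1 : M2 E)) * P := by
          simp only [Matrix.mul_assoc]
      _ = P' * (N * (F - c • (1 : M2 E))) * P := by
          rw [hPP]; simp only [Matrix.mul_assoc, Matrix.one_mul]
      _ = 0 := by rw [hNM, Matrix.mul_zero, Matrix.zero_mul]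
  have hd : T 1 1 - e ≠ 0 := by rw [hT11]; exact sub_ne_zero.mpr hne.symm
  have hY10 : Y 1 0 = 0 := by
    have h := congrFun (congrFun hTY 1) 0
    simp [Matrix.mul_apply, Fin.sum_univ_two, hT10] at h
    exact h.resolve_left hd
  have hY11 : Y 1 1 = 0 := by
    have h := congrFun (congrFun hTY 1) 1
    simp [Matrix.mul_apply, Fin.sum_univ_two, hT10] at h
    exact h.resolve_left hd
  have hY00 : Y 0 0 = 0 := by
    have h := congrFun (congrFun hYT 0) 0
    simp [Matrix.mul_apply, Fin.sum_univ_two, hT10] at h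
    refine h.resolve_right fun h' => hne ?_
    linear_combination h' - hT00
  exact ⟨sub_eq_zero.mp hT00, hT10, hT11, hY00, hY10, hY11⟩

namespace SingleData

variable {𝒪 : Type} [CommRing 𝒪] [IsDomain 𝒪] [IsDiscreteValuationRing 𝒪]
  {A G : Type} (D : SingleData 𝒪 A)

/-- The parameters: four per prime (line, triangular entries) and the global variables. -/
abbrev PVar (A G : Type) : Type := (A × Fin 4) ⊕ G

/-- Scalar residual Frobenius: the eigenline is then arbitrary. -/
def IsFree (q : A) : Prop :=
  D.isSt q = true ∧ D.b q = 0 ∧ (D.N q : 𝒪) - 1 ∈ maximalIdeal 𝒪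

/-- The parameters confined to the maximal ideal. -/
def small : PVar A G → Prop
  | Sum.inl (q, i) => ¬ (D.IsFree q ∧ (i = 0 ∨ i = 1))
  | Sum.inr _ => True

local notation "Poly" => MvPolynomial (PVar A G) 𝒪

/-- The `i`-th parameter at `q`. -/
def pv (q : A) (i : Fin 4) : Poly := MvPolynomial.X (Sum.inl (q, i))

open Classical in
/-- The change of basis at `q` by the parameters of the eigenline. -/
def baseMat (q : A) : M2 Poly :=
  if D.IsFree q then !![1 + pv q 0 * pv q 1, pv q 0; pv q 1, 1] else !![1, 0; pv q 0, 1]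

open Classical in
/-- The inverse of `baseMat`. -/
def baseInv (q : A) : M2 Poly :=
  if D.IsFree q then !![1, -pv q 0; -pv q 1, 1 + pv q 0 * pv q 1] else !![1, 0; -pv q 0, 1]

/-- The change of basis times its inverse. -/
theorem baseMat_mul_baseInv (q : A) : D.baseMat (G := G) q * D.baseInv q = 1 := by
  rw [baseMat, baseInv]
  split_ifs <;> ext i j <;> fin_cases i <;> fin_cases j <;>
    simp [Matrix.mul_apply, Fin.sum_univ_two] <;> ring_nf

/-- The inverse times the change of basis. -/
theorem baseInv_mul_baseMat (q : A) : D.baseInv (G := G) q * D.baseMat q = 1 :=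
  mul_eq_one_comm.mp (D.baseMat_mul_baseInv q)

/-- Frobenius in normal form. -/
def triPhi (q : A) : M2 Poly :=
  !![MvPolynomial.C (D.u q * (D.N q : 𝒪)), MvPolynomial.C (D.b q) + pv q 2;
    0, MvPolynomial.C (D.u q)]

/-- Inertia in normal form. -/
def triSig (q : A) : M2 Poly := !![1, pv q 3; 0, 1]

/-- Frobenius in terms of the parameters. -/
def polyPhi (q : A) : M2 Poly :=
  if D.isSt q then D.baseMat q * D.triPhi q * D.baseInv q
  else (D.h q).map MvPolynomial.C * !![1, -1; 0, 1] *
    !![1 + (1 + pv q 2) * pv q 3, 1 + pv q 2;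
      pv q 0 * (1 + (1 + pv q 2) * pv q 3) + pv q 3, (1 + pv q 2) * pv q 0 + 1]

/-- Inertia in terms of the parameters. -/
def polySig (q : A) : M2 Poly :=
  if D.isSt q then D.baseMat q * triSig q * D.baseInv q else 1

/-- The images of the variables. -/
def paramIm : Var A G → Poly
  | Sum.inl (q, false, i, j) => D.polyPhi q i j - MvPolynomial.C (D.phi0 q i j)
  | Sum.inl (q, true, i, j) => D.polySig q i j - (1 : M2 Poly) i j
  | Sum.inr g => MvPolynomial.X (Sum.inr g)

variable [DecidablePred (D.small (G := G))] {ϖ : 𝒪}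

/-- The substituted parameters lie in the first step of the small filtration. -/
theorem paramIm_mem (hϖ : Irreducible ϖ) (v : Var A G) :
    (D.paramIm v : MvPowerSeries (PVar A G) 𝒪) ∈ smallFil D.small ϖ 1 := by
  -- work modulo the first step of the filtration, where the small variables vanish
  let mk : Poly →+* MvPowerSeries (PVar A G) 𝒪 ⧸ smallFil D.small ϖ 1 :=
    (Ideal.Quotient.mk _).comp MvPolynomial.coeToMvPowerSeries.ringHom
  have hmk : ∀ P : Poly, mk P = 0 ↔ (P : MvPowerSeries (PVar A G) 𝒪) ∈ smallFil D.small ϖ 1 :=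
    fun P => Ideal.Quotient.eq_zero_iff_mem
  have hX : ∀ v, D.small v → mk (MvPolynomial.X v) = 0 := fun v hv => by
    rw [hmk, MvPolynomial.coe_X]; exact X_mem_smallFil _ _ hv
  have hC : ∀ a : 𝒪, a ∈ maximalIdeal 𝒪 → mk (MvPolynomial.C a) = 0 := fun a ha => by
    rw [hmk, MvPolynomial.coe_C]
    refine C_mem_smallFil _ _ ?_
    rwa [← Ideal.mem_span_singleton, ← hϖ.maximalIdeal_eq]
  rcases v with ⟨q, t, i, j⟩ | g
  · have hs : ∀ i : Fin 4, i ≠ 0 → i ≠ 1 → mk (pv q i) = 0 := fun i h0 h1 =>
      hX _ fun h => h.2.elim h0 h1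
    have hs' : ¬ D.IsFree q → ∀ i : Fin 4, mk (pv q i) = 0 := fun hf i =>
      hX _ fun h => hf h.1
    -- both matrices reduce to the residual ones
    have hmP : mk.mapMatrix (D.polyPhi q) = mk.mapMatrix ((D.phi0 q).map MvPolynomial.C) ∧
        mk.mapMatrix (D.polySig q) = 1 := by
      cases hq : D.isSt q with
      | false =>
        have hf : ¬ D.IsFree q := fun h => by simp [h.1] at hq
        refine ⟨?_, by rw [polySig, if_neg (by simp [hq]), map_one]⟩
        rw [polyPhi, if_neg (by simp [hq]), D.phi0_of_not_isSt hq, map_mul, map_mul, mul_assoc]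
        have : mk.mapMatrix !![(1 : Poly), -1; 0, 1] * mk.mapMatrix
            !![1 + (1 + pv q 2) * pv q 3, 1 + pv q 2;
              pv q 0 * (1 + (1 + pv q 2) * pv q 3) + pv q 3, (1 + pv q 2) * pv q 0 + 1] = 1 := by
          ext a b
          fin_cases a <;> fin_cases b <;>
            simp [Matrix.mul_apply, Fin.sum_univ_two, hs' hf]
        rw [this, mul_one]
      | true =>
        have hT : mk.mapMatrix (D.triPhi q) = mk.mapMatrix ((D.phi0 q).map MvPolynomial.C) := by
          rw [D.phi0_of_isSt hq]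
          ext a b
          fin_cases a <;> fin_cases b <;> simp [triPhi, hs 2 (by decide) (by decide)]
        have hS : mk.mapMatrix (triSig (𝒪 := 𝒪) (G := G) q) = 1 := by
          ext a b
          fin_cases a <;> fin_cases b <;> simp [triSig, hs 3 (by decide) (by decide)]
        refine ⟨?_, ?_⟩
        · rw [polyPhi, if_pos hq, map_mul, map_mul, hT]
          by_cases hf : D.IsFree q
          · have hc : mk.mapMatrix ((D.phi0 q).map MvPolynomial.C) =
                Matrix.scalar (Fin 2) (mk (MvPolynomial.C (D.u q))) := by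
              rw [D.phi0_of_isSt hq]
              have h1 : mk (MvPolynomial.C (D.u q * (D.N q : 𝒪))) =
                  mk (MvPolynomial.C (D.u q)) := by
                rw [← sub_eq_zero, ← map_sub, ← map_sub]
                refine hC _ ?_
                rw [show D.u q * (D.N q : 𝒪) - D.u q = D.u q * ((D.N q : 𝒪) - 1) by ring]
                exact Ideal.mul_mem_left _ _ hf.2.2
              ext a b
              fin_cases a <;> fin_cases b
              · simpa using h1
              · simp [hf.2.1]
              · simp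
              · simp
            rw [hc, ← (Matrix.scalar_commute _ (fun r => Commute.all _ r)
              (mk.mapMatrix (D.baseMat (G := G) q))).eq, mul_assoc, ← map_mul,
              D.baseMat_mul_baseInv, map_one, mul_one]
          · have h1 : mk.mapMatrix (D.baseMat (G := G) q) = 1 := by
              rw [baseMat, if_neg hf]
              ext a b
              fin_cases a <;> fin_cases b <;> simp [hs' hf]
            have h2 : mk.mapMatrix (D.baseInv (G := G) q) = 1 := by
              have := congrArg mk.mapMatrix (D.baseMat_mul_baseInv (G := G) q)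
              rwa [map_mul, h1, one_mul, map_one] at this
            rw [h1, h2, one_mul, mul_one]
        · rw [polySig, if_pos hq, map_mul, map_mul, hS, mul_one, ← map_mul, D.baseMat_mul_baseInv,
            map_one]
    rw [← hmk]
    cases t
    · change mk (D.polyPhi q i j - MvPolynomial.C (D.phi0 q i j)) = 0
      rw [map_sub, sub_eq_zero]
      exact congrFun (congrFun hmP.1 i) j
    · change mk (D.polySig q i j - (1 : M2 Poly) i j) = 0
      rw [map_sub, sub_eq_zero]
      refine (congrFun (congrFun hmP.2 i) j).trans ?_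
      rw [Matrix.one_apply, Matrix.one_apply]
      split_ifs <;> simp
  · rw [← hmk]
    exact hX _ trivial

variable [IsAdicComplete (maximalIdeal 𝒪) 𝒪] [Finite A] [Finite G]

/-- The chart: the source ring mapped to power series in the parameters by `paramIm`. -/
def chart (hϖ : Irreducible ϖ) : Src 𝒪 A G →ₐ[𝒪] MvPowerSeries (PVar A G) 𝒪 :=
  paramHom D.small D.paramIm (show ϖ ∈ maximalIdeal 𝒪 from hϖ.not_isUnit) (D.paramIm_mem hϖ)

/-- The values of the chart at the variables. -/
theorem chart_X (hϖ : Irreducible ϖ) (v : Var A G) :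
    D.chart hϖ (MvPowerSeries.X v) = (D.paramIm v : MvPowerSeries (PVar A G) 𝒪) := by
  rw [chart, paramHom, evalHom_X]

/-- The chart satisfies the relations. -/
theorem isType_chart (hϖ : Irreducible ϖ) :
    D.IsType (D.chart (G := G) hϖ : Src 𝒪 A G →+* MvPowerSeries (PVar A G) 𝒪) := by
  set co : Poly →+* MvPowerSeries (PVar A G) 𝒪 := MvPolynomial.coeToMvPowerSeries.ringHom
  intro q
  have hcm : ∀ c : 𝒪, (D.chart (G := G) hϖ : Src 𝒪 A G →+* MvPowerSeries (PVar A G) 𝒪)
      (algebraMap 𝒪 _ c) = co (MvPolynomial.C c) := fun c => by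
    change D.chart hϖ (algebraMap 𝒪 _ c) = ((MvPolynomial.C c : Poly) : MvPowerSeries (PVar A G) 𝒪)
    rw [AlgHom.commutes, MvPolynomial.coe_C]
    rfl
  -- Frobenius and inertia of the chart are the polynomial matrices
  have hphi : D.phi (D.chart (G := G) hϖ : Src 𝒪 A G →+* MvPowerSeries (PVar A G) 𝒪) q =
      co.mapMatrix (D.polyPhi q) := by
    refine Matrix.ext fun i j => ?_
    simp only [phi, Matrix.add_apply, Matrix.map_apply, Matrix.of_apply, hcm,
      RingHom.mapMatrix_apply]
    change _ + D.chart hϖ (MvPowerSeries.X _) = _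
    rw [chart_X]
    change co _ + co (D.polyPhi q i j - MvPolynomial.C (D.phi0 q i j)) = _
    rw [map_sub, add_sub_cancel]
  have hsig : sigAt (D.chart (G := G) hϖ : Src 𝒪 A G →+* MvPowerSeries (PVar A G) 𝒪) q =
      co.mapMatrix (D.polySig q) := by
    refine Matrix.ext fun i j => ?_
    simp only [sigAt, Matrix.add_apply, Matrix.of_apply, RingHom.mapMatrix_apply, Matrix.map_apply]
    change _ + D.chart hϖ (MvPowerSeries.X _) = _
    rw [chart_X]
    change _ + co (D.polySig q i j - (1 : M2 Poly) i j) = _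
    rw [map_sub, Matrix.one_apply, Matrix.one_apply]
    split_ifs <;> simp
  rw [hphi, hsig, hcm]
  have hdetP : (D.baseMat (G := G) q).det * (D.baseInv q).det = 1 := by
    rw [← Matrix.det_mul, D.baseMat_mul_baseInv, Matrix.det_one]
  have hu : D.u q * D.u q = 1 := by rw [← pow_two, D.u_sq]
  -- determinant, unramified case, Steinberg case
  refine ⟨?_, fun hq => ?_, fun hq => ?_⟩
  · rw [← RingHom.map_det, ← map_natCast co]
    refine congrArg co ?_
    cases hq : D.isSt q with
    | false =>
      rw [polyPhi, if_neg (by simp [hq]), Matrix.det_mul, Matrix.det_mul,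
        ← RingHom.mapMatrix_apply, ← RingHom.map_det, D.h_det, Matrix.det_fin_two,
        Matrix.det_fin_two, map_natCast]
      simp; ring
    | true =>
      rw [polyPhi, if_pos hq, Matrix.det_mul, Matrix.det_mul, mul_right_comm, hdetP,
        one_mul, triPhi, Matrix.det_fin_two]
      simp only [Matrix.of_apply, Matrix.cons_val', Matrix.cons_val_zero, Matrix.cons_val_one,
        Matrix.empty_val', Matrix.cons_val_fin_one, mul_zero, sub_zero, ← map_mul]
      rw [show D.u q * (D.N q : 𝒪) * D.u q = (D.N q : 𝒪) by linear_combination (D.N q : 𝒪) * hu,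
        map_natCast]
  · rw [polySig, if_neg (by simp [hq]), map_one]
  · rw [polyPhi, if_pos hq, polySig, if_pos hq]
    set P := D.baseMat (G := G) q
    set P' := D.baseInv (G := G) q
    have hPP : P * P' = 1 := D.baseMat_mul_baseInv q
    have hPP' : P' * P = 1 := D.baseInv_mul_baseMat q
    have htr : ∀ T : M2 Poly, (co.mapMatrix (P * T * P')).trace = co T.trace := fun T => by
      rw [Matrix.trace_fin_two, RingHom.mapMatrix_apply, Matrix.map_apply, Matrix.map_apply,
        ← map_add, ← Matrix.trace_fin_two, Matrix.trace_mul_cycle, hPP', Matrix.one_mul]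
    -- the Steinberg relations are those of the triangular matrices, conjugated
    have hconj : ∀ (T : M2 Poly) (c : Poly), co.mapMatrix (P * T * P') - co c • (1 : M2 _) =
        co.mapMatrix (P * (T - c • (1 : M2 Poly)) * P') := fun T c => by
      rw [Matrix.mul_sub, Matrix.sub_mul, Matrix.mul_smul, Matrix.mul_one, Matrix.smul_mul, hPP,
        map_sub]
      refine congrArg₂ _ rfl ?_
      ext a b
      simp only [RingHom.mapMatrix_apply, Matrix.map_apply, Matrix.smul_apply, smul_eq_mul, map_mul,
        Matrix.one_apply]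
      split_ifs <;> simp
    have hprod : ∀ T T' : M2 Poly, co.mapMatrix (P * T * P') * co.mapMatrix (P * T' * P') =
        co.mapMatrix (P * (T * T') * P') := fun T T' => by
      rw [← map_mul]
      refine congrArg _ ?_
      calc P * T * P' * (P * T' * P') = P * T * (P' * P) * T' * P' := by simp only [mul_assoc]
        _ = P * (T * T') * P' := by rw [hPP']; simp only [mul_assoc, one_mul]
    have hone : co.mapMatrix (P * triSig (G := G) q * P') - 1 =
        co.mapMatrix (P * (triSig q - 1) * P') := by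
      rw [Matrix.mul_sub, Matrix.sub_mul, Matrix.mul_one, hPP, map_sub, map_one]
    refine ⟨?_, ?_, ?_, ?_, ?_⟩
    · rw [htr, triPhi, Matrix.trace_fin_two, ← map_natCast co, ← map_one co, ← map_add, ← map_mul]
      refine congrArg _ ?_
      simp [mul_add]
    · rw [htr, triSig, Matrix.trace_fin_two, ← map_ofNat co]
      refine congrArg _ ?_
      simp [one_add_one_eq_two]
    · rw [← RingHom.map_det, ← map_one co]
      refine congrArg _ ?_
      rw [Matrix.det_mul, Matrix.det_mul, mul_right_comm, hdetP, one_mul, triSig,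
        Matrix.det_fin_two]
      simp
    · rw [← map_natCast co, ← map_mul, hconj, hone, hprod]
      rw [← map_zero co.mapMatrix]
      refine congrArg _ ?_
      rw [← Matrix.zero_mul P', ← Matrix.mul_zero P]
      refine congrArg (fun X => P * X * P') (Matrix.ext fun a b => ?_)
      fin_cases a <;> fin_cases b <;>
        simp [triPhi, triSig, Matrix.mul_apply, Fin.sum_univ_two]
    · rw [hconj, hone, hprod]
      rw [← map_zero co.mapMatrix]
      refine congrArg _ ?_
      rw [← Matrix.zero_mul P', ← Matrix.mul_zero P]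
      refine congrArg (fun X => P * X * P') (Matrix.ext fun a b => ?_)
      fin_cases a <;> fin_cases b <;>
        simp [triPhi, triSig, Matrix.mul_apply, Fin.sum_univ_two]

variable [CharZero 𝒪] {O' : Type} [CommRing O'] [IsDomain O'] [IsDiscreteValuationRing O']
  [IsAdicComplete (maximalIdeal O') O'] [CharZero O'] [Algebra 𝒪 O']
  [IsLocalHom (algebraMap 𝒪 O')]

/-- The parameters at `q` describing the point `x` there. -/
def HasLocalParams (x : Src 𝒪 A G →ₐ[𝒪] O') (q : A) : Prop :=
  ∃ val : Fin 4 → O', (∀ i, D.small (G := G) (Sum.inl (q, i)) → val i ∈ maximalIdeal O') ∧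
    ∀ ev : Poly →ₐ[𝒪] O', (∀ i, ev (pv q i) = val i) →
      (ev : Poly →+* O').mapMatrix (D.polyPhi q) = D.phi (x : Src 𝒪 A G →+* O') q ∧
      (ev : Poly →+* O').mapMatrix (D.polySig q) = sigAt (x : Src 𝒪 A G →+* O') q

/-- The entries of Frobenius at a point. -/
theorem phi_apply_algHom (x : Src 𝒪 A G →ₐ[𝒪] O') (q : A) (i j : Fin 2) :
    D.phi (x : Src 𝒪 A G →+* O') q i j =
      algebraMap 𝒪 O' (D.phi0 q i j) + x (MvPowerSeries.X (Sum.inl (q, false, i, j))) := by
  simp [phi]

/-- The entries of inertia at a point. -/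
theorem sigAt_apply_algHom (x : Src 𝒪 A G →ₐ[𝒪] O') (q : A) (i j : Fin 2) :
    sigAt (x : Src 𝒪 A G →+* O') q i j =
      (1 : M2 O') i j + x (MvPowerSeries.X (Sum.inl (q, true, i, j))) := by
  simp [sigAt]

/-- In the Steinberg case a base change of the shape of `baseMat` moves the line killed by
`F - u N` to the first axis and keeps the residual upper right entry of Frobenius. -/
theorem exists_eigenFrame {q : A} (hq : D.isSt q = true) {F : M2 O'}
    (hdet : (F - (algebraMap 𝒪 O' (D.u q) * (D.N q : O')) • (1 : M2 O')).det = 0)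
    (hne : F - (algebraMap 𝒪 O' (D.u q) * (D.N q : O')) • (1 : M2 O') ≠ 0)
    (rF : ∀ i j, residue O' (F i j) = residue O' (algebraMap 𝒪 O' (D.phi0 q i j))) :
    ∃ (p0 p1 : O') (P P' : M2 O'), P * P' = 1 ∧ P' * P = 1 ∧
      (¬ D.IsFree q → p0 ∈ maximalIdeal O' ∧ p1 ∈ maximalIdeal O') ∧
      (∀ ev : Poly →ₐ[𝒪] O', ev (pv q 0) = p0 → ev (pv q 1) = p1 →
        (ev : Poly →+* O').mapMatrix (D.baseMat q) = P ∧
        (ev : Poly →+* O').mapMatrix (D.baseInv q) = P') ∧
      ((F - (algebraMap 𝒪 O' (D.u q) * (D.N q : O')) • (1 : M2 O')) * P) 0 0 = 0 ∧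
      ((F - (algebraMap 𝒪 O' (D.u q) * (D.N q : O')) • (1 : M2 O')) * P) 1 0 = 0 ∧
      residue O' ((P' * F * P) 0 1) = residue O' (algebraMap 𝒪 O' (D.b q)) := by
  set co : 𝒪 →+* O' := algebraMap 𝒪 O'
  set e := co (D.u q) * (D.N q : O') with he
  set M := F - e • (1 : M2 O') with hM
  set rs : O' →+* ResidueField O' := residue O'
  rw [D.phi0_of_isSt hq] at rF
  have hm : ∀ a : 𝒪, a ∈ maximalIdeal 𝒪 → co a ∈ maximalIdeal O' := fun a ha =>
    map_nonunit co a ha
  -- free: any eigenline; else one residually along the first axis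
  by_cases hf : D.IsFree q
  · obtain ⟨s, c, hsc⟩ := exists_kernel_sl2_column hdet hne
    refine ⟨s, c, !![1 + s * c, s; c, 1], !![1, -s; -c, 1 + s * c], ?_, ?_,
      fun h => (h hf).elim, fun ev h0 h1 => ?_, ?_, ?_, ?_⟩
    · ext i j; fin_cases i <;> fin_cases j <;> simp [Matrix.mul_apply, Fin.sum_univ_two] <;> ring
    · ext i j; fin_cases i <;> fin_cases j <;> simp [Matrix.mul_apply, Fin.sum_univ_two] <;> ring
    · constructor <;> ext i j <;> fin_cases i <;> fin_cases j <;>
        simp [baseMat, baseInv, if_pos hf, h0, h1]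
    · simpa [Matrix.mulVec, dotProduct, Matrix.mul_apply, Fin.sum_univ_two] using congrFun hsc 0
    · simpa [Matrix.mulVec, dotProduct, Matrix.mul_apply, Fin.sum_univ_two] using congrFun hsc 1
    · have hN1 : rs ((D.N q : O')) = 1 := by
        rw [← map_natCast co, ← sub_eq_zero, ← map_one rs, ← map_sub, residue_eq_zero_iff,
          ← map_one co, ← map_sub]
        exact hm _ hf.2.2
      have e00 : rs (F 0 0) = rs (co (D.u q)) := by rw [rF]; simp [hN1]
      have e01 : rs (F 0 1) = 0 := by rw [rF]; simp [hf.2.1]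
      have e10 : rs (F 1 0) = 0 := by rw [rF]; simp
      have e11 : rs (F 1 1) = rs (co (D.u q)) := by rw [rF]; simp
      simp [Matrix.mul_apply, Matrix.vecMul, dotProduct, Fin.sum_univ_two, e00, e01, e10, e11,
        hf.2.1]
      ring
  · have hb : IsUnit (D.b q) ∨ IsUnit ((D.N q : 𝒪) - 1) :=
      (D.st_cases q hq).resolve_left fun h => hf ⟨hq, h⟩
    obtain ⟨π, hπ, hker⟩ := exists_kernel_small_line hdet
      ((residue_eq_zero_iff _).mp (by
        have : rs (F 0 0) = rs e := by rw [rF, he]; simp
        simp [hM, rs, this]))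
      ((residue_eq_zero_iff _).mp (by simp [hM, rs, rF]))
      (hb.imp (fun hb => by
        by_contra h
        have h1 : rs (M 0 1) = 0 := (residue_eq_zero_iff _).mpr h
        have h2 : rs (co (D.b q)) = 0 := by rw [← h1]; simp [hM, rF]
        exact (residue_eq_zero_iff _).mp h2 (hb.map co)) fun hb => by
        by_contra h
        have h1 : rs (M 1 1) = 0 := (residue_eq_zero_iff _).mpr h
        have h2 : rs (co (D.u q * ((D.N q : 𝒪) - 1))) = 0 := by
          rw [← neg_eq_zero, ← h1]
          simp [hM, rF, he, mul_sub]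
        refine (residue_eq_zero_iff _).mp h2 (IsUnit.map co ?_)
        exact (IsUnit.of_mul_eq_one _ (by rw [← pow_two, D.u_sq])).mul hb)
    refine ⟨π, 0, !![1, 0; π, 1], !![1, 0; -π, 1], ?_, ?_, fun _ => ⟨hπ, zero_mem _⟩,
      fun ev h0 _ => ?_, ?_, ?_, ?_⟩
    · ext i j; fin_cases i <;> fin_cases j <;> simp [Matrix.mul_apply, Fin.sum_univ_two]
    · ext i j; fin_cases i <;> fin_cases j <;> simp [Matrix.mul_apply, Fin.sum_univ_two]
    · constructor <;> ext i j <;> fin_cases i <;> fin_cases j <;>
        simp [baseMat, baseInv, if_neg hf, h0]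
    · simpa [Matrix.mulVec, dotProduct, Matrix.mul_apply, Fin.sum_univ_two] using congrFun hker 0
    · simpa [Matrix.mulVec, dotProduct, Matrix.mul_apply, Fin.sum_univ_two] using congrFun hker 1
    · simp [Matrix.mul_apply, Matrix.vecMul, dotProduct, Fin.sum_univ_two, rF]

/-- **Local parameters, unramified case**: `(h U(1)⁻¹)⁻¹ Φ` lies in `SL₂` near `U(1)`. -/
theorem hasLocalParams_of_not_isSt (x : Src 𝒪 A G →ₐ[𝒪] O')
    (hX : ∀ v, x (MvPowerSeries.X v) ∈ maximalIdeal O')
    (hx : D.IsType (x : Src 𝒪 A G →+* O')) {q : A} (hq : D.isSt q = false) :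
    D.HasLocalParams x q := by
  unfold HasLocalParams
  obtain ⟨hdet, hnotSt, -⟩ := hx q
  set co : 𝒪 →+* O' := algebraMap 𝒪 O'
  set rs : O' →+* ResidueField O' := residue O'
  set F := D.phi (x : Src 𝒪 A G →+* O') q with hF
  have hevC : ∀ (ev : Poly →ₐ[𝒪] O') (c : 𝒪), ev (MvPolynomial.C c) = co c := fun ev c => by
    rw [← MvPolynomial.algebraMap_eq]; exact ev.commutes c
  -- `g = (h U(1)⁻¹)⁻¹ Φ` lies in `SL₂` near `U(1)`
  set H := (D.h q).map co * !![1, -1; 0, 1] with hH
  have hHd : H.det = co (D.N q : 𝒪) := by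
    rw [hH, Matrix.det_mul, ← RingHom.mapMatrix_apply, ← RingHom.map_det, D.h_det,
      Matrix.det_fin_two]
    simp
  have hHu : IsUnit H.det := by rw [hHd]; exact (D.N_unit q).map co
  set g := H⁻¹ * F with hg
  have hgdet : g.det = 1 := by
    have h1 : H.det * g.det = H.det := by
      rw [← Matrix.det_mul, hg, ← Matrix.mul_assoc, Matrix.mul_nonsing_inv _ hHu, Matrix.one_mul,
        hdet, hHd, map_natCast]
    exact hHu.mul_left_cancel (h1.trans (mul_one _).symm)
  have hrF : rs.mapMatrix F = rs.mapMatrix H * !![1, 1; 0, 1] := by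
    have h1 : rs.mapMatrix F = rs.mapMatrix ((D.h q).map co) := by
      ext i j
      simp only [RingHom.mapMatrix_apply, Matrix.map_apply, hF, D.phi_apply_algHom,
        D.phi0_of_not_isSt hq, map_add]
      rw [(residue_eq_zero_iff _).mpr (hX _), add_zero]
    rw [h1, hH, map_mul, mul_assoc]
    have h2 : rs.mapMatrix !![(1 : O'), -1; 0, 1] * !![1, 1; 0, 1] = 1 := by
      ext i j
      fin_cases i <;> fin_cases j <;> simp [Matrix.mul_apply, Fin.sum_univ_two]
    rw [h2, mul_one]
  have hrg : rs.mapMatrix g = !![1, 1; 0, 1] := by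
    rw [hg, map_mul, hrF, ← mul_assoc, ← map_mul, Matrix.nonsing_inv_mul _ hHu, map_one,
      one_mul]
  have r00 : rs (g 0 0) = 1 := congrFun (congrFun hrg 0) 0
  have r01 : rs (g 0 1) = 1 := congrFun (congrFun hrg 0) 1
  have r11 : rs (g 1 1) = 1 := congrFun (congrFun hrg 1) 1
  have hu01 : IsUnit (g 0 1) := by
    by_contra h
    rw [(residue_eq_zero_iff _).mpr h] at r01
    exact zero_ne_one r01
  obtain ⟨w, hw⟩ := hu01.exists_right_inv
  refine ⟨![(g 1 1 - 1) * w, 0, g 0 1 - 1, (g 0 0 - 1) * w], fun i _ => ?_, fun ev hev => ⟨?_, ?_⟩⟩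
  · rw [← residue_eq_zero_iff]
    fin_cases i <;> simp [rs, r00, r01, r11]
  · have hFg : H * g = F := by
      rw [hg, ← Matrix.mul_assoc, Matrix.mul_nonsing_inv _ hHu, Matrix.one_mul]
    rw [polyPhi, if_neg (by simp [hq]), map_mul, map_mul, ← hFg, hH]
    conv_rhs => rw [eq_param_of_det_eq_one hgdet hw]
    refine congrArg₂ (· * ·) (congrArg₂ (· * ·) ?_ ?_) ?_
    · ext i j; simp [hevC]
    · ext i j; fin_cases i <;> fin_cases j <;> simp
    · ext i j
      fin_cases i <;> fin_cases j <;> simp [hev]
  · rw [polySig, if_neg (by simp [hq]), map_one, hnotSt hq]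

/-- **Local parameters, Steinberg case**: eigenline, then upper triangular entries. -/
theorem hasLocalParams_of_isSt (x : Src 𝒪 A G →ₐ[𝒪] O')
    (hX : ∀ v, x (MvPowerSeries.X v) ∈ maximalIdeal O')
    (hx : D.IsType (x : Src 𝒪 A G →+* O')) {q : A} (hq : D.isSt q = true) :
    D.HasLocalParams x q := by
  unfold HasLocalParams
  obtain ⟨hdet, -, hSt⟩ := hx q
  set co : 𝒪 →+* O' := algebraMap 𝒪 O' with hco
  set rs : O' →+* ResidueField O' := residue O'
  set F := D.phi (x : Src 𝒪 A G →+* O') q with hF
  set S' := sigAt (x : Src 𝒪 A G →+* O') q with hS'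
  have hevC : ∀ (ev : Poly →ₐ[𝒪] O') (c : 𝒪), ev (MvPolynomial.C c) = co c := fun ev c => by
    rw [← MvPolynomial.algebraMap_eq]; exact ev.commutes c
  obtain ⟨htr, -, -, hMN, hNM⟩ := hSt hq
  rw [show (x : Src 𝒪 A G →+* O') (algebraMap 𝒪 _ (D.u q)) = co (D.u q) from x.commutes _]
    at htr hMN hNM
  set e := co (D.u q) * (D.N q : O') with he
  have hu : co (D.u q) * co (D.u q) = 1 := by rw [← map_mul, ← pow_two, D.u_sq, map_one]
  have hne : e ≠ co (D.u q) := by
    intro h
    have : (D.N q : O') = (1 : ℕ) := by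
      rw [Nat.cast_one]; linear_combination co (D.u q) * h - ((D.N q : O') - 1) * hu
    exact D.N_ne_one q (Nat.cast_injective this)
  set M := F - e • (1 : M2 O') with hM
  rw [Matrix.det_fin_two] at hdet
  rw [Matrix.trace_fin_two] at htr
  -- `u N` is a simple eigenvalue
  have hMdet : M.det = 0 := by
    rw [hM, Matrix.det_fin_two]
    simp
    rw [he]
    linear_combination hdet - co (D.u q) * (D.N q : O') * htr - (D.N q : O') * hu
  have hM0 : M ≠ 0 := by
    intro h
    have h00 : F 0 0 - e = 0 := by simpa [hM] using congrFun (congrFun h 0) 0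
    have h11 : F 1 1 - e = 0 := by simpa [hM] using congrFun (congrFun h 1) 1
    refine hne ?_
    rw [he] at h00 h11 ⊢
    linear_combination htr - h00 - h11
  -- move its eigenline to the first axis
  obtain ⟨p0, p1, P, P', hPP, hPP', hsm, hbase, hPe, hPe1, hβ⟩ :=
    D.exists_eigenFrame (G := G) hq hMdet hM0 fun i j => by
      rw [hF, D.phi_apply_algHom, map_add, (residue_eq_zero_iff _).mpr (hX _), add_zero]
  set T := P' * F * P with hT
  set Y := P' * (S' - 1) * P with hY
  obtain ⟨hT00, hT10, hT11, hY00, hY10, hY11⟩ := triangular_of_eigenline hPP hPP' hne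
    (by rw [Matrix.trace_fin_two, htr, he]; ring) hPe hPe1 hMN hNM
  rw [← hT] at hT00 hT10 hT11
  rw [← hY] at hY00 hY10 hY11
  have hξ : rs (Y 0 1) = 0 := by
    have h1 : rs.mapMatrix (S' - 1) = 0 := by
      ext i j
      simp only [RingHom.mapMatrix_apply, Matrix.map_apply, hS', Matrix.sub_apply,
        sigAt_apply_algHom, add_sub_cancel_left, (residue_eq_zero_iff _).mpr (hX _),
        Matrix.zero_apply, rs]
    have h2 : rs.mapMatrix Y = 0 := by rw [hY, map_mul, map_mul, h1, mul_zero, zero_mul]
    exact congrFun (congrFun h2 0) 1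
  -- the four parameters recover both matrices
  refine ⟨![p0, p1, T 0 1 - co (D.b q), Y 0 1], fun i hi => ?_, fun ev hev => ?_⟩
  · fin_cases i
    · exact (hsm fun hf => hi ⟨hf, Or.inl rfl⟩).1
    · exact (hsm fun hf => hi ⟨hf, Or.inr rfl⟩).2
    · exact (residue_eq_zero_iff _).mp (by simp [hβ, hco])
    · exact (residue_eq_zero_iff _).mp hξ
  · obtain ⟨hB, hB'⟩ := hbase ev (hev 0) (hev 1)
    have h1 : (ev : Poly →+* O').mapMatrix (D.triPhi q) = T := by
      ext i j
      fin_cases i <;> fin_cases j
      · simp [triPhi, hevC, ← he, hT00]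
      · simp [triPhi, hevC, hev]
      · simp [triPhi, hT10]
      · simp [triPhi, hevC, hT11]
    have h2 : (ev : Poly →+* O').mapMatrix (triSig (G := G) q) = 1 + Y := by
      ext i j
      fin_cases i <;> fin_cases j <;> simp [triSig, hev, hY00, hY10, hY11]
    rw [polyPhi, if_pos hq, polySig, if_pos hq, map_mul, map_mul, map_mul, map_mul, h1, h2, hB,
      hB', hT, hY]
    constructor
    · calc P * (P' * F * P) * P' = (P * P') * F * (P * P') := by simp only [Matrix.mul_assoc]
        _ = F := by rw [hPP, Matrix.one_mul, Matrix.mul_one]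
    · calc P * (1 + P' * (S' - 1) * P) * P' = P * P' + (P * P') * (S' - 1) * (P * P') := by
            simp only [Matrix.mul_add, Matrix.add_mul, Matrix.mul_one, Matrix.mul_assoc]
        _ = S' := by rw [hPP, Matrix.one_mul, Matrix.mul_one]; abel

/-- The kernel of the chart lies below every characteristic zero point. -/
theorem ker_chart_le (hϖ : Irreducible ϖ) (x : Src 𝒪 A G →ₐ[𝒪] O')
    (hX : ∀ v, x (MvPowerSeries.X v) ∈ maximalIdeal O')
    (hx : D.IsType (x : Src 𝒪 A G →+* O')) :
    RingHom.ker (D.chart (G := G) hϖ) ≤ RingHom.ker x := by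
  classical
  set co : 𝒪 →+* O' := algebraMap 𝒪 O' with hco
  have hloc : ∀ q, D.HasLocalParams x q := fun q => by
    cases hq : D.isSt q with
    | false => exact D.hasLocalParams_of_not_isSt x hX hx hq
    | true => exact D.hasLocalParams_of_isSt x hX hx hq
  choose val hval hev using hloc
  let valV : PVar A G → O' := Sum.elim (fun p => val p.1 p.2) fun g =>
    x (MvPowerSeries.X (Sum.inr g))
  refine ker_paramHom_le D.small D.paramIm (show ϖ ∈ maximalIdeal 𝒪 from hϖ.not_isUnit)
    (D.paramIm_mem hϖ) (map_nonunit co ϖ hϖ.not_isUnit) x hX valV (fun v hv => ?_) fun v => ?_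
  · rcases v with ⟨q, i⟩ | g
    · exact hval q i hv
    · exact hX _
  · rcases v with ⟨q, t, i, j⟩ | g
    · obtain ⟨h1, h2⟩ := hev q (MvPolynomial.aeval valV) fun i => MvPolynomial.aeval_X _ _
      cases t
      · change _ = MvPolynomial.aeval valV (D.polyPhi q i j - MvPolynomial.C (D.phi0 q i j))
        rw [map_sub, MvPolynomial.aeval_C,
          show MvPolynomial.aeval valV (D.polyPhi q i j) = D.phi (x : Src 𝒪 A G →+* O') q i j from
            congrFun (congrFun h1 i) j, D.phi_apply_algHom, ← hco, add_sub_cancel_left]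
      · change _ = MvPolynomial.aeval valV (D.polySig q i j - (1 : M2 Poly) i j)
        rw [map_sub,
          show MvPolynomial.aeval valV (D.polySig q i j) = sigAt (x : Src 𝒪 A G →+* O') q i j from
            congrFun (congrFun h2 i) j, sigAt_apply_algHom, Matrix.one_apply, Matrix.one_apply]
        split_ifs <;> simp
    · simp [paramIm, valV]

end SingleData

end Fermat.GR.Patch
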