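import Mathlib
import Fermat.Agent.GR.Patch.SingleChart
import Fermat.Agent.GR.Patch.Dim
import Fermat.Agent.GR.Patch.Patching

/-!
# The generic prime of the Steinberg and unramified types

The chart kernel is a prime below all characteristic zero primes satisfying the relations, and its
quotient has dimension at most `3|A| + |G| + 1`.
-/

set_option autoImplicit false
set_option linter.unusedSectionVars false

noncomputable section

namespace Fermat.GR.Patch

open IsLocalRing

variable {𝒪 : Type} [CommRing 𝒪] [IsDomain 𝒪] [IsDiscreteValuationRing 𝒪]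
  [IsAdicComplete (maximalIdeal 𝒪) 𝒪]

/-- If `ϖ` lies in the ideal of the elements `z` and all variables become nilpotent modulo them,
the dimension is at most `|z|`. -/
theorem ringKrullDim_le_of_nilpotent_mod {σ κ : Type} [Finite σ] [Fintype κ] {R : Type}
    [CommRing R] [IsLocalRing R] [IsNoetherianRing R] (π : MvPowerSeries σ 𝒪 →+* R)
    (hπ : Function.Surjective π) {ϖ : 𝒪} (hϖ : Irreducible ϖ) (z : κ → R)
    (hz : ∀ k, z k ∈ maximalIdeal R)
    (hϖz : π (algebraMap 𝒪 _ ϖ) ∈ Ideal.span (Set.range z))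
    (hnil : ∀ {B : Type} [CommRing B] [IsLocalRing B] (g : R →+* B),
      (∀ r ∈ maximalIdeal R, g r ∈ maximalIdeal B) → (∀ k, g (z k) = 0) →
      (∀ o ∈ maximalIdeal 𝒪, g (π (algebraMap 𝒪 _ o)) = 0) →
      ∀ v, IsNilpotent (g (π (MvPowerSeries.X v)))) :
    ringKrullDim R ≤ ((Fintype.card κ : ℕ) : WithBot ℕ∞) := by
  classical
  set J : Ideal R := Ideal.span (Finset.univ.image z : Finset R)
  have hJ : J = Ideal.span (Set.range z) := by simp [J]
  have hJle : J ≤ maximalIdeal R := by
    rw [hJ, Ideal.span_le]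
    rintro _ ⟨k, rfl⟩
    exact hz k
  have : Nontrivial (R ⧸ J) := Ideal.Quotient.nontrivial_iff.mpr fun h =>
    (maximalIdeal.isMaximal R).ne_top (top_le_iff.mp (h ▸ hJle))
  have : IsLocalRing (R ⧸ J) :=
    IsLocalRing.of_surjective' (Ideal.Quotient.mk J) Ideal.Quotient.mk_surjective
  have : IsLocalHom (Ideal.Quotient.mk J) :=
    IsLocalHom.of_surjective _ Ideal.Quotient.mk_surjective
  have hy : ∀ i, Ideal.Quotient.mk J (z i) = 0 := fun i => Ideal.Quotient.eq_zero_iff_mem.mpr
    (Ideal.subset_span (Finset.mem_image_of_mem z (Finset.mem_univ i)))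
  have hfo : ∀ o ∈ maximalIdeal 𝒪, Ideal.Quotient.mk J (π (algebraMap 𝒪 _ o)) = 0 := by
    intro o ho
    rw [hϖ.maximalIdeal_eq, Ideal.mem_span_singleton'] at ho
    obtain ⟨c, rfl⟩ := ho
    rw [map_mul, map_mul, map_mul]
    exact mul_eq_zero_of_right _ (Ideal.Quotient.eq_zero_iff_mem.mpr (hJ ▸ hϖz))
  have hn := hnil (Ideal.Quotient.mk J) (fun r hr => map_nonunit (Ideal.Quotient.mk J) r hr)
    hy hfo
  -- the maximal ideal is the radical of the ideal of `z`
  have hrad : maximalIdeal R ≤ J.radical := by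
    intro r hr
    obtain ⟨f, rfl⟩ := hπ r
    have hf : f ∈ maximalIdeal (MvPowerSeries σ 𝒪) := fun hu => hr (hu.map _)
    have h1 : f - algebraMap 𝒪 _ (MvPowerSeries.constantCoeff f) ∈
        Ideal.span (Set.range (MvPowerSeries.X : σ → MvPowerSeries σ 𝒪)) :=
      mem_spanX_of_constantCoeff_eq_zero (by simp [MvPowerSeries.algebraMap_apply])
    have hc : MvPowerSeries.constantCoeff f ∈ maximalIdeal 𝒪 := fun hu =>
      hf (MvPowerSeries.isUnit_iff_constantCoeff.mpr hu)
    have h2 : IsNilpotent (Ideal.Quotient.mk J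
        (π (f - algebraMap 𝒪 _ (MvPowerSeries.constantCoeff f)))) :=
      (Ideal.span_le (I := (nilradical (R ⧸ J)).comap ((Ideal.Quotient.mk J).comp π))).mpr
        (by rintro _ ⟨v, rfl⟩; exact hn v) h1
    rw [map_sub, map_sub, hfo _ hc, sub_zero] at h2
    obtain ⟨n, hn'⟩ := h2
    refine ⟨n, ?_⟩
    rw [← Ideal.Quotient.eq_zero_iff_mem, map_pow]
    exact hn'
  have hmin : maximalIdeal R ∈ J.minimalPrimes :=
    ⟨⟨inferInstance, hJle⟩, fun p hp _ => hrad.trans ((hp.1.radical_le_iff).mpr hp.2)⟩
  -- Krull's height theorem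
  rw [← IsLocalRing.maximalIdeal_height_eq_ringKrullDim]
  exact WithBot.coe_le_coe.mpr
    ((Ideal.height_le_card_of_mem_minimalPrimes_span_finset hmin).trans
      (Nat.cast_le.mpr (Finset.card_image_le.trans (le_of_eq Finset.card_univ))))

/-- If all variables become nilpotent modulo `ϖ` and the elements `z`, the dimension is at most
`|z| + 1`. -/
theorem ringKrullDim_le_of_nilpotent {σ κ : Type} [Finite σ] [Fintype κ] {R : Type} [CommRing R]
    [IsLocalRing R] [IsNoetherianRing R] (π : MvPowerSeries σ 𝒪 →+* R) (hπ : Function.Surjective π)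
    {ϖ : 𝒪} (hϖ : Irreducible ϖ) (z : κ → R) (hz : ∀ k, z k ∈ maximalIdeal R)
    (hnil : ∀ {B : Type} [CommRing B] [IsLocalRing B] (g : R →+* B),
      (∀ r ∈ maximalIdeal R, g r ∈ maximalIdeal B) → (∀ k, g (z k) = 0) →
      (∀ o ∈ maximalIdeal 𝒪, g (π (algebraMap 𝒪 _ o)) = 0) →
      ∀ v, IsNilpotent (g (π (MvPowerSeries.X v)))) :
    ringKrullDim R ≤ ((Fintype.card κ + 1 : ℕ) : WithBot ℕ∞) := by
  have hπl : IsLocalHom π := IsLocalHom.of_surjective _ hπ
  refine (ringKrullDim_le_of_nilpotent_mod π hπ hϖ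
    (Sum.elim z fun _ : Unit => π (algebraMap 𝒪 _ ϖ)) ?_
    (Ideal.subset_span ⟨Sum.inr (), rfl⟩) fun g hg hk hgo => hnil g hg
      (fun k => hk (Sum.inl k)) hgo).trans (le_of_eq (by simp))
  rintro (k | ⟨⟩)
  · exact hz k
  · exact map_nonunit π _ (C_mem_maximalIdeal hϖ.not_isUnit)

/-- The relations of a free Steinberg point leave only nilpotents once the parameters vanish. -/
lemma isNilpotent_of_free {B : Type} [CommRing B] (h2B : IsUnit (2 : B)) {u : B} (hu : u * u = 1)
    {y : Bool → Fin 2 → Fin 2 → B} (z0 : y false 0 0 - y false 1 1 = 0)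
    (z1 : y false 0 1 + y true 1 0 = 0) (z2 : y false 1 0 + y true 0 1 = 0)
    (htr : u * 1 + y false 0 0 + (u + y false 1 1) = u * (1 + 1))
    (hdet : (u * 1 + y false 0 0) * (u + y false 1 1) - (0 + y false 0 1) * y false 1 0 = 1)
    (htrS : 1 + y true 0 0 + (1 + y true 1 1) = 2)
    (hdetS : (1 + y true 0 0) * (1 + y true 1 1) - y true 0 1 * y true 1 0 = 1)
    (m00 : y false 0 0 * y true 0 0 + (0 + y false 0 1) * y true 1 0 = 0)
    (m11 : y false 1 0 * y true 0 1 + (u + y false 1 1 - u * 1) * y true 1 1 = 0) :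
    ∀ t i j, IsNilpotent (y t i j) := by
  -- the trace and `z0` kill the diagonal Frobenius variables
  have hd0 : y false 0 0 = 0 := h2B.mul_right_eq_zero.mp
    (show (2 : B) * y false 0 0 = 0 by linear_combination htr + z0)
  have hd1 : y false 1 1 = 0 := by linear_combination hd0 - z0
  simp only [hd0] at m00
  simp only [hd0, hd1] at hdet
  have hmm : y false 0 1 * y false 1 0 = 0 := by
    linear_combination -hdet + hu
  -- the off diagonal inertia variables square to zero; Frobenius ones are minus their transposes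
  have hc2 : y true 1 0 * y true 1 0 = 0 := by
    linear_combination -m00 + y true 1 0 * z1
  have hb2 : y true 0 1 * y true 0 1 = 0 := by
    rw [hd1] at m11
    linear_combination -m11 + y true 0 1 * z2
  have nc : IsNilpotent (y true 1 0) := ⟨2, by rw [pow_two]; exact hc2⟩
  have nb : IsNilpotent (y true 0 1) := ⟨2, by rw [pow_two]; exact hb2⟩
  have nm : IsNilpotent (y false 0 1) := by
    rw [eq_neg_of_add_eq_zero_left z1]; exact nc.neg
  have nn : IsNilpotent (y false 1 0) := by
    rw [eq_neg_of_add_eq_zero_left z2]; exact nb.neg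
  -- then the diagonal inertia variable squares to zero too
  have hA2 : y true 0 0 * y true 0 0 = 0 := by
    linear_combination -hdetS + (1 + y true 0 0) * htrS - hmm -
      y true 1 0 * z2 + y false 1 0 * z1
  have na : IsNilpotent (y true 0 0) := ⟨2, by rw [pow_two]; exact hA2⟩
  intro t i j
  cases t <;> fin_cases i <;> fin_cases j
  · exact ⟨1, by rw [pow_one]; exact hd0⟩
  · exact nm
  · exact nn
  · exact ⟨1, by rw [pow_one]; exact hd1⟩
  · exact na
  · exact nb
  · exact nc
  · have : y true 1 1 = -y true 0 0 := by linear_combination htrS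
    change IsNilpotent (y true 1 1)
    rw [this]; exact na.neg

/-- The relations of a Steinberg point that is not free leave only nilpotents once the parameters
vanish. -/
lemma isNilpotent_of_not_free {B : Type} [CommRing B] [IsLocalRing B] {u N b : B} (hu : u * u = 1)
    {y : Bool → Fin 2 → Fin 2 → B} (hem : y false 0 0 ∈ maximalIdeal B)
    (hb : IsUnit b ∨ IsUnit (N - 1)) (hN1 : N = 1 ∨ IsUnit (N - 1))
    (z0 : y false 1 0 = 0) (z1 : y false 0 1 = 0) (z2 : y true 0 1 = 0)
    (htr : u * N + y false 0 0 + (u + y false 1 1) = u * (N + 1))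
    (hdet : (u * N + y false 0 0) * (u + y false 1 1) - (b + y false 0 1) * y false 1 0 = N)
    (htrS : 1 + y true 0 0 + (1 + y true 1 1) = 2)
    (hdetS : (1 + y true 0 0) * (1 + y true 1 1) - y true 0 1 * y true 1 0 = 1)
    (m00 : y false 0 0 * y true 0 0 + (b + y false 0 1) * y true 1 0 = 0)
    (m10 : y false 1 0 * y true 0 0 + (u + y false 1 1 - u * N) * y true 1 0 = 0) :
    ∀ t i j, IsNilpotent (y t i j) := by
  set e := y false 0 0
  have h11 : y false 1 1 = -e := by linear_combination htr
  rw [z0, z1, h11] at hdet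
  have he : e * (u - u * N - e) = 0 := by
    linear_combination hdet - N * hu
  -- the diagonal deviation `e` is nilpotent
  have ne : IsNilpotent e := by
    rcases hN1 with hN | hN
    · exact ⟨2, by rw [hN] at he; linear_combination -he⟩
    · refine ⟨1, ?_⟩
      rw [pow_one]
      have hun : IsUnit (u - u * N - e) := by
        by_contra hnu
        have h1 : u * (N - 1) ∈ maximalIdeal B := by
          have := neg_mem (add_mem (show u - u * N - e ∈ maximalIdeal B
            from hnu) hem)
          rwa [show -(u - u * N - e + e) =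
            u * (N - 1) by ring] at this
        exact h1 ((IsUnit.of_mul_eq_one _ hu).mul hN)
      exact hun.mul_left_eq_zero.mp he
  have hA2 : y true 0 0 * y true 0 0 = 0 := by
    linear_combination -hdetS + (1 + y true 0 0) * htrS - y true 1 0 * z2
  have na : IsNilpotent (y true 0 0) := ⟨2, by rw [pow_two]; exact hA2⟩
  rw [z1] at m00
  rw [z0, h11] at m10
  -- the remaining corner, through a unit `b` or `N - 1`
  have nc : IsNilpotent (y true 1 0) := by
    rcases hb with hb | hb
    · have h1 : y true 1 0 * b = -(e * y true 0 0) := by linear_combination m00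
      obtain ⟨k, hk⟩ := ((Commute.all e (y true 0 0)).isNilpotent_mul_left na).neg
      refine ⟨k, ?_⟩
      rw [← h1, mul_pow] at hk
      exact (hb.pow k).mul_left_eq_zero.mp hk
    · have h1 : (u - u * N - e) * y true 1 0 = 0 := by
        linear_combination m10
      have hun : IsUnit (u - u * N - e) := by
        rw [sub_eq_add_neg]
        refine IsNilpotent.isUnit_add_left_of_commute (IsNilpotent.neg ne) ?_ (Commute.all _ _)
        rw [show u - u * N = -(u * (N - 1)) by ring]
        exact ((IsUnit.of_mul_eq_one _ hu).mul hb).neg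
      exact ⟨1, by rw [pow_one]; exact hun.mul_right_eq_zero.mp h1⟩
  intro t i j
  cases t <;> fin_cases i <;> fin_cases j
  · exact ne
  · exact ⟨1, by rw [pow_one]; exact z1⟩
  · exact ⟨1, by rw [pow_one]; exact z0⟩
  · change IsNilpotent (y false 1 1)
    rw [h11]; exact ne.neg
  · exact na
  · exact ⟨1, by rw [pow_one]; exact z2⟩
  · exact nc
  · have : y true 1 1 = -y true 0 0 := by linear_combination htrS
    change IsNilpotent (y true 1 1)
    rw [this]; exact na.neg

namespace SingleData

variable {A G : Type} [Fintype A] [Fintype G] (D : SingleData 𝒪 A)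

/-- Three parameters at each framed prime and the global ones cut out the closed fibre up to
nilpotents. -/
theorem exists_params (h2 : IsUnit (2 : 𝒪)) {R : Type} [CommRing R] [IsLocalRing R]
    (π : Src 𝒪 A G →+* R) (hπ : Function.Surjective π) (h : D.IsType π) :
    ∃ z : (A × Fin 3) ⊕ G → R, (∀ k, z k ∈ maximalIdeal R) ∧
      ∀ {B : Type} [CommRing B] [IsLocalRing B] (g : R →+* B),
        (∀ r ∈ maximalIdeal R, g r ∈ maximalIdeal B) → (∀ k, g (z k) = 0) →
        (∀ o ∈ maximalIdeal 𝒪, g (π (algebraMap 𝒪 _ o)) = 0) →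
        ∀ v, IsNilpotent (g (π (MvPowerSeries.X v))) := by
  classical
  have hπl : IsLocalHom π := IsLocalHom.of_surjective _ hπ
  let x : A → Bool → Fin 2 → Fin 2 → R := fun q t i j =>
    π (MvPowerSeries.X (Sum.inl (q, t, i, j)))
  -- three parameters at each prime, by type, and the global variables
  let z : (A × Fin 3) ⊕ G → R := Sum.elim (fun qi =>
      if D.isSt qi.1 then
        if D.IsFree qi.1 then
          ![x qi.1 false 0 0 - x qi.1 false 1 1, x qi.1 false 0 1 + x qi.1 true 1 0,
            x qi.1 false 1 0 + x qi.1 true 0 1] qi.2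
        else ![x qi.1 false 1 0, x qi.1 false 0 1, x qi.1 true 0 1] qi.2
      else ![x qi.1 false 0 0, x qi.1 false 0 1, x qi.1 false 1 0] qi.2)
    fun g => π (MvPowerSeries.X (Sum.inr g))
  have hmax : ∀ v, π (MvPowerSeries.X v) ∈ maximalIdeal R := fun v =>
    map_nonunit π _ (X_mem_maximalIdeal v)
  have hz : ∀ k, z k ∈ maximalIdeal R := by
    rintro (⟨q, i⟩ | g)
    · fin_cases i <;> simp only [z, x, Sum.elim_inl] <;> split_ifs <;>
        simp [sub_mem (hmax _) (hmax _), add_mem (hmax _) (hmax _), hmax]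
    · exact hmax _
  refine ⟨z, hz, ?_⟩
  intro B _ _ g hgm hgz hgo v
  rcases v with ⟨q, t, i, j⟩ | k
  swap
  · exact ⟨1, by rw [pow_one]; exact hgz (Sum.inr k)⟩
  set y : Bool → Fin 2 → Fin 2 → B := fun t i j => g (π (MvPowerSeries.X (Sum.inl (q, t, i, j))))
  have hym : ∀ t i j, y t i j ∈ maximalIdeal B := fun t i j => hgm _ (hmax _)
  set co : 𝒪 →+* B := (g.comp π).comp (algebraMap 𝒪 (Src 𝒪 A G))
  have hco : ∀ o ∈ maximalIdeal 𝒪, co o = 0 := hgo
  obtain ⟨hdet, hns, hs⟩ := h.comp D g q
  have hphi : ∀ a b, D.phi (g.comp π) q a b = co (D.phi0 q a b) + y false a b := fun a b => by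
    simp [phi, co, y]
  have hsig : ∀ a b, sigAt (g.comp π) q a b = (1 : Matrix (Fin 2) (Fin 2) B) a b + y true a b :=
    fun a b => by simp [sigAt, y]
  -- modulo the parameters every variable at the prime is nilpotent
  have goal : ∀ t i j, IsNilpotent (y t i j) := by
    rw [Matrix.det_fin_two, hphi, hphi, hphi, hphi] at hdet
    cases hq : D.isSt q with
    | false =>
      have hS := hns hq
      have h1 : ∀ i j, y true i j = 0 := fun i j => by
        have := congrFun (congrFun hS i) j
        rw [hsig] at this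
        simpa using this
      have z0 : y false 0 0 = 0 := by simpa [z, x, hq] using hgz (Sum.inl (q, 0))
      have z1 : y false 0 1 = 0 := by simpa [z, x, hq] using hgz (Sum.inl (q, 1))
      have z2 : y false 1 0 = 0 := by simpa [z, x, hq] using hgz (Sum.inl (q, 2))
      have h11 : y false 1 1 = 0 := by
        have hd : co (D.h q 0 0) * co (D.h q 1 1) - co (D.h q 0 1) * co (D.h q 1 0) =
            (D.N q : B) := by
          rw [← map_mul, ← map_mul, ← map_sub, ← Matrix.det_fin_two, D.h_det, map_natCast]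
        rw [D.phi0_of_not_isSt hq, z0, z1, z2] at hdet
        exact ((D.h_unit q).map co).mul_right_eq_zero.mp (by linear_combination hdet - hd)
      intro t i j
      refine ⟨1, ?_⟩
      rw [pow_one]
      cases t <;> fin_cases i <;> fin_cases j
      exacts [z0, z1, z2, h11, h1 0 0, h1 0 1, h1 1 0, h1 1 1]
    | true =>
      obtain ⟨htr, htrS, hdetS, hMN, -⟩ := hs hq
      have hu : co (D.u q) * co (D.u q) = 1 := by rw [← map_mul, ← pow_two, D.u_sq, map_one]
      rw [show (g.comp π) (algebraMap 𝒪 (Src 𝒪 A G) (D.u q)) = co (D.u q) from rfl] at htr hMN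
      rw [Matrix.trace_fin_two, hphi, hphi, D.phi0_of_isSt hq] at htr
      rw [D.phi0_of_isSt hq] at hdet
      rw [Matrix.trace_fin_two, hsig, hsig] at htrS
      rw [Matrix.det_fin_two, hsig, hsig, hsig, hsig] at hdetS
      have m00 := congrFun (congrFun hMN 0) 0
      have m10 := congrFun (congrFun hMN 1) 0
      have m11 := congrFun (congrFun hMN 1) 1
      simp [Matrix.mul_apply, Fin.sum_univ_two, hphi, hsig,
        D.phi0_of_isSt hq] at htr hdet htrS hdetS m00 m10 m11
      by_cases hf : D.IsFree q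
      · have hb : co (D.b q) = 0 := by rw [hf.2.1, map_zero]
        have hN : (D.N q : B) = 1 := by
          rw [← map_natCast co, ← sub_eq_zero, ← map_one co, ← map_sub]
          exact hco _ hf.2.2
        rw [hN] at htr hdet m11
        rw [hb] at hdet m00
        exact isNilpotent_of_free (by rw [← map_ofNat co]; exact h2.map co) hu
          (by simpa [z, x, hq, hf] using hgz (Sum.inl (q, 0)))
          (by simpa [z, x, hq, hf] using hgz (Sum.inl (q, 1)))
          (by simpa [z, x, hq, hf] using hgz (Sum.inl (q, 2))) htr hdet htrS hdetS m00 m11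
      · refine isNilpotent_of_not_free hu (hym false 0 0) (b := co (D.b q)) (N := (D.N q : B))
          (((D.st_cases q hq).resolve_left fun h => hf ⟨hq, h⟩).imp (fun h => h.map co)
            fun h => by simpa using h.map co) ?_
          (by simpa [z, x, hq, hf] using hgz (Sum.inl (q, 0)))
          (by simpa [z, x, hq, hf] using hgz (Sum.inl (q, 1)))
          (by simpa [z, x, hq, hf] using hgz (Sum.inl (q, 2))) htr hdet htrS hdetS m00 m10
        by_cases hN : (D.N q : 𝒪) - 1 ∈ maximalIdeal 𝒪
        · left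
          rw [← map_natCast co, ← sub_eq_zero, ← map_one co, ← map_sub]
          exact hco _ hN
        · right
          simpa using (show IsUnit ((D.N q : 𝒪) - 1) from not_not.mp hN).map co
  exact goal t i j

/-- A local quotient satisfying the type has dimension at most `3|A| + |G| + 1`. -/
theorem ringKrullDim_le_of_isType (h2 : IsUnit (2 : 𝒪)) {ϖ : 𝒪} (hϖ : Irreducible ϖ) {R : Type}
    [CommRing R] [IsLocalRing R] [IsNoetherianRing R] (π : Src 𝒪 A G →+* R)
    (hπ : Function.Surjective π) (h : D.IsType π) :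
    ringKrullDim R ≤ ((3 * Fintype.card A + Fintype.card G + 1 : ℕ) : WithBot ℕ∞) := by
  obtain ⟨z, hz, hnil⟩ := D.exists_params h2 π hπ h
  exact (ringKrullDim_le_of_nilpotent π hπ hϖ z hz hnil).trans (le_of_eq (by simp [mul_comm]))

/-- A local quotient satisfying the type and killing `ϖ` has dimension at most `3|A| + |G|`. -/
theorem ringKrullDim_le_of_isType_of_eq_zero (h2 : IsUnit (2 : 𝒪)) {ϖ : 𝒪} (hϖ : Irreducible ϖ)
    {R : Type} [CommRing R] [IsLocalRing R] [IsNoetherianRing R] (π : Src 𝒪 A G →+* R)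
    (hπ : Function.Surjective π) (h : D.IsType π) (hπϖ : π (algebraMap 𝒪 _ ϖ) = 0) :
    ringKrullDim R ≤ ((3 * Fintype.card A + Fintype.card G : ℕ) : WithBot ℕ∞) := by
  obtain ⟨z, hz, hnil⟩ := D.exists_params h2 π hπ h
  exact (ringKrullDim_le_of_nilpotent_mod π hπ hϖ z hz (hπϖ ▸ zero_mem _) hnil).trans
    (le_of_eq (by simp [mul_comm]))

variable [Finite (ResidueField 𝒪)] [CharZero 𝒪]

/-- **The generic prime.** One prime lies below every prime of the type not containing `ϖ`, and its
quotient has dimension at most `3 #A + #G + 1`. -/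
theorem exists_genericPrime (h2 : IsUnit (2 : 𝒪)) {ϖ : 𝒪} (hϖ : Irreducible ϖ) :
    ∃ K : Ideal (Src 𝒪 A G), K.IsPrime ∧
      (∀ P : Ideal (Src 𝒪 A G), P.IsPrime → D.IsType (Ideal.Quotient.mk P) →
        algebraMap 𝒪 _ ϖ ∉ P → K ≤ P) ∧
      ringKrullDim (Src 𝒪 A G ⧸ K) ≤
        ((3 * Fintype.card A + Fintype.card G + 1 : ℕ) : WithBot ℕ∞) := by
  classical
  have : IsDomain (MvPowerSeries (PVar A G) 𝒪) := NoZeroDivisors.to_isDomain _
  set K := RingHom.ker (D.chart (G := G) hϖ : Src 𝒪 A G →+* MvPowerSeries (PVar A G) 𝒪)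
  have hKp : K.IsPrime := RingHom.ker_isPrime _
  refine ⟨K, hKp, fun P hP hPt hPϖ => ?_, ?_⟩
  -- if `f ∈ K` were outside `P`, some point of this type would miss it
  · have := hP
    intro f hfK
    by_contra hfP
    have hloc : IsLocalHom (algebraMap 𝒪 (Src 𝒪 A G)) := ⟨fun o ho => by
      simpa [MvPowerSeries.algebraMap_apply] using MvPowerSeries.isUnit_iff_constantCoeff.mp ho⟩
    have := finite_residueField_mvPowerSeries (𝒪 := 𝒪) (Var A G)
    obtain ⟨⟨O', hinj⟩, x, hPx, hxf⟩ :=
      exists_point (Λ := Src 𝒪 A G) Fermat.GR.residue_comp_algebraMap_surjective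
        (show ϖ ∈ maximalIdeal 𝒪 from hϖ.not_isUnit) P hPϖ hfP
    have hXm : ∀ v, x (MvPowerSeries.X v) ∈ maximalIdeal O' := apply_X_mem_maximalIdeal x
    have hxt : D.IsType (x : Src 𝒪 A G →+* O') := by
      have : (x : Src 𝒪 A G →+* O') =
          (Ideal.Quotient.lift P (x : Src 𝒪 A G →+* O') fun a ha => hPx ha).comp
            (Ideal.Quotient.mk P) := RingHom.ext fun _ => rfl
      rw [this]
      exact hPt.comp D _
    exact hxf (D.ker_chart_le hϖ x hXm hxt hfK)
  -- the chart itself has the type, whence the dimension bound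
  · have : IsLocalRing (Src 𝒪 A G ⧸ K) :=
      IsLocalRing.of_surjective' (Ideal.Quotient.mk K) Ideal.Quotient.mk_surjective
    refine D.ringKrullDim_le_of_isType h2 hϖ (Ideal.Quotient.mk K) Ideal.Quotient.mk_surjective ?_
    refine IsType.of_injective D (Ideal.Quotient.mk K)
      (RingHom.kerLift (D.chart (G := G) hϖ : Src 𝒪 A G →+* MvPowerSeries (PVar A G) 𝒪))
      (RingHom.kerLift_injective _) ?_
    convert D.isType_chart (G := G) hϖ
    exact RingHom.ext fun _ => rfl

end SingleData

end Fermat.GR.Patch
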