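import Mathlib
import Fermat.Agent.GR.Patch.MultiTypes
import Fermat.Agent.GR.Patch.SingleDim

/-!
# The primes used to raise the level one prime at a time

A prime of dimension at least `d + 1` satisfying an exact type lies in the kernel of the chart.
Above the kernel of the chart of `J` there is a prime containing `ϖ` and
`tr Φ_q - u (N + 1)` at which `Σ_s ≠ 1` for all Steinberg `s ≠ q` in `J`.
-/

set_option autoImplicit false
set_option linter.unusedSectionVars false

noncomputable section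

namespace Fermat.GR.Patch

open IsLocalRing Matrix

local notation "M2" R => Matrix (Fin 2) (Fin 2) R

/-- The first `i` primes of an enumeration. -/
def chainSt {A : Type} {N : ℕ} (qs : Fin N → A) (i : ℕ) : A → Bool :=
  haveI := Classical.decEq A
  fun a => decide (∃ j : Fin N, (j : ℕ) < i ∧ qs j = a)

/-- The special primes of a stage of the chain. -/
theorem chainSt_eq_true {A : Type} {N : ℕ} (qs : Fin N → A) (i : ℕ) (a : A) :
    chainSt qs i a = true ↔ ∃ j : Fin N, (j : ℕ) < i ∧ qs j = a := by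
  simp [chainSt]

/-- A stage adds one special prime. -/
theorem chainSt_succ {A : Type} {N : ℕ} (qs : Fin N → A) (i : Fin N) (a : A) :
    chainSt qs ((i : ℕ) + 1) a = true ↔ a = qs i ∨ chainSt qs i a = true := by
  simp only [chainSt_eq_true]
  constructor
  · rintro ⟨j, hj, rfl⟩
    rcases Nat.lt_succ_iff_lt_or_eq.mp hj with h | h
    · exact Or.inr ⟨j, h, rfl⟩
    · exact Or.inl (by rw [Fin.ext h])
  · rintro (rfl | ⟨j, hj, rfl⟩)
    · exact ⟨i, Nat.lt_succ_self _, rfl⟩
    · exact ⟨j, Nat.lt_succ_of_lt hj, rfl⟩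

namespace SingleData

variable {𝒪 : Type} [CommRing 𝒪] [IsDomain 𝒪] [IsDiscreteValuationRing 𝒪]
  [IsAdicComplete (maximalIdeal 𝒪) 𝒪] [Finite (ResidueField 𝒪)] [CharZero 𝒪]
  {A G : Type} [Fintype A] [Fintype G] (D : SingleData 𝒪 A)

/-- `tr Φ_q - u (N + 1)`. -/
def tEl (q : A) : Src 𝒪 A G :=
  (D.phi (RingHom.id (Src 𝒪 A G)) q).trace - algebraMap 𝒪 _ (D.u q) * ((D.N q : Src 𝒪 A G) + 1)

/-- The value of the cutting element. -/
theorem map_tEl {B : Type} [CommRing B] (f : Src 𝒪 A G →+* B) (q : A) :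
    f (D.tEl q) = (D.phi f q).trace - f (algebraMap 𝒪 _ (D.u q)) * ((D.N q : B) + 1) := by
  have h := D.phi_comp (RingHom.id (Src 𝒪 A G)) f q
  rw [RingHom.comp_id] at h
  rw [tEl, map_sub, map_mul, map_add, map_natCast, map_one, h, Matrix.trace_fin_two,
    Matrix.trace_fin_two, map_add, Matrix.map_apply, Matrix.map_apply]

/-- An exact type prime of full dimension lies below the kernel of the chart. -/
theorem le_ker_chart (h2 : IsUnit (2 : 𝒪)) {ϖ : 𝒪} (hϖ : Irreducible ϖ)
    [DecidablePred (D.small (G := G))] {d : ℕ} (hd : d = 3 * Fintype.card A + Fintype.card G)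
    (P : Ideal (Src 𝒪 A G)) [P.IsPrime] (hP : D.IsType (Ideal.Quotient.mk P))
    (hϖP : algebraMap 𝒪 _ ϖ ∉ P)
    (hdim : ((d + 1 : ℕ) : WithBot ℕ∞) ≤ ringKrullDim (Src 𝒪 A G ⧸ P)) :
    P ≤ RingHom.ker (D.chart (G := G) hϖ : Src 𝒪 A G →+* MvPowerSeries (PVar A G) 𝒪) := by
  classical
  have := finite_residueField_mvPowerSeries (𝒪 := 𝒪) (Var A G)
  obtain ⟨K, hKp, hKle, hKdim⟩ := D.exists_genericPrime (G := G) h2 hϖ
  have := hKp
  have hKP := hKle P inferInstance hP hϖP
  -- the prime lies in the generic one, which has the same dimension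
  have hPK : P ≤ K := by
    by_contra hPK
    obtain ⟨r, hrP, hrK⟩ := SetLike.not_le_iff_exists.mp hPK
    have hr0 : Ideal.Quotient.mk K r ≠ 0 := fun h => hrK (Ideal.Quotient.eq_zero_iff_mem.mp h)
    have h1 := ringKrullDim_quotient_succ_le_of_nonZeroDivisor
      (mem_nonZeroDivisors_of_ne_zero hr0)
    let toP : (Src 𝒪 A G ⧸ K) ⧸ Ideal.span {Ideal.Quotient.mk K r} →+* Src 𝒪 A G ⧸ P :=
      Ideal.Quotient.lift _ (Ideal.Quotient.factor hKP) fun a ha => by
        refine (Ideal.span_singleton_le_iff_mem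
          (RingHom.ker (Ideal.Quotient.factor hKP))).mpr ?_ ha
        rw [RingHom.mem_ker, Ideal.Quotient.factor_mk, Ideal.Quotient.eq_zero_iff_mem]
        exact hrP
    have htoP : Function.Surjective toP := by
      intro y
      obtain ⟨u, hu⟩ := Ideal.Quotient.factor_surjective hKP y
      exact ⟨Ideal.Quotient.mk _ u, hu⟩
    have h2' : ringKrullDim (Src 𝒪 A G ⧸ P) ≤
        ringKrullDim ((Src 𝒪 A G ⧸ K) ⧸ Ideal.span {Ideal.Quotient.mk K r}) :=
      @ringKrullDim_le_of_surjective ((Src 𝒪 A G ⧸ K) ⧸ Ideal.span {Ideal.Quotient.mk K r})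
        (Src 𝒪 A G ⧸ P) _ _ toP htoP
    have h3 : ((d + 1 : ℕ) : WithBot ℕ∞) + 1 ≤ ((d + 1 : ℕ) : WithBot ℕ∞) := by
      refine ((add_le_add_left (hdim.trans h2') 1).trans h1).trans ?_
      rw [hd]; exact hKdim
    have h4 : ((d + 1 + 1 : ℕ) : WithBot ℕ∞) ≤ ((d + 1 : ℕ) : WithBot ℕ∞) := by
      push_cast; push_cast at h3; exact h3
    have := Nat.cast_le.mp (WithBot.coe_le_coe.mp h4)
    omega
  have : IsDomain (MvPowerSeries (PVar A G) 𝒪) := NoZeroDivisors.to_isDomain _
  have : (RingHom.ker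
      (D.chart (G := G) hϖ : Src 𝒪 A G →+* MvPowerSeries (PVar A G) 𝒪)).IsPrime :=
    RingHom.ker_isPrime _
  -- and the kernel of the chart is a prime of exact type
  refine hPK.trans (hKle _ inferInstance ?_ fun h => ?_)
  · refine IsType.of_injective D _
      (RingHom.kerLift (D.chart (G := G) hϖ : Src 𝒪 A G →+* MvPowerSeries (PVar A G) 𝒪))
      (RingHom.kerLift_injective _) ?_
    convert D.isType_chart (G := G) hϖ
    exact RingHom.ext fun _ => rfl
  · rw [RingHom.mem_ker, RingHom.coe_coe, AlgHom.commutes] at h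
    exact hϖ.ne_zero (by
      simpa [MvPowerSeries.algebraMap_apply] using congrArg MvPowerSeries.constantCoeff h)

/-- The prime at which the level is raised at `q₁`. -/
theorem exists_stepPrime {ϖ : 𝒪} (hϖ : Irreducible ϖ) (J : A → Bool) (q₁ : A)
    (hq₁ : D.isSt q₁ = true) [DecidablePred ((D.withSt J).small (G := G))] :
    ∃ P : Ideal (Src 𝒪 A G), P.IsPrime ∧
      RingHom.ker ((D.withSt J).chart (G := G) hϖ : Src 𝒪 A G →+* MvPowerSeries (PVar A G) 𝒪) ≤ P ∧
      algebraMap 𝒪 _ ϖ ∈ P ∧ D.tEl q₁ ∈ P ∧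
      ∀ q, q ≠ q₁ → (J q && D.isSt q) = true → sigAt (Ideal.Quotient.mk P) q ≠ 1 := by
  classical
  set E := D.withSt J with hE
  have := finite_residueField_mvPowerSeries (𝒪 := 𝒪) Unit
  let T := MvPowerSeries Unit 𝒪
  -- a curve in the chart: the unipotent parameter off `q₁` moves, the others vanish
  let val : PVar A G → T := fun v => match v with
    | Sum.inl (q, i) => if q ≠ q₁ ∧ i = 3 then MvPowerSeries.X () else 0
    | Sum.inr _ => 0
  have hval : ∀ v, val v ∈ maximalIdeal T := by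
    rintro (⟨q, i⟩ | g)
    · simp only [val]
      split_ifs
      · exact X_mem_maximalIdeal _
      · exact zero_mem _
    · exact zero_mem _
  let e : MvPowerSeries (PVar A G) 𝒪 →ₐ[𝒪] T := evalHom val hval
  have he : ∀ p : MvPolynomial (PVar A G) 𝒪,
      e (p : MvPowerSeries (PVar A G) 𝒪) = MvPolynomial.aeval val p := by
    intro p
    induction p using MvPolynomial.induction_on with
    | C a => rw [MvPolynomial.coe_C, MvPolynomial.aeval_C]; exact e.commutes a
    | add p q hp hq => rw [MvPolynomial.coe_add, map_add, map_add, hp, hq]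
    | mul_X p v hp =>
      rw [MvPolynomial.coe_mul, MvPolynomial.coe_X, map_mul, map_mul, hp, MvPolynomial.aeval_X,
        show e (MvPowerSeries.X v) = val v from evalHom_X val hval v]
  let rs : T →+* MvPowerSeries Unit (ResidueField 𝒪) := MvPowerSeries.map (residue 𝒪)
  let f : Src 𝒪 A G →+* MvPowerSeries Unit (ResidueField 𝒪) :=
    rs.comp ((e.comp (E.chart (G := G) hϖ) : Src 𝒪 A G →ₐ[𝒪] T) : Src 𝒪 A G →+* T)
  let ev : MvPolynomial (PVar A G) 𝒪 →+* MvPowerSeries Unit (ResidueField 𝒪) :=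
    rs.comp (MvPolynomial.aeval val : MvPolynomial (PVar A G) 𝒪 →ₐ[𝒪] T)
  have hfC : ∀ o, f (algebraMap 𝒪 _ o) = MvPowerSeries.C (residue 𝒪 o) := fun o => by
    change rs (e (E.chart hϖ (algebraMap 𝒪 _ o))) = _
    rw [AlgHom.commutes, AlgHom.commutes]
    exact MvPowerSeries.map_C _ _
  have hevC : ∀ o, ev (MvPolynomial.C o) = MvPowerSeries.C (residue 𝒪 o) := fun o => by
    change rs (MvPolynomial.aeval val (MvPolynomial.C o)) = _
    rw [MvPolynomial.aeval_C]
    exact MvPowerSeries.map_C _ _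
  have hfX : ∀ v, f (MvPowerSeries.X v) = ev (E.paramIm v) := fun v => by
    change rs (e (E.chart hϖ (MvPowerSeries.X v))) = rs _
    rw [E.chart_X, he]
    rfl
  have hphi : ∀ q, E.phi f q = ev.mapMatrix (E.polyPhi q) := fun q => Matrix.ext fun i j => by
    simp only [phi, Matrix.add_apply, Matrix.map_apply, Matrix.of_apply, RingHom.mapMatrix_apply,
      hfC, hfX]
    change _ + ev (E.polyPhi q i j - MvPolynomial.C (E.phi0 q i j)) = _
    rw [map_sub, hevC, add_sub_cancel]
  have hsig : ∀ q, sigAt f q = ev.mapMatrix (E.polySig q) := fun q => Matrix.ext fun i j => by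
    simp only [sigAt, Matrix.add_apply, Matrix.of_apply, RingHom.mapMatrix_apply, Matrix.map_apply,
      hfX]
    change _ + ev (E.polySig q i j - (1 : M2 (MvPolynomial (PVar A G) 𝒪)) i j) = _
    rw [map_sub, Matrix.one_apply, Matrix.one_apply]
    split_ifs <;> simp
  have hev : ∀ q i, ev (pv q i) =
      if q ≠ q₁ ∧ i = 3 then MvPowerSeries.X () else 0 := fun q i => by
    change rs (MvPolynomial.aeval val (MvPolynomial.X _)) = _
    rw [MvPolynomial.aeval_X]
    simp only [val]
    split_ifs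
    · exact MvPowerSeries.map_X _ _
    · exact map_zero _
  have : IsDomain (MvPowerSeries Unit (ResidueField 𝒪)) := NoZeroDivisors.to_isDomain _
  -- its reduction cuts the prime out
  refine ⟨RingHom.ker f, RingHom.ker_isPrime f, fun z hz => ?_, ?_, ?_, fun q hq hJ h => ?_⟩
  · rw [RingHom.mem_ker] at hz ⊢
    change rs (e (E.chart hϖ z)) = 0
    rw [show E.chart hϖ z = 0 from hz, map_zero, map_zero]
  · rw [RingHom.mem_ker, hfC, show residue 𝒪 ϖ = 0 from (residue_eq_zero_iff _).mpr hϖ.not_isUnit,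
      map_zero]
  · rw [RingHom.mem_ker, map_tEl, ← D.phi_withSt J, ← hE, hphi, hfC]
    have hz : ∀ i, ev (pv q₁ i) = 0 := fun i => by rw [hev, if_neg fun h => h.1 rfl]
    have hN : ((D.N q₁ : ℕ) : MvPowerSeries Unit (ResidueField 𝒪)) =
        MvPowerSeries.C (residue 𝒪 (D.N q₁ : 𝒪)) := by simp
    rw [sub_eq_zero, hN, Matrix.trace_fin_two]
    cases hst : E.isSt q₁ with
    | true =>
      rw [polyPhi, if_pos hst, map_mul, map_mul]
      have hb : ev.mapMatrix (E.baseMat (G := G) q₁) = 1 ∧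
          ev.mapMatrix (E.baseInv (G := G) q₁) = 1 := by
        rw [baseMat, baseInv]
        constructor <;> split_ifs <;> ext i j <;> fin_cases i <;> fin_cases j <;> simp [hz]
      rw [hb.1, hb.2, one_mul, mul_one]
      simp [triPhi, hevC, hE, withSt, mul_add, add_comm]
    | false =>
      have hU : ev.mapMatrix (!![1, -1; 0, 1] : M2 (MvPolynomial (PVar A G) 𝒪)) *
          ev.mapMatrix !![1 + (1 + pv q₁ 2) * pv q₁ 3, 1 + pv q₁ 2;
            pv q₁ 0 * (1 + (1 + pv q₁ 2) * pv q₁ 3) + pv q₁ 3,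
            (1 + pv q₁ 2) * pv q₁ 0 + 1] = 1 := by
        ext i j
        fin_cases i <;> fin_cases j <;> simp [Matrix.mul_apply, Fin.sum_univ_two, hz]
      rw [polyPhi, if_neg (by simp [hst]), map_mul, map_mul, mul_assoc, hU, mul_one]
      simp [hE, withSt, D.phi0_of_isSt hq₁, hevC, mul_add, add_comm]
  · have hst : E.isSt q = true := hJ
    have h1 : sigAt f q = 1 := by
      rw [show f = (RingHom.kerLift f).comp (Ideal.Quotient.mk (RingHom.ker f)) from
        RingHom.ext fun _ => rfl, sigAt_comp, h, Matrix.map_one _ (map_zero _) (map_one _)]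
    rw [hsig, polySig, if_pos hst, map_mul, map_mul] at h1
    have hb : ev.mapMatrix (E.baseMat (G := G) q) = 1 ∧
        ev.mapMatrix (E.baseInv (G := G) q) = 1 := by
      rw [baseMat, baseInv]
      constructor <;> split_ifs <;> ext i j <;> fin_cases i <;> fin_cases j <;>
        simp [hev, hq]
    rw [hb.1, hb.2, one_mul, mul_one] at h1
    have h3 := congrFun (congrFun h1 0) 1
    simp [triSig, hev, hq] at h3
    have h4 := congrArg (MvPowerSeries.coeff (R := ResidueField 𝒪) (Finsupp.single () 1)) h3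
    classical
    rw [MvPowerSeries.coeff_X, if_pos rfl, map_zero] at h4
    exact one_ne_zero h4

end SingleData

end Fermat.GR.Patch
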