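import Mathlib
import Fermat.Agent.GR.Patch.MultiPrime
import Fermat.Agent.GR.Patch.Frames
import Fermat.Agent.GR.Patch.Extend

/-!
# One framed level

The relations satisfied by the substitution from the common source into a framed ring, at quotients,
and the consequences of intertwining maps between modules.
-/

set_option autoImplicit false

noncomputable section

namespace Fermat.GR.Patch

open IsLocalRing Matrix

local notation "M2" R => Matrix (Fin 2) (Fin 2) R

/-- An intertwining relation extends along framing variables. -/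
theorem extend_intertwine {𝒪 R B : Type} [CommRing 𝒪] [CommRing R] [Algebra 𝒪 R] [CommRing B]
    [Algebra 𝒪 B] {σ a b : Type} [Finite σ] [Fintype a] [DecidableEq a] [Fintype b] [DecidableEq b]
    (β : MvPowerSeries σ R →ₐ[𝒪] Matrix a a B) (β' : MvPowerSeries σ R →ₐ[𝒪] Matrix b b B)
    (t : σ → B) (ht : ∀ v, IsNilpotent (t v))
    (hX : ∀ v, β (MvPowerSeries.X v) = algebraMap B _ (t v))
    (hX' : ∀ v, β' (MvPowerSeries.X v) = algebraMap B _ (t v))
    (P : Matrix a b B) (Nsub : Submodule B (Matrix a b B))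
    (hC : ∀ r, P * β' (MvPowerSeries.C r) - β (MvPowerSeries.C r) * P ∈ Nsub)
    (w : MvPowerSeries σ R) : P * β' w - β w * P ∈ Nsub := by
  classical
  -- the relation holds on polynomials
  have hpoly : ∀ p : MvPolynomial σ R,
      P * β' (p : MvPowerSeries σ R) - β (p : MvPowerSeries σ R) * P ∈ Nsub := by
    intro p
    induction p using MvPolynomial.induction_on with
    | C r => rw [MvPolynomial.coe_C]; exact hC r
    | add p q hp hq =>
      rw [MvPolynomial.coe_add, map_add, map_add, Matrix.mul_add, Matrix.add_mul, add_sub_add_comm]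
      exact add_mem hp hq
    | mul_X p v hp =>
      rw [MvPolynomial.coe_mul, MvPolynomial.coe_X, map_mul, map_mul, hX, hX',
        Algebra.algebraMap_eq_smul_one, Algebra.algebraMap_eq_smul_one, Matrix.mul_smul,
        Matrix.mul_one, Matrix.mul_smul, Matrix.mul_smul, Matrix.mul_one, Matrix.smul_mul,
        ← smul_sub]
      exact Nsub.smul_mem _ hp
  -- both maps kill a power of the ideal of the variables, as these act nilpotently
  set I := Ideal.span (Set.range (MvPowerSeries.X : σ → MvPowerSeries σ R)) with hI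
  have hI1 : I.FG := Submodule.fg_span (Set.finite_range _)
  have hle : ∀ {c : Type} [Fintype c] [DecidableEq c] (γ : MvPowerSeries σ R →ₐ[𝒪] Matrix c c B),
      (∀ v, γ (MvPowerSeries.X v) = algebraMap B _ (t v)) → ∃ M, I ^ M ≤ RingHom.ker γ := by
    intro c _ _ γ hγ
    refine Ideal.exists_pow_le_of_le_radical_of_fg (Ideal.span_le.mpr ?_) hI1
    rintro _ ⟨v, rfl⟩
    obtain ⟨k, hk⟩ := ht v
    exact ⟨k, by rw [RingHom.mem_ker, map_pow, hγ, ← map_pow, hk, map_zero]⟩
  obtain ⟨M₁, h₁⟩ := hle β hX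
  obtain ⟨M₂, h₂⟩ := hle β' hX'
  set M := max M₁ M₂
  -- so they only see a truncation of `w`
  have hrest : w - (MvPowerSeries.truncTotal M w : MvPowerSeries σ R) ∈ I ^ M := by
    refine mem_spanX_pow_of_coeff M _ fun e he => ?_
    rw [map_sub, MvPolynomial.coeff_coe, MvPowerSeries.coeff_truncTotal _ he, sub_self]
  have hb : β w = β (MvPowerSeries.truncTotal M w : MvPowerSeries σ R) :=
    sub_eq_zero.mp (by rw [← map_sub]; exact h₁ (Ideal.pow_le_pow_right (le_max_left _ _) hrest))
  have hb' : β' w = β' (MvPowerSeries.truncTotal M w : MvPowerSeries σ R) :=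
    sub_eq_zero.mp (by rw [← map_sub]; exact h₂ (Ideal.pow_le_pow_right (le_max_right _ _) hrest))
  rw [hb, hb']
  exact hpoly _

section KerComp

variable {𝒪 W B P : Type} [CommRing 𝒪] [CommRing W] [Algebra 𝒪 W] [Ring B] [Algebra 𝒪 B]
  [CommRing P] [Algebra 𝒪 P]

/-- The source modulo what dies in `B`, inside the target modulo what dies in `B`. -/
def kerCompHom (b : W →ₐ[𝒪] B) (θ : P →ₐ[𝒪] W) :
    P ⧸ RingHom.ker (b.comp θ) →+* W ⧸ RingHom.ker b :=
  Ideal.Quotient.lift _ ((Ideal.Quotient.mk (RingHom.ker b)).comp (θ : P →+* W))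
    fun _ ha => Ideal.Quotient.eq_zero_iff_mem.mpr ha

/-- The map of quotients by the two kernels is injective. -/
theorem kerCompHom_injective (b : W →ₐ[𝒪] B) (θ : P →ₐ[𝒪] W) :
    Function.Injective (kerCompHom b θ) := by
  rw [injective_iff_map_eq_zero]
  intro z hz
  obtain ⟨a, rfl⟩ := Ideal.Quotient.mk_surjective z
  change Ideal.Quotient.mk _ (θ a) = 0 at hz
  rw [Ideal.Quotient.eq_zero_iff_mem] at hz ⊢
  exact hz

end KerComp

namespace SingleData

variable {𝒪 : Type} [CommRing 𝒪] [IsLocalRing 𝒪] {A G : Type} (D : SingleData 𝒪 A) {W B : Type}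
  [CommRing W] [Algebra 𝒪 W] [Ring B] [Algebra 𝒪 B]

/-- The type passes to the kernel of a composite. -/
theorem IsType.ker_comp (b : W →ₐ[𝒪] B) (θ : Src 𝒪 A G →ₐ[𝒪] W)
    (h : D.IsType ((Ideal.Quotient.mk (RingHom.ker b)).comp (θ : Src 𝒪 A G →+* W))) :
    D.IsType (Ideal.Quotient.mk (RingHom.ker (b.comp θ))) :=
  IsType.of_injective D _ (kerCompHom b θ) (kerCompHom_injective b θ) h

/-- A chain type passes to the kernel of a composite. -/
theorem IsChainType.ker_comp {q₁ : A} {J : A → Bool} (b : W →ₐ[𝒪] B) (θ : Src 𝒪 A G →ₐ[𝒪] W)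
    (h : D.IsChainType q₁ J ((Ideal.Quotient.mk (RingHom.ker b)).comp (θ : Src 𝒪 A G →+* W))) :
    D.IsChainType q₁ J (Ideal.Quotient.mk (RingHom.ker (b.comp θ))) :=
  IsChainType.of_jointly D _ (κ := Unit) (fun _ => kerCompHom b θ)
    (fun z hz => (injective_iff_map_eq_zero _).mp (kerCompHom_injective b θ) z (hz ())) fun _ => h

end SingleData

section Subst

variable {𝒪 : Type} [CommRing 𝒪] [IsDomain 𝒪] [IsDiscreteValuationRing 𝒪]
  [IsAdicComplete (maximalIdeal 𝒪) 𝒪] [Finite (ResidueField 𝒪)] [CharZero 𝒪]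
  {A G : Type} [Fintype A] [DecidableEq A] [Fintype G] {D : SingleData 𝒪 A} (q₀ : A)
  {R : Type} [CommRing R] [IsLocalRing R] [IsNoetherianRing R] [IsAdicComplete (maximalIdeal R) R]
  [Algebra 𝒪 R] [IsLocalHom (algebraMap 𝒪 R)] {Phi Sig : A → M2 R}
  (hP : ∀ q i j, Phi q i j - algebraMap 𝒪 R (D.phi0 q i j) ∈ maximalIdeal R)
  (hS : ∀ q i j, Sig q i j - (1 : M2 R) i j ∈ maximalIdeal R)
  {zs : G → MvPowerSeries (FrameVar A q₀) R}
  (hz : ∀ i, zs i ∈ maximalIdeal (MvPowerSeries (FrameVar A q₀) R))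

/-- The substitution sends the Frobenius matrix to the framed one. -/
theorem phi_frameSubst (q : A) :
    D.phi (frameSubst q₀ hP hS hz : Src 𝒪 A G →+* MvPowerSeries (FrameVar A q₀) R) q =
      framed q₀ q (Phi q) := Matrix.ext fun i j => by
  change frameSubst q₀ hP hS hz (algebraMap 𝒪 _ (D.phi0 q i j)) +
    frameSubst q₀ hP hS hz (MvPowerSeries.X _) = _
  rw [frameSubst_X, AlgHom.commutes]
  change _ + (framed q₀ q (Phi q) i j - algebraMap 𝒪 _ (D.phi0 q i j)) = _
  rw [add_sub_cancel]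

/-- The sign stays constant under the substitution. -/
theorem u_frameSubst (q : A) {B : Type} [CommRing B]
    (h : MvPowerSeries (FrameVar A q₀) R →+* B) :
    h (frameSubst q₀ hP hS hz (algebraMap 𝒪 _ (D.u q))) =
      h (MvPowerSeries.C (algebraMap 𝒪 R (D.u q))) := by
  rw [AlgHom.commutes, MvPowerSeries.algebraMap_apply]

variable {B : Type} [CommRing B] (h : MvPowerSeries (FrameVar A q₀) R →+* B)

/-- Type relations on the base give the type of the composite. -/
theorem isType_comp_frameSubst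
    (hrel : ∀ q, D.TypeRel q (h (MvPowerSeries.C (algebraMap 𝒪 R (D.u q))))
      (((Phi q).map MvPowerSeries.C).map h) (((Sig q).map MvPowerSeries.C).map h)) :
    D.IsType (h.comp (frameSubst q₀ hP hS hz : Src 𝒪 A G →+* MvPowerSeries (FrameVar A q₀) R)) := by
  intro q
  rw [D.phi_comp, sigAt_comp, phi_frameSubst, sigAt_frameSubst,
    show (h.comp (frameSubst q₀ hP hS hz : Src 𝒪 A G →+* _)) (algebraMap 𝒪 _ (D.u q)) =
      h (MvPowerSeries.C (algebraMap 𝒪 R (D.u q))) from u_frameSubst q₀ hP hS hz q h,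
    framed, framed, Matrix.map_mul, Matrix.map_mul, Matrix.map_mul, Matrix.map_mul]
  exact SingleData.TypeRel.conj D (hrel q) _ _
    (by rw [← Matrix.map_mul, frameMat_mul_inv, Matrix.map_one _ (map_zero h) (map_one h)])

/-- The same with some of the Steinberg primes unramified. -/
theorem isType_withSt_comp_frameSubst (J : A → Bool)
    (hrel : ∀ q, (D.withSt J).TypeRel q (h (MvPowerSeries.C (algebraMap 𝒪 R (D.u q))))
      (((Phi q).map MvPowerSeries.C).map h) (((Sig q).map MvPowerSeries.C).map h)) :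
    (D.withSt J).IsType
      (h.comp (frameSubst q₀ hP hS hz : Src 𝒪 A G →+* MvPowerSeries (FrameVar A q₀) R)) := by
  intro q
  rw [SingleData.phi_withSt, D.phi_comp, sigAt_comp, phi_frameSubst, sigAt_frameSubst,
    show (h.comp (frameSubst q₀ hP hS hz : Src 𝒪 A G →+* MvPowerSeries (FrameVar A q₀) R))
      (algebraMap 𝒪 _ ((D.withSt J).u q)) = h (MvPowerSeries.C (algebraMap 𝒪 R (D.u q))) from
      u_frameSubst q₀ hP hS hz q h,
    framed, framed, Matrix.map_mul, Matrix.map_mul, Matrix.map_mul, Matrix.map_mul]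
  exact SingleData.TypeRel.conj (D.withSt J) (hrel q) _ _
    (by rw [← Matrix.map_mul, frameMat_mul_inv, Matrix.map_one _ (map_zero h) (map_one h)])

/-- Chain relations on the base give the chain type of the composite. -/
theorem isChainType_comp_frameSubst (q₁ : A) (J : A → Bool)
    (hrel : ∀ q, D.ChainRel q₁ J q (h (MvPowerSeries.C (algebraMap 𝒪 R (D.u q))))
      (((Phi q).map MvPowerSeries.C).map h) (((Sig q).map MvPowerSeries.C).map h)) :
    D.IsChainType q₁ J
      (h.comp (frameSubst q₀ hP hS hz : Src 𝒪 A G →+* MvPowerSeries (FrameVar A q₀) R)) := by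
  intro q
  rw [D.phi_comp, sigAt_comp, phi_frameSubst, sigAt_frameSubst,
    show (h.comp (frameSubst q₀ hP hS hz : Src 𝒪 A G →+* _)) (algebraMap 𝒪 _ (D.u q)) =
      h (MvPowerSeries.C (algebraMap 𝒪 R (D.u q))) from u_frameSubst q₀ hP hS hz q h,
    framed, framed, Matrix.map_mul, Matrix.map_mul, Matrix.map_mul, Matrix.map_mul]
  exact SingleData.ChainRel.conj D (hrel q) _ _
    (by rw [← Matrix.map_mul, frameMat_mul_inv, Matrix.map_one _ (map_zero h) (map_one h)])

/-- The value of the substitution at the cutting element. -/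
theorem frameSubst_tEl (q : A) : frameSubst q₀ hP hS hz (D.tEl q) =
    MvPowerSeries.C ((Phi q).trace - algebraMap 𝒪 R (D.u q) * ((D.N q : R) + 1)) := by
  change (frameSubst q₀ hP hS hz : Src 𝒪 A G →+* MvPowerSeries (FrameVar A q₀) R) (D.tEl q) = _
  rw [D.map_tEl, phi_frameSubst, framed, Matrix.trace_mul_cycle, inv_mul_frameMat, Matrix.one_mul,
    show (frameSubst q₀ hP hS hz : Src 𝒪 A G →+* MvPowerSeries (FrameVar A q₀) R)
      (algebraMap 𝒪 _ (D.u q)) = algebraMap 𝒪 _ (D.u q) from (frameSubst q₀ hP hS hz).commutes _,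
      MvPowerSeries.algebraMap_apply]
  simp [Matrix.trace_fin_two]

end Subst

section Intertwine

variable {𝒪 R : Type} [CommRing 𝒪] [CommRing R] [Algebra 𝒪 R] {σ : Type} [Finite σ] {B B' : Type}
  [CommRing B] [Algebra 𝒪 B] [CommRing B'] {a b : Type} [Fintype a] [DecidableEq a] [Fintype b]
  [DecidableEq b] (β : MvPowerSeries σ R →ₐ[𝒪] Matrix a a B)
  (β' : MvPowerSeries σ R →ₐ[𝒪] Matrix b b B) (t : σ → B) (red : B →+* B')

/-- Along a surjective intertwining map what kills the source kills the target. -/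
theorem map_eq_zero_of_proj (ht : ∀ v, IsNilpotent (t v))
    (hX : ∀ v, β (MvPowerSeries.X v) = algebraMap B _ (t v))
    (hX' : ∀ v, β' (MvPowerSeries.X v) = algebraMap B _ (t v))
    {P : Matrix b a B} {Q : Matrix a b B} (hPQ : P * Q = 1)
    (hP : ∀ y, P * β (MvPowerSeries.C y) = β' (MvPowerSeries.C y) * P)
    {w : MvPowerSeries σ R} (hw : (β w).map red = 0) : (β' w).map red = 0 := by
  have h1 := extend_intertwine β' β t ht hX' hX P ⊥
    (fun y => by rw [Submodule.mem_bot, sub_eq_zero]; exact hP y) w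
  rw [Submodule.mem_bot, sub_eq_zero] at h1
  have h2 : β' w = P * β w * Q := by rw [h1, Matrix.mul_assoc, hPQ, Matrix.mul_one]
  rw [h2, Matrix.map_mul, Matrix.map_mul, hw, Matrix.mul_zero, Matrix.zero_mul]

/-- Along a map surjective modulo `(u, T)`, what kills the source acts on the target through
`(u, T)`. -/
theorem exists_map_eq_of_desc (ht : ∀ v, IsNilpotent (t v))
    (hX : ∀ v, β (MvPowerSeries.X v) = algebraMap B _ (t v))
    (hX' : ∀ v, β' (MvPowerSeries.X v) = algebraMap B _ (t v))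
    (u : B) (e : R) {P : Matrix a b B} {Q : Matrix b a B} {X₀ Y₀ : Matrix a a B}
    (hPQ : P * Q - 1 = u • X₀ + β (MvPowerSeries.C e) * Y₀)
    (hP : ∀ y, ∃ X Y : Matrix a b B, P * β' (MvPowerSeries.C y) - β (MvPowerSeries.C y) * P =
      u • X + β (MvPowerSeries.C e) * Y)
    {w : MvPowerSeries σ R} (hw : (β' w).map red = 0) :
    ∃ X Y, (β w).map red = red u • X + (β (MvPowerSeries.C e)).map red * Y := by
  set T := β (MvPowerSeries.C e)
  let lin : (Matrix a b B × Matrix a b B) →ₗ[B] Matrix a b B :=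
    { toFun := fun p => u • p.1 + T * p.2
      map_add' := fun p q => by rw [Prod.fst_add, Prod.snd_add, smul_add, Matrix.mul_add]; abel
      map_smul' := fun s p => by
        rw [Prod.smul_fst, Prod.smul_snd, RingHom.id_apply, smul_add, Matrix.mul_smul, smul_comm] }
  -- `P` intertwines `β'` with `β` modulo the range of `lin`
  have h1 := extend_intertwine β β' t ht hX hX' P (LinearMap.range lin)
    (fun y => by
      obtain ⟨X, Y, hXY⟩ := hP y
      exact ⟨(X, Y), hXY.symm⟩) w
  obtain ⟨⟨X₁, Y₁⟩, hXY₁⟩ := h1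
  change u • X₁ + T * Y₁ = P * β' w - β w * P at hXY₁
  have hcomm : β w * T = T * β w := by rw [← map_mul, ← map_mul, mul_comm]
  -- so `β w` is `P * β' w * Q` up to that range
  have hmain : β w = P * β' w * Q +
      (u • (-(X₁ * Q) - β w * X₀) + T * (-(Y₁ * Q) - β w * Y₀)) := by
    have e1 : β w * (P * Q - 1) = u • (β w * X₀) + T * (β w * Y₀) := by
      rw [hPQ, Matrix.mul_add, Matrix.mul_smul, ← Matrix.mul_assoc, hcomm, Matrix.mul_assoc]
    have e2 : (P * β' w - β w * P) * Q = u • (X₁ * Q) + T * (Y₁ * Q) := by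
      rw [← hXY₁, Matrix.add_mul, Matrix.smul_mul, Matrix.mul_assoc]
    rw [Matrix.mul_sub, Matrix.mul_one, ← Matrix.mul_assoc, sub_eq_iff_eq_add] at e1
    rw [Matrix.sub_mul, e1, sub_eq_iff_eq_add] at e2
    rw [smul_sub, smul_neg, Matrix.mul_sub, Matrix.mul_neg, e2]
    abel
  -- and `β' w` dies under `red`
  refine ⟨(-(X₁ * Q) - β w * X₀).map red, (-(Y₁ * Q) - β w * Y₀).map red, ?_⟩
  conv_lhs => rw [hmain]
  rw [Matrix.map_add _ (map_add red), Matrix.map_add _ (map_add red), Matrix.map_mul,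
    Matrix.map_mul, hw, Matrix.mul_zero, Matrix.zero_mul, zero_add, Matrix.map_mul]
  congr 1
  exact Matrix.ext fun i j => by
    simp only [Matrix.map_apply, Matrix.smul_apply, smul_eq_mul, map_mul]

end Intertwine

section Point

variable {𝒪 R O' A : Type} [CommRing 𝒪] [CommRing R] [Algebra 𝒪 R] [CommRing O'] [Algebra 𝒪 O']
  {q₀ : A}

/-- A point of the base, extended to the framing variables by zero. -/
def framedPoint (q₀ : A) (x : R →ₐ[𝒪] O') : MvPowerSeries (FrameVar A q₀) R →ₐ[𝒪] O' :=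
  { toRingHom := (x : R →+* O').comp MvPowerSeries.constantCoeff
    commutes' := fun o => by
      change x (MvPowerSeries.constantCoeff (algebraMap 𝒪 (MvPowerSeries (FrameVar A q₀) R) o)) = _
      rw [MvPowerSeries.algebraMap_apply, MvPowerSeries.constantCoeff_C, AlgHom.commutes] }

/-- The extended point on constants. -/
theorem framedPoint_C (q₀ : A) (x : R →ₐ[𝒪] O') (a : R) :
    framedPoint q₀ x (MvPowerSeries.C a) = x a :=
  congrArg x (MvPowerSeries.constantCoeff_C a)

/-- A representation extending another induces a map of their images. -/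
def extendQuotientMap {ι B : Type} [Fintype ι] [DecidableEq ι] [CommRing B] [Algebra 𝒪 B]
    {α : R →ₐ[𝒪] Matrix ι ι B} {β : MvPowerSeries (FrameVar A q₀) R →ₐ[𝒪] Matrix ι ι B}
    (hβC : ∀ a, β (MvPowerSeries.C a) = α a) :
    R ⧸ RingHom.ker α →+* MvPowerSeries (FrameVar A q₀) R ⧸ RingHom.ker β :=
  Ideal.Quotient.lift (RingHom.ker α)
    ((Ideal.Quotient.mk (RingHom.ker β)).comp
      (MvPowerSeries.C : R →+* MvPowerSeries (FrameVar A q₀) R)) fun a ha => by
      rw [RingHom.comp_apply, Ideal.Quotient.eq_zero_iff_mem, RingHom.mem_ker, hβC]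
      exact ha

end Point

section Extension

variable {𝒪 : Type} [CommRing 𝒪] [IsDomain 𝒪] [IsDiscreteValuationRing 𝒪]
  [IsAdicComplete (maximalIdeal 𝒪) 𝒪] [Finite (ResidueField 𝒪)] [CharZero 𝒪]
  {A G : Type} [Fintype A] [DecidableEq A] [Fintype G] {D : SingleData 𝒪 A} (q₀ : A)
  {R : Type} [CommRing R] [IsLocalRing R] [IsNoetherianRing R] [IsAdicComplete (maximalIdeal R) R]
  [Algebra 𝒪 R] [IsLocalHom (algebraMap 𝒪 R)] {Phi Sig : A → M2 R}
  (hP : ∀ q i j, Phi q i j - algebraMap 𝒪 R (D.phi0 q i j) ∈ maximalIdeal R)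
  (hS : ∀ q i j, Sig q i j - (1 : M2 R) i j ∈ maximalIdeal R)

variable {zs : G → MvPowerSeries (FrameVar A q₀) R}
  (hz : ∀ i, zs i ∈ maximalIdeal (MvPowerSeries (FrameVar A q₀) R))
  {ι B : Type} [Fintype ι] [DecidableEq ι] [CommRing B] [Algebra 𝒪 B]
  {α : R →ₐ[𝒪] Matrix ι ι B} {β : MvPowerSeries (FrameVar A q₀) R →ₐ[𝒪] Matrix ι ι B}
  (hβC : ∀ a, β (MvPowerSeries.C a) = α a)

include hβC

/-- The type of an action on the base passes to its extension to the framed ring. -/
theorem isType_withSt_ker_extend (J : A → Bool)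
    (h : ∀ q, (D.withSt J).TypeRel q (Ideal.Quotient.mk (RingHom.ker α) (algebraMap 𝒪 R (D.u q)))
      ((Phi q).map (Ideal.Quotient.mk (RingHom.ker α)))
      ((Sig q).map (Ideal.Quotient.mk (RingHom.ker α)))) :
    (D.withSt J).IsType
      (Ideal.Quotient.mk (RingHom.ker (β.comp (frameSubst q₀ hP hS hz)))) := by
  refine SingleData.IsType.ker_comp _ β _
    (isType_withSt_comp_frameSubst q₀ hP hS hz _ J fun q => ?_)
  have h := (h q).map _ (extendQuotientMap hβC)
  rw [Matrix.map_map, Matrix.map_map] at h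
  rw [Matrix.map_map, Matrix.map_map]
  exact h

/-- The chain type of an action on the base passes to its extension to the framed ring. -/
theorem isChainType_ker_extend (q₁ : A) (J : A → Bool)
    (h : ∀ q, D.ChainRel q₁ J q (Ideal.Quotient.mk (RingHom.ker α) (algebraMap 𝒪 R (D.u q)))
      ((Phi q).map (Ideal.Quotient.mk (RingHom.ker α)))
      ((Sig q).map (Ideal.Quotient.mk (RingHom.ker α)))) :
    D.IsChainType q₁ J (Ideal.Quotient.mk (RingHom.ker (β.comp (frameSubst q₀ hP hS hz)))) := by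
  refine SingleData.IsChainType.ker_comp _ β _
    (isChainType_comp_frameSubst q₀ hP hS hz _ q₁ J fun q => ?_)
  have h := SingleData.ChainRel.map D (h q) (extendQuotientMap hβC)
  rw [Matrix.map_map, Matrix.map_map] at h
  rw [Matrix.map_map, Matrix.map_map]
  exact h

variable {κ : Type} [Fintype κ] [DecidableEq κ] {α' : R →ₐ[𝒪] Matrix κ κ B}
  {β' : MvPowerSeries (FrameVar A q₀) R →ₐ[𝒪] Matrix κ κ B}
  (hβC' : ∀ a, β' (MvPowerSeries.C a) = α' a) {t : FrameVar A q₀ → B}
  (ht : ∀ v, IsNilpotent (t v)) (hX : ∀ v, β (MvPowerSeries.X v) = algebraMap B _ (t v))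
  (hX' : ∀ v, β' (MvPowerSeries.X v) = algebraMap B _ (t v)) {B' : Type} [CommRing B']
  (red : B →+* B')

include hβC' ht hX hX'

/-- If the actions descend modulo `(u, tEl q)`, then the first reduced framed action sends into
`(u, tEl q)` what the second one kills. -/
theorem exists_map_eq_of_step (q : A) (u : B)
    (hdesc : ∃ (P : Matrix ι κ B) (Q : Matrix κ ι B),
      (∃ X Y : Matrix ι ι B, P * Q - 1 = u • X +
        α ((Phi q).trace - algebraMap 𝒪 R (D.u q) * ((D.N q : R) + 1)) * Y) ∧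
      ∀ y, ∃ X Y : Matrix ι κ B, P * α' y - α y * P = u • X +
        α ((Phi q).trace - algebraMap 𝒪 R (D.u q) * ((D.N q : R) + 1)) * Y)
    {w : Src 𝒪 A G} (hw : (β' (frameSubst q₀ hP hS hz w)).map red = 0) :
    ∃ X Y, (β (frameSubst q₀ hP hS hz w)).map red =
      red u • X + (β (frameSubst q₀ hP hS hz (D.tEl q))).map red * Y := by
  obtain ⟨P, Q, ⟨X₀, Y₀, hPQ⟩, hP'⟩ := hdesc
  rw [frameSubst_tEl]
  refine exists_map_eq_of_desc β β' t red ht hX hX' u _ (P := P) (Q := Q) (X₀ := X₀) (Y₀ := Y₀)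
    (by rw [hβC]; exact hPQ) (fun y => ?_) hw
  obtain ⟨X, Y, hXY⟩ := hP' y
  exact ⟨X, Y, by rw [hβC, hβC', hβC]; exact hXY⟩

end Extension

end Fermat.GR.Patch
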