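import Mathlib
import Fermat.Agent.GR.Patch.SingleDim

/-!
# Membership through the algebra generated by a patched representation

Over a representation `F` of the source ring into matrices over `S` the primes containing the
kernel lift to the commutative `S`-algebra generated by the image (`exists_prime_toImage`).
Consequently an element whose image lands in `(ϖ, F t)` lies in every prime containing the kernel,
`ϖ` and `t`.
-/

set_option autoImplicit false

noncomputable section

namespace Fermat.GR.Patch

open IsLocalRing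

variable {𝒪 : Type} [CommRing 𝒪] [IsDomain 𝒪] [IsDiscreteValuationRing 𝒪]
  [IsAdicComplete (maximalIdeal 𝒪) 𝒪] [Finite (ResidueField 𝒪)] [CharZero 𝒪]
  {A G : Type} [Fintype A] [Fintype G] {d m : ℕ}

local notation "S" => MvPowerSeries (Fin d) 𝒪
local notation "MatS" => Matrix (Fin m) (Fin m) (MvPowerSeries (Fin d) 𝒪)

/-- An element acting inside `(ϖ, t)` lies in every prime containing the kernel, `ϖ` and `t`. -/
theorem mem_prime_of_image_mem {ψ : S →ₐ[𝒪] S} (hψfin : (ψ : S →+* S).Finite)
    (F : Src 𝒪 A G →ₐ[𝒪] MatS) (ι : S →ₐ[𝒪] Src 𝒪 A G ⧸ RingHom.ker F)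
    (hι : ∀ s, RingHom.kerLift (F : Src 𝒪 A G →+* MatS) (ι s) = algebraMap S MatS (ψ s))
    (P : Ideal (Src 𝒪 A G)) [P.IsPrime] (hP : RingHom.ker F ≤ P) {ϖ : 𝒪} {t z : Src 𝒪 A G}
    (hϖP : algebraMap 𝒪 (Src 𝒪 A G) ϖ ∈ P) (htP : t ∈ P) {X Y : MatS}
    (hz : F z = algebraMap 𝒪 S ϖ • X + F t * Y) : z ∈ P := by
  classical
  -- a prime of the image algebra over `P`
  obtain ⟨Q, hQ, hQc⟩ := exists_prime_toImage hψfin F ι hι P hP
  have hmem : ∀ u ∈ P, toImage F u ∈ Q := fun u hu => by rw [← hQc] at hu; exact hu
  have hsc : algebraMap S (imageAlg F) (algebraMap 𝒪 S ϖ) ∈ Q := by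
    have h := hmem _ hϖP
    convert h using 1
    refine Subtype.ext ?_
    rw [coe_toImage, F.commutes, Subalgebra.coe_algebraMap, ← IsScalarTower.algebraMap_apply]
  -- the relation matrix
  let C : Matrix (Fin m) (Fin m) (imageAlg F) := Matrix.of fun j i =>
    algebraMap S (imageAlg F) (algebraMap 𝒪 S ϖ * X i j) +
      toImage F t * algebraMap S (imageAlg F) (Y i j)
  have hC : ∀ j i, C j i ∈ Q := fun j i => by
    refine add_mem ?_ (Q.mul_mem_right _ (hmem _ htP))
    rw [map_mul]
    exact Q.mul_mem_right _ hsc
  set R := Matrix.scalar (Fin m) (toImage F z) - C with hR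
  have hkill : ∀ j, ∑ i, ((R j i : imageAlg F) : MatS).mulVec (Pi.single i 1) = 0 := by
    intro j
    funext k
    rw [Finset.sum_apply]
    simp only [Matrix.mulVec_single_one, Matrix.col_apply, Pi.zero_apply]
    have hz' := congrFun (congrFun hz k) j
    rw [Matrix.add_apply, Matrix.smul_apply, smul_eq_mul, Matrix.mul_apply] at hz'
    have he : ∀ i, ((R j i : imageAlg F) : MatS) k i =
        (if j = i then F z k i else 0) -
          ((if k = i then algebraMap 𝒪 S ϖ * X i j else 0) + F t k i * Y i j) := by
      intro i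
      rw [hR, Matrix.sub_apply, Matrix.scalar_apply, Matrix.diagonal_apply]
      simp only [C, Matrix.of_apply, AddSubgroupClass.coe_sub, AddMemClass.coe_add,
        MulMemClass.coe_mul, Subalgebra.coe_algebraMap, coe_toImage, Matrix.sub_apply,
        Matrix.add_apply]
      have hsm : ∀ (M : MatS) (y : S), (M * algebraMap S MatS y) k i = M k i * y := fun M y => by
        rw [Algebra.algebraMap_eq_smul_one, Matrix.mul_smul, Matrix.mul_one, Matrix.smul_apply,
          smul_eq_mul, mul_comm]
      rw [hsm, Matrix.algebraMap_matrix_apply]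
      simp only [Algebra.algebraMap_self, RingHom.id_apply]
      split_ifs <;> simp [coe_toImage]
    simp only [he, Finset.sum_sub_distrib, Finset.sum_add_distrib, Finset.sum_ite_eq,
      Finset.mem_univ, if_true]
    rw [hz', sub_self]
  -- the adjugate turns this into the vanishing of the determinant, a power of `z` modulo `Q`
  have hdet : R.det = 0 := by
    refine Subtype.ext (Matrix.ext fun k l => ?_)
    have h1 : ∑ j, ((R.adjugate l j : imageAlg F) : MatS).mulVec
        (∑ i, ((R j i : imageAlg F) : MatS).mulVec (Pi.single i 1)) = 0 := by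
      refine Finset.sum_eq_zero fun j _ => ?_
      rw [hkill j, Matrix.mulVec_zero]
    simp only [Matrix.mulVec_sum, Matrix.mulVec_mulVec] at h1
    rw [Finset.sum_comm] at h1
    have h2 : ∀ i, ∑ j, ((R.adjugate l j : imageAlg F) : MatS) * ((R j i : imageAlg F) : MatS) =
        if l = i then ((R.det : imageAlg F) : MatS) else 0 := fun i => by
      have := congrArg Subtype.val (congrFun (congrFun (Matrix.adjugate_mul R) l) i)
      rw [Matrix.mul_apply, Matrix.smul_apply, Matrix.one_apply, AddSubmonoidClass.coe_finsetSum]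
        at this
      simp only [MulMemClass.coe_mul] at this
      rw [this]
      split_ifs <;> simp
    simp only [← Matrix.sum_mulVec, h2] at h1
    rw [Finset.sum_eq_single l (fun i _ hi => by rw [if_neg (Ne.symm hi), Matrix.zero_mulVec])
      (by simp), if_pos rfl] at h1
    have h4 := congrFun h1 k
    rw [Matrix.mulVec_single_one] at h4
    exact h4
  have h3 : Ideal.Quotient.mk Q R.det = Ideal.Quotient.mk Q (toImage F z) ^ m := by
    rw [RingHom.map_det, hR, map_sub,
      show (Ideal.Quotient.mk Q).mapMatrix C = 0 from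
        Matrix.ext fun j i => Ideal.Quotient.eq_zero_iff_mem.mpr (hC j i),
      sub_zero, RingHom.mapMatrix_apply, Matrix.scalar_apply, Matrix.diagonal_map (map_zero _),
      Matrix.det_diagonal, Finset.prod_const, Finset.card_univ, Fintype.card_fin]
  rw [hdet, map_zero, ← map_pow, eq_comm, Ideal.Quotient.eq_zero_iff_mem] at h3
  rw [← hQc]
  exact hQ.mem_of_pow_mem m h3

end Fermat.GR.Patch
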