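import Mathlib
import Fermat.Agent.GR.Patch.MultiPrime
import Fermat.Agent.GR.Patch.MultiImage

/-!
# Limits of chains of coefficient systems

Properties passing to a limit of representations and points, the exact prime at the end of a chain
of limit modules (`exists_exactPrime`, by the step `exists_stepPrime` of `MultiPrime`), and the
final Cayley–Hamilton argument (`apply_eq_zero_of_ker_le`). Used by `MultiPatch` and `Transfer`.
-/

set_option autoImplicit false
set_option linter.unusedSectionVars false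

noncomputable section

namespace Fermat.GR.Patch

open IsLocalRing

variable {𝒪 : Type} [CommRing 𝒪] [IsDomain 𝒪] [IsDiscreteValuationRing 𝒪]
  [IsAdicComplete (maximalIdeal 𝒪) 𝒪] [Finite (ResidueField 𝒪)] [CharZero 𝒪]
  {A G : Type} [Fintype A] [Fintype G] {d m : ℕ}

local notation "S" => MvPowerSeries (Fin d) 𝒪
local notation "MatS" => Matrix (Fin m) (Fin m) (MvPowerSeries (Fin d) 𝒪)

section Module

variable {f : ∀ n, Src 𝒪 A G →ₐ[𝒪]
    Matrix (Fin m) (Fin m) (MvPowerSeries (Fin d) 𝒪 ⧸ maximalIdeal (MvPowerSeries (Fin d) 𝒪) ^ n)}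
  {φ : ℕ → ℕ} (hφ : ∀ n, n ≤ φ n) {F : Src 𝒪 A G →ₐ[𝒪] Matrix (Fin m) (Fin m)
    (MvPowerSeries (Fin d) 𝒪)}
  (hFn : ∀ k n, ∀ h : k ≤ n, ∀ z, (F z).map
    (Ideal.Quotient.mk (maximalIdeal (MvPowerSeries (Fin d) 𝒪) ^ k)) =
    reduceHom (h.trans (hφ n)) (f (φ n)) z)

include hφ hFn

/-- The kernel of a limit lies in those of its reductions. -/
theorem ker_limit_le (k : ℕ) : RingHom.ker F ≤ RingHom.ker (reduceHom (hφ k) (f (φ k))) :=
  fun z hz => by
    rw [RingHom.mem_ker, ← hFn k k le_rfl z, show F z = 0 from hz, Matrix.map_zero _ (map_zero _)]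

/-- The finite stages separate the limit. -/
theorem limit_jointly (b : Src 𝒪 A G ⧸ RingHom.ker F)
    (hb : ∀ k, Ideal.Quotient.factor (ker_limit_le hφ hFn k) b = 0) : b = 0 := by
  obtain ⟨z, rfl⟩ := Ideal.Quotient.mk_surjective b
  rw [Ideal.Quotient.eq_zero_iff_mem, RingHom.mem_ker]
  refine limit_eq_zero hφ hFn fun k => ?_
  have h1 := hb k
  rwa [Ideal.Quotient.factor_mk, Ideal.Quotient.eq_zero_iff_mem] at h1

/-- Constant terms divisible by every power vanish in the limit. -/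
theorem limit_constantCoeff_eq_zero {ϖ : 𝒪} (hϖ : Irreducible ϖ) {zn : ℕ → Src 𝒪 A G}
    {zl : Src 𝒪 A G} (hz : ∀ k n, k ≤ n → zn n - zl ∈ maximalIdeal (Src 𝒪 A G) ^ k)
    (h : ∀ n i j, ∀ s : S, Ideal.Quotient.mk _ s = f (φ n) (zn n) i j →
      MvPowerSeries.constantCoeff s ∈ Ideal.span {ϖ ^ (φ n)}) (i j : Fin m) :
    MvPowerSeries.constantCoeff (F zl i j) = 0 := by
  refine IsHausdorff.haus' (I := maximalIdeal 𝒪) _ fun e => ?_
  rw [SModEq.zero, smul_eq_mul, Ideal.mul_top, hϖ.maximalIdeal_eq, Ideal.span_singleton_pow]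
  obtain ⟨M, hM⟩ := limit_close hφ hFn hz e
  have he := (le_max_left e M).trans (hφ (max e M))
  have h' := congrFun (congrFun (hM (max e M) (le_max_left _ _) (le_max_right _ _) he) i) j
  obtain ⟨s, hs⟩ := Ideal.Quotient.mk_surjective (f (φ (max e M)) (zn (max e M)) i j)
  change Ideal.Quotient.mk _ (F zl i j) =
    Ideal.Quotient.factor (Ideal.pow_le_pow_right he) (f _ (zn _) i j) at h'
  rw [← hs, Ideal.Quotient.factor_mk, Ideal.Quotient.eq] at h'
  have h1 := constantCoeff_mem_span_of_mem hϖ h'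
  rw [map_sub] at h1
  have h2 := (Ideal.span_singleton_le_span_singleton.mpr (pow_dvd_pow ϖ he)) (h _ i j s hs)
  simpa using add_mem h1 h2

/-- Membership in the image of `(ϖ, t)` passes to the limit. -/
theorem limit_mem_add (ϖ : 𝒪) {zn tn : ℕ → Src 𝒪 A G} {z t : Src 𝒪 A G}
    (hz : ∀ k n, k ≤ n → zn n - z ∈ maximalIdeal (Src 𝒪 A G) ^ k)
    (ht : ∀ k n, k ≤ n → tn n - t ∈ maximalIdeal (Src 𝒪 A G) ^ k)
    (h : ∀ k n, ∀ hkn : k ≤ n, ∃ X Y, reduceHom (hkn.trans (hφ n)) (f (φ n)) (zn n) =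
      algebraMap 𝒪 (S ⧸ maximalIdeal S ^ k) ϖ • X +
        reduceHom (hkn.trans (hφ n)) (f (φ n)) (tn n) * Y) :
    ∃ X Y, F z = algebraMap 𝒪 S ϖ • X + F t * Y := by
  have := finite_residueField_mvPowerSeries (𝒪 := 𝒪) (Fin d)
  -- the right side ranges over the image of a linear map, which is closed
  let lin : (MatS × MatS) →ₗ[S] MatS :=
    { toFun := fun p => algebraMap 𝒪 S ϖ • p.1 + F t * p.2
      map_add' := fun p q => by rw [Prod.fst_add, Prod.snd_add, smul_add, mul_add]; abel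
      map_smul' := fun s p => by
        rw [Prod.smul_fst, Prod.smul_snd, RingHom.id_apply, smul_add, Matrix.mul_smul, smul_comm] }
  have hmem : F z ∈ LinearMap.range lin := by
    refine mem_of_forall_add_pow _ fun k => ?_
    -- so approximate `F z` and `F t` at a deep enough level `n`
    obtain ⟨M₁, hM₁⟩ := limit_close hφ hFn hz k
    obtain ⟨M₂, hM₂⟩ := limit_close hφ hFn ht k
    set n := max k (max M₁ M₂)
    have hk : k ≤ n := le_max_left _ _
    obtain ⟨Xk, Yk, hXY⟩ := h k n hk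
    rw [← hM₁ n hk ((le_max_left _ _).trans (le_max_right _ _)) (hk.trans (hφ n)),
      ← hM₂ n hk ((le_max_right _ _).trans (le_max_right _ _)) (hk.trans (hφ n))] at hXY
    -- and lift the coefficients
    choose X' hX' using fun a b => Ideal.Quotient.mk_surjective (Xk a b)
    choose Y' hY' using fun a b => Ideal.Quotient.mk_surjective (Yk a b)
    refine ⟨lin (Matrix.of X', Matrix.of Y'), LinearMap.mem_range_self _ _, ?_⟩
    rw [Matrix.matrix_eq_sum_single (F z - lin (Matrix.of X', Matrix.of Y'))]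
    refine Submodule.sum_mem _ fun a _ => Submodule.sum_mem _ fun b _ => ?_
    rw [← mul_one ((F z - lin (Matrix.of X', Matrix.of Y')) a b), ← smul_eq_mul,
      ← Matrix.smul_single]
    refine Submodule.smul_mem_smul ?_ Submodule.mem_top
    rw [← Ideal.Quotient.eq_zero_iff_mem, Matrix.sub_apply, map_sub, sub_eq_zero]
    have he := congrFun (congrFun hXY a) b
    rw [Matrix.map_apply] at he
    rw [he]
    change _ = Ideal.Quotient.mk _ ((algebraMap 𝒪 S ϖ • Matrix.of X' + F t * Matrix.of Y') a b)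
    simp only [Matrix.add_apply, Matrix.smul_apply, smul_eq_mul, Matrix.mul_apply, map_add,
      map_mul, map_sum, Matrix.of_apply, Matrix.map_apply, hX', hY']
    rfl
  obtain ⟨⟨X, Y⟩, hXY⟩ := hmem
  exact ⟨X, Y, hXY.symm⟩

end Module

section Point

variable {σ : Type} [Finite σ] {R : Type} [CommRing R] [IsLocalRing R] [Algebra 𝒪 R]
  [IsLocalHom (algebraMap 𝒪 R)]

/-- Two substitutions agreeing on the variables modulo a power agree there. -/
theorem sub_mem_pow_of_X {x y : MvPowerSeries σ 𝒪 →ₐ[𝒪] R}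
    (hx : ∀ v, x (MvPowerSeries.X v) ∈ maximalIdeal R) {k : ℕ}
    (h : ∀ v, y (MvPowerSeries.X v) - x (MvPowerSeries.X v) ∈ maximalIdeal R ^ k)
    (z : MvPowerSeries σ 𝒪) : y z - x z ∈ maximalIdeal R ^ k := by
  rw [← Ideal.Quotient.eq]
  have h' : (Ideal.Quotient.mk (maximalIdeal R ^ k)).comp (y : MvPowerSeries σ 𝒪 →+* R) =
      (Ideal.Quotient.mk (maximalIdeal R ^ k)).comp (x : MvPowerSeries σ 𝒪 →+* R) := by
    refine ringHom_eq_of_nilpotent (fun o => ?_) (fun v => ?_) (fun v => ⟨k, ?_⟩)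
    · change Ideal.Quotient.mk _ (y (algebraMap 𝒪 _ o)) = Ideal.Quotient.mk _ (x (algebraMap 𝒪 _ o))
      rw [AlgHom.commutes, AlgHom.commutes]
    · exact Ideal.Quotient.eq.mpr (h v)
    · change Ideal.Quotient.mk _ (y (MvPowerSeries.X v)) ^ k = 0
      rw [Ideal.Quotient.eq.mpr (h v), ← map_pow, Ideal.Quotient.eq_zero_iff_mem]
      exact Ideal.pow_mem_pow (hx v) k
  exact DFunLike.congr_fun h' z

/-- A convergent sequence of substitutions at a convergent sequence. -/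
theorem apply_sub_mem_pow {x : MvPowerSeries σ 𝒪 →ₐ[𝒪] R}
    {xn : ℕ → MvPowerSeries σ 𝒪 →ₐ[𝒪] R}
    (hx : ∀ v, x (MvPowerSeries.X v) ∈ maximalIdeal R)
    (hxn : ∀ k n, k ≤ n → ∀ v,
      xn n (MvPowerSeries.X v) - x (MvPowerSeries.X v) ∈ maximalIdeal R ^ k)
    {zn : ℕ → MvPowerSeries σ 𝒪} {zl : MvPowerSeries σ 𝒪}
    (hz : ∀ k n, k ≤ n → zn n - zl ∈ maximalIdeal (MvPowerSeries σ 𝒪) ^ k) {k n : ℕ} (hkn : k ≤ n) :
    xn n (zn n) - x zl ∈ maximalIdeal R ^ k := by
  have hle : (maximalIdeal (MvPowerSeries σ 𝒪)).map (x : MvPowerSeries σ 𝒪 →+* R) ≤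
      maximalIdeal R :=
    Ideal.map_le_iff_le_comap.mpr fun w hw => map_mem_maximalIdeal x hx
      (fun hu => hw (MvPowerSeries.isUnit_iff_constantCoeff.mpr hu))
  have h1 : x (zn n) - x zl ∈ maximalIdeal R ^ k := by
    rw [← map_sub]
    exact Ideal.pow_right_mono hle k
      (Ideal.map_pow (x : MvPowerSeries σ 𝒪 →+* R) _ k ▸ Ideal.mem_map_of_mem _ (hz k n hkn))
  have := add_mem (sub_mem_pow_of_X hx (hxn k n hkn) (zn n)) h1
  rwa [sub_add_sub_cancel] at this

/-- The value of the limit at a limit. -/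
theorem apply_limit_eq [IsHausdorff (maximalIdeal R) R] {x : MvPowerSeries σ 𝒪 →ₐ[𝒪] R}
    {xn : ℕ → MvPowerSeries σ 𝒪 →ₐ[𝒪] R}
    (hx : ∀ v, x (MvPowerSeries.X v) ∈ maximalIdeal R)
    (hxn : ∀ k n, k ≤ n → ∀ v,
      xn n (MvPowerSeries.X v) - x (MvPowerSeries.X v) ∈ maximalIdeal R ^ k)
    {zn : ℕ → MvPowerSeries σ 𝒪} {zl : MvPowerSeries σ 𝒪}
    (hz : ∀ k n, k ≤ n → zn n - zl ∈ maximalIdeal (MvPowerSeries σ 𝒪) ^ k) {a : R}
    (ha : ∀ n, xn n (zn n) = a) : x zl = a := by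
  refine IsHausdorff.eq_iff_smodEq (I := maximalIdeal R).mpr fun k => ?_
  rw [SModEq.sub_mem, smul_eq_mul, Ideal.mul_top]
  have := neg_mem (apply_sub_mem_pow hx hxn hz (le_refl k))
  rwa [ha, neg_sub] at this

end Point

namespace SingleData

/-- Restricting the Steinberg primes to all of them changes nothing. -/
theorem isType_withSt_iff (D : SingleData 𝒪 A) (J : A → Bool)
    (hJ : ∀ a, (J a && D.isSt a) = D.isSt a) {B : Type} [CommRing B] (f : Src 𝒪 A G →+* B) :
    (D.withSt J).IsType f ↔ D.IsType f := by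
  refine forall_congr' fun q => ?_
  rw [phi_withSt, TypeRel, TypeRel, show (D.withSt J).isSt q = D.isSt q from hJ q]
  rfl

end SingleData

/-- The last stage of the chain has all the special primes. -/
theorem chainSt_last {N : ℕ} (D : SingleData 𝒪 A) (qs : Fin N → A)
    (hqs : ∀ a, D.isSt a = true ↔ ∃ i, qs i = a) (a : A) :
    (chainSt qs N a && D.isSt a) = D.isSt a := by
  cases h : D.isSt a with
  | false => rw [Bool.and_false]
  | true =>
    obtain ⟨i, rfl⟩ := (hqs a).mp h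
    rw [(chainSt_eq_true qs N _).mpr ⟨i, i.isLt, rfl⟩, Bool.true_and]

/-- A prime containing the kernel contains a minimal one of dimension at least `d + 1`, avoiding
`ϖ`. -/
theorem exists_minimal_below {ϖ : 𝒪} (hϖ : Irreducible ϖ) {J : Ideal (Src 𝒪 A G)}
    (ι : S →ₐ[𝒪] Src 𝒪 A G ⧸ J) (hfin : (ι : S →+* Src 𝒪 A G ⧸ J).Finite)
    (htf : ∀ (s : S) (z : Src 𝒪 A G ⧸ J), s ≠ 0 → ι s * z = 0 → z = 0)
    (P : Ideal (Src 𝒪 A G)) [P.IsPrime] (hP : J ≤ P) :
    ∃ Q : Ideal (Src 𝒪 A G), Q.IsPrime ∧ J ≤ Q ∧ Q ≤ P ∧ algebraMap 𝒪 _ ϖ ∉ Q ∧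
      ((d + 1 : ℕ) : WithBot ℕ∞) ≤ ringKrullDim (Src 𝒪 A G ⧸ Q) := by
  have := finite_residueField_mvPowerSeries (𝒪 := 𝒪) (Fin d)
  have := finite_residueField_mvPowerSeries (𝒪 := 𝒪) (Var A G)
  obtain ⟨Q, hQ, hQP⟩ := Ideal.exists_minimalPrimes_le hP
  have := hQ.1.1
  have hinjQ := injective_quotient_of_minimalPrime ι htf hQ
  have hintQ := isIntegral_quotient ι hfin hQ.1.2
  refine ⟨Q, inferInstance, hQ.1.2, hQP, fun h => ?_,
    (le_ringKrullDim_mvPowerSeries d).trans (ringKrullDim_le_of_injective_integral _ hinjQ hintQ)⟩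
  have h0 : algebraMap 𝒪 S ϖ = 0 := hinjQ (by
    rw [map_zero, RingHom.comp_apply,
      show (ι : S →+* Src 𝒪 A G ⧸ J) (algebraMap 𝒪 S ϖ) =
        Ideal.Quotient.mk _ (algebraMap 𝒪 _ ϖ) from ι.commutes ϖ,
      Ideal.Quotient.factor_mk, Ideal.Quotient.eq_zero_iff_mem]
    exact h)
  exact hϖ.ne_zero (by
    simpa [MvPowerSeries.algebraMap_apply] using congrArg MvPowerSeries.constantCoeff h0)

/-- **The end of a chain of limit modules**: its kernel lies below the chart and below an exact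
prime of full dimension. -/
theorem exists_exactPrime (D : SingleData 𝒪 A) (h2 : IsUnit (2 : 𝒪)) {ϖ : 𝒪}
    (hϖ : Irreducible ϖ) (hd : d = 3 * Fintype.card A + Fintype.card G) {N : ℕ} (qs : Fin N → A)
    (hqs : ∀ a, D.isSt a = true ↔ ∃ i, qs i = a) (mk : Fin (N + 1) ⊕ Fin N → ℕ)
    (hm : ∀ j, 0 < mk j) (ψ : S →ₐ[𝒪] S) (hψfin : (ψ : S →+* S).Finite)
    (F : ∀ j, Src 𝒪 A G →ₐ[𝒪] Matrix (Fin (mk j)) (Fin (mk j)) S)
    (ι : ∀ j, S →ₐ[𝒪] Src 𝒪 A G ⧸ RingHom.ker (F j))
    (hfin : ∀ j, (ι j : S →+* Src 𝒪 A G ⧸ RingHom.ker (F j)).Finite)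
    (htf : ∀ j, ∀ (s : S) (z : Src 𝒪 A G ⧸ RingHom.ker (F j)), s ≠ 0 → ι j s * z = 0 → z = 0)
    (hι : ∀ j s, RingHom.kerLift (F j : Src 𝒪 A G →+* Matrix (Fin (mk j)) (Fin (mk j)) S) (ι j s) =
      algebraMap S _ (ψ s))
    (htype0 : (D.withSt fun _ => false).IsType
      (Ideal.Quotient.mk (RingHom.ker (F (Sum.inl 0)))))
    (htypeS : ∀ i, D.IsChainType (qs i) (chainSt qs i)
      (Ideal.Quotient.mk (RingHom.ker (F (Sum.inr i)))))
    (hsub : ∀ i : Fin N, RingHom.ker (F (Sum.inl i.succ)) ≤ RingHom.ker (F (Sum.inr i)))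
    (hquot : ∀ i : Fin N, ∀ z ∈ RingHom.ker (F (Sum.inr i)), ∃ X Y,
      F (Sum.inl i.castSucc) z = algebraMap 𝒪 S ϖ • X +
        F (Sum.inl i.castSucc) (D.tEl (qs i)) * Y)
    [DecidablePred ((D.withSt (chainSt qs N)).small (G := G))] :
    RingHom.ker (F (Sum.inl (Fin.last N))) ≤
      RingHom.ker ((D.withSt (chainSt qs N)).chart (G := G) hϖ :
        Src 𝒪 A G →+* MvPowerSeries (SingleData.PVar A G) 𝒪) ∧
      ∃ Q : Ideal (Src 𝒪 A G), Q.IsPrime ∧ RingHom.ker (F (Sum.inl (Fin.last N))) ≤ Q ∧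
        D.IsType (Ideal.Quotient.mk Q) ∧ algebraMap 𝒪 _ ϖ ∉ Q ∧
        ((d + 1 : ℕ) : WithBot ℕ∞) ≤ ringKrullDim (Src 𝒪 A G ⧸ Q) := by
  classical
  have := finite_residueField_mvPowerSeries (𝒪 := 𝒪) (Fin d)
  have := finite_residueField_mvPowerSeries (𝒪 := 𝒪) (Var A G)
  have : IsDomain (MvPowerSeries (SingleData.PVar A G) 𝒪) := NoZeroDivisors.to_isDomain _
  suffices hstep : ∀ i : Fin (N + 1),
      RingHom.ker (F (Sum.inl i)) ≤ RingHom.ker ((D.withSt (chainSt qs i)).chart (G := G) hϖ :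
        Src 𝒪 A G →+* MvPowerSeries (SingleData.PVar A G) 𝒪) ∧
      ∃ Q : Ideal (Src 𝒪 A G), Q.IsPrime ∧ RingHom.ker (F (Sum.inl i)) ≤ Q ∧
        (D.withSt (chainSt qs i)).IsType (Ideal.Quotient.mk Q) ∧ algebraMap 𝒪 _ ϖ ∉ Q ∧
        ((d + 1 : ℕ) : WithBot ℕ∞) ≤ ringKrullDim (Src 𝒪 A G ⧸ Q) by
    obtain ⟨h1, Q, hQ, hQ1, hQ2, hQ3⟩ := hstep (Fin.last N)
    refine ⟨?_, Q, hQ, hQ1, (D.isType_withSt_iff _ (chainSt_last D qs hqs) _).mp hQ2, hQ3⟩
    convert h1; exact (Fin.val_last N).symm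
  intro i
  induction i using Fin.induction with
  | zero =>
    -- the unramified type at a minimal prime of the first module
    obtain ⟨P₀, hP₀⟩ := Ideal.nonempty_minimalPrimes
      (show RingHom.ker (F (Sum.inl 0)) ≠ ⊤ from
        haveI : Nonempty (Fin (mk (Sum.inl 0))) := ⟨⟨0, hm _⟩⟩
        RingHom.ker_ne_top _)
    have := hP₀.1.1
    obtain ⟨Q, hQ, hJQ, -, hϖQ, hdim⟩ := exists_minimal_below hϖ (ι (Sum.inl 0))
      (hfin (Sum.inl 0)) (htf (Sum.inl 0)) P₀ hP₀.1.2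
    have := hQ
    have htQ : (D.withSt (chainSt qs ((0 : Fin (N + 1)) : ℕ))).IsType (Ideal.Quotient.mk Q) := by
      rw [show chainSt qs ((0 : Fin (N + 1)) : ℕ) = fun _ => false from funext fun a => by
          rw [Bool.eq_false_iff, Ne, chainSt_eq_true]; simp,
        show Ideal.Quotient.mk Q = (Ideal.Quotient.factor hJQ).comp (Ideal.Quotient.mk _) from
          (Ideal.Quotient.factor_comp_mk hJQ).symm]
      exact htype0.comp _ _
    exact ⟨hJQ.trans (SingleData.le_ker_chart _ h2 hϖ hd Q htQ hϖQ hdim),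
      Q, hQ, hJQ, htQ, hϖQ, hdim⟩
  | succ i ih =>
    -- a prime in the closed fibre of the chart, cut by `t`, lifts to the next module
    obtain ⟨P, hP, hCP, hϖP, htP, hne⟩ := D.exists_stepPrime (G := G) hϖ (chainSt qs i) (qs i)
      ((hqs _).mpr ⟨i, rfl⟩)
    have := hP
    have hkP : RingHom.ker (F (Sum.inr i)) ≤ P := fun z hz => by
      obtain ⟨X, Y, hXY⟩ := hquot i z hz
      exact mem_prime_of_image_mem hψfin (F _) (ι _) (hι _) P (ih.1.trans hCP) hϖP htP hXY
    obtain ⟨Q, hQ, hJQ, hQP, hϖQ, hdim⟩ := exists_minimal_below hϖ (ι (Sum.inr i))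
      (hfin (Sum.inr i)) (htf (Sum.inr i)) P hkP
    have := hQ
    have hct : D.IsChainType (qs i) (chainSt qs i) (Ideal.Quotient.mk Q) := by
      rw [← Ideal.Quotient.factor_comp_mk hJQ]
      exact (htypeS i).comp _ _
    have hchain : ∀ a, (chainSt qs i a && D.isSt a) = chainSt qs i a := fun a => by
      cases h : chainSt qs i a with
      | false => rfl
      | true =>
        obtain ⟨j, -, rfl⟩ := (chainSt_eq_true qs i a).mp h
        simp [(hqs (qs j)).mpr ⟨j, rfl⟩]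
    have htQ : (D.withSt (chainSt qs ((i.succ : Fin (N + 1)) : ℕ))).IsType
        (Ideal.Quotient.mk Q) := by
      refine hct.isType D (fun a ha hJa h => hne a ha (by rw [hchain]; exact hJa) ?_) fun a => ?_
      · rw [← Ideal.Quotient.factor_comp_mk hQP, sigAt_comp, h,
          Matrix.map_one _ (map_zero _) (map_one _)]
      · rw [Bool.and_eq_true, Fin.val_succ, chainSt_succ]
        refine ⟨fun h => h.1, fun h => ⟨h, (hqs a).mpr ?_⟩⟩
        rcases h with rfl | h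
        · exact ⟨i, rfl⟩
        · obtain ⟨j, -, rfl⟩ := (chainSt_eq_true qs i a).mp h
          exact ⟨j, rfl⟩
    exact ⟨((hsub i).trans hJQ).trans (SingleData.le_ker_chart _ h2 hϖ hd Q htQ hϖQ hdim),
      Q, hQ, (hsub i).trans hJQ, htQ, hϖQ, hdim⟩

variable {O' : Type} [CommRing O'] [IsDomain O'] [Algebra 𝒪 O']

/-- **Cayley–Hamilton**: an element acting as zero on the base vanishes at a point of the
support. -/
theorem apply_eq_zero_of_ker_le (ψ : S →ₐ[𝒪] S) (hψfin : (ψ : S →+* S).Finite)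
    (haug : ∀ P : Ideal S, P.IsPrime → (∀ k, ψ (MvPowerSeries.X k) ∈ P) →
      ∀ k, MvPowerSeries.X k ∈ P)
    (F : Src 𝒪 A G →ₐ[𝒪] MatS) (ι : S →ₐ[𝒪] Src 𝒪 A G ⧸ RingHom.ker F)
    (hι : ∀ s, RingHom.kerLift (F : Src 𝒪 A G →+* MatS) (ι s) = algebraMap S MatS (ψ s))
    (x : Src 𝒪 A G →ₐ[𝒪] O') (hFx : RingHom.ker F ≤ RingHom.ker (x : Src 𝒪 A G →+* O'))
    (Z : Fin d → Src 𝒪 A G) (hxZ : ∀ k, x (Z k) = 0)
    (hFZ : ∀ k, F (Z k) = algebraMap S MatS (ψ (MvPowerSeries.X k)))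
    (zl : Src 𝒪 A G) (hF0 : ∀ i j, MvPowerSeries.constantCoeff (F zl i j) = 0) : x zl = 0 := by
  classical
  have := finite_residueField_mvPowerSeries (𝒪 := 𝒪) (Fin d)
  have : (RingHom.ker (x : Src 𝒪 A G →+* O')).IsPrime := RingHom.ker_isPrime _
  obtain ⟨Q', hQ', hQ'c⟩ := exists_prime_toImage hψfin F ι hι
    (RingHom.ker (x : Src 𝒪 A G →+* O')) hFx
  -- the prime over the point contains the variables, hence all series without constant term
  have hX : ∀ k, MvPowerSeries.X k ∈ Q'.comap (algebraMap S (imageAlg F)) := by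
    refine haug _ inferInstance fun k => ?_
    have h1 : toImage F (Z k) ∈ Q' := by
      rw [← Ideal.mem_comap, hQ'c, RingHom.mem_ker]
      exact hxZ k
    rw [Ideal.mem_comap]
    convert h1 using 1
    exact Subtype.ext (hFZ k).symm
  have hcc : ∀ s : S, MvPowerSeries.constantCoeff s = 0 →
      algebraMap S (imageAlg F) s ∈ Q' := by
    intro s hs
    have h1 : s ∈ Ideal.span (Set.range (MvPowerSeries.X : Fin d → S)) :=
      mem_spanX_of_constantCoeff_eq_zero hs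
    exact (Ideal.span_le (I := Q'.comap (algebraMap S (imageAlg F)))).mpr
      (by rintro _ ⟨k, rfl⟩; exact hX k) h1
  -- Cayley–Hamilton
  set M := F zl with hM
  have hp : (M.charpoly.map (MvPowerSeries.constantCoeff (R := 𝒪) (σ := Fin d))) =
      Polynomial.X ^ m := by
    rw [← Matrix.charpoly_map,
      show M.map (MvPowerSeries.constantCoeff (R := 𝒪) (σ := Fin d)) = 0 from
      Matrix.ext fun i j => hF0 i j, Matrix.charpoly_zero, Fintype.card_fin]
  let w : imageAlg F := toImage F zl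
  have haev : Polynomial.aeval w M.charpoly = 0 := by
    refine Subtype.ext ?_
    exact (Polynomial.aeval_algHom_apply (imageAlg F).val w _).symm.trans
      (Matrix.aeval_self_charpoly M)
  have hdeg : M.charpoly.natDegree = m := by
    rw [Matrix.charpoly_natDegree_eq_dim, Fintype.card_fin]
  rw [Polynomial.aeval_eq_sum_range, hdeg, Finset.sum_range_succ] at haev
  have htop : M.charpoly.coeff m = 1 := by
    have := (Matrix.charpoly_monic M).coeff_natDegree
    rwa [hdeg] at this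
  rw [htop, one_smul] at haev
  have hsum : (∑ i ∈ Finset.range m, M.charpoly.coeff i • w ^ i) ∈ Q' := by
    refine Ideal.sum_mem _ fun i hi => ?_
    rw [Algebra.smul_def]
    refine Q'.mul_mem_right _ (hcc _ ?_)
    have := congrArg (fun P => Polynomial.coeff P i) hp
    simp only [Polynomial.coeff_map, Polynomial.coeff_X_pow] at this
    rwa [if_neg (Finset.mem_range.mp hi).ne] at this
  have hw : w ∈ Q' := by
    refine hQ'.mem_of_pow_mem m ?_
    rw [eq_neg_of_add_eq_zero_right haev]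
    exact neg_mem hsum
  exact RingHom.mem_ker.mp (hQ'c ▸ (Ideal.mem_comap.mpr hw :
    zl ∈ Q'.comap (toImage F)) : zl ∈ RingHom.ker (x : Src 𝒪 A G →+* O'))

/-- A limit of elements of the maximal ideal lies there. -/
theorem mem_maximalIdeal_of_limit {R : Type} [CommRing R] [IsLocalRing R] {zn : ℕ → R} {z : R}
    (h : ∀ k n, k ≤ n → zn n - z ∈ maximalIdeal R ^ k) (hn : ∀ n, zn n ∈ maximalIdeal R) :
    z ∈ maximalIdeal R := by
  simpa using sub_mem (hn 1) (show zn 1 - z ∈ maximalIdeal R by simpa using h 1 1 le_rfl)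

section Limit

variable [IsDiscreteValuationRing O'] [IsAdicComplete (maximalIdeal O') O']
  [IsLocalHom (algebraMap 𝒪 O')]

/-- A homomorphism on power series which is a limit of homomorphisms of the type has it. -/
theorem SingleData.isType_of_limit (D : SingleData 𝒪 A) {G : Type} [Fintype G]
    (x : Src 𝒪 A G →ₐ[𝒪] O') (xn : ℕ → Src 𝒪 A G →ₐ[𝒪] O')
    (hX : ∀ v, x (MvPowerSeries.X v) ∈ maximalIdeal O')
    (hxn : ∀ k n, k ≤ n → ∀ v,
      xn n (MvPowerSeries.X v) - x (MvPowerSeries.X v) ∈ maximalIdeal O' ^ k)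
    (h : ∀ n, D.IsType (xn n : Src 𝒪 A G →+* O')) : D.IsType (x : Src 𝒪 A G →+* O') := by
  refine SingleData.IsType.of_jointly D _ (fun k => Ideal.Quotient.mk (maximalIdeal O' ^ k))
    (fun b hb => IsHausdorff.haus' (I := maximalIdeal O') b fun k => ?_) fun k => ?_
  · rw [SModEq.zero, smul_eq_mul, Ideal.mul_top]
    exact Ideal.Quotient.eq_zero_iff_mem.mp (hb k)
  · rw [show (Ideal.Quotient.mk (maximalIdeal O' ^ k)).comp
          (x : Src 𝒪 A G →+* O') =
        (Ideal.Quotient.mk _).comp (xn k : Src 𝒪 A G →+* O') from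
      RingHom.ext fun z => (Ideal.Quotient.eq.mpr
        (sub_mem_pow_of_X hX (hxn k k le_rfl) z)).symm]
    exact (h k).comp D _

end Limit

section Chain

variable {N : ℕ} (D : SingleData 𝒪 A) (qs : Fin N → A) {mk : Fin (N + 1) ⊕ Fin N → ℕ} {ϖ : 𝒪}

/-- Reducing only enlarges the kernel. -/
theorem ker_le_ker_reduceHom {G : Type} {k N m : ℕ} (hk : k ≤ N)
    (f : Src 𝒪 A G →ₐ[𝒪] Matrix (Fin m) (Fin m) (S ⧸ maximalIdeal S ^ N)) :
    RingHom.ker f ≤ RingHom.ker (reduceHom hk f) := fun z hz => by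
  change (Ideal.Quotient.factor _).mapMatrix (f z) = 0
  rw [show f z = 0 from hz, map_zero]

/-- The conditions at the finite levels of a chain pass to the limit: the bottom type, the chain
types, the inclusions of kernels and the descent at each step. -/
theorem chain_conditions_of_limit
    {f : ∀ j, ∀ n : ℕ, Src 𝒪 A G →ₐ[𝒪] Matrix (Fin (mk j)) (Fin (mk j)) (S ⧸ maximalIdeal S ^ n)}
    {φ : ℕ → ℕ} (hφ : ∀ n, n ≤ φ n)
    {F : ∀ j, Src 𝒪 A G →ₐ[𝒪] Matrix (Fin (mk j)) (Fin (mk j)) S}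
    (hFn : ∀ j k n (h : k ≤ n) z, (F j z).map (Ideal.Quotient.mk (maximalIdeal S ^ k)) =
      reduceHom (h.trans (hφ n)) (f j (φ n)) z)
    (type_zero : ∀ n, (D.withSt fun _ => false).IsType
      (Ideal.Quotient.mk (RingHom.ker (f (Sum.inl 0) n))))
    (type_step : ∀ (i : Fin N) n, D.IsChainType (qs i) (chainSt qs i)
      (Ideal.Quotient.mk (RingHom.ker (f (Sum.inr i) n))))
    (sub : ∀ (i : Fin N) n k (h : k ≤ n) z, reduceHom h (f (Sum.inl i.succ) n) z = 0 →
      reduceHom h (f (Sum.inr i) n) z = 0)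
    (quot : ∀ (i : Fin N) n k (h : k ≤ n) z, reduceHom h (f (Sum.inr i) n) z = 0 →
      ∃ X Y, reduceHom h (f (Sum.inl i.castSucc) n) z =
        algebraMap 𝒪 (S ⧸ maximalIdeal S ^ k) ϖ • X +
          reduceHom h (f (Sum.inl i.castSucc) n) (D.tEl (qs i)) * Y) :
    (D.withSt fun _ => false).IsType (Ideal.Quotient.mk (RingHom.ker (F (Sum.inl 0)))) ∧
    (∀ i, D.IsChainType (qs i) (chainSt qs i)
      (Ideal.Quotient.mk (RingHom.ker (F (Sum.inr i))))) ∧
    (∀ i : Fin N, RingHom.ker (F (Sum.inl i.succ)) ≤ RingHom.ker (F (Sum.inr i))) ∧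
    ∀ i : Fin N, ∀ z ∈ RingHom.ker (F (Sum.inr i)), ∃ X Y,
      F (Sum.inl i.castSucc) z = algebraMap 𝒪 S ϖ • X +
        F (Sum.inl i.castSucc) (D.tEl (qs i)) * Y := by
  refine ⟨?_, fun i => ?_, fun i z hz => limit_eq_zero hφ (hFn (Sum.inr i)) fun k =>
    sub i (φ k) k (hφ k) z (ker_limit_le hφ (hFn (Sum.inl i.succ)) k hz), fun i z hz => ?_⟩
  -- each type condition holds at every finite level, so in the limit
  · refine SingleData.IsType.of_jointly _ _ _ (limit_jointly hφ (hFn (Sum.inl 0))) fun k => ?_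
    rw [Ideal.Quotient.factor_comp_mk,
      ← Ideal.Quotient.factor_comp_mk (ker_le_ker_reduceHom (hφ k) (f (Sum.inl 0) (φ k)))]
    exact (type_zero (φ k)).comp _ _
  · refine SingleData.IsChainType.of_jointly _ _ _ (limit_jointly hφ (hFn (Sum.inr i))) fun k => ?_
    rw [Ideal.Quotient.factor_comp_mk,
      ← Ideal.Quotient.factor_comp_mk (ker_le_ker_reduceHom (hφ k) (f (Sum.inr i) (φ k)))]
    exact (type_step i (φ k)).comp _ _
  -- the relation passes to the limit by `limit_mem_add`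
  · refine limit_mem_add hφ (hFn _) ϖ (zn := fun _ => z) (tn := fun _ => D.tEl (qs i))
      (fun k n _ => by simp) (fun k n _ => by simp) fun k n hkn =>
        quot i (φ n) k (hkn.trans (hφ n)) z ?_
    rw [← hFn (Sum.inr i) k n hkn z, show F (Sum.inr i) z = 0 from hz,
      Matrix.map_zero _ (map_zero _)]

end Chain

end Fermat.GR.Patch
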