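import Mathlib
import Fermat.Agent.GR.Patch.MultiLimit

/-!
# Patching a chain of coefficient systems: raising the level at several primes

Modules `E₀, …, E_N` and `X₀, …, X_{N-1}` over one source ring.  `E₀` is unramified at the
Steinberg primes, `X i` is Steinberg at the `i`-th prime and of union type at the earlier ones,
`E (i+1)` surjects onto `X i`, and `X i` surjects onto `E i / (ϖ, tr Φ - u (N+1))`.  Every point
of the exact type is killed by what kills the base of `E_N` (`eq_zero_of_chainInput`).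

The limit modules are treated in `MultiLimit`: climbing the chain one prime at a time
(`MultiPrime`) puts the exact component in the support of `E_N`. `MultiFrames` restates the result
for framed levels.
-/

set_option autoImplicit false

noncomputable section

namespace Fermat.GR.Patch

open IsLocalRing

variable {𝒪 : Type} [CommRing 𝒪] [IsDomain 𝒪] [IsDiscreteValuationRing 𝒪]
  [IsAdicComplete (maximalIdeal 𝒪) 𝒪] [Finite (ResidueField 𝒪)] [CharZero 𝒪]
  {A G : Type} [Fintype A] [Fintype G] {d m : ℕ}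

local notation "S" => MvPowerSeries (Fin d) 𝒪

/-- The data to be patched along a chain: actions of the source ring at all levels and maps between
the modules. -/
structure ChainInput (D : SingleData 𝒪 A) (ϖ : 𝒪) (ψ : S →ₐ[𝒪] S) (O' : Type) [CommRing O']
    [IsLocalRing O'] [Algebra 𝒪 O'] {N : ℕ} (qs : Fin N → A)
    (mk : Fin (N + 1) ⊕ Fin N → ℕ) : Type where
  /-- At each level, the source ring acting on the modules `E` (left) and `X` (right) of the
  chain. -/
  f : ∀ j, ∀ n, Src 𝒪 A G →ₐ[𝒪]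
    Matrix (Fin (mk j)) (Fin (mk j)) (S ⧸ maximalIdeal S ^ n)
  /-- The points. -/
  x : ℕ → Src 𝒪 A G →ₐ[𝒪] O'
  /-- The points are small. -/
  x_mem : ∀ n v, x n (MvPowerSeries.X v) ∈ maximalIdeal O'
  /-- The first module is unramified at every framed prime. -/
  type_zero : ∀ n, (D.withSt fun _ => false).IsType
    (Ideal.Quotient.mk (RingHom.ker (f (Sum.inl 0) n)))
  /-- `X i` is Steinberg at the `i`-th prime and of union type at the earlier ones. -/
  type_step : ∀ (i : Fin N) n, D.IsChainType (qs i) (chainSt qs i)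
    (Ideal.Quotient.mk (RingHom.ker (f (Sum.inr i) n)))
  /-- The points have the exact types. -/
  type_x : ∀ n, D.IsType (x n : Src 𝒪 A G →+* O')
  /-- What kills `E (i + 1)` kills `X i`, at every lower level. -/
  sub : ∀ (i : Fin N) n k (h : k ≤ n) z, reduceHom h (f (Sum.inl i.succ) n) z = 0 →
    reduceHom h (f (Sum.inr i) n) z = 0
  /-- What kills `X i` maps `E i` into `(ϖ, tEl (qs i))`, at every lower level. -/
  quot : ∀ (i : Fin N) n k (h : k ≤ n) z, reduceHom h (f (Sum.inr i) n) z = 0 →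
    ∃ X Y, reduceHom h (f (Sum.inl i.castSucc) n) z =
      algebraMap 𝒪 (S ⧸ maximalIdeal S ^ k) ϖ • X +
        reduceHom h (f (Sum.inl i.castSucc) n) (D.tEl (qs i)) * Y
  /-- The variables of `S` come from the source in all modules, killed by the points. -/
  par : ∀ n k, ∃ z, (∀ j, f j n z = algebraMap _ _
      (Ideal.Quotient.mk (maximalIdeal (MvPowerSeries (Fin d) 𝒪) ^ n) (ψ (MvPowerSeries.X k)))) ∧
    x n z = 0

variable {O' : Type} [CommRing O'] [IsDomain O'] [IsDiscreteValuationRing O']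
  [IsAdicComplete (maximalIdeal O') O'] [Finite (ResidueField O')] [CharZero O'] [Algebra 𝒪 O']
  [IsLocalHom (algebraMap 𝒪 O')]

/-- **Raising the level: every point of the exact type is automorphic.** -/
theorem eq_zero_of_chainInput (D : SingleData 𝒪 A) (h2 : IsUnit (2 : 𝒪)) {ϖ : 𝒪}
    (hϖ : Irreducible ϖ) (hd : d = 3 * Fintype.card A + Fintype.card G) {N : ℕ} (qs : Fin N → A)
    (hqs : ∀ a, D.isSt a = true ↔ ∃ i, qs i = a) (mk : Fin (N + 1) ⊕ Fin N → ℕ)
    (hm : ∀ j, 0 < mk j) (ψ : S →ₐ[𝒪] S) (hψfin : (ψ : S →+* S).Finite)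
    (hψinj : Function.Injective ψ)
    (haug : ∀ P : Ideal S, P.IsPrime → (∀ k, ψ (MvPowerSeries.X k) ∈ P) →
      ∀ k, MvPowerSeries.X k ∈ P)
    (I : ChainInput (G := G) (d := d) D ϖ ψ O' qs mk) (c : O') (zs : ℕ → Src 𝒪 A G)
    (hzs : ∀ n i j, ∀ s : S, Ideal.Quotient.mk _ s = I.f (Sum.inl (Fin.last N)) n (zs n) i j →
      MvPowerSeries.constantCoeff s ∈ Ideal.span {ϖ ^ n})
    (hc : ∀ n, I.x n (zs n) = c) : c = 0 := by
  classical
  have := finite_residueField_mvPowerSeries (𝒪 := 𝒪) (Fin d)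
  have := finite_residueField_mvPowerSeries (𝒪 := 𝒪) (Var A G)
  -- subsequences
  choose l hl using fun j n v a b => Ideal.Quotient.mk_surjective (I.f j n (MvPowerSeries.X v) a b)
  obtain ⟨φ₁, L₀, hφ₁, hL₀⟩ := exists_subseq_limit (R := S)
    (ι := (j : Fin (N + 1) ⊕ Fin N) × Var A G × Fin (mk j) × Fin (mk j))
    fun n p => l p.1 n p.2.1 p.2.2.1 p.2.2.2
  obtain ⟨φ₂, Y, hφ₂, hY⟩ := exists_subseq_limit (R := O') (ι := Var A G)
    fun n v => I.x (φ₁ n) (MvPowerSeries.X v)
  choose zp hzp hzp' using I.par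
  obtain ⟨φ₃, Zl, hφ₃, hZl⟩ := exists_subseq_limit (R := Src 𝒪 A G) (ι := Fin d ⊕ Unit)
    fun n => Sum.elim (fun k => zp (φ₁ (φ₂ n)) k) fun _ => zs (φ₁ (φ₂ n))
  let φ : ℕ → ℕ := fun n => φ₁ (φ₂ (φ₃ n))
  have hφ : ∀ n, n ≤ φ n := fun n => ((hφ₃.id_le n).trans (hφ₂.id_le _)).trans (hφ₁.id_le _)
  let L : ∀ j, Var A G → Matrix (Fin (mk j)) (Fin (mk j)) S :=
    fun j v => Matrix.of fun a b => L₀ ⟨j, v, a, b⟩
  have hL : ∀ j k n, ∀ h : k ≤ n, ∀ v,
      reduceHom (h.trans (hφ n)) (I.f j (φ n)) (MvPowerSeries.X v) =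
      (L j v).map (Ideal.Quotient.mk _) := fun j k n h v => Matrix.ext fun a b => by
    change Ideal.Quotient.factor (Ideal.pow_le_pow_right (h.trans (hφ n))) (I.f j (φ n) _ a b) = _
    rw [← hl, Ideal.Quotient.factor_mk]
    exact Ideal.Quotient.eq.mpr
      (hL₀ k (φ₂ (φ₃ n)) (h.trans ((hφ₃.id_le n).trans (hφ₂.id_le _))) ⟨j, v, a, b⟩)
  choose F hFX hFn ι hfin htf hι using fun j => exists_side ψ hψfin hψinj (I.f j) φ hφ (L j) (hL j)
    (fun k => Zl (Sum.inl k)) (fun n k => zp (φ n) k) (fun n k => hzp (φ n) k j)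
    (fun k n h i => hZl k n h (Sum.inl i)) (hm j)
  obtain ⟨htype0, htypeS, hsub, hquot⟩ :=
    chain_conditions_of_limit D qs hφ hFn I.type_zero I.type_step I.sub I.quot
  -- the limit point
  have hYm : ∀ v, Y v ∈ maximalIdeal O' := fun v =>
    mem_maximalIdeal_of_limit (fun k n h => hY k n h v) fun n => I.x_mem _ v
  let x : Src 𝒪 A G →ₐ[𝒪] O' := evalHom Y hYm
  have hxX : ∀ v, x (MvPowerSeries.X v) ∈ maximalIdeal O' := fun v => by
    rw [evalHom_X]; exact hYm v
  have hxn : ∀ k n, k ≤ n → ∀ v,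
      I.x (φ n) (MvPowerSeries.X v) - x (MvPowerSeries.X v) ∈ maximalIdeal O' ^ k :=
    fun k n hkn v => by
      rw [evalHom_X]
      exact hY k (φ₃ n) (hkn.trans (hφ₃.id_le n)) v
  have hxZ : ∀ k, x (Zl (Sum.inl k)) = 0 := fun k =>
    apply_limit_eq hxX hxn (zn := fun n => zp (φ n) k) (fun j n h => hZl j n h (Sum.inl k))
      fun n => hzp' _ _
  set zl := Zl (Sum.inr ())
  have hxz : x zl = c :=
    apply_limit_eq hxX hxn (zn := fun n => zs (φ n)) (fun j n h => hZl j n h (Sum.inr ()))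
      fun n => hc _
  -- exactness of the chain
  let : ∀ J, DecidablePred ((D.withSt J).small (G := G)) := fun J => Classical.decPred _
  obtain ⟨hlast, -⟩ := exists_exactPrime D h2 hϖ hd qs hqs mk hm ψ hψfin F ι hfin htf hι htype0
    htypeS hsub hquot
  -- the point lies on the last chart
  have htypex : D.IsType (x : Src 𝒪 A G →+* O') :=
    D.isType_of_limit x (fun n => I.x (φ n)) hxX hxn fun n => I.type_x _
  have hFx : RingHom.ker (F (Sum.inl (Fin.last N))) ≤ RingHom.ker (x : Src 𝒪 A G →+* O') :=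
    hlast.trans fun z hz => (D.withSt (chainSt qs N)).ker_chart_le hϖ x hxX
      ((D.isType_withSt_iff _ (chainSt_last D qs hqs) _).mpr htypex) hz
  -- Cayley-Hamilton
  rw [← hxz]
  exact apply_eq_zero_of_ker_le ψ hψfin haug _ (ι _) (hι _) x hFx (fun k => Zl (Sum.inl k)) hxZ
    (fun k => limit_eq_scalar hφ (hFn _) (zn := fun n => zp (φ n) k)
      (fun j n h => hZl j n h (Sum.inl k)) _ fun n => hzp (φ n) k _)
    zl (limit_constantCoeff_eq_zero hφ (hFn _) hϖ (zn := fun n => zs (φ n))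
      (fun j n h => hZl j n h (Sum.inr ())) fun n => hzs (φ n))

end Fermat.GR.Patch
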