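import Mathlib
import Fermat.Agent.GR.Patch.MultiPatch
import Fermat.Agent.GR.Patch.FrameLevel

/-!
# Frames for a chain of coefficient systems

Levels given by one ring with matrices at the framed primes acting on all modules of a chain,
with intertwining maps between them (`ChainLevel`), yield the input of patching: hence
`eq_zero_of_chainLevels`, the form of `MultiPatch` used for raising the level
(`GR/RT/Lift/CaseChain`, `GR/RT/LevelChain`).
-/

set_option autoImplicit false
set_option linter.unusedSectionVars false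

noncomputable section

namespace Fermat.GR.Patch

open IsLocalRing Matrix

local notation "M2" R => Matrix (Fin 2) (Fin 2) R

variable {𝒪 : Type} [CommRing 𝒪] [IsDomain 𝒪] [IsDiscreteValuationRing 𝒪]
  [IsAdicComplete (maximalIdeal 𝒪) 𝒪] [Finite (ResidueField 𝒪)] [CharZero 𝒪]
  {A : Type} [Fintype A] [DecidableEq A] {d g r : ℕ}
  {O' : Type} [CommRing O'] [IsDomain O'] [IsDiscreteValuationRing O']
  [IsAdicComplete (maximalIdeal O') O'] [Finite (ResidueField O')] [CharZero O'] [Algebra 𝒪 O']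
  [IsLocalHom (algebraMap 𝒪 O')]

local notation "S" => MvPowerSeries (Fin d) 𝒪

/-- What is needed at level `n`: a ring with matrices at the framed primes, the tangent bound, an
action on the modules of the chain with the maps between them, and a point. -/
structure ChainLevel (D : SingleData 𝒪 A) (ϖ : 𝒪) (q₀ : A) (g : ℕ) (ψ : S →ₐ[𝒪] S)
    (emb : Fin r ⊕ FrameVar A q₀ ≃ Fin d) (c : O') {N : ℕ} (qs : Fin N → A)
    (mk : Fin (N + 1) ⊕ Fin N → ℕ) (n : ℕ) : Type 1 where
  /-- The coefficient ring of level `n`. -/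
  R : Type
  [instCommRing : CommRing R]
  [instLocal : IsLocalRing R]
  [instNoeth : IsNoetherianRing R]
  [instComplete : IsAdicComplete (maximalIdeal R) R]
  [instAlgebra : Algebra 𝒪 R]
  [instLocalHom : IsLocalHom (algebraMap 𝒪 R)]
  /-- The residue field of `R` is that of `𝒪`. -/
  hres : Function.Surjective (residue R ∘ algebraMap 𝒪 R)
  /-- The image of Frobenius at each framed prime. -/
  Phi : A → M2 R
  /-- The image of the tame generator at each framed prime. -/
  Sig : A → M2 R
  /-- Frobenius is residually `phi0`. -/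
  Phi_red : ∀ q i j, Phi q i j - algebraMap 𝒪 R (D.phi0 q i j) ∈ maximalIdeal R
  /-- The tame generator is residually `1`. -/
  Sig_red : ∀ q i j, Sig q i j - (1 : M2 R) i j ∈ maximalIdeal R
  /-- Tangent vectors killing the framed matrices form spaces of dimension at most `g`. -/
  tangent : ∀ K : Submodule (ResidueField (MvPowerSeries (FrameVar A q₀) R))
      (MvPowerSeries (FrameVar A q₀) R → ResidueField (MvPowerSeries (FrameVar A q₀) R)),
    (∀ l ∈ K, l ∈ tangentSpace 𝒪 (MvPowerSeries (FrameVar A q₀) R) ∧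
      (∀ q i j, l (framed q₀ q (Phi q) i j) = 0) ∧ ∀ q i j, l (framed q₀ q (Sig q) i j) = 0) →
    Finite K ∧ Nat.card K ≤ Nat.card (ResidueField (MvPowerSeries (FrameVar A q₀) R)) ^ g
  /-- The actions on the modules `E` (left indices) and `X` (right indices) of the chain. -/
  α : ∀ j, R →ₐ[𝒪] Matrix (Fin (mk j)) (Fin (mk j)) (S ⧸ maximalIdeal S ^ n)
  /-- The point. -/
  x : R →ₐ[𝒪] O'
  /-- The point is a local map. -/
  x_mem : ∀ y ∈ maximalIdeal R, x y ∈ maximalIdeal O'
  /-- The first module is unramified at every framed prime. -/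
  type_zero : ∀ q, (D.withSt fun _ => false).TypeRel q
    (Ideal.Quotient.mk (RingHom.ker (α (Sum.inl 0))) (algebraMap 𝒪 R (D.u q)))
    ((Phi q).map (Ideal.Quotient.mk (RingHom.ker (α (Sum.inl 0)))))
    ((Sig q).map (Ideal.Quotient.mk (RingHom.ker (α (Sum.inl 0)))))
  /-- On `X i` the relations of the `i`-th step of the chain hold. -/
  type_step : ∀ i q, D.ChainRel (qs i) (chainSt qs i) q
    (Ideal.Quotient.mk (RingHom.ker (α (Sum.inr i))) (algebraMap 𝒪 R (D.u q)))
    ((Phi q).map (Ideal.Quotient.mk (RingHom.ker (α (Sum.inr i)))))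
    ((Sig q).map (Ideal.Quotient.mk (RingHom.ker (α (Sum.inr i)))))
  /-- The point has the exact types. -/
  type_x : ∀ q, D.TypeRel q (algebraMap 𝒪 O' (D.u q)) ((Phi q).map x) ((Sig q).map x)
  /-- `E (i + 1)` maps equivariantly onto `X i`. -/
  proj : ∀ i : Fin N, ∃ (P : Matrix (Fin (mk (Sum.inr i))) (Fin (mk (Sum.inl i.succ)))
      (S ⧸ maximalIdeal S ^ n))
    (Q : Matrix (Fin (mk (Sum.inl i.succ))) (Fin (mk (Sum.inr i))) (S ⧸ maximalIdeal S ^ n)),
    P * Q = 1 ∧
    ∀ y, P * α (Sum.inl i.succ) y = α (Sum.inr i) y * P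
  /-- `X i` maps onto `E i` modulo `(ϖ, tr Φ - u (N + 1))` at the `i`-th prime, equivariantly so. -/
  desc : ∀ i : Fin N, ∃ (P : Matrix (Fin (mk (Sum.inl i.castSucc))) (Fin (mk (Sum.inr i)))
      (S ⧸ maximalIdeal S ^ n))
    (Q : Matrix (Fin (mk (Sum.inr i))) (Fin (mk (Sum.inl i.castSucc))) (S ⧸ maximalIdeal S ^ n)),
    (∃ X Y : Matrix (Fin (mk (Sum.inl i.castSucc))) (Fin (mk (Sum.inl i.castSucc)))
      (S ⧸ maximalIdeal S ^ n), P * Q - 1 = algebraMap 𝒪 (S ⧸ maximalIdeal S ^ n) ϖ • X +
      α (Sum.inl i.castSucc) ((Phi (qs i)).trace -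
        algebraMap 𝒪 R (D.u (qs i)) * ((D.N (qs i) : R) + 1)) * Y) ∧
    ∀ y, ∃ X Y : Matrix (Fin (mk (Sum.inl i.castSucc))) (Fin (mk (Sum.inr i)))
      (S ⧸ maximalIdeal S ^ n), P * α (Sum.inr i) y - α (Sum.inl i.castSucc) y * P =
      algebraMap 𝒪 (S ⧸ maximalIdeal S ^ n) ϖ • X +
        α (Sum.inl i.castSucc) ((Phi (qs i)).trace -
          algebraMap 𝒪 R (D.u (qs i)) * ((D.N (qs i) : R) + 1)) * Y
  /-- Each auxiliary variable is an element of `R` in all the modules, killed by the point. -/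
  par : ∀ k : Fin r, ∃ y, (∀ j, α j y = algebraMap _ _
      (Ideal.Quotient.mk (maximalIdeal (MvPowerSeries (Fin d) 𝒪) ^ n)
        (ψ (MvPowerSeries.X (emb (Sum.inl k)))))) ∧ x y = 0
  /-- The element whose value at the point is `c`. -/
  z : R
  /-- `z` acts on the last module by matrices with constant terms in `(ϖ ^ n)`. -/
  z_base : ∀ i j, ∀ s : S, Ideal.Quotient.mk _ s = α (Sum.inl (Fin.last N)) z i j →
    MvPowerSeries.constantCoeff s ∈ Ideal.span {ϖ ^ n}
  /-- The value of `z` at the point. -/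
  z_point : x z = c

attribute [instance] ChainLevel.instCommRing ChainLevel.instLocal ChainLevel.instNoeth
  ChainLevel.instComplete ChainLevel.instAlgebra ChainLevel.instLocalHom

variable {D : SingleData 𝒪 A} {ϖ : 𝒪} {q₀ : A}
  {ψ : MvPowerSeries (Fin d) 𝒪 →ₐ[𝒪] MvPowerSeries (Fin d) 𝒪}
  {emb : Fin r ⊕ FrameVar A q₀ ≃ Fin d} {c : O'} {N : ℕ} {qs : Fin N → A}
  {mk : Fin (N + 1) ⊕ Fin N → ℕ}

/-- Framed levels yield an input of patching, with an element of value `c` at each point whose
action on the last module has constant terms in `(ϖ ^ n)`. -/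
theorem exists_chainInput
    (hψ : ∀ v, ψ (MvPowerSeries.X (emb (Sum.inr v))) = MvPowerSeries.X (emb (Sum.inr v)))
    (L : ∀ n, ChainLevel D ϖ q₀ g ψ emb c qs mk n) :
    ∃ (I : ChainInput (G := Fin g) (d := d) D ϖ ψ O' qs mk) (zs : ℕ → Src 𝒪 A (Fin g)),
      (∀ n i j, ∀ s : S, Ideal.Quotient.mk _ s = I.f (Sum.inl (Fin.last N)) n (zs n) i j →
        MvPowerSeries.constantCoeff s ∈ Ideal.span {ϖ ^ n}) ∧
      ∀ n, I.x n (zs n) = c := by
  classical
  have := finite_residueField_mvPowerSeries (𝒪 := 𝒪) (Fin d)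
  choose zW hzW hθsurj using fun n =>
    exists_frameSubst_surjective q₀ (L n).Phi_red (L n).Sig_red (L n).hres g (L n).tangent
  let θ := fun n => frameSubst q₀ (L n).Phi_red (L n).Sig_red (hzW n)
  -- the actions
  let t : ∀ n, FrameVar A q₀ → S ⧸ maximalIdeal S ^ n := fun n v =>
    Ideal.Quotient.mk _ (MvPowerSeries.X (emb (Sum.inr v)))
  have ht : ∀ n v, IsNilpotent (t n v) := fun n v => ⟨n, by
    rw [← map_pow, Ideal.Quotient.eq_zero_iff_mem];
      exact Ideal.pow_mem_pow (X_mem_maximalIdeal _) n⟩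
  choose β hβC hβX using fun n j => exists_extend ((L n).α j) (t n) (ht n)
  -- the points
  let xW := fun n => framedPoint q₀ (L n).x
  have hxC : ∀ n a, xW n (MvPowerSeries.C a) = (L n).x a := fun n => framedPoint_C q₀ (L n).x
  have htypex : ∀ n, D.IsType ((xW n : MvPowerSeries (FrameVar A q₀) (L n).R →+* O').comp
      (θ n : Src 𝒪 A (Fin g) →+* MvPowerSeries (FrameVar A q₀) (L n).R)) := fun n =>
    isType_comp_frameSubst q₀ (L n).Phi_red (L n).Sig_red (hzW n) _ fun q => by
      have h := (L n).type_x q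
      convert h using 2
      · exact (hxC n _).trans ((L n).x.commutes _)
      · exact Matrix.ext fun i j => hxC n _
      · exact Matrix.ext fun i j => hxC n _
  have hpar : ∀ n k, ∃ y, (∀ j, β n j (θ n y) = algebraMap _ _
      (Ideal.Quotient.mk (maximalIdeal S ^ n) (ψ (MvPowerSeries.X k)))) ∧
        xW n (θ n y) = 0 := by
    intro n k
    obtain ⟨k, rfl⟩ := emb.surjective k
    rcases k with k | v
    · obtain ⟨y, hy, hy'⟩ := (L n).par k
      obtain ⟨w, hw⟩ := hθsurj n (MvPowerSeries.C y)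
      exact ⟨w, fun j => by rw [hw, hβC, hy], by rw [hw, hxC, hy']⟩
    · obtain ⟨w, hw⟩ := hθsurj n (MvPowerSeries.X v)
      refine ⟨w, fun j => by rw [hw, hβX, hψ], ?_⟩
      rw [hw]
      show (L n).x (MvPowerSeries.constantCoeff (MvPowerSeries.X v)) = 0
      rw [MvPowerSeries.constantCoeff_X, map_zero]
  let I : ChainInput (G := Fin g) (d := d) D ϖ ψ O' qs mk :=
    { f := fun j n => (β n j).comp (θ n)
      x := fun n => (xW n).comp (θ n)
      x_mem := fun n v => (L n).x_mem _ fun hu2 =>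
        frameSubst_mem q₀ (L n).Phi_red (L n).Sig_red (hzW n) v
          (MvPowerSeries.isUnit_iff_constantCoeff.mpr hu2)
      type_zero := fun n => isType_withSt_ker_extend q₀ (L n).Phi_red (L n).Sig_red (hzW n)
        (hβC n _) _ (L n).type_zero
      type_step := fun i n => isChainType_ker_extend q₀ (L n).Phi_red (L n).Sig_red (hzW n)
        (hβC n _) _ _ ((L n).type_step i)
      type_x := htypex
      sub := fun i n k h w hw => by
        obtain ⟨P, Q, hPQ, hP⟩ := (L n).proj i
        exact map_eq_zero_of_proj (β n (Sum.inl i.succ)) (β n (Sum.inr i)) (t n)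
          (Ideal.Quotient.factor (Ideal.pow_le_pow_right (I := maximalIdeal S) h)) (ht n)
            (hβX n _) (hβX n _) hPQ
          (fun y => by rw [hβC, hβC]; exact hP y) (w := θ n w) hw
      quot := fun i n k h w hw => exists_map_eq_of_step q₀ (L n).Phi_red (L n).Sig_red (hzW n)
        (hβC n _) (hβC n _) (ht n) (hβX n _) (hβX n _)
        (Ideal.Quotient.factor (Ideal.pow_le_pow_right (I := maximalIdeal S) h)) (qs i) _
        ((L n).desc i) hw
      par := hpar }
  choose zs hz using fun n => hθsurj n (MvPowerSeries.C (L n).z)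
  refine ⟨I, zs, fun n i j s hs => ?_, fun n => ?_⟩
  · change _ = β n _ (θ n (zs n)) i j at hs
    rw [hz, hβC] at hs
    exact (L n).z_base i j s hs
  · show xW n (θ n (zs n)) = c
    rw [hz, hxC, (L n).z_point]

/-- **Raising the level: every point of the exact type is automorphic**, in terms of framed
levels. -/
theorem eq_zero_of_chainLevels (h2 : IsUnit (2 : 𝒪)) (hϖ : Irreducible ϖ)
    (hqs : ∀ a, D.isSt a = true ↔ ∃ i, qs i = a) (hm : ∀ j, 0 < mk j)
    (hg : g + 1 = r + Fintype.card A) (hψfin : (ψ : S →+* S).Finite)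
    (hψinj : Function.Injective ψ)
    (hψ : ∀ v, ψ (MvPowerSeries.X (emb (Sum.inr v))) = MvPowerSeries.X (emb (Sum.inr v)))
    (haug : ∀ P : Ideal S, P.IsPrime → (∀ k, ψ (MvPowerSeries.X k) ∈ P) →
      ∀ k, MvPowerSeries.X k ∈ P)
    (L : ∀ n, ChainLevel D ϖ q₀ g ψ emb c qs mk n) : c = 0 := by
  obtain ⟨I, zs, hzs, hc⟩ := exists_chainInput hψ L
  have hd : d = 3 * Fintype.card A + Fintype.card (Fin g) := card_eq_of_emb emb hg
  exact eq_zero_of_chainInput (G := Fin g) D h2 hϖ hd qs hqs mk hm ψ hψfin hψinj haug I c zs hzs hc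

end Fermat.GR.Patch
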