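import Mathlib
import Fermat.Prelude.Thm_IsAdicComplete_of_module_finite
import Fermat.Agent.GR.Patch.Base
import Fermat.Agent.GR.Patch.Dim
import Fermat.Agent.GR.Patch.Patching

/-!
# The symmetrising endomorphism of the ring of parameters

At an auxiliary prime only `(1 + y) + (1 + y)⁻¹ - 2 = y² / (1 + y)` of the diamond variable `y`
comes from the deformation ring.  `symmHom isY` sends `X v` to this expression for the variables
selected by `isY` and fixes the others: it is a finite injective endomorphism of `𝒪⟦X₁,…,X_d⟧`.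
-/

set_option autoImplicit false
set_option linter.unusedSectionVars false

noncomputable section

namespace Fermat.GR.Patch

open IsLocalRing

/-- An integral extension has dimension at most that of the base. -/
theorem ringKrullDim_le_of_integral {R T : Type} [CommRing R] [CommRing T] (f : R →+* T)
    (hint : f.IsIntegral) : ringKrullDim T ≤ ringKrullDim R := by
  let := f.toAlgebra
  have : Algebra.IsIntegral R T := ⟨hint⟩
  refine Order.krullDim_le_of_strictMono (PrimeSpectrum.comap f) fun P Q h => ?_
  obtain ⟨hle, x, hxQ, hxP⟩ := Set.ssubset_iff_exists.mp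
    (show (P.asIdeal : Set T) ⊂ (Q.asIdeal : Set T) from h)
  exact Ideal.comap_lt_comap_of_integral_mem_sdiff (R := R) hle ⟨hxQ, hxP⟩
    (Algebra.IsIntegral.isIntegral x)

/-- A local map out of a complete local ring is finite if the closed fibre is a finite ring. -/
theorem finite_of_finite_quotient {R T : Type} [CommRing R] [IsLocalRing R] [IsNoetherianRing R]
    [IsAdicComplete (maximalIdeal R) R] [CommRing T] [IsLocalRing T]
    [IsHausdorff (maximalIdeal T) T] (f : R →+* T) (hle : (maximalIdeal R).map f ≤ maximalIdeal T)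
    [Finite (T ⧸ (maximalIdeal R).map f)] : f.Finite := by
  classical
  obtain ⟨k, ⟨en⟩⟩ := Finite.exists_equiv_fin (T ⧸ (maximalIdeal R).map f)
  let := f.toAlgebra
  have h : IsHausdorff ((maximalIdeal R).map (algebraMap R T)) T := by
    refine ⟨fun x hx => IsHausdorff.haus' (I := maximalIdeal T) x fun n => ?_⟩
    have := hx n
    rw [SModEq.sub_mem, smul_eq_mul, Ideal.mul_top] at this ⊢
    exact Ideal.pow_right_mono hle n this
  have : IsHausdorff (maximalIdeal R) T := IsHausdorff.map_algebraMap_iff.mp h
  let F : (Fin k → R) →ₗ[R] T := Fintype.linearCombination R fun i => Quotient.out (en.symm i)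
  have : IsAdicComplete (maximalIdeal R) (Fin k → R) := IsAdicComplete.of_module_finite _ _
  have hsurj : Function.Surjective F := by
    refine surjective_of_mkQ_comp_surjective (I := maximalIdeal R) fun y => ?_
    obtain ⟨y, rfl⟩ := Submodule.mkQ_surjective _ y
    refine ⟨Pi.single (en (Ideal.Quotient.mk _ y)) 1, ?_⟩
    rw [LinearMap.comp_apply, Submodule.mkQ_apply, Submodule.mkQ_apply, Submodule.Quotient.eq,
      Ideal.smul_top_eq_map, Submodule.restrictScalars_mem]
    change F _ - y ∈ (maximalIdeal R).map f
    rw [← Ideal.Quotient.eq]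
    simp [F]
  exact Module.Finite.of_surjective F hsurj

variable {𝒪 : Type} [CommRing 𝒪] [IsDomain 𝒪] [IsDiscreteValuationRing 𝒪]
  [IsAdicComplete (maximalIdeal 𝒪) 𝒪] [Finite (ResidueField 𝒪)] [CharZero 𝒪] {d : ℕ}

local notation "S" => MvPowerSeries (Fin d) 𝒪

/-- A finite endomorphism of the power series ring is injective. -/
theorem injective_of_finite (ψ : S →+* S) (hψ : ψ.Finite) : Function.Injective ψ := by
  rw [injective_iff_map_eq_zero]
  by_contra h
  push Not at h
  obtain ⟨r, hr, hr0⟩ := h
  have h1 := ringKrullDim_quotient_succ_le_of_nonZeroDivisor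
    (mem_nonZeroDivisors_of_ne_zero hr0)
  have hle : Ideal.span {r} ≤ RingHom.ker ψ := (Ideal.span_singleton_le_iff_mem _).mpr hr
  have hint : (Ideal.Quotient.lift (Ideal.span {r}) ψ fun a ha => hle ha).IsIntegral := by
    refine RingHom.IsIntegral.tower_top (Ideal.Quotient.mk (Ideal.span {r})) _ ?_
    rw [Ideal.Quotient.lift_comp_mk]
    exact hψ.to_isIntegral
  have h2 : ringKrullDim S ≤ ringKrullDim (S ⧸ Ideal.span {r}) :=
    ringKrullDim_le_of_integral _ hint
  have h3 : ringKrullDim S + 1 ≤ ringKrullDim S := (add_le_add_left h2 1).trans h1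
  have h4 : ringKrullDim S ≠ ⊥ := ringKrullDim_ne_bot
  have h5 : ringKrullDim S ≠ ⊤ := ringKrullDim_ne_top
  revert h3 h4 h5
  generalize ringKrullDim S = D
  intro h3 h4 h5
  induction D with
  | bot => exact h4 rfl
  | coe D =>
    induction D with
    | top => exact h5 rfl
    | coe n =>
      have : ((n + 1 : ℕ) : WithBot ℕ∞) ≤ ((n : ℕ) : WithBot ℕ∞) := by push_cast; exact h3
      have := Nat.cast_le.mp (WithBot.coe_le_coe.mp this)
      omega

variable (isY : Fin d → Prop) [DecidablePred isY]

/-- `1 + X v` is a unit. -/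
theorem isUnit_one_add_X (v : Fin d) : IsUnit ((1 : S) + MvPowerSeries.X v) :=
  MvPowerSeries.isUnit_iff_constantCoeff.mpr (by simp)

/-- The images of the variables. -/
def symmVar (v : Fin d) : S :=
  if isY v then MvPowerSeries.X v ^ 2 * Ring.inverse (1 + MvPowerSeries.X v)
  else MvPowerSeries.X v

/-- The images of the variables lie in the maximal ideal. -/
theorem symmVar_mem (v : Fin d) : symmVar (𝒪 := 𝒪) isY v ∈ maximalIdeal S := by
  rw [symmVar]
  split_ifs
  · exact Ideal.mul_mem_right _ _ (Ideal.pow_mem_of_mem _ (X_mem_maximalIdeal v) 2 two_pos)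
  · exact X_mem_maximalIdeal v

/-- `X v ↦ X v² / (1 + X v)` on the selected variables. -/
def symmHom : S →ₐ[𝒪] S := evalHom (symmVar isY) (symmVar_mem isY)

/-- The values of `symmHom` at the variables. -/
theorem symmHom_X (v : Fin d) : symmHom isY (MvPowerSeries.X v : S) = symmVar isY v :=
  evalHom_X _ _ v

/-- `symmHom` fixes the unselected variables. -/
theorem symmHom_X_of_not {v : Fin d} (h : ¬ isY v) :
    symmHom isY (MvPowerSeries.X v : S) = MvPowerSeries.X v := by
  rw [symmHom_X, symmVar, if_neg h]

/-- The value of `symmHom` at a selected variable. -/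
theorem symmHom_X_of {v : Fin d} (h : isY v) :
    symmHom isY (MvPowerSeries.X v : S) =
      MvPowerSeries.X v ^ 2 * Ring.inverse (1 + MvPowerSeries.X v) := by
  rw [symmHom_X, symmVar, if_pos h]

/-- A prime containing the image of a variable contains the variable. -/
theorem X_mem_of_symmHom_mem {P : Ideal S} (hP : P.IsPrime) {v : Fin d}
    (h : symmHom isY (MvPowerSeries.X v : S) ∈ P) : MvPowerSeries.X v ∈ P := by
  rw [symmHom_X, symmVar] at h
  split_ifs at h with hv
  · refine hP.mem_of_pow_mem 2 ((hP.mem_or_mem h).resolve_right fun h' => hP.ne_top ?_)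
    exact P.eq_top_of_isUnit_mem h' ((isUnit_one_add_X v).ringInverse)
  · exact h

/-- `symmHom` is local. -/
theorem isLocalHom_symmHom :
    IsLocalHom (symmHom (𝒪 := 𝒪) isY : S →+* S) := by
  refine ⟨fun f hf => ?_⟩
  have : IsLocalHom (algebraMap 𝒪 S) := ⟨fun o ho => by
    simpa [MvPowerSeries.algebraMap_apply] using MvPowerSeries.isUnit_iff_constantCoeff.mp ho⟩
  by_contra hu
  exact map_mem_maximalIdeal (symmHom isY)
    (fun v => by rw [symmHom_X]; exact symmVar_mem isY v)
    (fun h => hu (MvPowerSeries.isUnit_iff_constantCoeff.mpr h)) hf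

/-- The symmetrising endomorphism is finite. -/
theorem finite_symmHom : (symmHom (𝒪 := 𝒪) isY : S →+* S).Finite := by
  classical
  have := finite_residueField_mvPowerSeries (𝒪 := 𝒪) (Fin d)
  have := isLocalHom_symmHom (𝒪 := 𝒪) isY
  set ψ : S →+* S := (symmHom (𝒪 := 𝒪) isY : S →+* S)
  set J : Ideal S := (maximalIdeal S).map ψ
  have hJle : J ≤ maximalIdeal S :=
    Ideal.map_le_iff_le_comap.mpr fun f hf => map_nonunit ψ f hf
  have hrad : maximalIdeal S ≤ J.radical := by
    intro f hf
    have h1 : f - algebraMap 𝒪 S (MvPowerSeries.constantCoeff f) ∈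
        Ideal.span (Set.range (MvPowerSeries.X : Fin d → S)) :=
      mem_spanX_of_constantCoeff_eq_zero (by simp [MvPowerSeries.algebraMap_apply])
    have h2 : algebraMap 𝒪 S (MvPowerSeries.constantCoeff f) ∈ J := by
      rw [← (symmHom isY).commutes]
      exact Ideal.mem_map_of_mem ψ (C_mem_maximalIdeal fun hu =>
        hf (MvPowerSeries.isUnit_iff_constantCoeff.mpr hu))
    have h3 : Ideal.span (Set.range (MvPowerSeries.X : Fin d → S)) ≤ J.radical := by
      refine Ideal.span_le.mpr ?_
      rintro _ ⟨v, rfl⟩
      rw [Ideal.radical_eq_sInf, SetLike.mem_coe, Submodule.mem_sInf]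
      exact fun P hP => X_mem_of_symmHom_mem isY hP.2
        (hP.1 (Ideal.mem_map_of_mem ψ (X_mem_maximalIdeal v)))
    simpa using add_mem (h3 h1) (Ideal.le_radical h2)
  obtain ⟨N, hN⟩ := Ideal.exists_pow_le_of_le_radical_of_fg hrad (IsNoetherian.noetherian _)
  have : Finite (S ⧸ J) := by
    have := finite_quotient_maximalIdeal_pow S N
    exact Finite.of_surjective _ (Ideal.Quotient.factor_surjective hN)
  exact finite_of_finite_quotient ψ hJle

/-- `symmHom` is injective. -/
theorem injective_symmHom : Function.Injective (symmHom (𝒪 := 𝒪) isY : S → S) :=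
  injective_of_finite (symmHom (𝒪 := 𝒪) isY : S →+* S) (finite_symmHom isY)

end Fermat.GR.Patch
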