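import Mathlib
import Fermat.Agent.GR.Patch.Patching

/-!
# From auxiliary group rings to quotients of the ring of parameters

A product of cyclic groups of order `p^N`, `n ≤ N`, maps to the units of `𝒪⟦X⟧ / m^n` sending
generators to `1 + X`.
-/

set_option autoImplicit false

noncomputable section

namespace Fermat.GR.Patch

open IsLocalRing

/-- A unit congruent to `1` modulo `I ∋ p` has `p ^ N`-th power congruent to `1` modulo `I ^ (N +
1)`. -/
theorem pow_prime_pow_sub_one_mem {R : Type} [CommRing R] {I : Ideal R} {p : ℕ}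
    (hp : (p : R) ∈ I) {u : R} (hu : u - 1 ∈ I) : ∀ N, u ^ p ^ N - 1 ∈ I ^ (N + 1) := by
  intro N
  induction N with
  | zero => simpa using hu
  | succ N ih =>
    set x := u ^ p ^ N
    have hx : x - 1 ∈ I := Ideal.pow_le_self (Nat.succ_ne_zero N) ih
    have hxp : u ^ p ^ (N + 1) = x ^ p := by rw [← pow_mul, ← pow_succ]
    rw [hxp, ← geom_sum_mul x p, pow_succ' I (N + 1)]
    refine Ideal.mul_mem_mul ?_ ih
    have h : ∑ i ∈ Finset.range p, x ^ i - (p : R) ∈ I := by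
      have : ∑ i ∈ Finset.range p, x ^ i - (p : R) = ∑ i ∈ Finset.range p, (x ^ i - 1) := by simp
      rw [this]
      refine Ideal.sum_mem _ fun i _ => ?_
      rw [← geom_sum_mul x i]
      exact Ideal.mul_mem_left _ _ hx
    simpa using add_mem h hp

variable {𝒪 : Type} [CommRing 𝒪] [IsDomain 𝒪] [IsDiscreteValuationRing 𝒪]
  [IsAdicComplete (maximalIdeal 𝒪) 𝒪] [Finite (ResidueField 𝒪)] [CharZero 𝒪] {d : ℕ}

local notation "S" => MvPowerSeries (Fin d) 𝒪

variable (d) in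
/-- Reduction of constant terms. -/
def constRed {ϖ : 𝒪} (hϖ : Irreducible ϖ) (n : ℕ) :
    (MvPowerSeries (Fin d) 𝒪 ⧸ maximalIdeal (MvPowerSeries (Fin d) 𝒪) ^ n) →+*
      𝒪 ⧸ Ideal.span {ϖ ^ n} :=
  Ideal.Quotient.lift _ ((Ideal.Quotient.mk _).comp
    (MvPowerSeries.constantCoeff (σ := Fin d) (R := 𝒪))) fun _ hs =>
      Ideal.Quotient.eq_zero_iff_mem.mpr (constantCoeff_mem_span_of_mem hϖ hs)

/-- The reduction of the constant term of a class. -/
theorem constRed_mk {ϖ : 𝒪} (hϖ : Irreducible ϖ) (n : ℕ) (s : S) :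
    constRed d hϖ n (Ideal.Quotient.mk _ s) = Ideal.Quotient.mk _ (MvPowerSeries.constantCoeff s) :=
  rfl

variable {p : ℕ}

omit [IsAdicComplete (maximalIdeal 𝒪) 𝒪] [Finite (ResidueField 𝒪)] [CharZero 𝒪] in
/-- `(1 + X v) ^ p ^ N = 1` modulo the `n`-th power of the maximal ideal. -/
theorem one_add_X_pow_eq_one (hp : (p : 𝒪) ∈ maximalIdeal 𝒪) {n N : ℕ} (hn : n ≤ N) (v : Fin d) :
    Ideal.Quotient.mk (maximalIdeal S ^ n) (1 + MvPowerSeries.X v) ^ p ^ N = 1 := by
  rw [← map_pow, ← map_one (Ideal.Quotient.mk (maximalIdeal S ^ n)), Ideal.Quotient.eq]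
  refine Ideal.pow_le_pow_right (hn.trans (Nat.le_succ N)) ?_
  refine pow_prime_pow_sub_one_mem ?_ ?_ N
  · rw [← map_natCast (MvPowerSeries.C (σ := Fin d) (R := 𝒪))]
    exact C_mem_maximalIdeal hp
  · simpa using X_mem_maximalIdeal v

variable {Δ : Type} [CommGroup Δ] {κ : Type} [Fintype κ]

omit [IsAdicComplete (maximalIdeal 𝒪) 𝒪] [Finite (ResidueField 𝒪)] [CharZero 𝒪] in
/-- The map of a product of cyclic groups sending the generators to `1 + X`. -/
theorem exists_diamondHom [NeZero p] (hp : (p : 𝒪) ∈ maximalIdeal 𝒪) {n : ℕ} (N : κ → ℕ)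
    (hN : ∀ k, n ≤ N k) (η : Δ ≃* ((k : κ) → Multiplicative (ZMod (p ^ N k)))) (v : κ → Fin d) :
    ∃ χ : Δ →* S ⧸ maximalIdeal S ^ n, ∀ δ, χ δ =
      ∏ k, Ideal.Quotient.mk (maximalIdeal S ^ n) (1 + MvPowerSeries.X (v k)) ^
        (Multiplicative.toAdd (η δ k)).val := by
  classical
  set q : κ → S ⧸ maximalIdeal S ^ n := fun k =>
    Ideal.Quotient.mk (maximalIdeal S ^ n) (1 + MvPowerSeries.X (v k))
  refine ⟨{ toFun := fun δ => ∏ k, q k ^ (Multiplicative.toAdd (η δ k)).val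
            map_one' := by simp
            map_mul' := fun a b => ?_ }, fun δ => rfl⟩
  rw [← Finset.prod_mul_distrib]
  refine Finset.prod_congr rfl fun k _ => ?_
  rw [map_mul, Pi.mul_apply, toAdd_mul, ZMod.val_add, ← pow_add,
    ← pow_eq_pow_mod _ (one_add_X_pow_eq_one hp (hN k) (v k))]

end Fermat.GR.Patch
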