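import Mathlib
import Fermat.Agent.GR.Patch.MultiLimit

/-!
# Passing from one local condition to another

A chain of modules for one global condition, a further module `X` for a second one, mapping onto
the cokernel of an element `t` of the last module of the chain.  Below an exact prime of the chain
and above `t` there is a prime at which no `Σ_q` is trivial; hence the exact component for the
second condition lies in the support of `X` (`eq_zero_of_transferInput`).

`TransferFrames` restates this for framed levels; it is the patching behind raising the level at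
`p` (`GR/RT/Lift/CaseTransfer`).
-/

set_option autoImplicit false
set_option linter.unusedSectionVars false

noncomputable section

namespace Fermat.GR.Patch

open IsLocalRing Matrix

local notation "M2" R => Matrix (Fin 2) (Fin 2) R

variable {𝒪 : Type} [CommRing 𝒪] [IsDomain 𝒪] [IsDiscreteValuationRing 𝒪]
  [IsAdicComplete (maximalIdeal 𝒪) 𝒪] [Finite (ResidueField 𝒪)] [CharZero 𝒪]
  {A : Type} [Fintype A] {d : ℕ}

local notation "S" => MvPowerSeries (Fin d) 𝒪

section Subst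

variable {G G' : Type} [Fintype G] [Fintype G']

/-- The structure map of the source is local. -/
instance isLocalHom_algebraMap_src : IsLocalHom (algebraMap 𝒪 (Src 𝒪 A G)) := ⟨fun o ho => by
  simpa [MvPowerSeries.algebraMap_apply] using MvPowerSeries.isUnit_iff_constantCoeff.mp ho⟩

/-- Substitute the global variables. -/
def substVars (w : G → Src 𝒪 A G') (hw : ∀ v, w v ∈ maximalIdeal (Src 𝒪 A G')) :
    Src 𝒪 A G →ₐ[𝒪] Src 𝒪 A G' :=
  evalHom (Sum.elim (fun v => MvPowerSeries.X (Sum.inl v)) w) (by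
    rintro (v | v)
    · exact X_mem_maximalIdeal _
    · exact hw v)

/-- The values of the substitution at the variables. -/
theorem substVars_X (w : G → Src 𝒪 A G') (hw : ∀ v, w v ∈ maximalIdeal (Src 𝒪 A G'))
    (v : Var A G) :
    substVars w hw (MvPowerSeries.X v) = Sum.elim (fun v => MvPowerSeries.X (Sum.inl v)) w v :=
  evalHom_X _ _ v

/-- The substitution sends variables to the maximal ideal. -/
theorem substVars_mem (w : G → Src 𝒪 A G') (hw : ∀ v, w v ∈ maximalIdeal (Src 𝒪 A G'))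
    (v : Var A G) : substVars w hw (MvPowerSeries.X v) ∈ maximalIdeal (Src 𝒪 A G') := by
  rw [substVars_X]
  rcases v with v | v
  · exact X_mem_maximalIdeal _
  · exact hw v

/-- The substitution keeps the Frobenius matrices. -/
theorem phi_comp_substVars (D : SingleData 𝒪 A) {B : Type} [CommRing B]
    (f : Src 𝒪 A G' →+* B) (w : G → Src 𝒪 A G') (hw : ∀ v, w v ∈ maximalIdeal (Src 𝒪 A G'))
    (q : A) :
    D.phi (f.comp (substVars w hw : Src 𝒪 A G →+* Src 𝒪 A G')) q = D.phi f q := by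
  ext i j
  simp [SingleData.phi, substVars_X]

/-- The substitution keeps the inertia matrices. -/
theorem sigAt_comp_substVars {B : Type} [CommRing B] (f : Src 𝒪 A G' →+* B)
    (w : G → Src 𝒪 A G') (hw : ∀ v, w v ∈ maximalIdeal (Src 𝒪 A G')) (q : A) :
    sigAt (f.comp (substVars w hw : Src 𝒪 A G →+* Src 𝒪 A G')) q = sigAt f q := by
  ext i j
  simp [sigAt, substVars_X]

/-- The type passes along the substitution. -/
theorem SingleData.IsType.comp_substVars {D : SingleData 𝒪 A} {B : Type} [CommRing B]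
    {f : Src 𝒪 A G' →+* B} (h : D.IsType f) (w : G → Src 𝒪 A G')
    (hw : ∀ v, w v ∈ maximalIdeal (Src 𝒪 A G')) :
    D.IsType (f.comp (substVars w hw : Src 𝒪 A G →+* Src 𝒪 A G')) := by
  intro q
  rw [phi_comp_substVars, sigAt_comp_substVars, RingHom.comp_apply,
    show (substVars w hw : Src 𝒪 A G →+* Src 𝒪 A G') (algebraMap 𝒪 _ (D.u q)) =
      algebraMap 𝒪 _ (D.u q) from (substVars w hw).commutes _]
  exact h q

end Subst

namespace SingleData

variable (D : SingleData 𝒪 A) {G : Type} [Fintype G]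

/-- Unramified or Steinberg at every Steinberg prime, unramified elsewhere. -/
def UnionTypeRel (q : A) {B : Type} [CommRing B] (u : B) (P Sg : M2 B) : Prop :=
  P.det = (D.N q : B) ∧ (D.isSt q = false → Sg = 1) ∧ (D.isSt q = true → D.UnionRel q u P Sg)

/-- A map of union type. -/
def IsUnionType {B : Type} [CommRing B] (f : Src 𝒪 A G →+* B) : Prop :=
  ∀ q, D.UnionTypeRel q (f (algebraMap 𝒪 (Src 𝒪 A G) (D.u q))) (D.phi f q) (sigAt f q)

/-- The union type relations are preserved by ring maps. -/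
theorem UnionTypeRel.map {q : A} {B C : Type} [CommRing B] [CommRing C] {u : B} {P Sg : M2 B}
    (h : D.UnionTypeRel q u P Sg) (g : B →+* C) :
    D.UnionTypeRel q (g u) (P.map g) (Sg.map g) :=
  ⟨by rw [← RingHom.mapMatrix_apply, ← RingHom.map_det, h.1, map_natCast],
    fun hq => by rw [h.2.1 hq, Matrix.map_one _ (map_zero g) (map_one g)],
    fun hq => UnionRel.map D (h.2.2 hq) g⟩

/-- The union type relations are preserved by conjugation. -/
theorem UnionTypeRel.conj {q : A} {B : Type} [CommRing B] {u : B} {P Sg : M2 B}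
    (h : D.UnionTypeRel q u P Sg) (U V : M2 B) (hUV : U * V = 1) :
    D.UnionTypeRel q u (U * P * V) (U * Sg * V) :=
  ⟨by rw [Matrix.det_mul, Matrix.det_mul, mul_comm U.det, mul_assoc, ← Matrix.det_mul, hUV,
      Matrix.det_one, mul_one, h.1],
    fun hq => by rw [h.2.1 hq, Matrix.mul_one, hUV],
    fun hq => UnionRel.conj D (h.2.2 hq) U V hUV⟩

/-- The union type relations may be checked after jointly injective maps. -/
theorem UnionTypeRel.of_jointly {q : A} {B : Type} [CommRing B] {κ : Type} {E : κ → Type}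
    [∀ k, CommRing (E k)] (g : ∀ k, B →+* E k) (hg : ∀ b, (∀ k, g k b = 0) → b = 0) {u : B}
    {P Sg : M2 B} (h : ∀ k, D.UnionTypeRel q (g k u) (P.map (g k)) (Sg.map (g k))) :
    D.UnionTypeRel q u P Sg := by
  refine ⟨sub_eq_zero.mp (hg _ fun k => ?_),
    fun hq => Matrix.ext fun i j => sub_eq_zero.mp (hg _ fun k => ?_),
    fun hq => UnionRel.of_jointly D g hg fun k => (h k).2.2 hq⟩
  · rw [map_sub, RingHom.map_det, RingHom.mapMatrix_apply, (h k).1, map_natCast, sub_self]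
  · have h1 : g k (Sg i j) = (1 : M2 (E k)) i j := congrFun (congrFun ((h k).2.1 hq) i) j
    rw [map_sub, h1, Matrix.one_apply, Matrix.one_apply]
    split_ifs <;> simp

/-- The union type is preserved by ring maps. -/
theorem IsUnionType.comp {B C : Type} [CommRing B] [CommRing C] {f : Src 𝒪 A G →+* B}
    (h : D.IsUnionType f) (g : B →+* C) : D.IsUnionType (g.comp f) := fun q => by
  rw [phi_comp, sigAt_comp]
  exact UnionTypeRel.map D (h q) g

/-- The union type may be checked after jointly injective maps. -/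
theorem IsUnionType.of_jointly {B : Type} [CommRing B] {κ : Type} {E : κ → Type}
    [∀ k, CommRing (E k)] (f : Src 𝒪 A G →+* B) (g : ∀ k, B →+* E k)
    (hg : ∀ b, (∀ k, g k b = 0) → b = 0) (h : ∀ k, D.IsUnionType ((g k).comp f)) :
    D.IsUnionType f := fun q => UnionTypeRel.of_jointly D g hg fun k => by
  have := h k q
  rwa [phi_comp, sigAt_comp] at this

/-- In a domain union type with ramification at every Steinberg prime is the exact type. -/
theorem IsUnionType.isType {B : Type} [CommRing B] [IsDomain B] {f : Src 𝒪 A G →+* B}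
    (h : D.IsUnionType f) (hne : ∀ q, D.isSt q = true → sigAt f q ≠ 1) : D.IsType f := fun q =>
  ⟨(h q).1, (h q).2.1, fun hq => UnionRel.stRel D ((h q).2.2 hq) (hne q hq)⟩

/-- Below the kernel of the chart every Steinberg `Σ` is nontrivial. -/
theorem sigAt_ne_one_of_le_ker_chart {ϖ : 𝒪} (hϖ : Irreducible ϖ)
    [DecidablePred (D.small (G := G))] {P : Ideal (Src 𝒪 A G)}
    (hP : P ≤ RingHom.ker (D.chart (G := G) hϖ : Src 𝒪 A G →+* MvPowerSeries (PVar A G) 𝒪))
    {q : A} (hq : D.isSt q = true) : sigAt (Ideal.Quotient.mk P) q ≠ 1 := by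
  intro h
  set ch := (D.chart (G := G) hϖ : Src 𝒪 A G →+* MvPowerSeries (PVar A G) 𝒪)
  set co : MvPolynomial (PVar A G) 𝒪 →+* MvPowerSeries (PVar A G) 𝒪 :=
    MvPolynomial.coeToMvPowerSeries.ringHom
  have h1 : sigAt ch q = 1 := by
    rw [show ch = (Ideal.Quotient.lift P ch fun a ha => hP ha).comp (Ideal.Quotient.mk P) from
      RingHom.ext fun _ => rfl, sigAt_comp, h, Matrix.map_one _ (map_zero _) (map_one _)]
  have hsig : sigAt ch q = co.mapMatrix (D.polySig q) := by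
    refine Matrix.ext fun i j => ?_
    simp only [sigAt, Matrix.add_apply, Matrix.of_apply, RingHom.mapMatrix_apply, Matrix.map_apply]
    change _ + D.chart hϖ (MvPowerSeries.X _) = _
    rw [chart_X]
    change _ + co (D.polySig q i j - (1 : M2 (MvPolynomial (PVar A G) 𝒪)) i j) = _
    rw [map_sub, Matrix.one_apply, Matrix.one_apply]
    split_ifs <;> simp
  rw [hsig, polySig, if_pos hq, ← map_one co.mapMatrix] at h1
  have h2 : D.baseMat q * triSig q * D.baseInv q = (1 : M2 (MvPolynomial (PVar A G) 𝒪)) :=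
    Matrix.map_injective (MvPolynomial.coe_injective (σ := PVar A G) (R := 𝒪)) h1
  have h3 : triSig (𝒪 := 𝒪) (G := G) q = 1 := by
    have := congrArg (fun M => D.baseInv q * M * D.baseMat q) h2
    simp only [← mul_assoc, D.baseInv_mul_baseMat, one_mul] at this
    simpa only [mul_assoc, D.baseInv_mul_baseMat, mul_one] using this
  have h4 := congrFun (congrFun h3 0) 1
  simp [triSig, pv] at h4

end SingleData

/-- Above an element of the maximal ideal of a local ring of dimension at least `n + 1` there is a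
prime of dimension at least `n`. -/
theorem exists_prime_above {R : Type} [CommRing R] [IsLocalRing R] [IsNoetherianRing R] {t : R}
    (ht : t ∈ maximalIdeal R) {n : ℕ} (hn : ((n + 1 : ℕ) : WithBot ℕ∞) ≤ ringKrullDim R) :
    ∃ P : Ideal R, P.IsPrime ∧ t ∈ P ∧ (n : WithBot ℕ∞) ≤ ringKrullDim (R ⧸ P) := by
  set I := Ideal.span {t}
  have h1 : ringKrullDim R ≤ ringKrullDim (R ⧸ I) + 1 := by
    have := ringKrullDim_le_ringKrullDim_quotient_add_card (R := R) {t} (fun x hx => by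
      rw [Finset.coe_singleton, Set.mem_singleton_iff] at hx
      rw [hx]
      rw [IsLocalRing.ringJacobson_eq_maximalIdeal]
      exact ht)
    have e : Ideal.span ((({t} : Finset R)) : Set R) = I := by rw [Finset.coe_singleton]
    rw [e, Finset.card_singleton, Nat.cast_one] at this
    exact this
  have h2 : (n : WithBot ℕ∞) ≤ ringKrullDim (R ⧸ I) := by
    have h := hn.trans h1
    push_cast at h
    exact ENat.WithBot.add_le_add_one_right_iff.mp h
  obtain ⟨l, hl⟩ := Order.le_krullDim_iff.mp h2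
  have hp : ((l.head).asIdeal.comap (Ideal.Quotient.mk I)).IsPrime := Ideal.comap_isPrime _ _
  refine ⟨_, hp, Ideal.mem_comap.mpr ?_, ?_⟩
  · rw [Ideal.Quotient.eq_zero_iff_mem.mpr (Ideal.mem_span_singleton_self t)]
    exact zero_mem _
  · let f : R →+* (R ⧸ I) ⧸ (l.head).asIdeal :=
      (Ideal.Quotient.mk _).comp (Ideal.Quotient.mk I)
    have hf : Function.Surjective f :=
      Ideal.Quotient.mk_surjective.comp Ideal.Quotient.mk_surjective
    have hker : RingHom.ker f = (l.head).asIdeal.comap (Ideal.Quotient.mk I) := by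
      rw [← RingHom.comap_ker, Ideal.mk_ker]
    rw [← hker, ringKrullDim_eq_of_ringEquiv (RingHom.quotientKerEquivOfSurjective hf),
      ringKrullDim_quotient]
    exact Order.le_krullDim_iff.mpr ⟨LTSeries.mk l.length
      (fun i => ⟨l i, PrimeSpectrum.mem_zeroLocus _ _ |>.mpr (l.head_le i)⟩) (fun i j hij =>
        l.strictMono hij), hl⟩

variable {O' : Type} [CommRing O'] [IsDomain O'] [IsDiscreteValuationRing O']
  [IsAdicComplete (maximalIdeal O') O'] [Finite (ResidueField O')] [CharZero O'] [Algebra 𝒪 O']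
  [IsLocalHom (algebraMap 𝒪 O')]

/-- The data to be patched: a chain in `g + 1` variables, a module `X` in `g + 1` other variables,
their expressions in the variables of the chain, and `g` generators modulo `t`. -/
structure TransferInput (D : SingleData 𝒪 A) (ϖ : 𝒪) (ψ : S →ₐ[𝒪] S) (O' : Type) [CommRing O']
    [IsLocalRing O'] [Algebra 𝒪 O'] {N : ℕ} (qs : Fin N → A)
    (mk : Fin (N + 1) ⊕ Fin N → ℕ) (mX g : ℕ) : Type where
  /-- At each level, the source ring acting on the modules of the chain. -/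
  f : ∀ j, ∀ n, Src 𝒪 A (Fin (g + 1)) →ₐ[𝒪]
    Matrix (Fin (mk j)) (Fin (mk j)) (S ⧸ maximalIdeal S ^ n)
  /-- At each level, the source ring in the variables of `X` acting on `X`. -/
  fX : ∀ n, Src 𝒪 A (Fin (g + 1)) →ₐ[𝒪] Matrix (Fin mX) (Fin mX) (S ⧸ maximalIdeal S ^ n)
  /-- The variables of `X` in those of the chain. -/
  h : ℕ → Fin (g + 1) → Src 𝒪 A (Fin (g + 1))
  /-- The expressions are small. -/
  h_mem : ∀ n v, h n v ∈ maximalIdeal (Src 𝒪 A (Fin (g + 1)))
  /-- The generators modulo `t`. -/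
  w : ℕ → Fin g → Src 𝒪 A (Fin (g + 1))
  /-- The generators are small. -/
  w_mem : ∀ n v, w n v ∈ maximalIdeal (Src 𝒪 A (Fin (g + 1)))
  /-- The expression of each variable in the generators, modulo `t`. -/
  r : ℕ → Fin (g + 1) → Src 𝒪 A (Fin g)
  /-- The element `t` at each level. -/
  te : ℕ → Src 𝒪 A (Fin (g + 1))
  /-- `t` is small. -/
  te_mem : ∀ n, te n ∈ maximalIdeal (Src 𝒪 A (Fin (g + 1)))
  /-- The points, in the variables of `X`. -/
  x : ℕ → Src 𝒪 A (Fin (g + 1)) →ₐ[𝒪] O'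
  /-- The points are small. -/
  x_mem : ∀ n v, x n (MvPowerSeries.X v) ∈ maximalIdeal O'
  /-- The first module is unramified at every framed prime. -/
  type_zero : ∀ n, (D.withSt fun _ => false).IsType
    (Ideal.Quotient.mk (RingHom.ker (f (Sum.inl 0) n)))
  /-- The relations of the chain hold on `X i`. -/
  type_step : ∀ (i : Fin N) n, D.IsChainType (qs i) (chainSt qs i)
    (Ideal.Quotient.mk (RingHom.ker (f (Sum.inr i) n)))
  /-- The further module `X` is of union type. -/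
  type_X : ∀ n, D.IsUnionType (Ideal.Quotient.mk (RingHom.ker (fX n)))
  /-- The points have the exact types. -/
  type_x : ∀ n, D.IsType (x n : Src 𝒪 A (Fin (g + 1)) →+* O')
  /-- What kills `E (i + 1)` kills `X i`, at every lower level. -/
  sub : ∀ (i : Fin N) n k (hk : k ≤ n) z, reduceHom hk (f (Sum.inl i.succ) n) z = 0 →
    reduceHom hk (f (Sum.inr i) n) z = 0
  /-- What kills `X i` maps `E i` into `(ϖ, tEl (qs i))`, at every lower level. -/
  quot : ∀ (i : Fin N) n k (hk : k ≤ n) z, reduceHom hk (f (Sum.inr i) n) z = 0 →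
    ∃ X Y, reduceHom hk (f (Sum.inl i.castSucc) n) z =
      algebraMap 𝒪 (S ⧸ maximalIdeal S ^ k) ϖ • X +
        reduceHom hk (f (Sum.inl i.castSucc) n) (D.tEl (qs i)) * Y
  /-- What kills `X` maps the last module of the chain into the multiples of `t`. -/
  desc : ∀ n k (hk : k ≤ n) z, reduceHom hk (fX n) z = 0 →
    ∃ Y, reduceHom hk (f (Sum.inl (Fin.last N)) n) (substVars (h n) (h_mem n) z) =
      reduceHom hk (f (Sum.inl (Fin.last N)) n) (te n) * Y
  /-- On the last module every global variable is its expression in the generators modulo `t`. -/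
  gen : ∀ n v, ∃ Y, f (Sum.inl (Fin.last N)) n
      (MvPowerSeries.X (Sum.inr v) - substVars (w n) (w_mem n) (r n v)) =
    f (Sum.inl (Fin.last N)) n (te n) * Y
  /-- The variables of `S` come from the source on the chain. -/
  par : ∀ n k, ∃ z, ∀ j, f j n z = algebraMap _ _
      (Ideal.Quotient.mk (maximalIdeal (MvPowerSeries (Fin d) 𝒪) ^ n) (ψ (MvPowerSeries.X k)))
  /-- The variables of `S` come from the source on `X`, killed by the points. -/
  parX : ∀ n k, ∃ z, fX n z = algebraMap _ _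
      (Ideal.Quotient.mk (maximalIdeal (MvPowerSeries (Fin d) 𝒪) ^ n) (ψ (MvPowerSeries.X k))) ∧
      x n z = 0

/-- Substitutions with converging values converge on the variables. -/
theorem substVars_sub_mem_pow {G G' : Type} [Fintype G] [Fintype G'] {wn : ℕ → G → Src 𝒪 A G'}
    {w : G → Src 𝒪 A G'} (hwn : ∀ n v, wn n v ∈ maximalIdeal (Src 𝒪 A G'))
    (hw : ∀ v, w v ∈ maximalIdeal (Src 𝒪 A G'))
    (hlim : ∀ k n, k ≤ n → ∀ v, wn n v - w v ∈ maximalIdeal (Src 𝒪 A G') ^ k) :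
    ∀ k n, k ≤ n → ∀ v, substVars (wn n) (hwn n) (MvPowerSeries.X v) -
      substVars w hw (MvPowerSeries.X v) ∈ maximalIdeal (Src 𝒪 A G') ^ k := fun k n hkn v => by
  rw [substVars_X, substVars_X]
  rcases v with v | v
  · simp
  · exact hlim k n hkn v

/-- Below a prime with no trivial `Σ`, union type is the exact type. -/
theorem SingleData.IsUnionType.isType_of_le_comap (D : SingleData 𝒪 A) {G G' : Type} [Fintype G]
    [Fintype G'] {J Q : Ideal (Src 𝒪 A G)} [Q.IsPrime]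
    (hu : D.IsUnionType (Ideal.Quotient.mk J)) (hJQ : J ≤ Q) {P : Ideal (Src 𝒪 A G')}
    (h : G → Src 𝒪 A G') (hh : ∀ v, h v ∈ maximalIdeal (Src 𝒪 A G'))
    (hle : Q ≤ P.comap (substVars h hh : Src 𝒪 A G →+* Src 𝒪 A G'))
    (hne : ∀ q, D.isSt q = true → sigAt (Ideal.Quotient.mk P) q ≠ 1) :
    D.IsType (Ideal.Quotient.mk Q) := by
  refine SingleData.IsUnionType.isType D (f := Ideal.Quotient.mk Q) ?_ fun q hq h1 => ?_
  · rw [← Ideal.Quotient.factor_comp_mk hJQ]
    exact hu.comp D _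
  · refine hne q hq ?_
    let gP : Src 𝒪 A G ⧸ Q →+* Src 𝒪 A G' ⧸ P :=
      Ideal.Quotient.lift Q ((Ideal.Quotient.mk P).comp
        (substVars h hh : Src 𝒪 A G →+* Src 𝒪 A G'))
        fun a ha => Ideal.Quotient.eq_zero_iff_mem.mpr (Ideal.mem_comap.mp (hle ha))
    rw [← sigAt_comp_substVars (Ideal.Quotient.mk P) h hh q,
      show (Ideal.Quotient.mk P).comp (substVars h hh : Src 𝒪 A G →+* Src 𝒪 A G') =
        gP.comp (Ideal.Quotient.mk Q) from RingHom.ext fun _ => rfl, sigAt_comp, h1,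
      Matrix.map_one _ (map_zero _) (map_one _)]

/-- Modulo a prime at which each global variable is a substituted series, fewer variables
suffice. -/
theorem surjective_mk_comp_substVars {g g' : ℕ} {P : Ideal (Src 𝒪 A (Fin g'))} (hP : P.IsPrime)
    {w : Fin g → Src 𝒪 A (Fin g')} (hw : ∀ v, w v ∈ maximalIdeal (Src 𝒪 A (Fin g')))
    {r : Fin g' → Src 𝒪 A (Fin g)}
    (hgen : ∀ v, MvPowerSeries.X (Sum.inr v) - substVars w hw (r v) ∈ P) :
    Function.Surjective ((Ideal.Quotient.mk P).comp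
      (substVars w hw : Src 𝒪 A (Fin g) →+* Src 𝒪 A (Fin g'))) := by
  set κ := substVars w hw with hκ
  have : Nontrivial (Src 𝒪 A (Fin g') ⧸ P) := Ideal.Quotient.nontrivial_iff.mpr hP.ne_top
  have : IsLocalRing (Src 𝒪 A (Fin g') ⧸ P) :=
    IsLocalRing.of_surjective' (Ideal.Quotient.mk P) Ideal.Quotient.mk_surjective
  have : IsLocalHom (Ideal.Quotient.mk P) := IsLocalHom.of_surjective _ Ideal.Quotient.mk_surjective
  have hr : ∀ v, r v ∈ maximalIdeal (Src 𝒪 A (Fin g)) := fun v hu =>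
    map_nonunit (Ideal.Quotient.mk P) (MvPowerSeries.X (Sum.inr v)) (X_mem_maximalIdeal _)
      (by rw [Ideal.Quotient.eq.mpr (hgen v)]; exact (hu.map κ).map _)
  set σ := substVars r hr with hσ
  intro y
  obtain ⟨z, rfl⟩ := Ideal.Quotient.mk_surjective y
  refine ⟨σ z, ?_⟩
  have h : (Ideal.Quotient.mkₐ 𝒪 P).comp (κ.comp σ) = Ideal.Quotient.mkₐ 𝒪 P := by
    have : IsHausdorff (maximalIdeal (Src 𝒪 A (Fin g') ⧸ P))
        (Src 𝒪 A (Fin g') ⧸ P) :=
      IsHausdorff.of_le_jacobson _ _ (IsLocalRing.maximalIdeal_le_jacobson _)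
    refine (algHom_ext (fun v => ?_) fun v => ?_).symm
    · change Ideal.Quotient.mk P (MvPowerSeries.X v) =
        Ideal.Quotient.mk P (κ (σ (MvPowerSeries.X v)))
      rw [hσ, substVars_X]
      rcases v with v | v
      · rw [Sum.elim_inl, hκ, substVars_X]; rfl
      · rw [Sum.elim_inr]
        exact Ideal.Quotient.eq.mpr (hgen v)
    · exact map_nonunit (Ideal.Quotient.mk P) _ (X_mem_maximalIdeal v)
  exact DFunLike.congr_fun h z

/-- Above `t` and an exact prime of dimension `d + 1`, at a prime where the last variables are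
generated by `g` series, no Steinberg `Σ` is trivial. -/
theorem exists_prime_sigAt_ne_one (D : SingleData 𝒪 A) (h2 : IsUnit (2 : 𝒪)) {ϖ : 𝒪}
    (hϖ : Irreducible ϖ) {g : ℕ} (hd : d = 3 * Fintype.card A + (g + 1))
    {Q : Ideal (Src 𝒪 A (Fin (g + 1)))} (hQ : Q.IsPrime) (htQ : D.IsType (Ideal.Quotient.mk Q))
    (hdimQ : ((d + 1 : ℕ) : WithBot ℕ∞) ≤ ringKrullDim (Src 𝒪 A (Fin (g + 1)) ⧸ Q))
    {t : Src 𝒪 A (Fin (g + 1))} (ht : t ∈ maximalIdeal (Src 𝒪 A (Fin (g + 1))))
    (w : Fin g → Src 𝒪 A (Fin (g + 1))) (hw : ∀ v, w v ∈ maximalIdeal (Src 𝒪 A (Fin (g + 1))))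
    (r : Fin (g + 1) → Src 𝒪 A (Fin g))
    (hgen : ∀ P : Ideal (Src 𝒪 A (Fin (g + 1))), P.IsPrime → Q ≤ P → t ∈ P →
      ∀ v, MvPowerSeries.X (Sum.inr v) - substVars w hw (r v) ∈ P) :
    ∃ P : Ideal (Src 𝒪 A (Fin (g + 1))), P.IsPrime ∧ Q ≤ P ∧ t ∈ P ∧
      ∀ q, D.isSt q = true → sigAt (Ideal.Quotient.mk P) q ≠ 1 := by
  classical
  let : ∀ G : Type, DecidablePred (D.small (G := G)) := fun G => Classical.decPred _
  -- a prime above `t`
  have : Nontrivial (Src 𝒪 A (Fin (g + 1)) ⧸ Q) := Ideal.Quotient.nontrivial_iff.mpr hQ.ne_top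
  have : IsLocalRing (Src 𝒪 A (Fin (g + 1)) ⧸ Q) :=
    IsLocalRing.of_surjective' (Ideal.Quotient.mk Q) Ideal.Quotient.mk_surjective
  have : IsLocalHom (Ideal.Quotient.mk Q) := IsLocalHom.of_surjective _ Ideal.Quotient.mk_surjective
  obtain ⟨P₀, hP₀, htP₀, hdimP₀⟩ := exists_prime_above (map_nonunit (Ideal.Quotient.mk Q) t ht)
    hdimQ
  set P := P₀.comap (Ideal.Quotient.mk Q) with hPdef
  have hP : P.IsPrime := Ideal.comap_isPrime _ _
  have hQP : Q ≤ P := fun a ha => by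
    rw [hPdef, Ideal.mem_comap, Ideal.Quotient.eq_zero_iff_mem.mpr ha]
    exact zero_mem _
  have htmem : t ∈ P := htP₀
  have htP : D.IsType (Ideal.Quotient.mk P) := by
    rw [← Ideal.Quotient.factor_comp_mk hQP]
    exact htQ.comp _ _
  -- fewer variables
  let πP : Src 𝒪 A (Fin g) →+* Src 𝒪 A (Fin (g + 1)) ⧸ P :=
    (Ideal.Quotient.mk P).comp (substVars w hw : Src 𝒪 A (Fin g) →+* Src 𝒪 A (Fin (g + 1)))
  have hπsurj : Function.Surjective πP :=
    surjective_mk_comp_substVars hP hw (hgen P hP hQP htmem)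
  have : Nontrivial (Src 𝒪 A (Fin (g + 1)) ⧸ P) := Ideal.Quotient.nontrivial_iff.mpr hP.ne_top
  have : IsLocalRing (Src 𝒪 A (Fin (g + 1)) ⧸ P) :=
    IsLocalRing.of_surjective' (Ideal.Quotient.mk P) Ideal.Quotient.mk_surjective
  have htπ : D.IsType πP := htP.comp_substVars w hw
  have hdimP : ((3 * Fintype.card A + g + 1 : ℕ) : WithBot ℕ∞) ≤
      ringKrullDim (Src 𝒪 A (Fin (g + 1)) ⧸ P) := by
    rw [show 3 * Fintype.card A + g + 1 = d by omega]
    refine hdimP₀.trans (le_of_eq ?_)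
    refine (ringKrullDim_eq_of_ringEquiv ?_).symm
    have hker : RingHom.ker ((Ideal.Quotient.mk P₀).comp (Ideal.Quotient.mk Q)) = P := by
      rw [← RingHom.comap_ker, Ideal.mk_ker, hPdef]
    exact (Ideal.quotEquivOfEq hker.symm).trans (RingHom.quotientKerEquivOfSurjective
      (Ideal.Quotient.mk_surjective.comp Ideal.Quotient.mk_surjective))
  have hϖP : πP (algebraMap 𝒪 _ ϖ) ≠ 0 := fun h => by
    have h1 := hdimP.trans (D.ringKrullDim_le_of_isType_of_eq_zero h2 hϖ πP hπsurj htπ h)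
    rw [Fintype.card_fin] at h1
    have := Nat.cast_le.mp (WithBot.coe_le_coe.mp h1)
    omega
  set P' := RingHom.ker πP
  have : P'.IsPrime := RingHom.ker_isPrime _
  have htP' : D.IsType (Ideal.Quotient.mk P') :=
    SingleData.IsType.of_injective D _ (RingHom.kerLift πP) (RingHom.kerLift_injective _) (by
      convert htπ
      exact RingHom.ext fun _ => rfl)
  have hchart := D.le_ker_chart (G := Fin g) h2 hϖ (d := 3 * Fintype.card A + g)
    (by rw [Fintype.card_fin]) P' htP' (fun h => hϖP (RingHom.mem_ker.mp h))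
    (by rw [ringKrullDim_eq_of_ringEquiv (RingHom.quotientKerEquivOfSurjective hπsurj)]
        exact hdimP)
  have hneP : ∀ q, D.isSt q = true → sigAt (Ideal.Quotient.mk P) q ≠ 1 := fun q hq h => by
    refine D.sigAt_ne_one_of_le_ker_chart hϖ hchart hq ?_
    have h1 : sigAt πP q = 1 := by rw [sigAt_comp_substVars, h]
    have h2 : πP = (RingHom.kerLift πP).comp (Ideal.Quotient.mk P') := RingHom.ext fun _ => rfl
    rw [h2, sigAt_comp] at h1
    exact Matrix.map_injective (RingHom.kerLift_injective πP)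
      (h1.trans (Matrix.map_one _ (map_zero _) (map_one _)).symm)
  exact ⟨P, hP, hQP, htmem, hneP⟩

/-- Limits of all the data of a transfer input along one subsequence: `zp` and `zX` give the
variables of `S` on the chain and on `X`, and `zs` the elements whose values are compared. -/
structure TransferLimit {D : SingleData 𝒪 A} {ϖ : 𝒪} {ψ : S →ₐ[𝒪] S} {g N : ℕ} {qs : Fin N → A}
    {mk : Fin (N + 1) ⊕ Fin N → ℕ} {mX : ℕ} (I : TransferInput (d := d) D ϖ ψ O' qs mk mX g)
    (zp zX : ℕ → Fin d → Src 𝒪 A (Fin (g + 1))) (zs : ℕ → Src 𝒪 A (Fin (g + 1))) : Type where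
  /-- The subsequence. -/
  φ : ℕ → ℕ
  /-- The subsequence passes every level. -/
  le_φ : ∀ n, n ≤ φ n
  /-- The action on the chain at the variables, in the limit. -/
  L : ∀ j, Var A (Fin (g + 1)) → Matrix (Fin (mk j)) (Fin (mk j)) S
  /-- The action on `X` at the variables, in the limit. -/
  LX : Var A (Fin (g + 1)) → Matrix (Fin mX) (Fin mX) S
  /-- The values of the points at the variables, in the limit. -/
  Y : Var A (Fin (g + 1)) → O'
  /-- The limit of `zp`. -/
  pl : Fin d → Src 𝒪 A (Fin (g + 1))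
  /-- The limit of `zX`. -/
  Xl : Fin d → Src 𝒪 A (Fin (g + 1))
  /-- The limit of the variables of `X` in those of the chain. -/
  hl : Fin (g + 1) → Src 𝒪 A (Fin (g + 1))
  /-- The limit of the generators modulo `t`. -/
  wl : Fin g → Src 𝒪 A (Fin (g + 1))
  /-- The limit of the expressions in the generators. -/
  rl : Fin (g + 1) → Src 𝒪 A (Fin g)
  /-- The limit of `zs`. -/
  zl : Src 𝒪 A (Fin (g + 1))
  /-- The limit of `t`. -/
  tl : Src 𝒪 A (Fin (g + 1))
  /-- The actions on the chain converge. -/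
  map_L : ∀ j k n (h : k ≤ n) v, reduceHom (h.trans (le_φ n)) (I.f j (φ n)) (MvPowerSeries.X v) =
    (L j v).map (Ideal.Quotient.mk _)
  /-- The actions on `X` converge. -/
  map_LX : ∀ k n (h : k ≤ n) v, reduceHom (h.trans (le_φ n)) (I.fX (φ n)) (MvPowerSeries.X v) =
    (LX v).map (Ideal.Quotient.mk _)
  /-- The points converge. -/
  sub_Y : ∀ k n, k ≤ n → ∀ v, I.x (φ n) (MvPowerSeries.X v) - Y v ∈ maximalIdeal O' ^ k
  /-- `zp` converges. -/
  sub_pl : ∀ k n, k ≤ n → ∀ i, zp (φ n) i - pl i ∈ maximalIdeal _ ^ k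
  /-- `zX` converges. -/
  sub_Xl : ∀ k n, k ≤ n → ∀ i, zX (φ n) i - Xl i ∈ maximalIdeal _ ^ k
  /-- The variables of `X` converge. -/
  sub_hl : ∀ k n, k ≤ n → ∀ v, I.h (φ n) v - hl v ∈ maximalIdeal _ ^ k
  /-- The generators converge. -/
  sub_wl : ∀ k n, k ≤ n → ∀ v, I.w (φ n) v - wl v ∈ maximalIdeal _ ^ k
  /-- The expressions in the generators converge. -/
  sub_rl : ∀ k n, k ≤ n → ∀ v, I.r (φ n) v - rl v ∈ maximalIdeal _ ^ k
  /-- `zs` converges. -/
  sub_zl : ∀ k n, k ≤ n → zs (φ n) - zl ∈ maximalIdeal _ ^ k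
  /-- The elements `t` converge. -/
  sub_tl : ∀ k n, k ≤ n → I.te (φ n) - tl ∈ maximalIdeal _ ^ k

/-- Along one subsequence all the data of a transfer input converge. -/
theorem exists_common_limit {D : SingleData 𝒪 A} {ϖ : 𝒪} {ψ : S →ₐ[𝒪] S} {g N : ℕ} {qs : Fin N → A}
    {mk : Fin (N + 1) ⊕ Fin N → ℕ} {mX : ℕ} (I : TransferInput (d := d) D ϖ ψ O' qs mk mX g)
    (zp zX : ℕ → Fin d → Src 𝒪 A (Fin (g + 1))) (zs : ℕ → Src 𝒪 A (Fin (g + 1))) :
    Nonempty (TransferLimit I zp zX zs) := by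
  have := finite_residueField_mvPowerSeries (𝒪 := 𝒪) (Fin d)
  have := finite_residueField_mvPowerSeries (𝒪 := 𝒪) (Var A (Fin (g + 1)))
  have := finite_residueField_mvPowerSeries (𝒪 := 𝒪) (Var A (Fin g))
  -- subsequences
  choose l hl using fun j n v a b => Ideal.Quotient.mk_surjective (I.f j n (MvPowerSeries.X v) a b)
  choose lX hlX using fun n v a b => Ideal.Quotient.mk_surjective (I.fX n (MvPowerSeries.X v) a b)
  obtain ⟨φ₁, L₀, hφ₁, hL₀⟩ := exists_subseq_limit (R := S)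
    (ι := ((j : Fin (N + 1) ⊕ Fin N) × Var A (Fin (g + 1)) × Fin (mk j) × Fin (mk j)) ⊕
      (Var A (Fin (g + 1)) × Fin mX × Fin mX))
    fun n => Sum.elim (fun p => l p.1 n p.2.1 p.2.2.1 p.2.2.2) fun p => lX n p.1 p.2.1 p.2.2
  obtain ⟨φ₂, Y, hφ₂, hY⟩ := exists_subseq_limit (R := O') (ι := Var A (Fin (g + 1)))
    fun n v => I.x (φ₁ n) (MvPowerSeries.X v)
  obtain ⟨φ₃, Zl, hφ₃, hZl⟩ := exists_subseq_limit (R := Src 𝒪 A (Fin (g + 1)))
    (ι := ((Fin d ⊕ Fin d) ⊕ (Fin (g + 1) ⊕ Fin g)) ⊕ (Unit ⊕ Unit))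
    fun n => Sum.elim
      (Sum.elim (Sum.elim (fun k => zp (φ₁ (φ₂ n)) k) fun k => zX (φ₁ (φ₂ n)) k)
        (Sum.elim (I.h (φ₁ (φ₂ n))) (I.w (φ₁ (φ₂ n)))))
      (Sum.elim (fun _ => zs (φ₁ (φ₂ n))) fun _ => I.te (φ₁ (φ₂ n)))
  obtain ⟨φ₄, Rl, hφ₄, hRl⟩ := exists_subseq_limit (R := Src 𝒪 A (Fin g)) (ι := Fin (g + 1))
    fun n => I.r (φ₁ (φ₂ (φ₃ n)))
  let φ : ℕ → ℕ := fun n => φ₁ (φ₂ (φ₃ (φ₄ n)))
  have hφ : ∀ n, n ≤ φ n := fun n =>
    (((hφ₄.id_le n).trans (hφ₃.id_le _)).trans (hφ₂.id_le _)).trans (hφ₁.id_le _)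
  have hφ34 : ∀ n, n ≤ φ₂ (φ₃ (φ₄ n)) := fun n =>
    ((hφ₄.id_le n).trans (hφ₃.id_le _)).trans (hφ₂.id_le _)
  have hZ : ∀ i k n, k ≤ n → _ - Zl i ∈ maximalIdeal (Src 𝒪 A (Fin (g + 1))) ^ k :=
    fun i k n h => hZl k (φ₄ n) (h.trans (hφ₄.id_le n)) i
  let L : ∀ j, Var A (Fin (g + 1)) → Matrix (Fin (mk j)) (Fin (mk j)) S :=
    fun j v => Matrix.of fun a b => L₀ (Sum.inl ⟨j, v, a, b⟩)
  have hL : ∀ j k n, ∀ h : k ≤ n, ∀ v,
      reduceHom (h.trans (hφ n)) (I.f j (φ n)) (MvPowerSeries.X v) =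
      (L j v).map (Ideal.Quotient.mk _) := fun j k n h v => Matrix.ext fun a b => by
    change Ideal.Quotient.factor (Ideal.pow_le_pow_right (h.trans (hφ n))) (I.f j (φ n) _ a b) = _
    rw [← hl, Ideal.Quotient.factor_mk]
    exact Ideal.Quotient.eq.mpr (hL₀ k _ (h.trans (hφ34 n)) (Sum.inl ⟨j, v, a, b⟩))
  let LX : Var A (Fin (g + 1)) → Matrix (Fin mX) (Fin mX) S :=
    fun v => Matrix.of fun a b => L₀ (Sum.inr (v, a, b))
  have hLX : ∀ k n, ∀ h : k ≤ n, ∀ v,
      reduceHom (h.trans (hφ n)) (I.fX (φ n)) (MvPowerSeries.X v) =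
      (LX v).map (Ideal.Quotient.mk _) := fun k n h v => Matrix.ext fun a b => by
    change Ideal.Quotient.factor (Ideal.pow_le_pow_right (h.trans (hφ n))) (I.fX (φ n) _ a b) = _
    rw [← hlX, Ideal.Quotient.factor_mk]
    exact Ideal.Quotient.eq.mpr (hL₀ k _ (h.trans (hφ34 n)) (Sum.inr (v, a, b)))
  refine ⟨⟨φ, hφ, L, LX, Y, fun k => Zl (Sum.inl (Sum.inl (Sum.inl k))),
    fun k => Zl (Sum.inl (Sum.inl (Sum.inr k))), fun v => Zl (Sum.inl (Sum.inr (Sum.inl v))),
    fun v => Zl (Sum.inl (Sum.inr (Sum.inr v))), Rl, Zl (Sum.inr (Sum.inl ())),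
    Zl (Sum.inr (Sum.inr ())), hL, hLX, fun k n hkn v => ?_,
    fun k n h i => hZ (Sum.inl (Sum.inl (Sum.inl i))) k n h,
    fun k n h i => hZ (Sum.inl (Sum.inl (Sum.inr i))) k n h,
    fun k n h i => hZ (Sum.inl (Sum.inr (Sum.inl i))) k n h,
    fun k n h i => hZ (Sum.inl (Sum.inr (Sum.inr i))) k n h,
    fun k n h v => hRl k n h v, hZ (Sum.inr (Sum.inl ())), hZ (Sum.inr (Sum.inr ()))⟩⟩
  exact hY k (φ₃ (φ₄ n)) (hkn.trans ((hφ₄.id_le n).trans (hφ₃.id_le _))) v

/-- The limit of the chain of a transfer input has an exact prime. -/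
theorem exists_exactPrime_of_input {D : SingleData 𝒪 A} (h2 : IsUnit (2 : 𝒪)) {ϖ : 𝒪}
    (hϖ : Irreducible ϖ) {g : ℕ} (hd : d = 3 * Fintype.card A + (g + 1)) {N : ℕ} {qs : Fin N → A}
    (hqs : ∀ a, D.isSt a = true ↔ ∃ i, qs i = a) {mk : Fin (N + 1) ⊕ Fin N → ℕ}
    (hm : ∀ j, 0 < mk j) {mX : ℕ} {ψ : S →ₐ[𝒪] S} (hψfin : (ψ : S →+* S).Finite)
    (I : TransferInput (d := d) D ϖ ψ O' qs mk mX g) {φ : ℕ → ℕ} (hφ : ∀ n, n ≤ φ n)
    (F : ∀ j, Src 𝒪 A (Fin (g + 1)) →ₐ[𝒪] Matrix (Fin (mk j)) (Fin (mk j)) S)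
    (hFn : ∀ j k n (h : k ≤ n) z, (F j z).map (Ideal.Quotient.mk (maximalIdeal S ^ k)) =
      reduceHom (h.trans (hφ n)) (I.f j (φ n)) z)
    (ι : ∀ j, S →ₐ[𝒪] Src 𝒪 A (Fin (g + 1)) ⧸ RingHom.ker (F j))
    (hfin : ∀ j, (ι j : S →+* Src 𝒪 A (Fin (g + 1)) ⧸ RingHom.ker (F j)).Finite)
    (htf : ∀ j, ∀ (s : S) (z : Src 𝒪 A (Fin (g + 1)) ⧸ RingHom.ker (F j)),
      s ≠ 0 → ι j s * z = 0 → z = 0)
    (hι : ∀ j s, RingHom.kerLift
      (F j : Src 𝒪 A (Fin (g + 1)) →+* Matrix (Fin (mk j)) (Fin (mk j)) S) (ι j s) =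
        algebraMap S _ (ψ s)) :
    ∃ Q : Ideal (Src 𝒪 A (Fin (g + 1))), Q.IsPrime ∧ RingHom.ker (F (Sum.inl (Fin.last N))) ≤ Q ∧
      D.IsType (Ideal.Quotient.mk Q) ∧
      ((d + 1 : ℕ) : WithBot ℕ∞) ≤ ringKrullDim (Src 𝒪 A (Fin (g + 1)) ⧸ Q) := by
  classical
  obtain ⟨htype0, htypeS, hsub, hquot⟩ :=
    chain_conditions_of_limit D qs hφ hFn I.type_zero I.type_step I.sub I.quot
  let : ∀ (G : Type) (J : A → Bool), DecidablePred ((D.withSt J).small (G := G)) :=
    fun G J => Classical.decPred _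
  obtain ⟨-, Q, hQ, hFQ, htQ, -, hdimQ⟩ := exists_exactPrime D h2 hϖ
    (by rw [Fintype.card_fin]; exact hd) qs hqs mk hm ψ hψfin F ι hfin htf hι htype0 htypeS hsub
    hquot
  exact ⟨Q, hQ, hFQ, htQ, hdimQ⟩

/-- **Transfer: every point of the exact type of the second condition is automorphic.** -/
theorem eq_zero_of_transferInput (D : SingleData 𝒪 A) (h2 : IsUnit (2 : 𝒪)) {ϖ : 𝒪}
    (hϖ : Irreducible ϖ) {g : ℕ} (hd : d = 3 * Fintype.card A + (g + 1)) {N : ℕ} (qs : Fin N → A)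
    (hqs : ∀ a, D.isSt a = true ↔ ∃ i, qs i = a) (mk : Fin (N + 1) ⊕ Fin N → ℕ)
    (hm : ∀ j, 0 < mk j) {mX : ℕ} (hmX : 0 < mX) (ψ : S →ₐ[𝒪] S)
    (hψfin : (ψ : S →+* S).Finite) (hψinj : Function.Injective ψ)
    (haug : ∀ P : Ideal S, P.IsPrime → (∀ k, ψ (MvPowerSeries.X k) ∈ P) →
      ∀ k, MvPowerSeries.X k ∈ P)
    (I : TransferInput (d := d) D ϖ ψ O' qs mk mX g) (c : O')
    (zs : ℕ → Src 𝒪 A (Fin (g + 1)))
    (hzs : ∀ n i j, ∀ s : S, Ideal.Quotient.mk _ s = I.fX n (zs n) i j →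
      MvPowerSeries.constantCoeff s ∈ Ideal.span {ϖ ^ n})
    (hc : ∀ n, I.x n (zs n) = c) : c = 0 := by
  classical
  choose zp hzp using I.par
  choose zX hzX hzX' using I.parX
  obtain ⟨⟨φ, hφ, L, LX, Y, pl, Xl, hh, ww, Rl, zl, tl, hL, hLX, hY, hpl, hXl, hhl, hwl, hRl, hzl,
    htl⟩⟩ := exists_common_limit I zp zX zs
  choose F hFX hFn ι hfin htf hι using fun j => exists_side ψ hψfin hψinj (I.f j) φ hφ (L j) (hL j)
    pl (fun n k => zp (φ n) k) (fun n k => hzp (φ n) k j) hpl (hm j)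
  obtain ⟨FX, -, hFXn, ιX, hfinX, htfX, hιX⟩ := exists_side ψ hψfin hψinj I.fX φ hφ LX hLX
    Xl (fun n k => zX (φ n) k) (fun n k => hzX (φ n) k) hXl hmX
  -- the limits of the conditions
  have htypeX : D.IsUnionType (Ideal.Quotient.mk (RingHom.ker FX)) := by
    refine SingleData.IsUnionType.of_jointly _ _ _ (limit_jointly hφ hFXn) fun k => ?_
    rw [Ideal.Quotient.factor_comp_mk,
      ← Ideal.Quotient.factor_comp_mk (ker_le_ker_reduceHom (hφ k) (I.fX (φ k)))]
    exact (I.type_X (φ k)).comp _ _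
  -- the substitutions
  have htlm := mem_maximalIdeal_of_limit htl fun n => I.te_mem _
  have hhm : ∀ v, hh v ∈ maximalIdeal (Src 𝒪 A (Fin (g + 1))) := fun v =>
    mem_maximalIdeal_of_limit (fun k n h => hhl k n h v) fun n => I.h_mem _ v
  have hwm : ∀ v, ww v ∈ maximalIdeal (Src 𝒪 A (Fin (g + 1))) := fun v =>
    mem_maximalIdeal_of_limit (fun k n h => hwl k n h v) fun n => I.w_mem _ v
  set θ := substVars hh hhm
  set κ := substVars ww hwm
  have hθn := substVars_sub_mem_pow (fun n v => I.h_mem (φ n) v) hhm hhl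
  have hκn := substVars_sub_mem_pow (fun n v => I.w_mem (φ n) v) hwm hwl
  set e := (Sum.inl (Fin.last N) : Fin (N + 1) ⊕ Fin N)
  have hdesc : ∀ z ∈ RingHom.ker FX, ∃ X Y,
      F e (θ z) = algebraMap 𝒪 S 0 • X + F e tl * Y := fun z hz =>
    limit_mem_add hφ (hFn e) 0 (zn := fun n => substVars (I.h (φ n)) (I.h_mem _) z)
      (fun k n h => apply_sub_mem_pow (x := θ) (substVars_mem hh hhm) hθn (zn := fun _ => z)
        (by simp) h)
      (tn := fun n => I.te (φ n)) htl fun k n hkn => by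
        obtain ⟨Y, hY⟩ := I.desc (φ n) k (hkn.trans (hφ n)) z (by
          rw [← hFXn k n hkn z, show FX z = 0 from hz, Matrix.map_zero _ (map_zero _)])
        exact ⟨0, Y, by rw [hY, smul_zero, zero_add]⟩
  have hgen : ∀ v, ∃ X Y, F e (MvPowerSeries.X (Sum.inr v) - κ (Rl v)) =
      algebraMap 𝒪 S 0 • X + F e tl * Y := fun v =>
    limit_mem_add hφ (hFn e) 0
      (zn := fun n => MvPowerSeries.X (Sum.inr v) - substVars (I.w (φ n)) (I.w_mem _) (I.r (φ n) v))
      (fun k n h => by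
        have h' := neg_mem (apply_sub_mem_pow (x := κ) (substVars_mem ww hwm) hκn
          (zn := fun n => I.r (φ n) v) (fun k n h => hRl k n h v) h)
        convert h' using 1
        ring)
      (tn := fun n => I.te (φ n)) htl fun k n hkn => by
        obtain ⟨Y, hY⟩ := I.gen (φ n) v
        refine ⟨0, Y.map (Ideal.Quotient.factor
          (Ideal.pow_le_pow_right (hkn.trans (hφ n)))), ?_⟩
        rw [smul_zero, zero_add]
        change (Ideal.Quotient.factor _).mapMatrix (I.f e (φ n) _) = _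
        rw [hY, map_mul]
        rfl
  -- an exact prime of the chain
  let : ∀ G : Type, DecidablePred (D.small (G := G)) := fun G => Classical.decPred _
  obtain ⟨Q, hQ, hFQ, htQ, hdimQ⟩ :=
    exists_exactPrime_of_input h2 hϖ hd hqs hm hψfin I hφ F hFn ι hfin htf hι
  have hmemP : ∀ P : Ideal (Src 𝒪 A (Fin (g + 1))), P.IsPrime → Q ≤ P → tl ∈ P →
      ∀ z, (∃ X Y, F e z = algebraMap 𝒪 S 0 • X + F e tl * Y) → z ∈ P :=
        fun P hP hQP htlP z hz => by
    obtain ⟨X, Y, hXY⟩ := hz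
    exact mem_prime_of_image_mem hψfin (F e) (ι e) (hι e) P (hFQ.trans hQP) (ϖ := 0)
      (by rw [map_zero]; exact zero_mem _) htlP hXY
  -- a prime above `t`
  obtain ⟨P, hP, hQP, htlP, hneP⟩ := exists_prime_sigAt_ne_one D h2 hϖ hd hQ htQ hdimQ htlm
    ww hwm Rl
    fun P hP hQP htlP v => hmemP P hP hQP htlP _ (hgen v)
  -- below it, an exact prime of `X`
  set PX := P.comap (θ : Src 𝒪 A (Fin (g + 1)) →+* Src 𝒪 A (Fin (g + 1)))
  have : PX.IsPrime := Ideal.comap_isPrime _ _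
  obtain ⟨QX, hQX, hFQX, hQXP, hϖQX, hdimQX⟩ := exists_minimal_below hϖ ιX hfinX htfX PX
    fun z hz => Ideal.mem_comap.mpr (hmemP P hP hQP htlP _ (hdesc z hz))
  have := hQX
  have htQX : D.IsType (Ideal.Quotient.mk QX) :=
    htypeX.isType_of_le_comap D hFQX hh hhm hQXP hneP
  have hFC := hFQX.trans (D.le_ker_chart h2 hϖ (by rw [Fintype.card_fin]; exact hd) QX htQX hϖQX
    hdimQX)
  -- the limit point
  have hYm : ∀ v, Y v ∈ maximalIdeal O' := fun v =>
    mem_maximalIdeal_of_limit (fun k n h => hY k n h v) fun n => I.x_mem _ v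
  let x : Src 𝒪 A (Fin (g + 1)) →ₐ[𝒪] O' := evalHom Y hYm
  have hxX : ∀ v, x (MvPowerSeries.X v) ∈ maximalIdeal O' := fun v => by
    rw [evalHom_X]; exact hYm v
  have hxn : ∀ k n, k ≤ n → ∀ v,
      I.x (φ n) (MvPowerSeries.X v) - x (MvPowerSeries.X v) ∈ maximalIdeal O' ^ k :=
    fun k n hkn v => by rw [evalHom_X]; exact hY k n hkn v
  have htypex : D.IsType (x : Src 𝒪 A (Fin (g + 1)) →+* O') :=
    D.isType_of_limit x (fun n => I.x (φ n)) hxX hxn fun n => I.type_x _
  rw [← apply_limit_eq hxX hxn (zn := fun n => zs (φ n)) hzl fun n => hc _]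
  exact apply_eq_zero_of_ker_le ψ hψfin haug FX ιX hιX x
    (hFC.trans fun z hz => D.ker_chart_le hϖ x hxX htypex hz)
    Xl
    (fun k => apply_limit_eq hxX hxn (zn := fun n => zX (φ n) k)
      (fun i n h => hXl i n h k) fun n => hzX' _ _)
    (fun k => limit_eq_scalar hφ hFXn (zn := fun n => zX (φ n) k)
      (fun i n h => hXl i n h k) _ fun n => hzX (φ n) k)
    _ (limit_constantCoeff_eq_zero hφ hFXn hϖ (zn := fun n => zs (φ n))
      hzl fun n => hzs (φ n))

end Fermat.GR.Patch
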