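import Mathlib
import Fermat.Agent.GR.Patch.Transfer
import Fermat.Agent.GR.Patch.FrameLevel

/-!
# Frames for the transfer between two local conditions

Levels given by one ring with matrices at the framed primes acting on a chain and on a further
module, two ideals cutting out the two conditions and an element `t`, with three tangent bounds
(`TransferLevel`), yield the input of the transfer: `eq_zero_of_transferLevels`, used by
`GR/RT/Lift/CaseTransfer` through `GR/RT/Lift/TransferChain`.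
-/

set_option autoImplicit false
set_option linter.unusedSectionVars false

noncomputable section

namespace Fermat.GR.Patch

open IsLocalRing Matrix

local notation "M2" R => Matrix (Fin 2) (Fin 2) R

variable {𝒪 : Type} [CommRing 𝒪] [IsDomain 𝒪] [IsDiscreteValuationRing 𝒪]
  [IsAdicComplete (maximalIdeal 𝒪) 𝒪] [Finite (ResidueField 𝒪)] [CharZero 𝒪]
  {A : Type} [Fintype A] [DecidableEq A] {q₀ : A}

section Modulo

variable {W : Type} [CommRing W] [IsLocalRing W] [IsNoetherianRing W] [Algebra 𝒪 W]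
  [IsLocalHom (algebraMap 𝒪 W)] {σ : Type} [Finite σ]

/-- Substitutions agreeing on the variables modulo an ideal agree modulo the ideal. -/
theorem sub_mem_of_X {J : Ideal W} (hJ : J ≤ maximalIdeal W) {x y : MvPowerSeries σ 𝒪 →ₐ[𝒪] W}
    (hx : ∀ v, x (MvPowerSeries.X v) ∈ maximalIdeal W)
    (h : ∀ v, x (MvPowerSeries.X v) - y (MvPowerSeries.X v) ∈ J) (z : MvPowerSeries σ 𝒪) :
    x z - y z ∈ J := by
  have : Nontrivial (W ⧸ J) := Ideal.Quotient.nontrivial_iff.mpr fun e =>
    (maximalIdeal.isMaximal W).ne_top (top_le_iff.mp (e ▸ hJ))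
  have : IsLocalRing (W ⧸ J) :=
    IsLocalRing.of_surjective' (Ideal.Quotient.mk J) Ideal.Quotient.mk_surjective
  have : IsLocalHom (Ideal.Quotient.mk J) := IsLocalHom.of_surjective _ Ideal.Quotient.mk_surjective
  have : IsHausdorff (maximalIdeal (W ⧸ J)) (W ⧸ J) :=
    IsHausdorff.of_le_jacobson _ _ (IsLocalRing.maximalIdeal_le_jacobson _)
  have hxy : (Ideal.Quotient.mkₐ 𝒪 J).comp x = (Ideal.Quotient.mkₐ 𝒪 J).comp y :=
    algHom_ext (fun v => Ideal.Quotient.eq.mpr (h v))
      fun v => map_nonunit (Ideal.Quotient.mk J) _ (hx v)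
  exact Ideal.Quotient.eq.mp (DFunLike.congr_fun hxy z)

end Modulo

variable {R : Type} [CommRing R] [IsLocalRing R] [IsNoetherianRing R]
  [IsAdicComplete (maximalIdeal R) R] [Algebra 𝒪 R] [IsLocalHom (algebraMap 𝒪 R)]
  {D : SingleData 𝒪 A} {Phi Sig : A → M2 R}

/-- With a bound for the tangent vectors killing an ideal, that many variables generate modulo
it. -/
theorem exists_gens_mod (hres : Function.Surjective (residue R ∘ algebraMap 𝒪 R))
    (hP : ∀ q i j, Phi q i j - algebraMap 𝒪 R (D.phi0 q i j) ∈ maximalIdeal R)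
    (hS : ∀ q i j, Sig q i j - (1 : M2 R) i j ∈ maximalIdeal R)
    {J : Ideal (MvPowerSeries (FrameVar A q₀) R)}
    (hJ : J ≤ maximalIdeal (MvPowerSeries (FrameVar A q₀) R)) (g : ℕ)
    (htan : ∀ K : Submodule (ResidueField (MvPowerSeries (FrameVar A q₀) R))
        (MvPowerSeries (FrameVar A q₀) R → ResidueField (MvPowerSeries (FrameVar A q₀) R)),
      (∀ l ∈ K, l ∈ tangentSpace 𝒪 (MvPowerSeries (FrameVar A q₀) R) ∧
        (∀ q i j, l (framed q₀ q (Phi q) i j) = 0) ∧
        (∀ q i j, l (framed q₀ q (Sig q) i j) = 0) ∧ ∀ w ∈ J, l w = 0) →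
      Finite K ∧ Nat.card K ≤
        Nat.card (ResidueField (MvPowerSeries (FrameVar A q₀) R)) ^ g) :
    ∃ (zs : Fin g → MvPowerSeries (FrameVar A q₀) R)
      (hz : ∀ i, zs i ∈ maximalIdeal (MvPowerSeries (FrameVar A q₀) R)),
      ∀ y, ∃ z, frameSubst q₀ hP hS hz z - y ∈ J := by
  classical
  set W := MvPowerSeries (FrameVar A q₀) R
  have := finite_residueField_framed (σ := FrameVar A q₀) hres
  have := isLocalHom_algebraMap_framed (𝒪 := 𝒪) (R := R) (σ := FrameVar A q₀)
  obtain ⟨zs, hzs, hsep⟩ := exists_separating_killing (residue_framed_surjective hres) g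
    (framedSet q₀ Phi Sig ∪ J) fun K hK => htan K fun l hl =>
      have h := forall_mem_framedSet q₀ (Phi := Phi) (Sig := Sig) |>.mp fun w hw =>
        (hK l hl).2 w (Or.inl hw)
      ⟨(hK l hl).1, h.1, h.2, fun w hw => (hK l hl).2 w (Or.inr hw)⟩
  -- adjoin generators of `J` to get a surjection, then send them to zero
  obtain ⟨e, gens, hgens⟩ := Submodule.fg_iff_exists_fin_generating_family.mp
    (IsNoetherian.noetherian J)
  have hgJ : ∀ i, gens i ∈ J := fun i => by
    rw [← hgens]; exact Submodule.subset_span ⟨i, rfl⟩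
  let zs' : Fin g ⊕ Fin e → W := Sum.elim zs gens
  have hzs' : ∀ i, zs' i ∈ maximalIdeal W := by
    rintro (i | i)
    · exact hzs i
    · exact hJ (hgJ i)
  have hsurj : Function.Surjective (frameSubst q₀ hP hS hzs') := by
    refine frameSubst_surjective q₀ hP hS hzs' hres fun l hl h1 h2 h3 => ?_
    refine hsep l hl (fun w hw => ?_) fun i => h3 (Sum.inl i)
    rcases hw with hw | hw
    · exact (forall_mem_framedSet q₀).mpr ⟨h1, h2⟩ w hw
    · rw [← hgens] at hw
      induction hw using Submodule.span_induction with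
      | mem w hw => obtain ⟨i, rfl⟩ := hw; exact h3 (Sum.inr i)
      | zero => simpa using hl.1 0 0
      | add a b _ _ ha hb => rw [hl.1, ha, hb, add_zero]
      | smul a b hb ih =>
        rw [smul_eq_mul, hl.2.1, ih, mul_zero, zero_add,
          (residue_eq_zero_iff b).mpr (hJ (hgens ▸ hb)), zero_mul]
  let ρ : Src 𝒪 A (Fin g ⊕ Fin e) →ₐ[𝒪] Src 𝒪 A (Fin g) :=
    substVars (Sum.elim (fun i => MvPowerSeries.X (Sum.inr i)) fun _ => 0) (by
      rintro (i | i)
      · exact X_mem_maximalIdeal _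
      · exact zero_mem _)
  refine ⟨zs, hzs, fun y => ?_⟩
  obtain ⟨z, rfl⟩ := hsurj y
  refine ⟨ρ z, ?_⟩
  have h := sub_mem_of_X hJ (x := frameSubst q₀ hP hS hzs')
    (y := (frameSubst q₀ hP hS hzs).comp ρ) (frameSubst_mem q₀ hP hS hzs') (fun v => ?_) z
  · rw [← neg_sub]
    exact neg_mem h
  · change _ - frameSubst q₀ hP hS hzs (ρ (MvPowerSeries.X v)) ∈ J
    rw [show ρ (MvPowerSeries.X v) = _ from substVars_X _ _ v, frameSubst_X]
    rcases v with v | (i | i)
    · rw [Sum.elim_inl, frameSubst_X]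
      exact (sub_self (frameIm D.phi0 q₀ Phi Sig zs (Sum.inl v))).symm ▸ zero_mem J
    · rw [Sum.elim_inr, Sum.elim_inl, frameSubst_X]
      exact (sub_self (zs i)).symm ▸ zero_mem J
    · rw [Sum.elim_inr, Sum.elim_inr, map_zero, sub_zero]
      exact hgJ i

/-- The union type passes to the kernel of a composite. -/
theorem SingleData.IsUnionType.ker_comp (D : SingleData 𝒪 A) {G : Type} [Fintype G] {W B : Type}
    [CommRing W] [Algebra 𝒪 W] [Ring B] [Algebra 𝒪 B] (b : W →ₐ[𝒪] B) (θ : Src 𝒪 A G →ₐ[𝒪] W)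
    (h : D.IsUnionType ((Ideal.Quotient.mk (RingHom.ker b)).comp (θ : Src 𝒪 A G →+* W))) :
    D.IsUnionType (Ideal.Quotient.mk (RingHom.ker (b.comp θ))) :=
  SingleData.IsUnionType.of_jointly D _ (κ := Unit)
    (fun _ => (kerCompHom b θ : Src 𝒪 A G ⧸ RingHom.ker (b.comp θ) →+* W ⧸ RingHom.ker b))
    (fun z hz => (injective_iff_map_eq_zero _).mp (kerCompHom_injective b θ) z (hz ())) fun _ => h

/-- Union relations on the base give the union type of the composite. -/
theorem isUnionType_comp_frameSubst {G : Type} [Fintype G] (q₀ : A)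
    (hP : ∀ q i j, Phi q i j - algebraMap 𝒪 R (D.phi0 q i j) ∈ maximalIdeal R)
    (hS : ∀ q i j, Sig q i j - (1 : M2 R) i j ∈ maximalIdeal R)
    {zs : G → MvPowerSeries (FrameVar A q₀) R}
    (hz : ∀ i, zs i ∈ maximalIdeal (MvPowerSeries (FrameVar A q₀) R)) {B : Type} [CommRing B]
    (h : MvPowerSeries (FrameVar A q₀) R →+* B)
    (hrel : ∀ q, D.UnionTypeRel q (h (MvPowerSeries.C (algebraMap 𝒪 R (D.u q))))
      (((Phi q).map MvPowerSeries.C).map h) (((Sig q).map MvPowerSeries.C).map h)) :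
    D.IsUnionType
      (h.comp (frameSubst q₀ hP hS hz : Src 𝒪 A G →+* MvPowerSeries (FrameVar A q₀) R)) := by
  intro q
  rw [D.phi_comp, sigAt_comp, phi_frameSubst, sigAt_frameSubst,
    show (h.comp (frameSubst q₀ hP hS hz : Src 𝒪 A G →+* _)) (algebraMap 𝒪 _ (D.u q)) =
      h (MvPowerSeries.C (algebraMap 𝒪 R (D.u q))) from u_frameSubst q₀ hP hS hz q h,
    framed, framed, Matrix.map_mul, Matrix.map_mul, Matrix.map_mul, Matrix.map_mul]
  exact SingleData.UnionTypeRel.conj D (hrel q) _ _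
    (by rw [← Matrix.map_mul, frameMat_mul_inv, Matrix.map_one _ (map_zero h) (map_one h)])

variable {d g r : ℕ} {O' : Type} [CommRing O'] [IsDomain O'] [IsDiscreteValuationRing O']
  [IsAdicComplete (maximalIdeal O') O'] [Finite (ResidueField O')] [CharZero O'] [Algebra 𝒪 O']
  [IsLocalHom (algebraMap 𝒪 O')]

local notation "S" => MvPowerSeries (Fin d) 𝒪

/-- What the transfer needs at level `n`: the trace ring with its framed matrices, the conditions of
the chain and of the further module, the actions and the point. -/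
structure TransferLevel (D : SingleData 𝒪 A) (ϖ : 𝒪) (q₀ : A) (g : ℕ) (ψ : S →ₐ[𝒪] S)
    (emb : Fin r ⊕ FrameVar A q₀ ≃ Fin d) (c : O') {N : ℕ} (qs : Fin N → A)
    (mk : Fin (N + 1) ⊕ Fin N → ℕ) (mX n : ℕ) : Type 1 where
  /-- The trace ring of level `n`. -/
  R : Type
  [instCommRing : CommRing R]
  [instLocal : IsLocalRing R]
  [instNoeth : IsNoetherianRing R]
  [instComplete : IsAdicComplete (maximalIdeal R) R]
  [instAlgebra : Algebra 𝒪 R]
  [instLocalHom : IsLocalHom (algebraMap 𝒪 R)]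
  /-- The residue field of `R` is that of `𝒪`. -/
  hres : Function.Surjective (residue R ∘ algebraMap 𝒪 R)
  /-- The image of Frobenius at each framed prime. -/
  Phi : A → M2 R
  /-- The image of the tame generator at each framed prime. -/
  Sig : A → M2 R
  /-- Frobenius is residually `phi0`. -/
  Phi_red : ∀ q i j, Phi q i j - algebraMap 𝒪 R (D.phi0 q i j) ∈ maximalIdeal R
  /-- The tame generator is residually `1`. -/
  Sig_red : ∀ q i j, Sig q i j - (1 : M2 R) i j ∈ maximalIdeal R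
  /-- The ideal cutting out the condition of the chain. -/
  IF : Ideal R
  /-- The ideal cutting out the condition of the module. -/
  IS : Ideal R
  /-- The condition of the chain is proper. -/
  IF_le : IF ≤ maximalIdeal R
  /-- The condition of the module is proper. -/
  IS_le : IS ≤ maximalIdeal R
  /-- The element `t` at this level. -/
  te : R
  /-- `t` lies in the maximal ideal. -/
  te_mem : te ∈ maximalIdeal R
  /-- The tangent bound `g + 1` for the condition of the chain. -/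
  tangentF : ∀ K : Submodule (ResidueField (MvPowerSeries (FrameVar A q₀) R))
      (MvPowerSeries (FrameVar A q₀) R → ResidueField (MvPowerSeries (FrameVar A q₀) R)),
    (∀ l ∈ K, l ∈ tangentSpace 𝒪 (MvPowerSeries (FrameVar A q₀) R) ∧
      (∀ q i j, l (framed q₀ q (Phi q) i j) = 0) ∧ (∀ q i j, l (framed q₀ q (Sig q) i j) = 0) ∧
      ∀ y ∈ IF, l (MvPowerSeries.C y) = 0) →
    Finite K ∧ Nat.card K ≤ Nat.card (ResidueField (MvPowerSeries (FrameVar A q₀) R)) ^ (g + 1)
  /-- The tangent bound `g + 1` for the condition of the module. -/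
  tangentS : ∀ K : Submodule (ResidueField (MvPowerSeries (FrameVar A q₀) R))
      (MvPowerSeries (FrameVar A q₀) R → ResidueField (MvPowerSeries (FrameVar A q₀) R)),
    (∀ l ∈ K, l ∈ tangentSpace 𝒪 (MvPowerSeries (FrameVar A q₀) R) ∧
      (∀ q i j, l (framed q₀ q (Phi q) i j) = 0) ∧ (∀ q i j, l (framed q₀ q (Sig q) i j) = 0) ∧
      ∀ y ∈ IS, l (MvPowerSeries.C y) = 0) →
    Finite K ∧ Nat.card K ≤ Nat.card (ResidueField (MvPowerSeries (FrameVar A q₀) R)) ^ (g + 1)
  /-- The tangent bound `g` for the condition of the chain with `t = 0`. -/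
  tangentT : ∀ K : Submodule (ResidueField (MvPowerSeries (FrameVar A q₀) R))
      (MvPowerSeries (FrameVar A q₀) R → ResidueField (MvPowerSeries (FrameVar A q₀) R)),
    (∀ l ∈ K, l ∈ tangentSpace 𝒪 (MvPowerSeries (FrameVar A q₀) R) ∧
      (∀ q i j, l (framed q₀ q (Phi q) i j) = 0) ∧ (∀ q i j, l (framed q₀ q (Sig q) i j) = 0) ∧
      (∀ y ∈ IF, l (MvPowerSeries.C y) = 0) ∧ l (MvPowerSeries.C te) = 0) →
    Finite K ∧ Nat.card K ≤ Nat.card (ResidueField (MvPowerSeries (FrameVar A q₀) R)) ^ g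
  /-- The actions on the modules of the chain. -/
  α : ∀ j, R →ₐ[𝒪] Matrix (Fin (mk j)) (Fin (mk j)) (S ⧸ maximalIdeal S ^ n)
  /-- The chain satisfies its condition. -/
  α_IF : ∀ j, ∀ y ∈ IF, α j y = 0
  /-- The action on the further module. -/
  αX : R →ₐ[𝒪] Matrix (Fin mX) (Fin mX) (S ⧸ maximalIdeal S ^ n)
  /-- The further module satisfies its condition. -/
  αX_IS : ∀ y ∈ IS, αX y = 0
  /-- The point. -/
  x : R →ₐ[𝒪] O'
  /-- The point is a local map. -/
  x_mem : ∀ y ∈ maximalIdeal R, x y ∈ maximalIdeal O'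
  /-- The point satisfies the condition of the module. -/
  x_IS : ∀ y ∈ IS, x y = 0
  /-- The first module is unramified at every framed prime. -/
  type_zero : ∀ q, (D.withSt fun _ => false).TypeRel q
    (Ideal.Quotient.mk (RingHom.ker (α (Sum.inl 0))) (algebraMap 𝒪 R (D.u q)))
    ((Phi q).map (Ideal.Quotient.mk (RingHom.ker (α (Sum.inl 0)))))
    ((Sig q).map (Ideal.Quotient.mk (RingHom.ker (α (Sum.inl 0)))))
  /-- On `X i` the relations of the `i`-th step of the chain hold. -/
  type_step : ∀ i q, D.ChainRel (qs i) (chainSt qs i) q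
    (Ideal.Quotient.mk (RingHom.ker (α (Sum.inr i))) (algebraMap 𝒪 R (D.u q)))
    ((Phi q).map (Ideal.Quotient.mk (RingHom.ker (α (Sum.inr i)))))
    ((Sig q).map (Ideal.Quotient.mk (RingHom.ker (α (Sum.inr i)))))
  /-- The further module is of union type. -/
  type_X : ∀ q, D.UnionTypeRel q
    (Ideal.Quotient.mk (RingHom.ker αX) (algebraMap 𝒪 R (D.u q)))
    ((Phi q).map (Ideal.Quotient.mk (RingHom.ker αX)))
    ((Sig q).map (Ideal.Quotient.mk (RingHom.ker αX)))
  /-- The point has the exact types. -/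
  type_x : ∀ q, D.TypeRel q (algebraMap 𝒪 O' (D.u q)) ((Phi q).map x) ((Sig q).map x)
  /-- `E (i + 1)` maps equivariantly onto `X i`. -/
  proj : ∀ i : Fin N, ∃ (P : Matrix (Fin (mk (Sum.inr i))) (Fin (mk (Sum.inl i.succ)))
      (S ⧸ maximalIdeal S ^ n))
    (Q : Matrix (Fin (mk (Sum.inl i.succ))) (Fin (mk (Sum.inr i))) (S ⧸ maximalIdeal S ^ n)),
    P * Q = 1 ∧
    ∀ y, P * α (Sum.inl i.succ) y = α (Sum.inr i) y * P
  /-- `X i` maps onto `E i` modulo `(ϖ, tr Φ - u (N + 1))` at the `i`-th prime, equivariantly so. -/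
  desc : ∀ i : Fin N, ∃ (P : Matrix (Fin (mk (Sum.inl i.castSucc))) (Fin (mk (Sum.inr i)))
      (S ⧸ maximalIdeal S ^ n))
    (Q : Matrix (Fin (mk (Sum.inr i))) (Fin (mk (Sum.inl i.castSucc))) (S ⧸ maximalIdeal S ^ n)),
    (∃ X Y : Matrix (Fin (mk (Sum.inl i.castSucc))) (Fin (mk (Sum.inl i.castSucc)))
      (S ⧸ maximalIdeal S ^ n), P * Q - 1 = algebraMap 𝒪 (S ⧸ maximalIdeal S ^ n) ϖ • X +
      α (Sum.inl i.castSucc) ((Phi (qs i)).trace -
        algebraMap 𝒪 R (D.u (qs i)) * ((D.N (qs i) : R) + 1)) * Y) ∧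
    ∀ y, ∃ X Y : Matrix (Fin (mk (Sum.inl i.castSucc))) (Fin (mk (Sum.inr i)))
      (S ⧸ maximalIdeal S ^ n), P * α (Sum.inr i) y - α (Sum.inl i.castSucc) y * P =
      algebraMap 𝒪 (S ⧸ maximalIdeal S ^ n) ϖ • X +
        α (Sum.inl i.castSucc) ((Phi (qs i)).trace -
          algebraMap 𝒪 R (D.u (qs i)) * ((D.N (qs i) : R) + 1)) * Y
  /-- The further module maps onto the last module of the chain modulo `t`, equivariantly so. -/
  descX : ∃ (P : Matrix (Fin (mk (Sum.inl (Fin.last N)))) (Fin mX) (S ⧸ maximalIdeal S ^ n))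
    (Q : Matrix (Fin mX) (Fin (mk (Sum.inl (Fin.last N)))) (S ⧸ maximalIdeal S ^ n)),
    (∃ Y, P * Q - 1 = α (Sum.inl (Fin.last N)) te * Y) ∧
    ∀ y, ∃ Y, P * αX y - α (Sum.inl (Fin.last N)) y * P = α (Sum.inl (Fin.last N)) te * Y
  /-- Each auxiliary variable is an element of `R` in all the modules, killed by the point. -/
  par : ∀ k : Fin r, ∃ y, (∀ j, α j y = algebraMap _ _
      (Ideal.Quotient.mk (maximalIdeal (MvPowerSeries (Fin d) 𝒪) ^ n)
        (ψ (MvPowerSeries.X (emb (Sum.inl k)))))) ∧ αX y = algebraMap _ _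
      (Ideal.Quotient.mk (maximalIdeal (MvPowerSeries (Fin d) 𝒪) ^ n)
        (ψ (MvPowerSeries.X (emb (Sum.inl k))))) ∧ x y = 0
  /-- The element whose value at the point is `c`. -/
  z : R
  /-- `z` acts on the further module by matrices with constant terms in `(ϖ ^ n)`. -/
  z_base : ∀ i j, ∀ s : S, Ideal.Quotient.mk _ s = αX z i j →
    MvPowerSeries.constantCoeff s ∈ Ideal.span {ϖ ^ n}
  /-- The value of `z` at the point. -/
  z_point : x z = c

attribute [instance] TransferLevel.instCommRing TransferLevel.instLocal TransferLevel.instNoeth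
  TransferLevel.instComplete TransferLevel.instAlgebra TransferLevel.instLocalHom

omit [Fintype A] in
/-- Maps killing an ideal of constants agree on elements congruent modulo its extension. -/
theorem map_eq_of_sub_mem_map_C {T σ B F : Type} [CommRing T] [Ring B]
    [FunLike F (MvPowerSeries σ T) B] [RingHomClass F (MvPowerSeries σ T) B] {I : Ideal T}
    (f : F) (hf : ∀ a ∈ I, f (MvPowerSeries.C a) = 0)
    {u u' : MvPowerSeries σ T} (h : u - u' ∈ I.map MvPowerSeries.C) : f u = f u' := by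
  have hle : I.map (MvPowerSeries.C : T →+* MvPowerSeries σ T) ≤ RingHom.ker f :=
    Ideal.map_le_iff_le_comap.mpr fun a ha => hf a ha
  rw [← sub_eq_zero, ← map_sub]
  exact hle h

omit [Fintype A] in
/-- Elements of the maximal ideal lift to small elements along a map surjective modulo an ideal. -/
theorem exists_small_lift {P W : Type} [CommRing P] [IsLocalRing P] [CommRing W] [IsLocalRing W]
    (θ : P →+* W) {J : Ideal W} (hJ : J ≤ maximalIdeal W) (h : ∀ y, ∃ u, θ u - y ∈ J) :
    ∀ y ∈ maximalIdeal W, ∃ u ∈ maximalIdeal P, θ u - y ∈ J := by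
  intro y hy
  obtain ⟨u, hu⟩ := h y
  refine ⟨u, fun hU => ?_, hu⟩
  have h' := add_mem (hJ hu) hy
  rw [sub_add_cancel] at h'
  exact h' (hU.map θ)

/-- Frame substitutions factor through a substitution of variables modulo an ideal. -/
theorem frameSubst_sub_substVars_mem
    (hP : ∀ q i j, Phi q i j - algebraMap 𝒪 R (D.phi0 q i j) ∈ maximalIdeal R)
    (hS : ∀ q i j, Sig q i j - (1 : M2 R) i j ∈ maximalIdeal R)
    {G G' : Type} [Fintype G] [Fintype G']
    {zs : G → MvPowerSeries (FrameVar A q₀) R}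
    (hz : ∀ i, zs i ∈ maximalIdeal (MvPowerSeries (FrameVar A q₀) R))
    {zs' : G' → MvPowerSeries (FrameVar A q₀) R}
    (hz' : ∀ i, zs' i ∈ maximalIdeal (MvPowerSeries (FrameVar A q₀) R))
    (h : G' → Src 𝒪 A G) (hh : ∀ v, h v ∈ maximalIdeal (Src 𝒪 A G))
    {J : Ideal (MvPowerSeries (FrameVar A q₀) R)}
    (hJ : J ≤ maximalIdeal (MvPowerSeries (FrameVar A q₀) R))
    (heq : ∀ v, frameSubst q₀ hP hS hz (h v) - zs' v ∈ J) (y : Src 𝒪 A G') :
    frameSubst q₀ hP hS hz' y - frameSubst q₀ hP hS hz (substVars h hh y) ∈ J := by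
  have := isLocalHom_algebraMap_framed (𝒪 := 𝒪) (R := R) (σ := FrameVar A q₀)
  refine sub_mem_of_X hJ (x := frameSubst q₀ hP hS hz')
    (y := (frameSubst q₀ hP hS hz).comp (substVars h hh)) (frameSubst_mem q₀ hP hS hz')
    (fun v => ?_) y
  change frameSubst q₀ hP hS hz' (MvPowerSeries.X v) -
    frameSubst q₀ hP hS hz (substVars h hh (MvPowerSeries.X v)) ∈ J
  rw [substVars_X]
  rcases v with v | v
  · rw [Sum.elim_inl, frameSubst_X, frameSubst_X]
    exact (sub_self (frameIm D.phi0 q₀ Phi Sig zs (Sum.inl v))).symm ▸ zero_mem J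
  · rw [Sum.elim_inr, ← neg_sub, frameSubst_X]
    exact neg_mem (heq v)

namespace TransferLevel

variable {ϖ : 𝒪} {ψ : MvPowerSeries (Fin d) 𝒪 →ₐ[𝒪] MvPowerSeries (Fin d) 𝒪}
  {emb : Fin r ⊕ FrameVar A q₀ ≃ Fin d} {c : O'} {N : ℕ} {qs : Fin N → A}
  {mk : Fin (N + 1) ⊕ Fin N → ℕ} {mX n : ℕ} (L : TransferLevel D ϖ q₀ g ψ emb c qs mk mX n)

local notation "JF" => Ideal.map (MvPowerSeries.C (σ := FrameVar A q₀)) L.IF
local notation "JS" => Ideal.map (MvPowerSeries.C (σ := FrameVar A q₀)) L.IS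

/-- The condition of the chain is proper on the framed ring. -/
theorem map_IF_le : JF ≤ maximalIdeal (MvPowerSeries (FrameVar A q₀) L.R) :=
  Ideal.map_le_iff_le_comap.mpr fun _ ha => C_mem_maximalIdeal (L.IF_le ha)

/-- The condition of the module is proper on the framed ring. -/
theorem map_IS_le : JS ≤ maximalIdeal (MvPowerSeries (FrameVar A q₀) L.R) :=
  Ideal.map_le_iff_le_comap.mpr fun _ ha => C_mem_maximalIdeal (L.IS_le ha)

/-- Variables generating modulo the three conditions. -/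
theorem exists_three_gens :
    (∃ (zs : Fin (g + 1) → MvPowerSeries (FrameVar A q₀) L.R)
      (hz : ∀ i, zs i ∈ maximalIdeal (MvPowerSeries (FrameVar A q₀) L.R)),
      ∀ y, ∃ z, frameSubst q₀ L.Phi_red L.Sig_red hz z - y ∈ JF) ∧
    (∃ (zs : Fin (g + 1) → MvPowerSeries (FrameVar A q₀) L.R)
      (hz : ∀ i, zs i ∈ maximalIdeal (MvPowerSeries (FrameVar A q₀) L.R)),
      ∀ y, ∃ z, frameSubst q₀ L.Phi_red L.Sig_red hz z - y ∈ JS) ∧
    ∃ (zs : Fin g → MvPowerSeries (FrameVar A q₀) L.R)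
      (hz : ∀ i, zs i ∈ maximalIdeal (MvPowerSeries (FrameVar A q₀) L.R)),
      ∀ y, ∃ z, frameSubst q₀ L.Phi_red L.Sig_red hz z - y ∈
        JF ⊔ Ideal.span {MvPowerSeries.C L.te} :=
  ⟨exists_gens_mod L.hres L.Phi_red L.Sig_red L.map_IF_le (g + 1)
    fun K hK => L.tangentF K fun l hl => ⟨(hK l hl).1, (hK l hl).2.1, (hK l hl).2.2.1,
      fun _ hy => (hK l hl).2.2.2 _ (Ideal.mem_map_of_mem _ hy)⟩,
  exists_gens_mod L.hres L.Phi_red L.Sig_red L.map_IS_le (g + 1)
    fun K hK => L.tangentS K fun l hl => ⟨(hK l hl).1, (hK l hl).2.1, (hK l hl).2.2.1,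
      fun _ hy => (hK l hl).2.2.2 _ (Ideal.mem_map_of_mem _ hy)⟩,
  exists_gens_mod L.hres L.Phi_red L.Sig_red
    (sup_le L.map_IF_le ((Ideal.span_singleton_le_iff_mem _).mpr (C_mem_maximalIdeal L.te_mem))) g
    fun K hK => L.tangentT K fun l hl => ⟨(hK l hl).1, (hK l hl).2.1, (hK l hl).2.2.1,
      fun _ hy => (hK l hl).2.2.2 _ (Ideal.mem_sup_left (Ideal.mem_map_of_mem _ hy)),
      (hK l hl).2.2.2 _ (Ideal.mem_sup_right (Ideal.mem_span_singleton_self _))⟩⟩

/-- The scalars by which the framing variables act. -/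
def frameScalar (_L : TransferLevel D ϖ q₀ g ψ emb c qs mk mX n) (v : FrameVar A q₀) :
    S ⧸ maximalIdeal S ^ n :=
  Ideal.Quotient.mk _ (MvPowerSeries.X (emb (Sum.inr v)))

/-- The framing variables act nilpotently. -/
theorem isNilpotent_frameScalar (v : FrameVar A q₀) : IsNilpotent (L.frameScalar v) :=
  ⟨n, by
    rw [frameScalar, ← map_pow, Ideal.Quotient.eq_zero_iff_mem]
    exact Ideal.pow_mem_pow (X_mem_maximalIdeal _) n⟩

/-- The chain and the further module, with the framing variables acting. -/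
structure Action : Type where
  /-- The actions of the framed ring on the chain. -/
  β : ∀ j, MvPowerSeries (FrameVar A q₀) L.R →ₐ[𝒪]
    Matrix (Fin (mk j)) (Fin (mk j)) (S ⧸ maximalIdeal S ^ n)
  /-- The action of the framed ring on the further module. -/
  βX : MvPowerSeries (FrameVar A q₀) L.R →ₐ[𝒪] Matrix (Fin mX) (Fin mX) (S ⧸ maximalIdeal S ^ n)
  /-- Constants act as in the level. -/
  β_C : ∀ j a, β j (MvPowerSeries.C a) = L.α j a
  /-- Framing variables act by scalars. -/
  β_X : ∀ j v, β j (MvPowerSeries.X v) = algebraMap _ _ (L.frameScalar v)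
  /-- Constants act as in the level. -/
  βX_C : ∀ a, βX (MvPowerSeries.C a) = L.αX a
  /-- Framing variables act by scalars. -/
  βX_X : ∀ v, βX (MvPowerSeries.X v) = algebraMap _ _ (L.frameScalar v)

/-- The actions extend to the framed ring. -/
theorem nonempty_action : Nonempty L.Action := by
  have := finite_residueField_mvPowerSeries (𝒪 := 𝒪) (Fin d)
  choose β hβC hβX using fun j => exists_extend (L.α j) L.frameScalar L.isNilpotent_frameScalar
  obtain ⟨βX, hβXC, hβXX⟩ := exists_extend L.αX L.frameScalar L.isNilpotent_frameScalar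
  exact ⟨⟨β, βX, hβC, hβX, hβXC, hβXX⟩⟩

variable {L} (a : L.Action)

/-- The chain sees the framed ring modulo the condition of the chain. -/
theorem Action.β_congr (j : Fin (N + 1) ⊕ Fin N) {u u' : MvPowerSeries (FrameVar A q₀) L.R}
    (h : u - u' ∈ JF) : a.β j u = a.β j u' :=
  map_eq_of_sub_mem_map_C (a.β j)
    (fun y hy => (a.β_C j y).trans (L.α_IF j y hy)) h

/-- The module sees the framed ring modulo the condition of the module. -/
theorem Action.βX_congr {u u' : MvPowerSeries (FrameVar A q₀) L.R} (h : u - u' ∈ JS) :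
    a.βX u = a.βX u' :=
  map_eq_of_sub_mem_map_C a.βX
    (fun y hy => (a.βX_C y).trans (L.αX_IS y hy)) h

/-- The point sees the framed ring modulo the condition of the module. -/
theorem framedPoint_congr {u u' : MvPowerSeries (FrameVar A q₀) L.R} (h : u - u' ∈ JS) :
    framedPoint q₀ L.x u = framedPoint q₀ L.x u' :=
  map_eq_of_sub_mem_map_C (framedPoint q₀ L.x)
    (fun y hy => (framedPoint_C q₀ L.x y).trans (L.x_IS y hy)) h

variable {zF : Fin (g + 1) → MvPowerSeries (FrameVar A q₀) L.R}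
  (hzF : ∀ i, zF i ∈ maximalIdeal (MvPowerSeries (FrameVar A q₀) L.R))
  {zS : Fin (g + 1) → MvPowerSeries (FrameVar A q₀) L.R}
  (hzS : ∀ i, zS i ∈ maximalIdeal (MvPowerSeries (FrameVar A q₀) L.R))

local notation "θF" => frameSubst q₀ L.Phi_red L.Sig_red hzF
local notation "θS" => frameSubst q₀ L.Phi_red L.Sig_red hzS

/-- The first member of the chain has the unramified type. -/
theorem Action.isType_zero : (D.withSt fun _ => false).IsType
    (Ideal.Quotient.mk (RingHom.ker ((a.β (Sum.inl 0)).comp θF))) :=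
  isType_withSt_ker_extend q₀ L.Phi_red L.Sig_red hzF (a.β_C _) _ L.type_zero

/-- The steps of the chain have the chain types. -/
theorem Action.isChainType_step (i : Fin N) : D.IsChainType (qs i) (chainSt qs i)
    (Ideal.Quotient.mk (RingHom.ker ((a.β (Sum.inr i)).comp θF))) :=
  isChainType_ker_extend q₀ L.Phi_red L.Sig_red hzF (a.β_C _) _ _ (L.type_step i)

/-- The further module has the union type. -/
theorem Action.isUnionType :
    D.IsUnionType (Ideal.Quotient.mk (RingHom.ker (a.βX.comp θS))) := by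
  refine SingleData.IsUnionType.ker_comp _ a.βX θS
    (isUnionType_comp_frameSubst q₀ L.Phi_red L.Sig_red hzS
      (Ideal.Quotient.mk (RingHom.ker a.βX)) fun q => ?_)
  have h := SingleData.UnionTypeRel.map D (L.type_X q) (extendQuotientMap a.βX_C)
  rw [Matrix.map_map, Matrix.map_map] at h
  rw [Matrix.map_map, Matrix.map_map]
  exact h

/-- The point has the exact type. -/
theorem isType_point : D.IsType
    ((framedPoint q₀ L.x : MvPowerSeries (FrameVar A q₀) L.R →+* O').comp
      (θS : Src 𝒪 A (Fin (g + 1)) →+* MvPowerSeries (FrameVar A q₀) L.R)) := by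
  refine isType_comp_frameSubst q₀ L.Phi_red L.Sig_red hzS
    (framedPoint q₀ L.x : MvPowerSeries (FrameVar A q₀) L.R →+* O') fun q => ?_
  rw [RingHom.coe_coe, framedPoint_C, AlgHom.commutes, Matrix.map_map, Matrix.map_map,
    show (framedPoint q₀ L.x : MvPowerSeries (FrameVar A q₀) L.R → O') ∘ MvPowerSeries.C = L.x from
      funext (framedPoint_C q₀ L.x)]
  exact L.type_x q

/-- What kills a member of the chain kills the step below it. -/
theorem Action.proj_eq_zero (i : Fin N) (k : ℕ) (hk : k ≤ n) (y : Src 𝒪 A (Fin (g + 1)))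
    (hy : reduceHom hk ((a.β (Sum.inl i.succ)).comp θF) y = 0) :
    reduceHom hk ((a.β (Sum.inr i)).comp θF) y = 0 := by
  obtain ⟨P, Q, hPQ, hP⟩ := L.proj i
  exact map_eq_zero_of_proj (a.β (Sum.inl i.succ)) (a.β (Sum.inr i)) L.frameScalar
    (Ideal.Quotient.factor (Ideal.pow_le_pow_right (I := maximalIdeal S) hk))
    L.isNilpotent_frameScalar (a.β_X _) (a.β_X _)
    hPQ (fun y => by rw [a.β_C, a.β_C]; exact hP y) (w := θF y) hy

/-- What kills a step lands in `(ϖ, t)` in the member above it. -/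
theorem Action.desc_eq (i : Fin N) (k : ℕ) (hk : k ≤ n) (y : Src 𝒪 A (Fin (g + 1)))
    (hy : reduceHom hk ((a.β (Sum.inr i)).comp θF) y = 0) :
    ∃ X Y, reduceHom hk ((a.β (Sum.inl i.castSucc)).comp θF) y =
      algebraMap 𝒪 (S ⧸ maximalIdeal S ^ k) ϖ • X +
        reduceHom hk ((a.β (Sum.inl i.castSucc)).comp θF) (D.tEl (qs i)) * Y :=
  exists_map_eq_of_step q₀ L.Phi_red L.Sig_red hzF (a.β_C _) (a.β_C _) L.isNilpotent_frameScalar
    (a.β_X _) (a.β_X _) (Ideal.Quotient.factor (Ideal.pow_le_pow_right (I := maximalIdeal S) hk))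
    (qs i) _ (L.desc i) hy

/-- What kills the further module lands in `(t)` in the last member of the chain. -/
theorem Action.descX_eq (k : ℕ) (hk : k ≤ n) {h : Fin (g + 1) → Src 𝒪 A (Fin (g + 1))}
    (hh : ∀ v, h v ∈ maximalIdeal (Src 𝒪 A (Fin (g + 1))))
    (hheq : ∀ v, θF (h v) - zS v ∈ JF) {te : Src 𝒪 A (Fin (g + 1))}
    (hteq : θF te - MvPowerSeries.C L.te ∈ JF) (y : Src 𝒪 A (Fin (g + 1)))
    (hy : reduceHom hk (a.βX.comp θS) y = 0) :
    ∃ Y, reduceHom hk ((a.β (Sum.inl (Fin.last N))).comp θF) (substVars h hh y) =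
      reduceHom hk ((a.β (Sum.inl (Fin.last N))).comp θF) te * Y := by
  obtain ⟨P, Q, ⟨Y₀, hPQ⟩, hP⟩ := L.descX
  obtain ⟨X, Y, hXY⟩ := exists_map_eq_of_desc (a.β (Sum.inl (Fin.last N))) a.βX L.frameScalar
    (Ideal.Quotient.factor (Ideal.pow_le_pow_right (I := maximalIdeal S) hk))
    L.isNilpotent_frameScalar (a.β_X _) a.βX_X
    0 L.te (P := P) (Q := Q) (X₀ := 0) (Y₀ := Y₀) (by rw [a.β_C, smul_zero, zero_add]; exact hPQ)
    (fun y => by
      obtain ⟨Y, hY⟩ := hP y
      exact ⟨0, Y, by rw [a.βX_C, a.β_C, a.β_C, smul_zero, zero_add]; exact hY⟩) (w := θS y) hy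
  refine ⟨Y, ?_⟩
  change (a.β (Sum.inl (Fin.last N)) (θF (substVars h hh y))).map _ =
    (a.β (Sum.inl (Fin.last N)) (θF te)).map _ * _
  rw [← a.β_congr _ (frameSubst_sub_substVars_mem L.Phi_red L.Sig_red hzF hzS h hh L.map_IF_le
    hheq y), a.β_congr _ hteq]
  refine hXY.trans ?_
  rw [map_zero, zero_smul, zero_add]
  rfl

/-- Modulo `t` the variables of the chain come from `g` variables. -/
theorem Action.gen_eq {zT : Fin g → MvPowerSeries (FrameVar A q₀) L.R}
    (hzT : ∀ i, zT i ∈ maximalIdeal (MvPowerSeries (FrameVar A q₀) L.R))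
    {w : Fin g → Src 𝒪 A (Fin (g + 1))} (hw : ∀ v, w v ∈ maximalIdeal (Src 𝒪 A (Fin (g + 1))))
    (hweq : ∀ v, θF (w v) - zT v ∈ JF) {te : Src 𝒪 A (Fin (g + 1))}
    (hteq : θF te - MvPowerSeries.C L.te ∈ JF) (v : Fin (g + 1)) {rr : Src 𝒪 A (Fin g)}
    (hrr : frameSubst q₀ L.Phi_red L.Sig_red hzT rr - zF v ∈
      JF ⊔ Ideal.span {MvPowerSeries.C L.te}) :
    ∃ Y, ((a.β (Sum.inl (Fin.last N))).comp θF)
        (MvPowerSeries.X (Sum.inr v) - substVars w hw rr) =
      ((a.β (Sum.inl (Fin.last N))).comp θF) te * Y := by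
  have hmem : θF (MvPowerSeries.X (Sum.inr v) - substVars w hw rr) ∈
      JF ⊔ Ideal.span {MvPowerSeries.C L.te} := by
    rw [map_sub, show θF (MvPowerSeries.X (Sum.inr v)) = zF v from frameSubst_X ..,
      show zF v - θF (substVars w hw rr) =
        -(frameSubst q₀ L.Phi_red L.Sig_red hzT rr - zF v) +
          (frameSubst q₀ L.Phi_red L.Sig_red hzT rr - θF (substVars w hw rr)) by ring]
    exact add_mem (neg_mem hrr) (Ideal.mem_sup_left
      (frameSubst_sub_substVars_mem L.Phi_red L.Sig_red hzF hzT w hw L.map_IF_le hweq _))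
  obtain ⟨u, hu, b, hb, hab⟩ := Submodule.mem_sup.mp hmem
  obtain ⟨b', rfl⟩ := Ideal.mem_span_singleton'.mp hb
  refine ⟨a.β _ b', ?_⟩
  change a.β _ (θF _) = a.β _ (θF te) * a.β _ b'
  rw [a.β_congr _ hteq, ← map_mul, ← hab, map_add,
    show a.β (Sum.inl (Fin.last N)) u = 0 from
      (a.β_congr _ (u := u) (u' := 0) (by simpa using hu)).trans (map_zero _),
    zero_add, mul_comm]

/-- The parameters act through the chain. -/
theorem Action.exists_par
    (hψ : ∀ v, ψ (MvPowerSeries.X (emb (Sum.inr v))) = MvPowerSeries.X (emb (Sum.inr v)))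
    (hgF : ∀ y, ∃ z, θF z - y ∈ JF) (k : Fin d) :
    ∃ y, ∀ j, ((a.β j).comp θF) y = algebraMap _ _
      (Ideal.Quotient.mk (maximalIdeal (MvPowerSeries (Fin d) 𝒪) ^ n)
        (ψ (MvPowerSeries.X k))) := by
  obtain ⟨k, rfl⟩ := emb.surjective k
  rcases k with k | v
  · obtain ⟨y, hy, -, -⟩ := L.par k
    obtain ⟨u, hu⟩ := hgF (MvPowerSeries.C y)
    exact ⟨u, fun j => by
      change a.β j (θF u) = _
      rw [a.β_congr j hu, a.β_C, hy]⟩
  · obtain ⟨u, hu⟩ := hgF (MvPowerSeries.X v)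
    exact ⟨u, fun j => by
      change a.β j (θF u) = _
      rw [a.β_congr j hu, a.β_X, frameScalar, hψ]⟩

/-- The parameters act through the further module and vanish at the point. -/
theorem Action.exists_parX
    (hψ : ∀ v, ψ (MvPowerSeries.X (emb (Sum.inr v))) = MvPowerSeries.X (emb (Sum.inr v)))
    (hgS : ∀ y, ∃ z, θS z - y ∈ JS) (k : Fin d) :
    ∃ y, (a.βX.comp θS) y = algebraMap _ _
      (Ideal.Quotient.mk (maximalIdeal (MvPowerSeries (Fin d) 𝒪) ^ n)
        (ψ (MvPowerSeries.X k))) ∧ ((framedPoint q₀ L.x).comp θS) y = 0 := by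
  obtain ⟨k, rfl⟩ := emb.surjective k
  rcases k with k | v
  · obtain ⟨y, -, hy, hy'⟩ := L.par k
    obtain ⟨u, hu⟩ := hgS (MvPowerSeries.C y)
    refine ⟨u, ?_, ?_⟩
    · change a.βX (θS u) = _
      rw [a.βX_congr hu, a.βX_C, hy]
    · change framedPoint q₀ L.x (θS u) = 0
      rw [framedPoint_congr hu, framedPoint_C, hy']
  · obtain ⟨u, hu⟩ := hgS (MvPowerSeries.X v)
    refine ⟨u, ?_, ?_⟩
    · change a.βX (θS u) = _
      rw [a.βX_congr hu, a.βX_X, frameScalar, hψ]
    · change framedPoint q₀ L.x (θS u) = 0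
      rw [framedPoint_congr hu]
      change L.x (MvPowerSeries.constantCoeff (MvPowerSeries.X v)) = 0
      rw [MvPowerSeries.constantCoeff_X, map_zero]

end TransferLevel

variable {ϖ : 𝒪} {ψ : MvPowerSeries (Fin d) 𝒪 →ₐ[𝒪] MvPowerSeries (Fin d) 𝒪}
  {emb : Fin r ⊕ FrameVar A q₀ ≃ Fin d} {c : O'} {N : ℕ} {qs : Fin N → A}
  {mk : Fin (N + 1) ⊕ Fin N → ℕ} {mX : ℕ}

/-- Framed levels yield a transfer input, with an element of value `c` at each point whose
action on `X` has constant terms in `(ϖ ^ n)`. -/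
theorem exists_transferInput
    (hψ : ∀ v, ψ (MvPowerSeries.X (emb (Sum.inr v))) = MvPowerSeries.X (emb (Sum.inr v)))
    (L : ∀ n, TransferLevel D ϖ q₀ g ψ emb c qs mk mX n) :
    ∃ (I : TransferInput (d := d) D ϖ ψ O' qs mk mX g) (zs : ℕ → Src 𝒪 A (Fin (g + 1))),
      (∀ n i j, ∀ s : S, Ideal.Quotient.mk _ s = I.fX n (zs n) i j →
        MvPowerSeries.constantCoeff s ∈ Ideal.span {ϖ ^ n}) ∧
      ∀ n, I.x n (zs n) = c := by
  classical
  have := finite_residueField_mvPowerSeries (𝒪 := 𝒪) (Fin d)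
  let a := fun n => (L n).nonempty_action.some
  choose zF hzF hgF using fun n => (L n).exists_three_gens.1
  choose zS hzS hgS using fun n => (L n).exists_three_gens.2.1
  choose zT hzT hgT using fun n => (L n).exists_three_gens.2.2
  -- lifts into the variables of the chain
  have hlift := fun n => exists_small_lift
    (frameSubst q₀ (L n).Phi_red (L n).Sig_red (hzF n) :
      Src 𝒪 A (Fin (g + 1)) →+* MvPowerSeries (FrameVar A q₀) (L n).R) (L n).map_IF_le (hgF n)
  choose te hte hteq using fun n => hlift n _ (C_mem_maximalIdeal (L n).te_mem)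
  choose h hh hheq using fun n v => hlift n (zS n v) (hzS n v)
  choose w hw hweq using fun n v => hlift n (zT n v) (hzT n v)
  choose rr hrr using fun n v => hgT n (zF n v)
  choose zs hz using fun n => hgS n (MvPowerSeries.C (L n).z)
  let I : TransferInput (d := d) D ϖ ψ O' qs mk mX g :=
    { f := fun j n => ((a n).β j).comp (frameSubst q₀ (L n).Phi_red (L n).Sig_red (hzF n))
      fX := fun n => (a n).βX.comp (frameSubst q₀ (L n).Phi_red (L n).Sig_red (hzS n))
      h := h, h_mem := hh, w := w, w_mem := hw, r := rr, te := te, te_mem := hte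
      x := fun n => (framedPoint q₀ (L n).x).comp
        (frameSubst q₀ (L n).Phi_red (L n).Sig_red (hzS n))
      x_mem := fun n v => (L n).x_mem _ fun hu2 =>
        frameSubst_mem q₀ (L n).Phi_red (L n).Sig_red (hzS n) v
          (MvPowerSeries.isUnit_iff_constantCoeff.mpr hu2)
      type_zero := fun n => (a n).isType_zero (hzF n)
      type_step := fun i n => (a n).isChainType_step (hzF n) i
      type_X := fun n => (a n).isUnionType (hzS n)
      type_x := fun n => TransferLevel.isType_point (hzS n)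
      sub := fun i n => (a n).proj_eq_zero (hzF n) i
      quot := fun i n => (a n).desc_eq (hzF n) i
      desc := fun n k hk y hy =>
        (a n).descX_eq (hzF n) (hzS n) k hk (hh n) (hheq n) (hteq n) y hy
      gen := fun n v => (a n).gen_eq (hzF n) (hzT n) (hw n) (hweq n) (hteq n) v (hrr n v)
      par := fun n => (a n).exists_par (hzF n) hψ (hgF n)
      parX := fun n => (a n).exists_parX (hzS n) hψ (hgS n) }
  refine ⟨I, zs, fun n i j s hs => ?_, fun n => ?_⟩
  · change _ = (a n).βX (frameSubst q₀ (L n).Phi_red (L n).Sig_red (hzS n) (zs n)) i j at hs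
    rw [(a n).βX_congr (hz n), (a n).βX_C] at hs
    exact (L n).z_base i j s hs
  · show framedPoint q₀ (L n).x (frameSubst q₀ (L n).Phi_red (L n).Sig_red (hzS n) (zs n)) = c
    rw [TransferLevel.framedPoint_congr (hz n), framedPoint_C, (L n).z_point]

/-- **Transfer: every point of the exact type of the second condition is automorphic**, in terms
of framed levels. -/
theorem eq_zero_of_transferLevels (h2 : IsUnit (2 : 𝒪)) (hϖ : Irreducible ϖ)
    (hqs : ∀ a, D.isSt a = true ↔ ∃ i, qs i = a) (hm : ∀ j, 0 < mk j) (hmX : 0 < mX)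
    (hg : g + 2 = r + Fintype.card A) (hψfin : (ψ : S →+* S).Finite)
    (hψinj : Function.Injective ψ)
    (hψ : ∀ v, ψ (MvPowerSeries.X (emb (Sum.inr v))) = MvPowerSeries.X (emb (Sum.inr v)))
    (haug : ∀ P : Ideal S, P.IsPrime → (∀ k, ψ (MvPowerSeries.X k) ∈ P) →
      ∀ k, MvPowerSeries.X k ∈ P)
    (L : ∀ n, TransferLevel D ϖ q₀ g ψ emb c qs mk mX n) : c = 0 := by
  obtain ⟨I, zs, hzs, hc⟩ := exists_transferInput hψ L
  have hd : d = 3 * Fintype.card A + (g + 1) := by
    simpa using card_eq_of_emb (g := g + 1) emb hg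
  exact eq_zero_of_transferInput D h2 hϖ hd qs hqs mk hm hmX ψ hψfin hψinj haug I c zs hzs hc

end Fermat.GR.Patch
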